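import Fermat.Agent.S13.LadderStep

/-!
# The x-only Montgomery ladder (S13, package (A), route "ladder"): evaluation (L3)

For a nonzero point `P` of a Weierstrass curve `W` over a field `F` (with `2 ≠ 0`, `Δ ≠ 0`), the
value ladder `ladv W (xc P) m` represents the pair `(m • P, (m+1) • P)` in projective
`x`-coordinates (`ladv_rep`).  Consequences:
* `lad_torsion_iff` : `(2m+1) • P = 0 ↔ ladFv W (xc P) m = 0`;
* `lad_nsmul_eq_zero_iff` : `m • P = 0 ↔ (ladv W (xc P) m).Z1 = 0`;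
* `lad_xc_nsmul` : `m • P ≠ 0 → (ladv ..).X1 = xc (m • P) * (ladv ..).Z1`;
* `ladF_isRoot_iff` : the polynomial form, `(ladF W m).IsRoot (xc P) ↔ (2m+1) • P = 0`.
-/

set_option autoImplicit false
set_option linter.unusedSectionVars false

namespace Fermat.Agent.S13L

open WeierstrassCurve WeierstrassCurve.Affine
open Fermat.Agent.S51 (xc)

variable {F : Type*} [Field F] [DecidableEq F] {W : WeierstrassCurve.Affine F}

/-- The ladder invariant: the state at `m` represents `(m • P, (m+1) • P)`. -/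
theorem ladv_rep (h2 : (2 : F) ≠ 0) (hΔ : W.Δ ≠ 0) {P : W.Point} (hP : P ≠ 0) (m : ℕ) :
    Rep (m • P) (ladv W (xc P) m).X1 (ladv W (xc P) m).Z1 ∧
      Rep ((m + 1) • P) (ladv W (xc P) m).X2 (ladv W (xc P) m).Z2 := by
  have hd : ∀ k : ℕ, (k + 1) • P - k • P = P := fun k => by
    rw [add_smul, one_smul, add_sub_cancel_left]
  have e : ∀ k : ℕ, k • P + (k + 1) • P = (2 * k + 1) • P := fun k => by
    rw [← add_smul]; congr 1; ring
  induction m using binary_induction with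
  | h0 =>
    rw [ladv_zero]
    refine ⟨?_, ?_⟩
    · rw [zero_smul]
      exact rep_zero_iff.mpr ⟨one_ne_zero, rfl⟩
    · rw [zero_add, one_smul]
      exact rep_of_ne_zero hP one_ne_zero (by simp)
  | heven m ih =>
    obtain ⟨h1, h2'⟩ := ih
    rw [ladv_two_mul]
    refine ⟨?_, ?_⟩
    · have := rep_dbl h2 hΔ h1
      rw [smul_smul] at this
      exact this
    · have := rep_dadd hP (hd m) h1 h2'
      rw [e] at this
      exact this
  | hodd m ih =>
    obtain ⟨h1, h2'⟩ := ih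
    rw [ladv_two_mul_add_one]
    refine ⟨?_, ?_⟩
    · have := rep_dadd hP (hd m) h1 h2'
      rw [e] at this
      exact this
    · have := rep_dbl h2 hΔ h2'
      rw [smul_smul] at this
      have e' : 2 * (m + 1) = 2 * m + 1 + 1 := by ring
      rw [e'] at this
      exact this

/-- `m • P = 0` iff the `Z`-coordinate of the ladder at `m` vanishes. -/
theorem lad_nsmul_eq_zero_iff (h2 : (2 : F) ≠ 0) (hΔ : W.Δ ≠ 0) {P : W.Point} (hP : P ≠ 0)
    (m : ℕ) : m • P = 0 ↔ (ladv W (xc P) m).Z1 = 0 :=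
  ((ladv_rep h2 hΔ hP m).1.2.1).symm

/-- If `m • P ≠ 0`, the ladder at `m` gives its `x`-coordinate. -/
theorem lad_xc_nsmul (h2 : (2 : F) ≠ 0) (hΔ : W.Δ ≠ 0) {P : W.Point} (hP : P ≠ 0)
    (m : ℕ) (hm : m • P ≠ 0) :
    (ladv W (xc P) m).X1 = xc (m • P) * (ladv W (xc P) m).Z1 :=
  (ladv_rep h2 hΔ hP m).1.2.2 hm

/-- The two coordinates of the ladder at `m` never vanish simultaneously. -/
theorem lad_not_both_zero (h2 : (2 : F) ≠ 0) (hΔ : W.Δ ≠ 0) {P : W.Point} (hP : P ≠ 0)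
    (m : ℕ) : ¬((ladv W (xc P) m).X1 = 0 ∧ (ladv W (xc P) m).Z1 = 0) :=
  (ladv_rep h2 hΔ hP m).1.1

/-- `(2m+1) • P = 0` iff the odd ladder value `ladFv` vanishes at `x(P)`. -/
theorem lad_torsion_iff (h2 : (2 : F) ≠ 0) (hΔ : W.Δ ≠ 0) {P : W.Point} (hP : P ≠ 0) (m : ℕ) :
    (2 * m + 1) • P = 0 ↔ ladFv W (xc P) m = 0 := by
  have h := (ladv_rep h2 hΔ hP (2 * m + 1)).1
  rw [ladv_two_mul_add_one] at h
  have h3 := h.2.1
  simp only [stepOdd, daddZ] at h3
  rw [← h3, ladFv]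
  constructor
  · intro h0
    have := pow_eq_zero_iff (two_ne_zero) |>.mp h0
    linear_combination -this
  · intro h0
    have : (ladv W (xc P) m).X1 * (ladv W (xc P) m).Z2 -
        (ladv W (xc P) m).X2 * (ladv W (xc P) m).Z1 = 0 := by
      linear_combination -h0
    rw [this]; ring

/-- Polynomial form: `x(P)` is a root of `ladF W m` iff `(2m+1) • P = 0`. -/
theorem ladF_isRoot_iff (h2 : (2 : F) ≠ 0) (hΔ : W.Δ ≠ 0) {P : W.Point} (hP : P ≠ 0) (m : ℕ) :
    (ladF W m).IsRoot (xc P) ↔ (2 * m + 1) • P = 0 := by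
  rw [Polynomial.IsRoot.def, ladF_eval, lad_torsion_iff h2 hΔ hP]

end Fermat.Agent.S13L
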