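import Fermat.Agent.S13.LadderDefs

/-!
# The x-only Montgomery ladder: degrees and leading coefficients (FACT 1)

For `lad W m = (X_m, Z_m, X_{m+1}, Z_{m+1}) ∈ R[X]^4` we prove: `X_m` is monic of degree `m^2`,
`Z_m` has degree `≤ m^2 - 1` with coefficient `m^2` in that degree.  Consequently
`ladF W m = X_{m+1} Z_m - X_m Z_{m+1}` has degree `≤ 2m^2+2m` with coefficient `-(2m+1)` there.
-/

set_option autoImplicit false

namespace Fermat.Agent.S13L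

open Polynomial

variable {R : Type*} [CommRing R]

/-! ### Top coefficient bookkeeping -/

/-- `p` has degree at most `d` and its coefficient of `X^d` is `c`. -/
def IsTop (p : R[X]) (d : ℕ) (c : R) : Prop := p.natDegree ≤ d ∧ p.coeff d = c

namespace IsTop

variable {p q : R[X]} {d e : ℕ} {c c' : R}

lemma mul (hp : IsTop p d c) (hq : IsTop q e c') : IsTop (p * q) (d + e) (c * c') :=
  ⟨natDegree_mul_le_of_le hp.1 hq.1, by
    rw [coeff_mul_add_eq_of_natDegree_le hp.1 hq.1, hp.2, hq.2]⟩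

lemma pow (hp : IsTop p d c) (k : ℕ) : IsTop (p ^ k) (k * d) (c ^ k) :=
  ⟨natDegree_pow_le_of_le k hp.1, by
    rw [coeff_pow_of_natDegree_le hp.1, hp.2]⟩

lemma add (hp : IsTop p d c) (hq : IsTop q d c') : IsTop (p + q) d (c + c') :=
  ⟨(natDegree_add_le _ _).trans (max_le hp.1 hq.1), by rw [coeff_add, hp.2, hq.2]⟩

lemma sub (hp : IsTop p d c) (hq : IsTop q d c') : IsTop (p - q) d (c - c') :=
  ⟨(natDegree_sub_le _ _).trans (max_le hp.1 hq.1), by rw [coeff_sub, hp.2, hq.2]⟩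

/-- Raise the degree bound: the top coefficient becomes `0`. -/
lemma mono (hp : IsTop p e c) (h : e < d) : IsTop p d 0 :=
  ⟨hp.1.trans h.le, coeff_eq_zero_of_natDegree_lt (lt_of_le_of_lt hp.1 h)⟩

lemma congr (hp : IsTop p d c) (hd : d = e) (hc : c = c') : IsTop p e c' := by
  subst hd; subst hc; exact hp

lemma X' : IsTop (X : R[X]) 1 1 := ⟨natDegree_X_le, coeff_X_one⟩

lemma one' : IsTop (1 : R[X]) 0 1 := ⟨by simp, by simp⟩

lemma zero' (d : ℕ) : IsTop (0 : R[X]) d 0 := ⟨by simp, by simp⟩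

lemma C' (a : R) : IsTop (C a : R[X]) 0 a := ⟨by simp, by simp⟩

lemma two' : IsTop (2 : R[X]) 0 2 := by
  have h : (2 : R[X]) = C 2 := (map_ofNat C 2).symm
  rw [h]; exact C' 2

lemma four' : IsTop (4 : R[X]) 0 4 := by
  have h : (4 : R[X]) = C 4 := (map_ofNat C 4).symm
  rw [h]; exact C' 4

end IsTop

/-! ### Constants of the base-changed curve -/

section consts
variable (W : WeierstrassCurve R)

lemma isTop_b₂ : IsTop (W.map (C : R →+* R[X])).b₂ 0 W.b₂ := by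
  rw [WeierstrassCurve.map_b₂]; exact IsTop.C' _
lemma isTop_b₄ : IsTop (W.map (C : R →+* R[X])).b₄ 0 W.b₄ := by
  rw [WeierstrassCurve.map_b₄]; exact IsTop.C' _
lemma isTop_b₆ : IsTop (W.map (C : R →+* R[X])).b₆ 0 W.b₆ := by
  rw [WeierstrassCurve.map_b₆]; exact IsTop.C' _
lemma isTop_b₈ : IsTop (W.map (C : R →+* R[X])).b₈ 0 W.b₈ := by
  rw [WeierstrassCurve.map_b₈]; exact IsTop.C' _

end consts

/-! ### Top coefficients of the four step functions -/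

section steps
variable (W : WeierstrassCurve R) {A B A₁ B₁ A₂ B₂ : R[X]} {e e₁ e₂ : ℕ} {c c₁ c₂ : R}

lemma isTop_dblX (hA : IsTop A (e + 1) 1) (hB : IsTop B e c) :
    IsTop (dblX (W.map (C : R →+* R[X])) A B) (4 * e + 4) 1 := by
  unfold dblX
  have t0 := hA.pow 4
  have t1 := (((isTop_b₄ W).mul (hA.pow 2)).mul (hB.pow 2)).mono
    (show 0 + 2 * (e + 1) + 2 * e < 4 * (e + 1) by omega)
  have t2 := (((IsTop.two'.mul (isTop_b₆ W)).mul hA).mul (hB.pow 3)).mono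
    (show 0 + 0 + (e + 1) + 3 * e < 4 * (e + 1) by omega)
  have t3 := ((isTop_b₈ W).mul (hB.pow 4)).mono (show 0 + 4 * e < 4 * (e + 1) by omega)
  exact (((t0.sub t1).sub t2).sub t3).congr (by ring) (by ring)

lemma isTop_dblZ (hA : IsTop A (e + 1) 1) (hB : IsTop B e c) :
    IsTop (dblZ (W.map (C : R →+* R[X])) A B) (4 * e + 3) (4 * c) := by
  unfold dblZ
  have t0 := IsTop.four'.mul (hA.pow 3)
  have t1 := (((isTop_b₂ W).mul (hA.pow 2)).mul hB).mono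
    (show 0 + 2 * (e + 1) + e < 0 + 3 * (e + 1) by omega)
  have t2 := ((((IsTop.two'.mul (isTop_b₄ W)).mul hA).mul (hB.pow 2))).mono
    (show 0 + 0 + (e + 1) + 2 * e < 0 + 3 * (e + 1) by omega)
  have t3 := ((isTop_b₆ W).mul (hB.pow 3)).mono (show 0 + 3 * e < 0 + 3 * (e + 1) by omega)
  exact (hB.mul (((t0.add t1).add t2).add t3)).congr (by ring) (by ring)

lemma isTop_daddZ (hA₁ : IsTop A₁ (e₁ + 1) 1) (hB₁ : IsTop B₁ e₁ c₁)
    (hA₂ : IsTop A₂ (e₂ + 1) 1) (hB₂ : IsTop B₂ e₂ c₂) :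
    IsTop (daddZ A₁ B₁ A₂ B₂) (2 * e₁ + 2 * e₂ + 2) ((c₂ - c₁) ^ 2) := by
  unfold daddZ
  have t1 := hA₁.mul hB₂
  have t2 := (hA₂.mul hB₁).congr (show e₂ + 1 + e₁ = e₁ + 1 + e₂ by ring) rfl
  exact ((t1.sub t2).pow 2).congr (by ring) (by ring)

lemma isTop_daddX (hA₁ : IsTop A₁ (e₁ + 1) 1) (hB₁ : IsTop B₁ e₁ c₁)
    (hA₂ : IsTop A₂ (e₂ + 1) 1) (hB₂ : IsTop B₂ e₂ c₂) :
    IsTop (daddX (W.map (C : R →+* R[X])) X A₁ B₁ A₂ B₂) (2 * e₁ + 2 * e₂ + 3)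
      (2 * (c₁ + c₂) - (c₂ - c₁) ^ 2) := by
  unfold daddX
  have s1 := hA₁.mul hB₂
  have s2 := (hA₂.mul hB₁).congr (show e₂ + 1 + e₁ = e₁ + 1 + e₂ by ring) rfl
  have t0 := ((IsTop.two'.mul hA₁).mul hA₂).mul (s1.add s2)
  have t1 := (((((isTop_b₂ W).mul hA₁).mul hA₂).mul hB₁).mul hB₂).mono
    (show 0 + (e₁ + 1) + (e₂ + 1) + e₁ + e₂ < 0 + (e₁ + 1) + (e₂ + 1) + (e₁ + 1 + e₂) by omega)
  have t2 := ((((isTop_b₄ W).mul (s1.add s2)).mul hB₁).mul hB₂).mono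
    (show 0 + (e₁ + 1 + e₂) + e₁ + e₂ < 0 + (e₁ + 1) + (e₂ + 1) + (e₁ + 1 + e₂) by omega)
  have t3 := (((isTop_b₆ W).mul (hB₁.pow 2)).mul (hB₂.pow 2)).mono
    (show 0 + 2 * e₁ + 2 * e₂ < 0 + (e₁ + 1) + (e₂ + 1) + (e₁ + 1 + e₂) by omega)
  have t4 := (IsTop.X'.mul ((s1.sub s2).pow 2)).congr
    (show 1 + 2 * (e₁ + 1 + e₂) = 0 + (e₁ + 1) + (e₂ + 1) + (e₁ + 1 + e₂) by ring) rfl
  exact ((((t0.add t1).add t2).add t3).sub t4).congr (by ring) (by ring)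

end steps

/-! ### The ladder invariant -/

/-- The degree/leading coefficient invariant of the ladder state at `m ≥ 1`. -/
def TopInv (m : ℕ) (s : LadState R[X]) : Prop :=
  ∃ e₁ e₂ : ℕ, e₁ + 1 = m ^ 2 ∧ e₂ + 1 = (m + 1) ^ 2 ∧
    IsTop s.X1 (e₁ + 1) 1 ∧ IsTop s.Z1 e₁ ((m : R) ^ 2) ∧
    IsTop s.X2 (e₂ + 1) 1 ∧ IsTop s.Z2 e₂ (((m : R) + 1) ^ 2)

variable (W : WeierstrassCurve R)

lemma topInv_stepEven {m : ℕ} {s : LadState R[X]} (h : TopInv m s) :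
    TopInv (2 * m) (stepEven (W.map (C : R →+* R[X])) X s) := by
  obtain ⟨e₁, e₂, h₁, h₂, hX1, hZ1, hX2, hZ2⟩ := h
  refine ⟨4 * e₁ + 3, 2 * e₁ + 2 * e₂ + 2, ?_, ?_, ?_, ?_, ?_, ?_⟩
  · have : (2 * m) ^ 2 = 4 * m ^ 2 := by ring
    omega
  · have : (2 * m + 1) ^ 2 + 1 = 2 * m ^ 2 + 2 * (m + 1) ^ 2 := by ring
    omega
  · exact isTop_dblX W hX1 hZ1
  · exact (isTop_dblZ W hX1 hZ1).congr rfl (by push_cast; ring)
  · exact (isTop_daddX W hX1 hZ1 hX2 hZ2).congr rfl (by ring)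
  · exact (isTop_daddZ hX1 hZ1 hX2 hZ2).congr rfl (by push_cast; ring)

lemma topInv_stepOdd {m : ℕ} {s : LadState R[X]} (h : TopInv m s) :
    TopInv (2 * m + 1) (stepOdd (W.map (C : R →+* R[X])) X s) := by
  obtain ⟨e₁, e₂, h₁, h₂, hX1, hZ1, hX2, hZ2⟩ := h
  refine ⟨2 * e₁ + 2 * e₂ + 2, 4 * e₂ + 3, ?_, ?_, ?_, ?_, ?_, ?_⟩
  · have : (2 * m + 1) ^ 2 + 1 = 2 * m ^ 2 + 2 * (m + 1) ^ 2 := by ring
    omega
  · have : (2 * m + 1 + 1) ^ 2 = 4 * (m + 1) ^ 2 := by ring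
    omega
  · exact (isTop_daddX W hX1 hZ1 hX2 hZ2).congr rfl (by ring)
  · exact (isTop_daddZ hX1 hZ1 hX2 hZ2).congr rfl (by push_cast; ring)
  · exact isTop_dblX W hX2 hZ2
  · exact (isTop_dblZ W hX2 hZ2).congr rfl (by push_cast; ring)

lemma lad_one : lad W 1 = stepOdd (W.map (C : R →+* R[X])) X ⟨1, 0, X, 1⟩ := by
  have := ladv_two_mul_add_one (W.map (C : R →+* R[X])) X 0
  rw [ladv_zero] at this
  simpa [lad] using this

lemma topInv_one : TopInv 1 (lad W 1) := by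
  rw [lad_one]
  have hX : IsTop (X : R[X]) (0 + 1) 1 := IsTop.X'
  have h1 : IsTop (1 : R[X]) 0 1 := IsTop.one'
  refine ⟨0, 3, by norm_num, by norm_num, ?_, ?_, ?_, ?_⟩
  · have : (stepOdd (W.map (C : R →+* R[X])) X ⟨1, 0, X, 1⟩).X1 = X := by
      simp only [stepOdd, daddX]; ring
    rw [this]; exact hX
  · have : (stepOdd (W.map (C : R →+* R[X])) X ⟨1, 0, X, 1⟩).Z1 = 1 := by
      simp only [stepOdd, daddZ]; ring
    rw [this]; exact h1.congr rfl (by simp)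
  · exact (isTop_dblX W hX h1).congr rfl rfl
  · exact (isTop_dblZ W hX h1).congr rfl (by norm_num)

/-- FACT 1: the invariant holds for all `m ≥ 1`. -/
theorem topInv_lad : ∀ m : ℕ, 1 ≤ m → TopInv m (lad W m) := by
  intro m
  induction m using binary_induction with
  | h0 => intro h; omega
  | heven m ih =>
    intro h
    have hm : 1 ≤ m := by omega
    have := topInv_stepEven W (ih hm)
    simpa [lad, ladv_two_mul] using this
  | hodd m ih =>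
    intro _
    rcases Nat.eq_zero_or_pos m with rfl | hm
    · simpa using topInv_one W
    · have := topInv_stepOdd W (ih hm)
      simpa [lad, ladv_two_mul_add_one] using this

lemma ladF_zero : ladF W 0 = -1 := by
  simp [ladF, ladFv, ladv_zero]

/-- FACT 1 for the odd division polynomial `F_{2m+1}`: degree `≤ 2m²+2m`, and the coefficient in
that degree is `-(2m+1)`. -/
theorem isTop_ladF (m : ℕ) : IsTop (ladF W m) (2 * m ^ 2 + 2 * m) (-(2 * (m : R) + 1)) := by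
  rcases Nat.eq_zero_or_pos m with rfl | hm
  · rw [ladF_zero]
    have : IsTop (-1 : R[X]) 0 (-1) := ⟨by simp, by simp⟩
    exact this.congr (by norm_num) (by norm_num)
  · obtain ⟨e₁, e₂, h₁, h₂, hX1, hZ1, hX2, hZ2⟩ := topInv_lad W m hm
    rw [ladF_def]
    have t1 := hX2.mul hZ1
    have t2 := (hX1.mul hZ2).congr (show e₁ + 1 + e₂ = e₂ + 1 + e₁ by ring) rfl
    refine (t1.sub t2).congr ?_ (by ring)
    have : (m + 1) ^ 2 = m ^ 2 + 2 * m + 1 := by ring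
    omega

lemma natDegree_ladF_le (m : ℕ) : (ladF W m).natDegree ≤ 2 * m ^ 2 + 2 * m := (isTop_ladF W m).1

lemma coeff_ladF (m : ℕ) : (ladF W m).coeff (2 * m ^ 2 + 2 * m) = -(2 * (m : R) + 1) :=
  (isTop_ladF W m).2

/-- If `2m+1 ≠ 0` in `R` then `F_{2m+1}` has degree exactly `2m²+2m = ((2m+1)²-1)/2`. -/
theorem natDegree_ladF (m : ℕ) (h : (2 * (m : R) + 1) ≠ 0) :
    (ladF W m).natDegree = 2 * m ^ 2 + 2 * m := by
  refine le_antisymm (natDegree_ladF_le W m) ?_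
  apply le_natDegree_of_ne_zero
  rw [coeff_ladF]
  exact neg_ne_zero.mpr h

theorem leadingCoeff_ladF (m : ℕ) (h : (2 * (m : R) + 1) ≠ 0) :
    (ladF W m).leadingCoeff = -(2 * (m : R) + 1) := by
  rw [leadingCoeff, natDegree_ladF W m h, coeff_ladF]

theorem ladF_ne_zero (m : ℕ) (h : (2 * (m : R) + 1) ≠ 0) : ladF W m ≠ 0 := by
  intro h0
  have := coeff_ladF W m
  rw [h0, coeff_zero] at this
  exact h (neg_eq_zero.mp this.symm)

end Fermat.Agent.S13L
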