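import Fermat.Agent.S13.AssembleC2
import Fermat.Agent.S13.LadderEval
import Fermat.Agent.S13.LadderTop

/-!
# S13, package (C): the product bound from the ladder polynomial

`asC_HPB_holds : ContractA P → asC_HPB P` and `asC_contractC_holds : ContractA P → ContractC P`,
with `ψ := ladF (P.freyCurve⁄Qbar) m`, `p = 2m+1` (helper18's ladder: `LadderDefs`, `LadderTop`;
helper7's `ladF_isRoot_iff`).
-/

set_option autoImplicit false

namespace Fermat.Agent.S13C

open WeierstrassCurve WeierstrassCurve.Affine Fermat.Agent.S05 Polynomial Fermat.Agent.S13L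
open Fermat.Agent.S13x (FreyTors ContractA ContractC)

/-- The coefficients of the ladder polynomial lie in every subring containing the `aᵢ`. -/
theorem asC_ladF_coeff_mem {K : Type*} [Field K] (B : Subring K) (W : WeierstrassCurve K)
    (h1 : W.a₁ ∈ B) (h2 : W.a₂ ∈ B) (h3 : W.a₃ ∈ B) (h4 : W.a₄ ∈ B) (h6 : W.a₆ ∈ B)
    (m i : ℕ) : (ladF W m).coeff i ∈ B := by
  let WB : WeierstrassCurve B := ⟨⟨W.a₁, h1⟩, ⟨W.a₂, h2⟩, ⟨W.a₃, h3⟩, ⟨W.a₄, h4⟩, ⟨W.a₆, h6⟩⟩
  have hW : WB.map B.subtype = W := by ext <;> rfl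
  rw [← hW, ← ladF_map, Polynomial.coeff_map]
  exact ((ladF WB m).coeff i).2

/-- **Input (PB)** of `asC_contractC` holds (given `#E[p] = p²`). -/
theorem asC_HPB_holds (P : FreyPackage) (hAc : ContractA P) : asC_HPB P := by
  obtain ⟨m, hm⟩ := P.hp_odd
  have h2 : (2 : Qbar) ≠ 0 := two_ne_zero
  have hΔ : (P.freyCurve⁄Qbar).Δ ≠ 0 := Fermat.Agent.S05.baseChange_Δ_ne_zero P
  have hpc : (2 * (m : Qbar) + 1) = ((P.p : ℕ) : Qbar) := by rw [hm]; push_cast; ring
  have hpne : (2 * (m : Qbar) + 1) ≠ 0 := by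
    rw [hpc]; exact_mod_cast P.pp.ne_zero
  refine asC_HPB_of_poly P hAc (ladF (P.freyCurve⁄Qbar) m) (ladF_ne_zero _ m hpne) ?_ ?_ ?_ ?_
  · intro A hA i
    obtain ⟨h1, h2', h3, h4, h6⟩ := asC_frey_integral P hA
    exact asC_ladF_coeff_mem A.toSubring _ h1 h2' h3 h4 h6 m i
  · rw [natDegree_ladF _ m hpne, hm]
    exact le_of_eq (by ring)
  · intro A hA
    rw [leadingCoeff_ladF _ m hpne, hpc, Valuation.map_neg]
  · intro R hR0 hRp
    rw [← asC_xc_eq]
    have hR' : (2 * m + 1) • R = 0 := by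
      rw [← hm, ← natCast_zsmul]; exact hRp
    exact (ladF_isRoot_iff h2 hΔ hR0 m).mpr hR'

/-- **(C) complete**: `ContractC P` from `ContractA P`. -/
theorem asC_contractC_holds (P : FreyPackage) (hAc : ContractA P) : ContractC P :=
  asC_contractC P hAc (asC_HC1_holds P) (asC_HPB_holds P hAc)

end Fermat.Agent.S13C
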