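/-
S13 (row 12): if the mod-p representation of the Frey curve is reducible, it has a
Galois-stable cofixed line.  TOP-DOWN CONTRACTS.

Notation: `E = P.freyCurve`, `p = P.p ≥ 5`, `Qbar = AlgebraicClosure ℚ`, `G = Qbar ≃ₐ[ℚ] Qbar`,
`V = E[p](Qbar) = Submodule.torsionBy ℤ (E⁄Qbar).Point p`, a `ZMod p`-module with `G`-action
(prelude instances `instModuleZModTorsionBy`, `instDistribMulActionTorsionBy`).
For a place `A : ValuationSubring Qbar` with `A.LiesOverPrime q`, `I_A = A.inertiaSubgroupIn ℚ`.

Route (lead v16): for ANY `G`-stable line `N ≠ ⊥, ⊤` let `χ₁` be the character on `N`, `χ₂` the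
character on `V/N`.  (C) says `χ₁` or `χ₂` is unramified at `p` (uniformly in the place over `p`);
(B1) says both are unramified at `2`; S05 (on main) says both are unramified at odd `q ≠ p`;
(D) = Minkowski says an everywhere unramified character is trivial; (B2) says `χ₁ ≠ 1`
(no nonzero `G`-fixed vector).  Hence `χ₂ = 1`, i.e. `N` is a cofixed line.
Every contract below is a `Prop` depending on the Frey package only; `Top.lean` proves
the frozen S13 conclusion from them (no sorry).
-/
import Fermat.Statements.S13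

set_option autoImplicit false

open WeierstrassCurve WeierstrassCurve.Affine WeierstrassCurve.Affine.Point

namespace Fermat.Agent.S13x

/-- `E[p](Qbar)` for the Frey curve, exactly the carrier type of the frozen statement. -/
abbrev FreyTors (P : FreyPackage) : Type :=
  Submodule.torsionBy ℤ ((P.freyCurve)⁄(AlgebraicClosure ℚ)).Point P.p

/-- The absolute Galois group of `ℚ` as it appears in the frozen statement. -/
abbrev GalQ : Type := AlgebraicClosure ℚ ≃ₐ[ℚ] AlgebraicClosure ℚ

/-- `G`-stable line candidates: stable, `≠ ⊥`, `≠ ⊤`. -/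
def IsStableLine (P : FreyPackage) (N : Submodule (ZMod P.p) (FreyTors P)) : Prop :=
  IsGaloisStable ℚ N ∧ N ≠ ⊥ ∧ N ≠ ⊤

/-- `S ⊆ G` acts trivially on `N` (the "sub" character `χ₁` is trivial on `S`). -/
def TrivOnSub (P : FreyPackage) (S : Set GalQ) (N : Submodule (ZMod P.p) (FreyTors P)) : Prop :=
  ∀ σ ∈ S, ∀ x ∈ N, σ • x = x

/-- `S ⊆ G` acts trivially on `V/N` (the "quotient" character `χ₂` is trivial on `S`). -/
def TrivOnQuot (P : FreyPackage) (S : Set GalQ) (N : Submodule (ZMod P.p) (FreyTors P)) : Prop :=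
  ∀ σ ∈ S, ∀ x : FreyTors P, σ • x - x ∈ N

/-- (A) `E[p](Qbar) ≅ (ℤ/p)²`.  [(A1) `E[p] ≠ 0` is the long pole; (A2) `#E[p] ≤ p²`.] -/
def ContractA (P : FreyPackage) : Prop :=
  Nat.card (FreyTors P) = P.p ^ 2

/-- (A1) at least one nonzero `p`-torsion point. -/
def ContractA1 (P : FreyPackage) : Prop :=
  ∃ x : FreyTors P, x ≠ 0

/-- (A2) at most `p²` points of `p`-torsion. -/
def ContractA2 (P : FreyPackage) : Prop :=
  Finite (FreyTors P) ∧ Nat.card (FreyTors P) ≤ P.p ^ 2

/-- (B1u) inertia at `2` acts unipotently on `E[p]`: `(σ - 1)² = 0`. -/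
def ContractB1u (P : FreyPackage) : Prop :=
  ∀ A : ValuationSubring (AlgebraicClosure ℚ), A.LiesOverPrime 2 →
    ∀ σ ∈ A.inertiaSubgroupIn ℚ, ∀ x : FreyTors P, σ • (σ • x - x) = σ • x - x

/-- (B1) on a stable line `N`, inertia at `2` is trivial on `N` and on `V/N`
(consequence of (B1u) + (A), see `Reductions.lean`). -/
def ContractB1 (P : FreyPackage) : Prop :=
  ∀ N : Submodule (ZMod P.p) (FreyTors P), IsStableLine P N →
    ∀ A : ValuationSubring (AlgebraicClosure ℚ), A.LiesOverPrime 2 →
      TrivOnSub P (A.inertiaSubgroupIn ℚ : Set GalQ) N ∧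
      TrivOnQuot P (A.inertiaSubgroupIn ℚ : Set GalQ) N

/-- (B2) no nonzero `G`-fixed `p`-torsion point, i.e. `E(ℚ)[p] = 0` for the Frey curve
(2-adic argument: `p ∤ v₂(Δ_min) = 2p·v₂(b) - 8`; or `χ₁(Frob₂) = ±2 ≠ 1`). -/
def ContractB2 (P : FreyPackage) : Prop :=
  ∀ x : FreyTors P, (∀ σ : GalQ, σ • x = x) → x = 0

/-- (C) at `p`: for every stable line `N`, UNIFORMLY over the places `A` above `p`, inertia is
trivial on `N` or trivial on `V/N`.
[Per place: `V₀(A) = V ∩ E₁(A)`; `I_A` is trivial on `V/V₀(A)`; `V₀(A) ≠ V`; so either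
`N ∩ V₀(A) = 0` (first alternative) or `N = V₀(A)` (second).  Uniformity in `A`: `N = V₀(A)` iff
the rational number `∏_{Q ∈ N, Q ≠ 0} x(Q)` is not `p`-integral, which does not depend on `A`;
or use transitivity of `G` on the places above `p`.] -/
def ContractC (P : FreyPackage) : Prop :=
  ∀ N : Submodule (ZMod P.p) (FreyTors P), IsStableLine P N →
    (∀ A : ValuationSubring (AlgebraicClosure ℚ), A.LiesOverPrime P.p →
        TrivOnSub P (A.inertiaSubgroupIn ℚ : Set GalQ) N) ∨
    (∀ A : ValuationSubring (AlgebraicClosure ℚ), A.LiesOverPrime P.p →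
        TrivOnQuot P (A.inertiaSubgroupIn ℚ : Set GalQ) N)

/-- (D, sub) Minkowski for the character on a stable line. -/
def ContractDsub (P : FreyPackage) : Prop :=
  ∀ N : Submodule (ZMod P.p) (FreyTors P), IsStableLine P N →
    (∀ q : ℕ, q.Prime → ∀ A : ValuationSubring (AlgebraicClosure ℚ), A.LiesOverPrime q →
        TrivOnSub P (A.inertiaSubgroupIn ℚ : Set GalQ) N) →
    TrivOnSub P Set.univ N

/-- (D, quotient) Minkowski for the character on `V/N`. -/
def ContractDquot (P : FreyPackage) : Prop :=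
  ∀ N : Submodule (ZMod P.p) (FreyTors P), IsStableLine P N →
    (∀ q : ℕ, q.Prime → ∀ A : ValuationSubring (AlgebraicClosure ℚ), A.LiesOverPrime q →
        TrivOnQuot P (A.inertiaSubgroupIn ℚ : Set GalQ) N) →
    TrivOnQuot P Set.univ N

/-- (D, abstract) Minkowski in the S14 vocabulary: a `G`-module of order `p` (any prime `p`)
with open kernel on which all inertia groups act trivially is a trivial `G`-module.
`ContractDsub`/`ContractDquot` follow from this + (A) + openness of point stabilisers
(see `Reductions.lean`). -/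
def ContractDmod (p : ℕ) : Prop :=
  ∀ (M : Type) [AddCommGroup M] [DistribMulAction GalQ M],
    Nat.card M = p →
    IsOpen {σ : GalQ | ∀ m : M, σ • m = m} →
    (∀ q : ℕ, q.Prime → ∀ A : ValuationSubring (AlgebraicClosure ℚ), A.LiesOverPrime q →
        ∀ σ ∈ A.inertiaSubgroupIn ℚ, ∀ m : M, σ • m = m) →
    ∀ (σ : GalQ) (m : M), σ • m = m

/-- Openness of the pointwise stabiliser of `E[p]` (needed to feed (D, abstract)). -/
def ContractOpen (P : FreyPackage) : Prop :=
  IsOpen {σ : GalQ | ∀ x : FreyTors P, σ • x = x}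

end Fermat.Agent.S13x
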