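import Mathlib
import Fermat.Prelude.Def_FLTPrelim_GaloisRep

/-!
# S13 (D2): every `ℚ̄`-point of a Weierstrass curve over `ℚ` has an open stabiliser

(helper21)  For `W : WeierstrassCurve ℚ` and a point `P : (W⁄ℚ̄).Point` there is a finite extension
`F/ℚ` inside `ℚ̄` whose fixing subgroup fixes `P` (for the prelude's Galois action
`σ • P = Point.map σ P`): `F = ℚ(x, y)` for `P = (x, y)`, `F = ℚ` for `P = 0`.  Same statement for
the elements of `torsionBy ℤ (W⁄ℚ̄).Point n` (prelude's action on the torsion submodule), and a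
common field for finitely many points.  No finiteness of `E[n]` is used.
-/

set_option autoImplicit false

namespace Fermat.Agent.S13D

open WeierstrassCurve WeierstrassCurve.Affine WeierstrassCurve.Affine.Point IntermediateField

local notation "Qb" => AlgebraicClosure ℚ

/-- `ℚ̄/ℚ` is algebraic (for the `ℚ`-algebra structure found by instance search). -/
theorem ptSt_isAlgebraicQb : Algebra.IsAlgebraic ℚ (AlgebraicClosure ℚ) :=
  AlgebraicClosure.isAlgebraic ℚ

/-- **(D2)** every point of `W` over `ℚ̄` is fixed by the fixing subgroup of a finite extension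
of `ℚ`. -/
theorem ptSt_exists_fixing (W : WeierstrassCurve ℚ) (P : (W⁄Qb).Point) :
    ∃ F : IntermediateField ℚ Qb, FiniteDimensional ℚ F ∧
      ∀ σ ∈ F.fixingSubgroup, σ • P = P := by
  rcases P with _ | @⟨x, y, h⟩
  · exact ⟨⊥, inferInstance, fun σ _ => rfl⟩
  · refine ⟨IntermediateField.adjoin ℚ {x, y}, ?_, fun σ hσ => ?_⟩
    · exact IntermediateField.finiteDimensional_adjoin
        (fun z _ => (ptSt_isAlgebraicQb.isAlgebraic z).isIntegral)
    · have hx : σ x = x := hσ ⟨x, IntermediateField.subset_adjoin ℚ _ (by simp)⟩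
      have hy : σ y = y := hσ ⟨y, IntermediateField.subset_adjoin ℚ _ (by simp)⟩
      rw [algEquiv_smul_def]
      simp only [Point.map_some]
      congr 1

/-- **(D2)**, torsion form: every element of `E[n](ℚ̄)` is fixed by the fixing subgroup of a finite
extension of `ℚ` (prelude action on `torsionBy ℤ (W⁄ℚ̄).Point n`). -/
theorem ptSt_exists_fixing_torsion (W : WeierstrassCurve ℚ) (n : ℕ)
    (x : Submodule.torsionBy ℤ (W⁄Qb).Point n) :
    ∃ F : IntermediateField ℚ Qb, FiniteDimensional ℚ F ∧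
      ∀ σ ∈ F.fixingSubgroup, σ • x = x := by
  obtain ⟨F, hF, h⟩ := ptSt_exists_fixing W (x : (W⁄Qb).Point)
  exact ⟨F, hF, fun σ hσ => Subtype.ext (h σ hσ)⟩

/-- finitely many points have a common finite field of definition. -/
theorem ptSt_exists_fixing_finset (W : WeierstrassCurve ℚ) (s : Finset (W⁄Qb).Point) :
    ∃ F : IntermediateField ℚ Qb, FiniteDimensional ℚ F ∧
      ∀ σ ∈ F.fixingSubgroup, ∀ P ∈ s, σ • P = P := by
  classical
  induction s using Finset.induction_on with
  | empty => exact ⟨⊥, inferInstance, fun _ _ _ h => absurd h (Finset.notMem_empty _)⟩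
  | insert P s _ ih =>
    obtain ⟨F₁, hF₁, h₁⟩ := ih
    obtain ⟨F₂, hF₂, h₂⟩ := ptSt_exists_fixing W P
    refine ⟨F₁ ⊔ F₂, IntermediateField.finiteDimensional_sup F₁ F₂, fun σ hσ Q hQ => ?_⟩
    rcases Finset.mem_insert.1 hQ with rfl | hQ
    · exact h₂ σ (IntermediateField.fixingSubgroup_antitone le_sup_right hσ)
    · exact h₁ σ (IntermediateField.fixingSubgroup_antitone le_sup_left hσ) Q hQ

/-- the stabiliser of a point contains the fixing subgroup of a finite extension (subgroup
form). -/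
theorem ptSt_exists_fixingSubgroup_le_stabilizer (W : WeierstrassCurve ℚ) (P : (W⁄Qb).Point) :
    ∃ F : IntermediateField ℚ Qb, FiniteDimensional ℚ F ∧
      F.fixingSubgroup ≤ MulAction.stabilizer (Qb ≃ₐ[ℚ] Qb) P := by
  obtain ⟨F, hF, h⟩ := ptSt_exists_fixing W P
  exact ⟨F, hF, fun σ hσ => MulAction.mem_stabilizer_iff.2 (h σ hσ)⟩

/-- torsion form of `ptSt_exists_fixingSubgroup_le_stabilizer`. -/
theorem ptSt_exists_fixingSubgroup_le_stabilizer_torsion (W : WeierstrassCurve ℚ) (n : ℕ)
    (x : Submodule.torsionBy ℤ (W⁄Qb).Point n) :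
    ∃ F : IntermediateField ℚ Qb, FiniteDimensional ℚ F ∧
      F.fixingSubgroup ≤ MulAction.stabilizer (Qb ≃ₐ[ℚ] Qb) x := by
  obtain ⟨F, hF, h⟩ := ptSt_exists_fixing_torsion W n x
  exact ⟨F, hF, fun σ hσ => MulAction.mem_stabilizer_iff.2 (h σ hσ)⟩

end Fermat.Agent.S13D
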