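import Mathlib
import Fermat.Prelude.Def_FLTPrelim_Ramification
import Fermat.Prelude.Def_FLTPrelim_CofixedLine
import Fermat.Agent.S13.PointStab
import Fermat.Agent.S13.Contracts

set_option autoImplicit false

/-!
# S13 (D3): the global step in the frozen vocabulary

`N` a Galois-stable submodule of `V = E[n](Q̄)`.  If every inertia group (at every place over every
prime) acts trivially on `V/N` (resp. on `N`), then `G_ℚ` acts trivially on `V/N` (resp. on `N`).
Input: Minkowski in the open-subgroup form `MinkOpen` (a subgroup of `G_ℚ` containing the fixing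
subgroup of a finite extension and every inertia group is everything).
-/

namespace Fermat.Agent.S13D

open WeierstrassCurve WeierstrassCurve.Affine WeierstrassCurve.Affine.Point IntermediateField

local notation "Qb" => AlgebraicClosure ℚ

/-- Minkowski, open-subgroup form. -/
def MinkOpen : Prop :=
  ∀ H : Subgroup (Qb ≃ₐ[ℚ] Qb),
    (∃ F : IntermediateField ℚ Qb, FiniteDimensional ℚ F ∧ F.fixingSubgroup ≤ H) →
    (∀ q : ℕ, q.Prime → ∀ A : ValuationSubring Qb, A.LiesOverPrime q →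
      A.inertiaSubgroupIn ℚ ≤ H) → H = ⊤

variable (W : WeierstrassCurve ℚ) (n : ℕ)

/-- `{σ | σ • x - x ∈ N}` is a subgroup when `N` is Galois stable. -/
def glD_quotStab (N : Submodule (ZMod n) (Submodule.torsionBy ℤ (W⁄Qb).Point n))
    (hN : IsGaloisStable ℚ N) (x : Submodule.torsionBy ℤ (W⁄Qb).Point n) :
    Subgroup (Qb ≃ₐ[ℚ] Qb) where
  carrier := {σ | σ • x - x ∈ N}
  one_mem' := by
    show (1 : Qb ≃ₐ[ℚ] Qb) • x - x ∈ N
    rw [one_smul, sub_self]; exact N.zero_mem
  mul_mem' := by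
    intro σ τ hσ hτ
    show (σ * τ) • x - x ∈ N
    have h : (σ * τ) • x - x = σ • (τ • x - x) + (σ • x - x) := by
      rw [mul_smul, smul_sub]; abel
    rw [h]
    exact N.add_mem (hN σ _ hτ) hσ
  inv_mem' := by
    intro σ hσ
    show σ⁻¹ • x - x ∈ N
    have h : σ⁻¹ • x - x = -(σ⁻¹ • (σ • x - x)) := by
      rw [smul_sub, inv_smul_smul]; abel
    rw [h]
    exact N.neg_mem (hN σ⁻¹ _ hσ)

theorem glD_quot_trivial (hM : MinkOpen)
    (N : Submodule (ZMod n) (Submodule.torsionBy ℤ (W⁄Qb).Point n))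
    (hN : IsGaloisStable ℚ N)
    (hin : ∀ q : ℕ, q.Prime → ∀ A : ValuationSubring Qb, A.LiesOverPrime q →
      ∀ σ ∈ A.inertiaSubgroupIn ℚ, ∀ x : Submodule.torsionBy ℤ (W⁄Qb).Point n, σ • x - x ∈ N) :
    ∀ σ : Qb ≃ₐ[ℚ] Qb, ∀ x : Submodule.torsionBy ℤ (W⁄Qb).Point n, σ • x - x ∈ N := by
  intro σ x
  have htop : glD_quotStab W n N hN x = ⊤ := by
    apply hM
    · obtain ⟨F, hF, h⟩ := ptSt_exists_fixing_torsion W n x
      refine ⟨F, hF, fun τ hτ => ?_⟩
      show τ • x - x ∈ N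
      rw [h τ hτ, sub_self]; exact N.zero_mem
    · intro q hq A hA τ hτ
      exact hin q hq A hA τ hτ x
  have : σ ∈ glD_quotStab W n N hN x := htop ▸ Subgroup.mem_top σ
  exact this

theorem glD_sub_trivial (hM : MinkOpen)
    (N : Submodule (ZMod n) (Submodule.torsionBy ℤ (W⁄Qb).Point n))
    (hin : ∀ q : ℕ, q.Prime → ∀ A : ValuationSubring Qb, A.LiesOverPrime q →
      ∀ σ ∈ A.inertiaSubgroupIn ℚ, ∀ x ∈ N, σ • x = x) :
    ∀ σ : Qb ≃ₐ[ℚ] Qb, ∀ x ∈ N, σ • x = x := by
  intro σ x hx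
  have htop : MulAction.stabilizer (Qb ≃ₐ[ℚ] Qb) x = ⊤ := by
    apply hM
    · obtain ⟨F, hF, h⟩ := ptSt_exists_fixing_torsion W n x
      exact ⟨F, hF, fun τ hτ => MulAction.mem_stabilizer_iff.mpr (h τ hτ)⟩
    · intro q hq A hA τ hτ
      exact MulAction.mem_stabilizer_iff.mpr (hin q hq A hA τ hτ x hx)
  have : σ ∈ MulAction.stabilizer (Qb ≃ₐ[ℚ] Qb) x := htop ▸ Subgroup.mem_top σ
  exact MulAction.mem_stabilizer_iff.mp this

open Fermat.Agent.S13x in
/-- **(D, sub)** `ContractDsub` of `Contracts.lean`, from Minkowski (open-subgroup form). -/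
theorem glD_contractDsub (hM : MinkOpen) (P : FreyPackage) : ContractDsub P := by
  intro N _ h σ _ x hx
  exact glD_sub_trivial P.freyCurve P.p hM N
    (fun q hq A hA τ hτ y hy => h q hq A hA τ hτ y hy) σ x hx

open Fermat.Agent.S13x in
/-- **(D, quotient)** `ContractDquot` of `Contracts.lean`, from Minkowski (open-subgroup form). -/
theorem glD_contractDquot (hM : MinkOpen) (P : FreyPackage) : ContractDquot P := by
  intro N hN h σ _ x
  exact glD_quot_trivial P.freyCurve P.p hM N hN.1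
    (fun q hq A hA τ hτ y => h q hq A hA τ hτ y) σ x

end Fermat.Agent.S13D
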