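import Mathlib
import Fermat.Agent.CFT.Bridge.UnramValQ
import Fermat.Agent.CFT.Bridge.SplitField
import Fermat.Agent.CFT.S14.FieldL
import Fermat.Agent.CFT.S14.UnramBridge

set_option autoImplicit false
set_option linter.unusedSectionVars false

/-!
# S13, package (D): Minkowski — `ℚ` has no nontrivial everywhere-unramified extension

* `minkD_finrank_eq_one` : a finite Galois `L ⊆ Qb` unramified outside `∅` has degree one;
* `minkD_eq_bot` : `L.IsUnramifiedOutside ∅ → L = ⊥`;
* `minkD_subgroup_eq_top` : a subgroup of `Gal(Qb/ℚ)` containing the fixing subgroup of a finite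
  level and every inertia group is `⊤` (no normality needed);
* `minkD_hom_trivial` : a group homomorphism out of `Gal(Qb/ℚ)` which factors through a finite
  level and kills every inertia group (prelude vocabulary: `A.inertiaSubgroupIn ℚ` for `A` a
  valuation subring of `Qb` over a prime `q`) is trivial.
-/

namespace Fermat.Agent.S13D

open NumberField IntermediateField Fermat.Agent.CFT Fermat.Agent.CFT.S14 Fermat.Agent.PT

local notation "Qb" => AlgebraicClosure ℚ

attribute [local instance] sUF_numberField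

local instance minkD_isAlgebraicQb : Algebra.IsAlgebraic ℚ Qb := AlgebraicClosure.isAlgebraic ℚ
local instance minkD_isAlgClosureQb : IsAlgClosure ℚ Qb := ⟨inferInstance, inferInstance⟩
local instance minkD_normalQb : Normal ℚ Qb := IsAlgClosure.normal ℚ Qb
local instance minkD_isGaloisQb : IsGalois ℚ Qb := ⟨⟩

/-- A finite Galois extension of `ℚ` inside `Qb` which is unramified everywhere has degree one. -/
theorem minkD_finrank_eq_one (L : IntermediateField ℚ Qb) [FiniteDimensional ℚ L] [Normal ℚ L]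
    (hL : L.IsUnramifiedOutside ∅) : Module.finrank ℚ L = 1 := by
  by_contra H
  have hgal : IsGalois ℚ L := ⟨⟩
  obtain ⟨P, hPmax, hP⟩ := NumberField.exists_not_isUnramifiedAt_int (K := L) (𝒪 := 𝓞 L) H
  apply hP
  have hPprime : P.IsPrime := hPmax.isPrime
  have hPne : P ≠ ⊥ := Ring.ne_bot_of_isMaximal_of_not_isField hPmax (RingOfIntegers.not_isField L)
  obtain ⟨l, hl, hlP⟩ := exists_prime_natCast_mem P hPne
  have hin := urVQ_inertia_eq_bot ∅ L hL P (q := ⟨l, hl⟩) (Finset.notMem_empty _) hlP
  have hGG := IsGaloisGroup.of_isFractionRing Gal(L/ℚ) ℤ (𝓞 L) ℚ L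
  rw [← Ideal.ramificationIdx_eq_one_iff,
    ← Ideal.ramificationIdxIn_eq_ramificationIdx (P.under ℤ) P Gal(L/ℚ),
    ← Ideal.card_inertia_eq_ramificationIdxIn (G := Gal(L/ℚ)) (P.under ℤ) P, hin]
  simp

/-- **Minkowski**: an everywhere-unramified finite extension of `ℚ` inside `Qb` is `ℚ`. -/
theorem minkD_eq_bot (L : IntermediateField ℚ Qb) (hL : L.IsUnramifiedOutside ∅) : L = ⊥ := by
  have hM := IsUnramifiedOutside.galClosure hL
  have hfd : FiniteDimensional ℚ (galClosure L) := hM.1
  have hnorm : Normal ℚ (galClosure L) := by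
    rw [galClosure_eq_normalClosure]
    exact normalClosure.normal ℚ L Qb
  have h1 := minkD_finrank_eq_one (galClosure L) hM
  have h2 : galClosure L = ⊥ := IntermediateField.finrank_eq_one_iff.mp h1
  exact le_bot_iff.mp (h2 ▸ le_galClosure L)

/-- **Minkowski, open subgroup form**: an open subgroup of `Gal(Qb/ℚ)` (not necessarily normal)
containing all inertia groups (at all valuation subrings over all primes) is everything. -/
theorem minkD_subgroup_eq_top_of_isOpen (N : Subgroup (Qb ≃ₐ[ℚ] Qb))
    (hN : IsOpen (N : Set (Qb ≃ₐ[ℚ] Qb)))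
    (hunr : ∀ q : ℕ, q.Prime → ∀ A : ValuationSubring Qb, A.LiesOverPrime q →
      A.inertiaSubgroupIn ℚ ≤ N) : N = ⊤ := by
  have hfix := fixingSubgroup_fixedField_of_isOpen N hN
  have hfd := finiteDimensional_fixedField_of_isOpen N hN
  have hL : (fixedField N).IsUnramifiedOutside ∅ :=
    ⟨hfd, fun q _ A hA => hfix.symm ▸ hunr q q.2 A hA⟩
  have h := minkD_eq_bot _ hL
  rw [← hfix, h]
  exact IntermediateField.fixingSubgroup_bot

/-- **Minkowski, subgroup form** (consumer shape): a subgroup `H` of `Gal(Qb/ℚ)` (not necessarily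
normal) which contains the fixing subgroup of a finite level and every inertia group is `⊤`. -/
theorem minkD_subgroup_eq_top (H : Subgroup (Qb ≃ₐ[ℚ] Qb))
    (hopen : ∃ F : IntermediateField ℚ Qb, FiniteDimensional ℚ F ∧ F.fixingSubgroup ≤ H)
    (hin : ∀ q : ℕ, q.Prime → ∀ A : ValuationSubring Qb, A.LiesOverPrime q →
      A.inertiaSubgroupIn ℚ ≤ H) : H = ⊤ := by
  obtain ⟨F, hF, hle⟩ := hopen
  have hopenF : IsOpen (F.fixingSubgroup : Set (Qb ≃ₐ[ℚ] Qb)) := F.fixingSubgroup_isOpen
  exact minkD_subgroup_eq_top_of_isOpen H (Subgroup.isOpen_mono hle hopenF) hin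

/-- **Minkowski, homomorphism form**: a homomorphism out of `Gal(Qb/ℚ)` that factors through a
finite level and is trivial on every inertia group is trivial. -/
theorem minkD_hom_trivial {G : Type*} [Group G] (χ : (Qb ≃ₐ[ℚ] Qb) →* G)
    (hopen : ∃ F : IntermediateField ℚ Qb, FiniteDimensional ℚ F ∧ F.fixingSubgroup ≤ χ.ker)
    (hunr : ∀ q : ℕ, q.Prime → ∀ A : ValuationSubring Qb, A.LiesOverPrime q →
      ∀ σ ∈ A.inertiaSubgroupIn ℚ, χ σ = 1) (σ : Qb ≃ₐ[ℚ] Qb) : χ σ = 1 := by
  have htop := minkD_subgroup_eq_top χ.ker hopen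
    (fun q hq A hA s hs => MonoidHom.mem_ker.mpr (hunr q hq A hA s hs))
  have : σ ∈ χ.ker := htop ▸ Subgroup.mem_top σ
  exact MonoidHom.mem_ker.mp this

end Fermat.Agent.S13D
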