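import Mathlib
import Fermat.Agent.S13.GlobalLine
import Fermat.Agent.S13.Minkowski

set_option autoImplicit false

/-!
# S13 (D) complete: `ContractDsub P` and `ContractDquot P`, unconditionally

`MinkOpen` (hypothesis of `GlobalLine.lean`) is helper19's `minkD_subgroup_eq_top`.
-/

namespace Fermat.Agent.S13D

open Fermat.Agent.S13x

/-- Minkowski in the non-normal open-subgroup form. -/
theorem glD_minkOpen : MinkOpen :=
  fun H hopen hin => minkD_subgroup_eq_top H hopen hin

/-- **(D, sub)**: `ContractDsub P` holds. -/
theorem glD_contractDsub_holds (P : FreyPackage) : ContractDsub P :=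
  glD_contractDsub glD_minkOpen P

/-- **(D, quotient)**: `ContractDquot P` holds. -/
theorem glD_contractDquot_holds (P : FreyPackage) : ContractDquot P :=
  glD_contractDquot glD_minkOpen P

end Fermat.Agent.S13D
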