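/-
S13 plumbing: generic facts on `ZMod p`-modules of order `p²` with a group action:
cardinalities of lines and quotients, the induced actions on a stable submodule and on the
quotient, and "an additive endomorphism of square zero of a group of prime order is zero".
-/
import Mathlib

set_option autoImplicit false
set_option linter.unusedSectionVars false

namespace Fermat.Agent.S13x

section PrimeOrder

/-- An additive endomorphism `f` with `f ∘ f = 0` of a group of prime order is zero. -/
theorem addMonoidHom_eq_zero_of_sq_zero {M : Type*} [AddCommGroup M] {p : ℕ} (hp : p.Prime)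
    (hM : Nat.card M = p) (f : M →+ M) (hf : ∀ x, f (f x) = 0) (x : M) : f x = 0 := by
  have : Fact p.Prime := ⟨hp⟩
  have : Finite M := Nat.finite_of_card_ne_zero (by rw [hM]; exact hp.ne_zero)
  have : IsAddCyclic M := isAddCyclic_of_prime_card hM
  obtain ⟨g, hg⟩ := IsAddCyclic.exists_generator (α := M)
  have hord : addOrderOf g = p := by
    rw [addOrderOf_eq_card_of_forall_mem_zmultiples hg, hM]
  obtain ⟨k, hk⟩ : ∃ k : ℤ, k • g = f g := AddSubgroup.mem_zmultiples_iff.mp (hg (f g))
  have h2 : (k * k) • g = 0 := by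
    rw [mul_smul, hk, ← map_zsmul, hk, hf]
  have hdvd : (p : ℤ) ∣ k * k := by
    rw [← hord]; exact addOrderOf_dvd_iff_zsmul_eq_zero.mpr h2
  have hk0 : (p : ℤ) ∣ k := by
    rcases (Nat.prime_iff_prime_int.mp hp).dvd_or_dvd hdvd with h | h <;> exact h
  have hfg : f g = 0 := by
    rw [← hk]; rw [← hord] at hk0; exact addOrderOf_dvd_iff_zsmul_eq_zero.mp hk0
  obtain ⟨m, hm⟩ : ∃ m : ℤ, m • g = x := AddSubgroup.mem_zmultiples_iff.mp (hg x)
  rw [← hm, map_zsmul, hfg, smul_zero]

end PrimeOrder

section Card

variable {p : ℕ} [Fact p.Prime] {V : Type*} [AddCommGroup V] [Module (ZMod p) V]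

theorem finite_of_card_sq (hV : Nat.card V = p ^ 2) : Finite V :=
  Nat.finite_of_card_ne_zero (by rw [hV]; exact pow_ne_zero _ (Fact.out : p.Prime).ne_zero)

theorem finrank_eq_two_of_card_sq (hV : Nat.card V = p ^ 2) :
    Module.finrank (ZMod p) V = 2 := by
  have := finite_of_card_sq hV
  have h := Module.natCard_eq_pow_finrank (K := ZMod p) (V := V)
  rw [hV, Nat.card_zmod] at h
  exact (Nat.pow_right_injective (Fact.out : p.Prime).two_le h).symm

theorem finrank_of_ne_bot_ne_top (hV : Nat.card V = p ^ 2) (N : Submodule (ZMod p) V)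
    (h0 : N ≠ ⊥) (h1 : N ≠ ⊤) : Module.finrank (ZMod p) N = 1 := by
  have := finite_of_card_sq hV
  have h2 := finrank_eq_two_of_card_sq hV
  have hlt : Module.finrank (ZMod p) N < 2 := by
    rw [← h2]; exact Submodule.finrank_lt h1
  have hne : Module.finrank (ZMod p) N ≠ 0 := by
    intro h
    exact h0 (Submodule.finrank_eq_zero.mp h)
  omega

theorem card_of_ne_bot_ne_top (hV : Nat.card V = p ^ 2) (N : Submodule (ZMod p) V)
    (h0 : N ≠ ⊥) (h1 : N ≠ ⊤) : Nat.card N = p := by
  have := finite_of_card_sq hV
  have h := Module.natCard_eq_pow_finrank (K := ZMod p) (V := N)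
  rw [finrank_of_ne_bot_ne_top hV N h0 h1, Nat.card_zmod, pow_one] at h
  exact h

theorem card_quotient_of_ne_bot_ne_top (hV : Nat.card V = p ^ 2) (N : Submodule (ZMod p) V)
    (h0 : N ≠ ⊥) (h1 : N ≠ ⊤) : Nat.card (V ⧸ N) = p := by
  have := finite_of_card_sq hV
  have h2 := finrank_eq_two_of_card_sq hV
  have h1' := finrank_of_ne_bot_ne_top hV N h0 h1
  have hq : Module.finrank (ZMod p) (V ⧸ N) = 1 := by
    have := Submodule.finrank_quotient_add_finrank N
    omega
  have h := Module.natCard_eq_pow_finrank (K := ZMod p) (V := V ⧸ N)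
  rw [hq, Nat.card_zmod, pow_one] at h
  exact h

end Card

section Actions

variable {p : ℕ} {G : Type*} [Group G] {V : Type*} [AddCommGroup V] [Module (ZMod p) V]
  [DistribMulAction G V]

/-- The `ZMod p`-linear map of a group element. -/
noncomputable def galLin (σ : G) : V →ₗ[ZMod p] V :=
  (DistribSMul.toAddMonoidHom V σ).toZModLinearMap p

@[simp] theorem galLin_apply (σ : G) (x : V) : galLin (p := p) σ x = σ • x := rfl

variable (N : Submodule (ZMod p) V) (hN : ∀ σ : G, ∀ x ∈ N, σ • x ∈ N)

include hN in
theorem le_comap_galLin (σ : G) : N ≤ N.comap (galLin (p := p) σ) := fun x hx => hN σ x hx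

/-- The action of `G` on a stable submodule. -/
@[reducible] noncomputable def subAction : DistribMulAction G N where
  smul σ x := ⟨σ • (x : V), hN σ x x.2⟩
  one_smul x := Subtype.ext (one_smul G (x : V))
  mul_smul σ τ x := Subtype.ext (mul_smul σ τ (x : V))
  smul_zero σ := Subtype.ext (smul_zero σ)
  smul_add σ x y := Subtype.ext (smul_add σ (x : V) (y : V))

theorem subAction_coe (σ : G) (x : N) :
    (((subAction N hN).toMulAction.toSMul.smul σ x : N) : V) = σ • (x : V) := rfl

/-- The action of `G` on the quotient by a stable submodule. -/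
@[reducible] noncomputable def quotAction : DistribMulAction G (V ⧸ N) where
  smul σ q := N.mapQ N (galLin (p := p) σ) (le_comap_galLin N hN σ) q
  one_smul q := by
    induction q using Submodule.Quotient.induction_on with
    | H x => show N.mapQ N _ _ (Submodule.Quotient.mk x) = _; simp
  mul_smul σ τ q := by
    induction q using Submodule.Quotient.induction_on with
    | H x =>
      show N.mapQ N _ _ (Submodule.Quotient.mk x) =
        N.mapQ N _ _ (N.mapQ N _ _ (Submodule.Quotient.mk x))
      simp [mul_smul]
  smul_zero σ := map_zero _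
  smul_add σ x y := map_add _ x y

theorem quotAction_mk (σ : G) (x : V) :
    (quotAction N hN).toMulAction.toSMul.smul σ (Submodule.Quotient.mk x : V ⧸ N) =
      Submodule.Quotient.mk (σ • x) := by
  show N.mapQ N _ _ (Submodule.Quotient.mk x) = _
  simp

end Actions

end Fermat.Agent.S13x
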