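/-
S13 top-level: the frozen conclusion from the contracts of `Contracts.lean`
(no sorry; the contracts are hypotheses).
-/
import Fermat.Agent.S13.Contracts
import Fermat.Agent.S05

set_option autoImplicit false

open WeierstrassCurve WeierstrassCurve.Affine WeierstrassCurve.Affine.Point

namespace Fermat.Agent.S13x

/-- S05 in the vocabulary of the contracts: at a prime `q ∉ {2, p}` inertia acts trivially on all
of `E[p]`, hence on every `N` and on every `V/N`. -/
theorem trivOn_of_S05 (P : FreyPackage) {q : ℕ} (hq : q.Prime) (hq2 : q ≠ 2) (hqp : q ≠ P.p)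
    (N : Submodule (ZMod P.p) (FreyTors P))
    (A : ValuationSubring (AlgebraicClosure ℚ)) (hA : A.LiesOverPrime q) :
    TrivOnSub P (A.inertiaSubgroupIn ℚ : Set GalQ) N ∧
      TrivOnQuot P (A.inertiaSubgroupIn ℚ : Set GalQ) N := by
  have h := Fermat.Agent.S05.result P hq hq2 hqp
  refine ⟨fun σ hσ x _ => h A hA σ hσ x, fun σ hσ x => ?_⟩
  have hx : σ • x = x := h A hA σ hσ x
  have h0 : σ • x - x = 0 := by rw [hx, sub_self]
  rw [h0]
  exact N.zero_mem

/-- The frozen S13 conclusion from the contracts. -/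
theorem hasCofixedLine_of_contracts (P : FreyPackage)
    (hA : ContractA P) (hB1 : ContractB1 P) (hB2 : ContractB2 P) (hC : ContractC P)
    (hDs : ContractDsub P) (hDq : ContractDquot P)
    (hred : ¬ GaloisRepIsIrreducible (K := AlgebraicClosure ℚ) ℚ P.freyCurve P.p) :
    HasGaloisStableCofixedLine (K := AlgebraicClosure ℚ) ℚ P.freyCurve P.p := by
  -- `V` is nontrivial since `#V = p² > 1`
  have hnt : Nontrivial (FreyTors P) := by
    have h1 : 1 < Nat.card (FreyTors P) := by
      rw [hA]
      have := P.hp5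
      calc 1 < 5 ^ 2 := by norm_num
        _ ≤ P.p ^ 2 := Nat.pow_le_pow_left this 2
    have : Finite (FreyTors P) := Nat.finite_of_card_ne_zero (by omega)
    exact Finite.one_lt_card_iff_nontrivial.mp h1
  -- a stable line exists
  obtain ⟨N, hNst, hNbot, hNtop⟩ :
      ∃ N : Submodule (ZMod P.p) (FreyTors P), IsGaloisStable ℚ N ∧ N ≠ ⊥ ∧ N ≠ ⊤ := by
    by_contra hcon
    apply hred
    refine ⟨hnt, fun N hN => ?_⟩
    by_contra hne
    rw [not_or] at hne
    exact hcon ⟨N, hN, hne.1, hne.2⟩
  have hline : IsStableLine P N := ⟨hNst, hNbot, hNtop⟩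
  -- unramified away from p for both characters
  have hsub_away : ∀ q : ℕ, q.Prime → q ≠ P.p →
      ∀ A : ValuationSubring (AlgebraicClosure ℚ), A.LiesOverPrime q →
        TrivOnSub P (A.inertiaSubgroupIn ℚ : Set GalQ) N := by
    intro q hq hqp A hAq
    by_cases hq2 : q = 2
    · subst hq2; exact (hB1 N hline A hAq).1
    · exact (trivOn_of_S05 P hq hq2 hqp N A hAq).1
  have hquot_away : ∀ q : ℕ, q.Prime → q ≠ P.p →
      ∀ A : ValuationSubring (AlgebraicClosure ℚ), A.LiesOverPrime q →
        TrivOnQuot P (A.inertiaSubgroupIn ℚ : Set GalQ) N := by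
    intro q hq hqp A hAq
    by_cases hq2 : q = 2
    · subst hq2; exact (hB1 N hline A hAq).2
    · exact (trivOn_of_S05 P hq hq2 hqp N A hAq).2
  rcases hC N hline with h1 | h2
  · -- χ₁ everywhere unramified ⇒ χ₁ = 1 ⇒ a nonzero fixed vector: contradiction with (B2)
    exfalso
    have hall : TrivOnSub P Set.univ N := by
      refine hDs N hline fun q hq A hAq => ?_
      by_cases hqp : q = P.p
      · subst hqp; exact h1 A hAq
      · exact hsub_away q hq hqp A hAq
    obtain ⟨x, hxN, hx0⟩ := (Submodule.ne_bot_iff N).mp hNbot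
    exact hx0 (hB2 x fun σ => hall σ (Set.mem_univ σ) x hxN)
  · -- χ₂ everywhere unramified ⇒ χ₂ = 1 ⇒ N is a cofixed line
    have hall : TrivOnQuot P Set.univ N := by
      refine hDq N hline fun q hq A hAq => ?_
      by_cases hqp : q = P.p
      · subst hqp; exact h2 A hAq
      · exact hquot_away q hq hqp A hAq
    exact ⟨N, hNst, hNbot, hNtop, fun σ x => hall σ (Set.mem_univ σ) x⟩

end Fermat.Agent.S13x
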