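/-
S13 second layer: reductions between the contracts of `Contracts.lean` (no sorry).
  * `contractA_of_A1_A2`     : (A1) ∧ (A2) ∧ reducible ⇒ (A)
  * `contractB1_of_B1u`      : (A) ∧ (B1u) ⇒ (B1)
  * `contractDsub_of_Dmod`   : (A) ∧ (Dmod p) ∧ (Open) ⇒ (Dsub)
  * `contractDquot_of_Dmod`  : (A) ∧ (Dmod p) ∧ (Open) ⇒ (Dquot)
  * `hasCofixedLine_of_core` : the frozen conclusion from (A1), (A2), (B1u), (B2), (C), (Dmod p), (Open).
-/
import Fermat.Agent.S13.Top
import Fermat.Agent.S13.ModPlumbing

set_option autoImplicit false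
set_option linter.style.haveILetI false

open WeierstrassCurve WeierstrassCurve.Affine WeierstrassCurve.Affine.Point

namespace Fermat.Agent.S13x

/-- (A1) ∧ (A2) ∧ reducible ⇒ (A): a one-dimensional `E[p]` would be irreducible. -/
theorem contractA_of_A1_A2 (P : FreyPackage) (h1 : ContractA1 P) (h2 : ContractA2 P)
    (hred : ¬ GaloisRepIsIrreducible (K := AlgebraicClosure ℚ) ℚ P.freyCurve P.p) :
    ContractA P := by
  haveI : Fact P.p.Prime := ⟨P.pp⟩
  obtain ⟨hfin, hle⟩ := h2
  haveI := hfin
  obtain ⟨x, hx⟩ := h1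
  have hnt : Nontrivial (FreyTors P) := ⟨⟨x, 0, hx⟩⟩
  have hcard := Module.natCard_eq_pow_finrank (K := ZMod P.p) (V := FreyTors P)
  rw [Nat.card_zmod] at hcard
  have hd2 : Module.finrank (ZMod P.p) (FreyTors P) ≤ 2 := by
    rw [hcard] at hle
    exact (Nat.pow_le_pow_iff_right P.pp.one_lt).mp hle
  have hd0 : 0 < Module.finrank (ZMod P.p) (FreyTors P) := Module.finrank_pos
  rcases Nat.lt_or_ge (Module.finrank (ZMod P.p) (FreyTors P)) 2 with hlt | hge
  · exfalso
    have hd1 : Module.finrank (ZMod P.p) (FreyTors P) = 1 := by omega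
    apply hred
    refine ⟨hnt, fun N _ => ?_⟩
    have hN : Module.finrank (ZMod P.p) N ≤ 1 := hd1 ▸ Submodule.finrank_le N
    rcases Nat.eq_zero_or_pos (Module.finrank (ZMod P.p) N) with h0 | hpos
    · exact Or.inl (Submodule.finrank_eq_zero.mp h0)
    · refine Or.inr (Submodule.eq_top_of_finrank_eq ?_)
      show Module.finrank (ZMod P.p) N = Module.finrank (ZMod P.p) (FreyTors P)
      omega
  · have : Module.finrank (ZMod P.p) (FreyTors P) = 2 := by omega
    unfold ContractA
    rw [hcard, this]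

/-- (A) ∧ (B1u) ⇒ (B1): a unipotent operator is trivial on a stable line and on the quotient. -/
theorem contractB1_of_B1u (P : FreyPackage) (hA : ContractA P) (hu : ContractB1u P) :
    ContractB1 P := by
  haveI : Fact P.p.Prime := ⟨P.pp⟩
  intro N hline A hA2
  obtain ⟨hNst, hNbot, hNtop⟩ := hline
  have hcN := card_of_ne_bot_ne_top hA N hNbot hNtop
  have hcQ := card_quotient_of_ne_bot_ne_top hA N hNbot hNtop
  refine ⟨fun σ hσ x hx => ?_, fun σ hσ x => ?_⟩
  · -- on N
    let f : N →+ N :=
      { toFun := fun y => ⟨σ • (y : FreyTors P) - y, N.sub_mem (hNst σ y y.2) y.2⟩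
        map_zero' := Subtype.ext (by
          show σ • ((0 : N) : FreyTors P) - ((0 : N) : FreyTors P) = 0
          rw [Submodule.coe_zero, smul_zero, sub_zero])
        map_add' := fun y z => Subtype.ext (by
          show σ • ((y : FreyTors P) + z) - ((y : FreyTors P) + z) =
            (σ • (y : FreyTors P) - y) + (σ • (z : FreyTors P) - z)
          rw [smul_add]
          abel) }
    have hff : ∀ y, f (f y) = 0 := fun y => by
      apply Subtype.ext
      show σ • (σ • (y : FreyTors P) - y) - (σ • (y : FreyTors P) - y) = 0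
      rw [hu A hA2 σ hσ (y : FreyTors P), sub_self]
    have h0 := addMonoidHom_eq_zero_of_sq_zero P.pp hcN f hff ⟨x, hx⟩
    have h1 : σ • x - x = 0 := congrArg Subtype.val h0
    exact sub_eq_zero.mp h1
  · -- on V/N
    let L : FreyTors P →ₗ[ZMod P.p] FreyTors P := galLin (p := P.p) σ - LinearMap.id
    have hL : N ≤ N.comap L := fun y hy => N.sub_mem (hNst σ y hy) hy
    let f : (FreyTors P ⧸ N) →+ (FreyTors P ⧸ N) := (N.mapQ N L hL).toAddMonoidHom
    have hff : ∀ y, f (f y) = 0 := fun y => by
      induction y using Submodule.Quotient.induction_on with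
      | H y =>
        show N.mapQ N L hL (N.mapQ N L hL (Submodule.Quotient.mk y)) = 0
        rw [Submodule.mapQ_apply, Submodule.mapQ_apply, Submodule.Quotient.mk_eq_zero]
        have : L (L y) = 0 := by
          show σ • (σ • y - y) - (σ • y - y) = 0
          rw [hu A hA2 σ hσ y, sub_self]
        rw [this]
        exact N.zero_mem
    have h0 := addMonoidHom_eq_zero_of_sq_zero P.pp hcQ f hff (Submodule.Quotient.mk x)
    have h1 : (Submodule.Quotient.mk (L x) : FreyTors P ⧸ N) = 0 := h0
    exact (Submodule.Quotient.mk_eq_zero N).mp h1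

/-- The pointwise fixer of an action as a subgroup. -/
def fixerSubgroup (G : Type*) [Group G] (M : Type*) [MulAction G M] : Subgroup G where
  carrier := {σ | ∀ m : M, σ • m = m}
  one_mem' := fun m => one_smul G m
  mul_mem' := fun {a b} ha hb m => by rw [mul_smul, hb m, ha m]
  inv_mem' := fun {a} ha m => by
    have := ha m
    rw [inv_smul_eq_iff, this]

/-- (A) ∧ (Dmod) ∧ (Open) ⇒ (Dsub). -/
theorem contractDsub_of_Dmod (P : FreyPackage) (hA : ContractA P) (hD : ContractDmod P.p)
    (hO : ContractOpen P) : ContractDsub P := by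
  haveI : Fact P.p.Prime := ⟨P.pp⟩
  intro N hline hin
  obtain ⟨hNst, hNbot, hNtop⟩ := hline
  have hcN := card_of_ne_bot_ne_top hA N hNbot hNtop
  letI act : DistribMulAction GalQ N := subAction N hNst
  have hopen : IsOpen {σ : GalQ | ∀ m : N, σ • m = m} := by
    have hle : fixerSubgroup GalQ (FreyTors P) ≤ fixerSubgroup GalQ N := fun σ hσ m =>
      Subtype.ext (hσ (m : FreyTors P))
    exact Subgroup.isOpen_mono hle hO
  have h := hD N hcN hopen (fun q hq A hAq σ hσ m => Subtype.ext (hin q hq A hAq σ hσ m m.2))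
  intro σ _ x hx
  exact congrArg Subtype.val (h σ ⟨x, hx⟩)

/-- (A) ∧ (Dmod) ∧ (Open) ⇒ (Dquot). -/
theorem contractDquot_of_Dmod (P : FreyPackage) (hA : ContractA P) (hD : ContractDmod P.p)
    (hO : ContractOpen P) : ContractDquot P := by
  haveI : Fact P.p.Prime := ⟨P.pp⟩
  intro N hline hin
  obtain ⟨hNst, hNbot, hNtop⟩ := hline
  have hcQ := card_quotient_of_ne_bot_ne_top hA N hNbot hNtop
  letI act : DistribMulAction GalQ (FreyTors P ⧸ N) := quotAction N hNst
  have hmk : ∀ (σ : GalQ) (x : FreyTors P),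
      σ • (Submodule.Quotient.mk x : FreyTors P ⧸ N) = Submodule.Quotient.mk (σ • x) :=
    fun σ x => quotAction_mk N hNst σ x
  have hopen : IsOpen {σ : GalQ | ∀ m : FreyTors P ⧸ N, σ • m = m} := by
    have hle : fixerSubgroup GalQ (FreyTors P) ≤ fixerSubgroup GalQ (FreyTors P ⧸ N) := by
      intro σ hσ m
      induction m using Submodule.Quotient.induction_on with
      | H x => rw [hmk, hσ x]
    exact Subgroup.isOpen_mono hle hO
  have h := hD (FreyTors P ⧸ N) hcQ hopen (fun q hq A hAq σ hσ m => by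
    induction m using Submodule.Quotient.induction_on with
    | H x =>
      rw [hmk, Submodule.Quotient.eq]
      exact hin q hq A hAq σ hσ x)
  intro σ _ x
  have := h σ (Submodule.Quotient.mk x)
  rw [hmk, Submodule.Quotient.eq] at this
  exact this

/-- The frozen S13 conclusion from the CORE contracts
(A1), (A2), (B1u), (B2), (C), (Dmod p), (Open). -/
theorem hasCofixedLine_of_core (P : FreyPackage)
    (hA1 : ContractA1 P) (hA2 : ContractA2 P) (hB1u : ContractB1u P) (hB2 : ContractB2 P)
    (hC : ContractC P) (hD : ContractDmod P.p) (hO : ContractOpen P)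
    (hred : ¬ GaloisRepIsIrreducible (K := AlgebraicClosure ℚ) ℚ P.freyCurve P.p) :
    HasGaloisStableCofixedLine (K := AlgebraicClosure ℚ) ℚ P.freyCurve P.p := by
  have hA := contractA_of_A1_A2 P hA1 hA2 hred
  exact hasCofixedLine_of_contracts P hA (contractB1_of_B1u P hA hB1u) hB2 hC
    (contractDsub_of_Dmod P hA hD hO) (contractDquot_of_Dmod P hA hD hO) hred

end Fermat.Agent.S13x
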