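/-
S13: the frozen conclusion from the REMAINING core contracts (A1), (A2), (B1u), (B2), (C).
Package (D) is discharged (helper12/helper19/helper21: `glD_contractDsub_holds`,
`glD_contractDquot_holds`).
-/
import Fermat.Agent.S13.Reductions
import Fermat.Agent.S13.GlobalLineFinal

set_option autoImplicit false

open WeierstrassCurve WeierstrassCurve.Affine WeierstrassCurve.Affine.Point

namespace Fermat.Agent.S13x

/-- The frozen S13 conclusion from (A1), (A2), (B1u), (B2), (C). -/
theorem hasCofixedLine_of_ABC (P : FreyPackage)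
    (hA1 : ContractA1 P) (hA2 : ContractA2 P) (hB1u : ContractB1u P) (hB2 : ContractB2 P)
    (hC : ContractC P)
    (hred : ¬ GaloisRepIsIrreducible (K := AlgebraicClosure ℚ) ℚ P.freyCurve P.p) :
    HasGaloisStableCofixedLine (K := AlgebraicClosure ℚ) ℚ P.freyCurve P.p := by
  have hA := contractA_of_A1_A2 P hA1 hA2 hred
  exact hasCofixedLine_of_contracts P hA (contractB1_of_B1u P hA hB1u) hB2 hC
    (Fermat.Agent.S13D.glD_contractDsub_holds P) (Fermat.Agent.S13D.glD_contractDquot_holds P) hred

end Fermat.Agent.S13x
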