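/-
S13 package (A), route-independent adapter (helper8): from plain statements about points of
`W := P.freyCurve⁄Qbar` to the contracts `ContractA1 P`, `ContractA2 P` of `S13/Contracts.lean`.

* `torsA_nonsingular`        : every affine point of `W` is nonsingular (`Δ ≠ 0`);
* `torsA_contractA1`         : a nonzero point killed by `p` gives `ContractA1 P`;
* `torsA_contractA2`         : a uniform bound `≤ p²` on finite sets of `p`-torsion points gives
                               `ContractA2 P`;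
* `torsA_contractA2_affine`  : the same from a bound `≤ p² - 1` on finite sets of affine pairs.
-/
import Fermat.Agent.S13.Contracts
import Fermat.Agent.S05.FreyNT

set_option autoImplicit false
set_option linter.unusedSectionVars false
set_option linter.style.longLine false

open WeierstrassCurve WeierstrassCurve.Affine WeierstrassCurve.Affine.Point
open Fermat.Agent.S13x

namespace Fermat.Agent.S13A

local notation "Qb" => AlgebraicClosure ℚ

/-- Every affine point of the base-changed Frey curve is nonsingular. -/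
theorem torsA_nonsingular (P : FreyPackage) {x y : Qb}
    (h : ((P.freyCurve)⁄Qb).Equation x y) : ((P.freyCurve)⁄Qb).Nonsingular x y := by
  have hΔ : ((P.freyCurve)⁄Qb).Δ ≠ 0 := Fermat.Agent.S05.FreyNT.bc_Δ_ne_zero (K := Qb) P
  have : ((P.freyCurve)⁄Qb).IsElliptic := ⟨isUnit_iff_ne_zero.mpr hΔ⟩
  exact (equation_iff_nonsingular (W := ((P.freyCurve)⁄Qb))).mp h

/-- Membership in `FreyTors P` in `ℕ`-scalar form. -/
theorem torsA_mem_iff (P : FreyPackage) (Q : ((P.freyCurve)⁄Qb).Point) :
    Q ∈ Submodule.torsionBy ℤ ((P.freyCurve)⁄Qb).Point P.p ↔ P.p • Q = 0 := by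
  rw [Submodule.mem_torsionBy_iff, Nat.cast_smul_eq_nsmul]

/-- **(A1) adapter.** -/
theorem torsA_contractA1 (P : FreyPackage)
    (h : ∃ Q : ((P.freyCurve)⁄Qb).Point, Q ≠ 0 ∧ P.p • Q = 0) : ContractA1 P := by
  obtain ⟨Q, hQ0, hQ⟩ := h
  refine ⟨⟨Q, (torsA_mem_iff P Q).mpr hQ⟩, ?_⟩
  intro h0
  exact hQ0 (congrArg Subtype.val h0)

/-- **(A2) adapter**, point form. -/
theorem torsA_contractA2 (P : FreyPackage)
    (h : ∀ S : Finset ((P.freyCurve)⁄Qb).Point, (∀ Q ∈ S, P.p • Q = 0) → S.card ≤ P.p ^ 2) :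
    ContractA2 P := by
  have hfin : ∀ S : Finset (FreyTors P), S.card ≤ P.p ^ 2 := by
    intro S
    have := h (S.map ⟨Subtype.val, Subtype.val_injective⟩) (by
      intro Q hQ
      rw [Finset.mem_map] at hQ
      obtain ⟨x, _, rfl⟩ := hQ
      exact (torsA_mem_iff P x.1).mp x.2)
    rwa [Finset.card_map] at this
  have hfinite : Finite (FreyTors P) := by
    by_contra hinf
    rw [not_finite_iff_infinite] at hinf
    obtain ⟨S, hS⟩ := Infinite.exists_subset_card_eq (FreyTors P) (P.p ^ 2 + 1)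
    have := hfin S
    omega
  refine ⟨hfinite, ?_⟩
  have := Fintype.ofFinite (FreyTors P)
  rw [Nat.card_eq_fintype_card, ← Finset.card_univ]
  exact hfin Finset.univ

/-- **(A2) adapter**, affine-pair form: at most `p² - 1` affine `p`-torsion points. -/
theorem torsA_contractA2_affine (P : FreyPackage)
    (h : ∀ S : Finset (Qb × Qb),
      (∀ s ∈ S, ∃ hs : ((P.freyCurve)⁄Qb).Nonsingular s.1 s.2,
        P.p • (Point.some s.1 s.2 hs : ((P.freyCurve)⁄Qb).Point) = 0) →
      S.card ≤ P.p ^ 2 - 1) :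
    ContractA2 P := by
  classical
  apply torsA_contractA2
  intro S hS
  -- the affine part of `S`
  let coords : ((P.freyCurve)⁄Qb).Point → Qb × Qb := fun Q =>
    match Q with
    | .zero => (0, 0)
    | .some x y _ => (x, y)
  have hcoords_inj : ∀ Q₁ ∈ S.erase 0, ∀ Q₂ ∈ S.erase 0, coords Q₁ = coords Q₂ → Q₁ = Q₂ := by
    intro Q₁ h₁ Q₂ h₂ h12
    rcases Q₁ with _ | ⟨x₁, y₁, hh₁⟩
    · exact absurd rfl (Finset.ne_of_mem_erase h₁)
    rcases Q₂ with _ | ⟨x₂, y₂, hh₂⟩
    · exact absurd rfl (Finset.ne_of_mem_erase h₂)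
    simp only [coords, Prod.mk.injEq] at h12
    obtain ⟨rfl, rfl⟩ := h12
    rfl
  have hcard : ((S.erase 0).image coords).card = (S.erase 0).card :=
    Finset.card_image_of_injOn hcoords_inj
  have hbound := h ((S.erase 0).image coords) (by
    intro s hs
    rw [Finset.mem_image] at hs
    obtain ⟨Q, hQ, rfl⟩ := hs
    rcases Q with _ | ⟨x, y, hh⟩
    · exact absurd rfl (Finset.ne_of_mem_erase hQ)
    · exact ⟨hh, hS _ (Finset.mem_of_mem_erase hQ)⟩)
  rw [hcard] at hbound
  have hp : 1 ≤ P.p ^ 2 := Nat.one_le_pow _ _ P.hppos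
  have hle : S.card ≤ (S.erase 0).card + 1 := by
    by_cases h0 : (0 : ((P.freyCurve)⁄Qb).Point) ∈ S
    · rw [Finset.card_erase_of_mem h0]; omega
    · rw [Finset.erase_eq_of_notMem h0]; omega
  omega

end Fermat.Agent.S13A
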