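import Fermat.Agent.S13.LadderTorsion
import Fermat.Agent.S13.TorsAdapter

/-!
# S13, package (A) via the x-only ladder: `ContractA1 P` and `ContractA2 P` for the Frey curve
-/

set_option autoImplicit false

namespace Fermat.Agent.S13L

open WeierstrassCurve WeierstrassCurve.Affine
open Fermat.Agent.S13x

local notation "Qb" => AlgebraicClosure ℚ

/-- `P.p = 2 m + 1` with `m = P.p / 2 ≥ 1`. -/
lemma frey_p_eq (P : FreyPackage) : P.p = 2 * (P.p / 2) + 1 ∧ 1 ≤ P.p / 2 := by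
  have h5 := P.hp5
  have hodd : P.p % 2 = 1 := by
    rcases P.pp.eq_two_or_odd with h | h
    · omega
    · exact h
  omega

/-- **(A1)** `E[p](Qbar) ≠ 0` for the Frey curve. -/
theorem ladder_contractA1 (P : FreyPackage) : ContractA1 P := by
  classical
  apply Fermat.Agent.S13A.torsA_contractA1
  have hΔ : ((P.freyCurve)⁄Qb).Δ ≠ 0 := Fermat.Agent.S05.FreyNT.bc_Δ_ne_zero (K := Qb) P
  obtain ⟨hp, hm⟩ := frey_p_eq P
  obtain ⟨Q, hQ0, hQ⟩ := exists_odd_torsion (W := ((P.freyCurve)⁄Qb)) hΔ (P.p / 2) hm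
  refine ⟨Q, hQ0, ?_⟩
  rw [hp]; exact hQ

/-- **(A2)** `#E[p](Qbar) ≤ p²` for the Frey curve. -/
theorem ladder_contractA2 (P : FreyPackage) : ContractA2 P := by
  classical
  apply Fermat.Agent.S13A.torsA_contractA2
  have hΔ : ((P.freyCurve)⁄Qb).Δ ≠ 0 := Fermat.Agent.S05.FreyNT.bc_Δ_ne_zero (K := Qb) P
  obtain ⟨hp, hm⟩ := frey_p_eq P
  intro S hS
  have := card_odd_torsion_le (W := ((P.freyCurve)⁄Qb)) hΔ (P.p / 2) S
    (fun Q hQ => by rw [← hp]; exact hS Q hQ)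
  rw [← hp] at this
  exact this

end Fermat.Agent.S13L
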