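/-
S13 FRONTIER (integration file, owner helper29).
rev 5: NO OPEN INPUT.  (A1), (A2) [helper18 et al., LadderContract], (B1u) [helper27/23/20:
Two/B1uFrey], (B2) [helper20/23/8/11/28: Two/B2Close.b2c_contractB2], (C) [helper17/5/6/4:
AssembleC3], (D) [helper12/19/21: GlobalLineFinal] are all discharged.
`hasCofixedLine_frey` is the frozen S13 statement verbatim.
-/
import Fermat.Agent.S13.Core
import Fermat.Agent.S13.LadderContract
import Fermat.Agent.S13.AssembleC3
import Fermat.Agent.S13.Two.B1uFrey
import Fermat.Agent.S13.Two.B2Close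

set_option autoImplicit false

open WeierstrassCurve WeierstrassCurve.Affine WeierstrassCurve.Affine.Point

namespace Fermat.Agent.S13x

theorem hasCofixedLine_of_frontier (P : FreyPackage)
    (hB2 : ContractB2 P)
    (hred : ¬ GaloisRepIsIrreducible (K := AlgebraicClosure ℚ) ℚ P.freyCurve P.p) :
    HasGaloisStableCofixedLine (K := AlgebraicClosure ℚ) ℚ P.freyCurve P.p := by
  have hA1 : ContractA1 P := Fermat.Agent.S13L.ladder_contractA1 P
  have hA2 : ContractA2 P := Fermat.Agent.S13L.ladder_contractA2 P
  have hA := contractA_of_A1_A2 P hA1 hA2 hred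
  exact hasCofixedLine_of_ABC P hA1 hA2 (Fermat.Agent.S13B.b1u_contractB1u_holds P) hB2
    (Fermat.Agent.S13C.asC_contractC_holds P hA) hred

/-- **S13**: a reducible mod-`p` representation of the Frey curve has a Galois-stable cofixed
line. -/
theorem hasCofixedLine_frey (P : FreyPackage)
    (hred : ¬ GaloisRepIsIrreducible (K := AlgebraicClosure ℚ) ℚ P.freyCurve P.p) :
    HasGaloisStableCofixedLine (K := AlgebraicClosure ℚ) ℚ P.freyCurve P.p :=
  hasCofixedLine_of_frontier P (Fermat.Agent.S13.b2c_contractB2 P) hred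

end Fermat.Agent.S13x
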