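import Mathlib
import Fermat.Agent.S05.Interface

/-!
# S13, package (C): the model-free endgame of the "supersingular exclusion"

`W` a Weierstrass curve over `ℚ`, `A` a valuation subring of `Qbar` over the prime `p`, all
coefficients of `W` in `A`.  `E₁(A)` = points with `x ∉ A` (kernel of reduction).

* `pbC_val_slope`   : on `E₁(A)`, `v(y/x)² = v(x)`.
* `pbC_prod_rat`    : the product of a Galois-equivariant coordinate function over a finite
                      `G_ℚ`-stable set of points is a rational number.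
* `pbC_rat_val`     : a rational number of valuation `> 1` has valuation `≥ v(p)⁻¹`.
* `pbC_stable_prod` : `S` finite nonempty `G_ℚ`-stable inside `E₁(A)`: `v(p)⁻² ≤ ∏_{R ∈ S} v(x R)`.
* `pbC_not_all_E1`  : product bound `v(p)² ∏_{R ∈ T} v(x R) ≤ 1`, `S ⊊ T` stable nonempty: not all
                      of `T` lies in `E₁(A)`.
* `pbC_PB_of_poly`  : the product bound from a polynomial with `A`-integral coefficients.
* `pbC_uniform`     : a finite nonempty `G_ℚ`-stable set of points cannot lie in `E₁(A)` for one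
                      `A` over `p` and be `A'`-integral for another `A'` over `p`.
-/

set_option autoImplicit false

namespace Fermat.Agent.S13C

open WeierstrassCurve WeierstrassCurve.Affine Fermat.Agent.S05

/-! ### (1) valuations on the kernel of reduction -/

section val

variable {K : Type*} [Field K] (A : ValuationSubring K)

theorem pbC_one_lt_of_not_mem {z : K} (hz : z ∉ A) : 1 < A.valuation z := by
  rw [← not_le, A.valuation_le_one_iff]; exact hz

/-- On the kernel of reduction `v(y/x)² = v(x)`. -/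
theorem pbC_val_slope {a1 a2 a3 a4 a6 x y : K} (h1 : a1 ∈ A) (h2 : a2 ∈ A) (h3 : a3 ∈ A)
    (h4 : a4 ∈ A) (h6 : a6 ∈ A) (hx : x ∉ A)
    (heq : y ^ 2 + a1 * x * y + a3 * y = x ^ 3 + a2 * x ^ 2 + a4 * x + a6) :
    A.valuation (y / x) ^ 2 = A.valuation x := by
  set v := A.valuation with hv
  have hvx : 1 < v x := pbC_one_lt_of_not_mem A hx
  have hx0 : (0 : A.ValueGroup) < v x := lt_trans zero_lt_one hvx
  have hvx0 : v x ≠ 0 := hx0.ne'
  have v1 : v a1 ≤ 1 := (A.valuation_le_one_iff _).mpr h1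
  have v2 : v a2 ≤ 1 := (A.valuation_le_one_iff _).mpr h2
  have v3 : v a3 ≤ 1 := (A.valuation_le_one_iff _).mpr h3
  have v4 : v a4 ≤ 1 := (A.valuation_le_one_iff _).mpr h4
  have v6 : v a6 ≤ 1 := (A.valuation_le_one_iff _).mpr h6
  have hx12 : v x < v x ^ 2 := by
    calc v x = v x * 1 := (mul_one _).symm
      _ < v x * v x := (mul_lt_mul_iff_right₀ hx0).mpr hvx
      _ = v x ^ 2 := (pow_two _).symm
  have hx23 : v x ^ 2 < v x ^ 3 := by
    have h2pos : (0 : A.ValueGroup) < v x ^ 2 := pow_pos hx0 2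
    calc v x ^ 2 = v x ^ 2 * 1 := (mul_one _).symm
      _ < v x ^ 2 * v x := (mul_lt_mul_iff_right₀ h2pos).mpr hvx
      _ = v x ^ 3 := (pow_succ _ 2).symm
  -- the right-hand side has valuation `v x ^ 3`
  have hlow : v (a2 * x ^ 2 + a4 * x + a6) ≤ v x ^ 2 := by
    refine le_trans (Valuation.map_add _ _ _) (max_le (le_trans (Valuation.map_add _ _ _)
      (max_le ?_ ?_)) ?_)
    · rw [map_mul, map_pow]
      exact mul_le_of_le_one_left zero_le v2
    · rw [map_mul]
      exact le_trans (mul_le_of_le_one_left zero_le v4) hx12.le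
    · exact le_trans v6 (le_trans hvx.le hx12.le)
  have hR : v (x ^ 3 + a2 * x ^ 2 + a4 * x + a6) = v x ^ 3 := by
    have e : x ^ 3 + a2 * x ^ 2 + a4 * x + a6 = x ^ 3 + (a2 * x ^ 2 + a4 * x + a6) := by ring
    rw [e, Valuation.map_add_eq_of_lt_left _ (by rw [map_pow]; exact lt_of_le_of_lt hlow hx23),
      map_pow]
  -- the coefficient `c = a1 x + a3`
  have hc : v (a1 * x + a3) ≤ v x := by
    refine le_trans (Valuation.map_add _ _ _) (max_le ?_ (le_trans v3 hvx.le))
    rw [map_mul]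
    exact mul_le_of_le_one_left zero_le v1
  have hL : y ^ 2 + a1 * x * y + a3 * y = y ^ 2 + (a1 * x + a3) * y := by ring
  -- `v x < v y`
  have hxy : v x < v y := by
    by_contra hcon
    rw [not_lt] at hcon
    have : v (y ^ 2 + (a1 * x + a3) * y) ≤ v x ^ 2 := by
      refine le_trans (Valuation.map_add _ _ _) (max_le ?_ ?_)
      · rw [map_pow]
        exact pow_le_pow_left₀ zero_le hcon 2
      · rw [map_mul, pow_two]
        exact mul_le_mul' hc hcon
    rw [← hL, heq, hR] at this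
    exact absurd hx23 (not_lt.mpr this)
  have hy0 : (0 : A.ValueGroup) < v y := lt_trans hx0 hxy
  have hcy : v ((a1 * x + a3) * y) < v (y ^ 2) := by
    rw [map_mul, map_pow, pow_two]
    exact (mul_lt_mul_iff_left₀ hy0).mpr (lt_of_le_of_lt hc hxy)
  have hLv : v (y ^ 2 + (a1 * x + a3) * y) = v y ^ 2 := by
    rw [Valuation.map_add_eq_of_lt_left _ hcy, map_pow]
  have hkey : v y ^ 2 = v x ^ 3 := by rw [← hLv, ← hL, heq, hR]
  rw [map_div₀, div_pow, hkey, div_eq_iff (pow_ne_zero 2 hvx0), pow_succ, mul_comm]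

end val

/-! ### (3) rational numbers of valuation `> 1` -/

section rat

variable {A : ValuationSubring Qbar} {p : ℕ}

/-- A rational number whose denominator is divisible by `p` has valuation at least `v(p)⁻¹`
(`A` over `p`). -/
theorem pbC_rat_val_of_dvd (hp : p.Prime) (hA : A.LiesOverPrime p) (r : ℚ)
    (hden : p ∣ r.den) : (A.valuation (p : Qbar))⁻¹ ≤ A.valuation (r : Qbar) := by
  have hnum : ¬ (p : ℤ) ∣ r.num := by
    intro h
    have h1 : p ∣ r.num.natAbs := Int.natCast_dvd.mp h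
    have := Nat.Coprime.eq_one_of_dvd
      (Nat.Coprime.coprime_dvd_left h1 r.reduced) hden
    exact hp.one_lt.ne' this
  have hvnum : A.valuation ((r.num : ℤ) : Qbar) = 1 :=
    (valuation_intCast_eq_one_iff hp hA r.num).mpr hnum
  have hd0 : ((r.den : ℕ) : Qbar) ≠ 0 := by exact_mod_cast r.den_nz
  have hvd0 : A.valuation ((r.den : ℕ) : Qbar) ≠ 0 := by simp [hd0]
  have hvp0 : A.valuation ((p : ℕ) : Qbar) ≠ 0 := by
    have : ((p : ℕ) : Qbar) ≠ 0 := by exact_mod_cast hp.ne_zero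
    simp [this]
  have hvden : A.valuation ((r.den : ℕ) : Qbar) ≤ A.valuation ((p : ℕ) : Qbar) := by
    obtain ⟨d, hd⟩ := hden
    rw [hd]
    push_cast
    rw [map_mul]
    exact mul_le_of_le_one_right zero_le ((A.valuation_le_one_iff _).mpr (natCast_mem A d))
  have hr' : (r : Qbar) = ((r.num : ℤ) : Qbar) / ((r.den : ℕ) : Qbar) := Rat.cast_def r
  rw [hr', map_div₀, hvnum, one_div]
  exact (inv_le_inv₀ (zero_lt_iff.mpr hvp0) (zero_lt_iff.mpr hvd0)).mpr hvden

theorem pbC_val_p_lt_one (hA : A.LiesOverPrime p) : A.valuation ((p : ℕ) : Qbar) < 1 :=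
  A.mem_nonunits_iff.mp hA

theorem pbC_val_p_ne_zero (hp : p.Prime) : A.valuation ((p : ℕ) : Qbar) ≠ 0 := by
  have : ((p : ℕ) : Qbar) ≠ 0 := by exact_mod_cast hp.ne_zero
  simp [this]

/-- A rational number is non-integral at `A` (over `p`) iff `p` divides its denominator; in
particular this does not depend on the choice of `A` over `p`. -/
theorem pbC_rat_not_mem_iff (hp : p.Prime) (hA : A.LiesOverPrime p) (r : ℚ) :
    (r : Qbar) ∉ A ↔ p ∣ r.den := by
  constructor
  · intro hr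
    by_contra h
    exact hr (ratCast_mem_of_not_dvd_den hp hA r h)
  · intro hden hr
    have h1 := pbC_rat_val_of_dvd hp hA r hden
    have h2 : A.valuation (r : Qbar) ≤ 1 := (A.valuation_le_one_iff _).mpr hr
    have h3 : (1 : A.ValueGroup) < (A.valuation ((p : ℕ) : Qbar))⁻¹ :=
      (one_lt_inv₀ (zero_lt_iff.mpr (pbC_val_p_ne_zero hp))).mpr (pbC_val_p_lt_one hA)
    exact absurd (lt_of_lt_of_le h3 (le_trans h1 h2)) (lt_irrefl _)

/-- A rational number which is not `A`-integral (`A` over `p`) has valuation at least `v(p)⁻¹`. -/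
theorem pbC_rat_val (hp : p.Prime) (hA : A.LiesOverPrime p) (r : ℚ)
    (hr : (r : Qbar) ∉ A) : (A.valuation (p : Qbar))⁻¹ ≤ A.valuation (r : Qbar) :=
  pbC_rat_val_of_dvd hp hA r ((pbC_rat_not_mem_iff hp hA r).mp hr)

end rat

/-! ### (2) products over Galois-stable finite sets of points are rational -/

section galois

variable {W : WeierstrassCurve ℚ}

theorem pbC_isGalois : IsGalois ℚ Qbar := by
  have h : (DivisionRing.toRatAlgebra : Algebra ℚ Qbar) = AlgebraicClosure.instAlgebra ℚ :=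
    Subsingleton.elim _ _
  rw [h]
  exact IsAlgClosure.isGalois ℚ _

/-- The `x`-coordinate (`0` at infinity). -/
noncomputable def pbC_x : (W⁄Qbar).Point → Qbar
  | .zero => 0
  | .some x _ _ => x

/-- The slope coordinate `y / x` (`0` at infinity). -/
noncomputable def pbC_m : (W⁄Qbar).Point → Qbar
  | .zero => 0
  | .some x y _ => y / x

@[simp] theorem pbC_x_some {x y : Qbar} (h : (W⁄Qbar).Nonsingular x y) :
    pbC_x (Point.some x y h : (W⁄Qbar).Point) = x := rfl

@[simp] theorem pbC_m_some {x y : Qbar} (h : (W⁄Qbar).Nonsingular x y) :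
    pbC_m (Point.some x y h : (W⁄Qbar).Point) = y / x := rfl

theorem pbC_x_smul (σ : GalQ) (R : (W⁄Qbar).Point) : pbC_x (σ • R) = σ (pbC_x R) := by
  rcases R with _ | ⟨x, y, h⟩
  · show (0 : Qbar) = σ 0
    rw [map_zero]
  · rw [smul_point_some W σ h]
    rfl

theorem pbC_m_smul (σ : GalQ) (R : (W⁄Qbar).Point) : pbC_m (σ • R) = σ (pbC_m R) := by
  rcases R with _ | ⟨x, y, h⟩
  · show (0 : Qbar) = σ 0
    rw [map_zero]
  · rw [smul_point_some W σ h]
    show σ y / σ x = σ (y / x)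
    rw [map_div₀]

/-- A `G_ℚ`-stable finite set of points is permuted by every `σ`. -/
theorem pbC_image_eq (S : Finset (W⁄Qbar).Point) (hS : ∀ σ : GalQ, ∀ R ∈ S, σ • R ∈ S)
    (σ : GalQ) : S.image (fun R => σ • R) = S := by
  classical
  apply Finset.eq_of_subset_of_card_le
  · intro R hR
    obtain ⟨R', hR', rfl⟩ := Finset.mem_image.mp hR
    exact hS σ R' hR'
  · rw [Finset.card_image_of_injective _ (MulAction.injective σ)]

/-- The product of a Galois-equivariant function over a `G_ℚ`-stable finite set of points is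
a rational number. -/
theorem pbC_prod_rat (S : Finset (W⁄Qbar).Point) (hS : ∀ σ : GalQ, ∀ R ∈ S, σ • R ∈ S)
    (f : (W⁄Qbar).Point → Qbar) (hf : ∀ (σ : GalQ) R, f (σ • R) = σ (f R)) :
    ∃ r : ℚ, (r : Qbar) = ∏ R ∈ S, f R := by
  classical
  have hfix : ∀ σ : GalQ, σ (∏ R ∈ S, f R) = ∏ R ∈ S, f R := by
    intro σ
    rw [map_prod]
    conv_rhs => rw [← pbC_image_eq S hS σ]
    rw [Finset.prod_image (fun a _ b _ h => MulAction.injective σ h)]
    exact Finset.prod_congr rfl fun R _ => (hf σ R).symm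
  have := pbC_isGalois
  obtain ⟨r, hr⟩ := (InfiniteGalois.mem_range_algebraMap_iff_fixed (k := ℚ) (K := Qbar) _).2 hfix
  exact ⟨r, by rw [← hr, eq_ratCast]⟩

end galois

/-! ### (4)-(6) the product bound and its consequences -/

section bound

variable {W : WeierstrassCurve ℚ} {A : ValuationSubring Qbar} {p : ℕ}

theorem pbC_one_lt_prod {ι Γ : Type*} [LinearOrderedCommGroupWithZero Γ] (S : Finset ι)
    (g : ι → Γ) (hne : S.Nonempty) (hg : ∀ i ∈ S, 1 < g i) : 1 < ∏ i ∈ S, g i := by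
  refine Finset.prod_induction_nonempty g (fun z => 1 < z) ?_ hne hg
  intro a b ha hb
  calc (1 : Γ) < a := ha
    _ = a * 1 := (mul_one a).symm
    _ < a * b := (mul_lt_mul_iff_right₀ (lt_trans zero_lt_one ha)).mpr hb

theorem pbC_one_le_prod {ι Γ : Type*} [LinearOrderedCommGroupWithZero Γ] (S : Finset ι)
    (g : ι → Γ) (hg : ∀ i ∈ S, 1 < g i) : 1 ≤ ∏ i ∈ S, g i := by
  rcases S.eq_empty_or_nonempty with rfl | hne
  · simp
  · exact (pbC_one_lt_prod S g hne hg).le

/-- Integrality of the coefficients of the base change. -/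
def pbC_Integral (A : ValuationSubring Qbar) (W : WeierstrassCurve ℚ) : Prop :=
  (W⁄Qbar).a₁ ∈ A ∧ (W⁄Qbar).a₂ ∈ A ∧ (W⁄Qbar).a₃ ∈ A ∧ (W⁄Qbar).a₄ ∈ A ∧ (W⁄Qbar).a₆ ∈ A

/-- Pointwise form of `pbC_val_slope`. -/
theorem pbC_val_m_sq (hW : pbC_Integral A W) (R : (W⁄Qbar).Point) (hR : pbC_x R ∉ A) :
    A.valuation (pbC_m R) ^ 2 = A.valuation (pbC_x R) := by
  rcases R with _ | ⟨x, y, h⟩
  · exact absurd A.zero_mem hR
  · obtain ⟨h1, h2, h3, h4, h6⟩ := hW
    have heq := (Affine.equation_iff _ _).mp h.1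
    exact pbC_val_slope A h1 h2 h3 h4 h6 hR heq

theorem pbC_one_lt_val_m (hW : pbC_Integral A W) (R : (W⁄Qbar).Point) (hR : pbC_x R ∉ A) :
    1 < A.valuation (pbC_m R) := by
  have h1 := pbC_val_m_sq hW R hR
  have h2 : 1 < A.valuation (pbC_x R) := pbC_one_lt_of_not_mem A hR
  by_contra hcon
  rw [not_lt] at hcon
  have : A.valuation (pbC_m R) ^ 2 ≤ 1 := pow_le_one₀ zero_le hcon
  rw [h1] at this
  exact absurd h2 (not_lt.mpr this)

/-- **(4)** A finite nonempty `G_ℚ`-stable set of points inside the kernel of reduction at `A`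
(over `p`) has `∏ v(x R) ≥ v(p)⁻²`. -/
theorem pbC_stable_prod (hp : p.Prime) (hA : A.LiesOverPrime p) (hW : pbC_Integral A W)
    (S : Finset (W⁄Qbar).Point) (hS : ∀ σ : GalQ, ∀ R ∈ S, σ • R ∈ S) (hne : S.Nonempty)
    (hE1 : ∀ R ∈ S, pbC_x R ∉ A) :
    ((A.valuation ((p : ℕ) : Qbar))⁻¹) ^ 2 ≤ ∏ R ∈ S, A.valuation (pbC_x R) := by
  obtain ⟨r, hr⟩ := pbC_prod_rat S hS pbC_m pbC_m_smul
  have hv : A.valuation (r : Qbar) = ∏ R ∈ S, A.valuation (pbC_m R) := by
    rw [hr, map_prod]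
  have hgt : 1 < A.valuation (r : Qbar) := by
    rw [hv]
    exact pbC_one_lt_prod S _ hne fun R hR => pbC_one_lt_val_m hW R (hE1 R hR)
  have hrA : (r : Qbar) ∉ A := fun h =>
    absurd ((A.valuation_le_one_iff _).mpr h) (not_le.mpr hgt)
  have h1 := pbC_rat_val hp hA r hrA
  calc ((A.valuation ((p : ℕ) : Qbar))⁻¹) ^ 2 ≤ A.valuation (r : Qbar) ^ 2 :=
        pow_le_pow_left₀ zero_le h1 2
    _ = ∏ R ∈ S, A.valuation (pbC_m R) ^ 2 := by rw [hv, Finset.prod_pow]
    _ = ∏ R ∈ S, A.valuation (pbC_x R) :=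
        Finset.prod_congr rfl fun R hR => pbC_val_m_sq hW R (hE1 R hR)

/-- **(5)** Under the product bound for `T`, if a proper nonempty subset `S ⊆ T` is `G_ℚ`-stable,
then not all of `T` lies in the kernel of reduction at `A`. -/
theorem pbC_not_all_E1 (hp : p.Prime) (hA : A.LiesOverPrime p) (hW : pbC_Integral A W)
    (T S : Finset (W⁄Qbar).Point)
    (hPB : A.valuation ((p : ℕ) : Qbar) ^ 2 * ∏ R ∈ T, A.valuation (pbC_x R) ≤ 1)
    (hST : S ⊆ T) (hS : ∀ σ : GalQ, ∀ R ∈ S, σ • R ∈ S) (hne : S.Nonempty)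
    (hQ : ∃ Q ∈ T, Q ∉ S) : ¬ ∀ R ∈ T, pbC_x R ∉ A := by
  classical
  intro hall
  have h1 := pbC_stable_prod hp hA hW S hS hne fun R hR => hall R (hST hR)
  have hsplit : ∏ R ∈ T, A.valuation (pbC_x R) =
      (∏ R ∈ S, A.valuation (pbC_x R)) * ∏ R ∈ T \ S, A.valuation (pbC_x R) := by
    rw [mul_comm]
    exact (Finset.prod_sdiff hST).symm
  have hne' : (T \ S).Nonempty := by
    obtain ⟨Q, hQT, hQS⟩ := hQ
    exact ⟨Q, Finset.mem_sdiff.mpr ⟨hQT, hQS⟩⟩
  have h2 : 1 < ∏ R ∈ T \ S, A.valuation (pbC_x R) :=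
    pbC_one_lt_prod _ _ hne' fun R hR =>
      pbC_one_lt_of_not_mem A (hall R (Finset.mem_sdiff.mp hR).1)
  have hvp0 := pbC_val_p_ne_zero (A := A) hp
  have h3 : 1 ≤ A.valuation ((p : ℕ) : Qbar) ^ 2 * ∏ R ∈ S, A.valuation (pbC_x R) := by
    calc (1 : A.ValueGroup) = A.valuation ((p : ℕ) : Qbar) ^ 2 *
          ((A.valuation ((p : ℕ) : Qbar))⁻¹) ^ 2 := by
          rw [← mul_pow, mul_inv_cancel₀ hvp0, one_pow]
      _ ≤ _ := by gcongr
  have h4 : 1 < A.valuation ((p : ℕ) : Qbar) ^ 2 * ∏ R ∈ T, A.valuation (pbC_x R) := by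
    rw [hsplit, ← mul_assoc]
    calc (1 : A.ValueGroup) < ∏ R ∈ T \ S, A.valuation (pbC_x R) := h2
      _ = 1 * ∏ R ∈ T \ S, A.valuation (pbC_x R) := (one_mul _).symm
      _ ≤ _ := by gcongr
  exact absurd hPB (not_le.mpr h4)

/-- The product bound from a polynomial with `A`-integral coefficients, leading coefficient `c`
with `v(p)² ≤ v(c)`, whose roots are the `x`-coordinates of the points of `T`. -/
theorem pbC_PB_of_poly (T : Finset (W⁄Qbar).Point) (F : Polynomial Qbar) (c : Qbar)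
    (hF : ∀ i, F.coeff i ∈ A)
    (hFT : F = Polynomial.C c * ∏ R ∈ T, (Polynomial.X - Polynomial.C (pbC_x R)))
    (hc : A.valuation ((p : ℕ) : Qbar) ^ 2 ≤ A.valuation c) :
    A.valuation ((p : ℕ) : Qbar) ^ 2 * ∏ R ∈ T, A.valuation (pbC_x R) ≤ 1 := by
  have h0 : F.coeff 0 = c * ∏ R ∈ T, (-(pbC_x R)) := by
    rw [Polynomial.coeff_zero_eq_eval_zero, hFT, Polynomial.eval_mul, Polynomial.eval_C,
      Polynomial.eval_prod]
    congr 1
    exact Finset.prod_congr rfl fun R _ => by simp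
  have h1 : A.valuation (F.coeff 0) ≤ 1 := (A.valuation_le_one_iff _).mpr (hF 0)
  rw [h0, map_mul, map_prod] at h1
  have h2 : ∏ R ∈ T, A.valuation (-(pbC_x R)) = ∏ R ∈ T, A.valuation (pbC_x R) :=
    Finset.prod_congr rfl fun R _ => Valuation.map_neg _ _
  rw [h2] at h1
  exact le_trans (by gcongr) h1

/-- **(6)** A finite nonempty `G_ℚ`-stable set of points cannot lie in the kernel of reduction for
one valuation subring `A` over `p` and consist of `A'`-integral points for another `A'` over `p`. -/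
theorem pbC_uniform (hp : p.Prime) {A' : ValuationSubring Qbar} (hA : A.LiesOverPrime p)
    (hA' : A'.LiesOverPrime p)
    (S : Finset (W⁄Qbar).Point) (hS : ∀ σ : GalQ, ∀ R ∈ S, σ • R ∈ S) (hne : S.Nonempty)
    (hE1 : ∀ R ∈ S, pbC_x R ∉ A) (hint : ∀ R ∈ S, pbC_x R ∈ A') : False := by
  obtain ⟨r, hr⟩ := pbC_prod_rat S hS pbC_x pbC_x_smul
  have hgt : 1 < A.valuation (r : Qbar) := by
    rw [hr, map_prod]
    exact pbC_one_lt_prod S _ hne fun R hR => pbC_one_lt_of_not_mem A (hE1 R hR)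
  have hrA : (r : Qbar) ∉ A := fun h =>
    absurd ((A.valuation_le_one_iff _).mpr h) (not_le.mpr hgt)
  have hden := (pbC_rat_not_mem_iff hp hA r).mp hrA
  have hrA' : (r : Qbar) ∉ A' := (pbC_rat_not_mem_iff hp hA' r).mpr hden
  apply hrA'
  rw [hr]
  exact Subring.prod_mem _ hint

end bound

end Fermat.Agent.S13C
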