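import Fermat.Agent.S13.Contracts
import Fermat.Agent.S13.ModPlumbing
import Fermat.Agent.S13.PBound
import Fermat.Agent.S05.Formal
import Fermat.Agent.S05.FreyNumbers

/-!
# S13, package (C): assembly of `ContractC`

Inputs (hypotheses of `asC_contractC`):
* `ContractA P` : `#E[p] = p²`;
* `asC_HC1 P`   : for `A` over `p`, `σ ∈ I_A`, `x ∈ E[p]`: `σ • x - x` lies in the kernel of
                  reduction `E₁(A)` (zero or `x`-coordinate not in `A`);
* `asC_HPB P`   : the product bound `v_A(p)² ∏_{R ∈ E[p]∖0} v_A(x R) ≤ 1` for every `A` over `p`.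

Output: `ContractC P`.  The kernel of reduction is a subgroup by `S05/Formal.lean` (the Frey model
is `A`-integral and `2` is a unit at `A` over the odd prime `p`); `V₀(A) ≠ V` and the uniformity in
`A` are `PBound.lean`.
-/

set_option autoImplicit false

namespace Fermat.Agent.S13C

open WeierstrassCurve WeierstrassCurve.Affine Fermat.Agent.S05
open Fermat.Agent.S13x (FreyTors IsStableLine TrivOnSub TrivOnQuot ContractA ContractC)

/-- `R` lies in the kernel of reduction at `A`: it is `0` or its `x`-coordinate is not in `A`. -/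
def asC_inE1 {W : WeierstrassCurve ℚ} (A : ValuationSubring Qbar) (R : (W⁄Qbar).Point) : Prop :=
  R = 0 ∨ pbC_x R ∉ A

/-- Input (C1): inertia at `p` moves `p`-torsion points by elements of the kernel of reduction. -/
def asC_HC1 (P : FreyPackage) : Prop :=
  ∀ A : ValuationSubring Qbar, A.LiesOverPrime P.p → ∀ σ ∈ A.inertiaSubgroupIn ℚ,
    ∀ x : FreyTors P, asC_inE1 A ((σ • x - x : FreyTors P) : (P.freyCurve⁄Qbar).Point)

/-- Input (PB): the product bound for the nonzero `p`-torsion points. -/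
def asC_HPB (P : FreyPackage) : Prop :=
  ∀ A : ValuationSubring Qbar, A.LiesOverPrime P.p →
    ∀ T : Finset (P.freyCurve⁄Qbar).Point,
      (∀ R, R ∈ T ↔ (R ≠ 0 ∧ (P.p : ℤ) • R = 0)) →
      A.valuation ((P.p : ℕ) : Qbar) ^ 2 * ∏ R ∈ T, A.valuation (pbC_x R) ≤ 1

section integrality

variable (P : FreyPackage) {A : ValuationSubring Qbar}

theorem asC_val_two (hA : A.LiesOverPrime P.p) : A.valuation (2 : Qbar) = 1 :=
  valuation_two_eq_one P.pp hA (by have := P.hp5; omega)

theorem asC_inv_mem_of_val_one {z : Qbar} (hz : A.valuation z = 1) : z⁻¹ ∈ A := by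
  rw [← A.valuation_le_one_iff, map_inv₀, hz, inv_one]

/-- The Frey model is integral at every `A` over `p`. -/
theorem asC_frey_integral (hA : A.LiesOverPrime P.p) : pbC_Integral A P.freyCurve := by
  have h2 := asC_val_two P hA
  have h4 : A.valuation (4 : Qbar) = 1 := by
    have : (4 : Qbar) = 2 ^ 2 := by norm_num
    rw [this, map_pow, h2, one_pow]
  have h16 : A.valuation (16 : Qbar) = 1 := by
    have : (16 : Qbar) = 2 ^ 4 := by norm_num
    rw [this, map_pow, h2, one_pow]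
  have hkA : (kA P : Qbar) ∈ A := by rw [kA_eq]; exact pow_mem (intCast_mem A _) _
  have hkB : (kB P : Qbar) ∈ A := by rw [kB_eq]; exact pow_mem (intCast_mem A _) _
  refine ⟨?_, ?_, ?_, ?_, ?_⟩
  · rw [Fermat.Agent.S05.baseChange_a₁ P]; exact A.one_mem
  · rw [Fermat.Agent.S05.baseChange_a₂ P, div_eq_mul_inv]
    exact A.mul_mem _ _ (A.sub_mem (A.sub_mem hkB A.one_mem) hkA)
      (asC_inv_mem_of_val_one h4)
  · rw [Fermat.Agent.S05.baseChange_a₃ P]; exact A.zero_mem
  · rw [Fermat.Agent.S05.baseChange_a₄ P, div_eq_mul_inv]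
    exact A.mul_mem _ _ (A.neg_mem _ (A.mul_mem _ _ hkA hkB)) (asC_inv_mem_of_val_one h16)
  · rw [Fermat.Agent.S05.baseChange_a₆ P]; exact A.zero_mem

theorem asC_frey_integralB (hA : A.LiesOverPrime P.p) :
    IntegralB A.valuation (P.freyCurve⁄Qbar) := by
  obtain ⟨h1, h2, h3, h4, h6⟩ := asC_frey_integral P hA
  exact IntegralB.of_coeffs A h1 h2 h3 h4 h6 (asC_val_two P hA)

end integrality

/-! ### lines in a plane over `ZMod p` -/

section lines

open Fermat.Agent.S13x (finite_of_card_sq finrank_eq_two_of_card_sq finrank_of_ne_bot_ne_top)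

variable {p : ℕ} [Fact p.Prime] {V : Type*} [AddCommGroup V] [Module (ZMod p) V]

theorem asC_line_dichotomy (hV : Nat.card V = p ^ 2) (N M : Submodule (ZMod p) V)
    (h0 : N ≠ ⊥) (h1 : N ≠ ⊤) : N ⊓ M = ⊥ ∨ N ≤ M := by
  have := finite_of_card_sq hV
  have hN := finrank_of_ne_bot_ne_top hV N h0 h1
  have hle : Module.finrank (ZMod p) ↥(N ⊓ M) ≤ Module.finrank (ZMod p) N :=
    Submodule.finrank_mono inf_le_left
  by_cases hz : Module.finrank (ZMod p) ↥(N ⊓ M) = 0
  · exact Or.inl (Submodule.finrank_eq_zero.mp hz)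
  · right
    have heq : Module.finrank (ZMod p) ↥(N ⊓ M) = Module.finrank (ZMod p) N := by omega
    have := Submodule.eq_of_le_of_finrank_eq (inf_le_left : N ⊓ M ≤ N) heq
    rw [← this]
    exact inf_le_right

theorem asC_eq_of_le_of_ne_top (hV : Nat.card V = p ^ 2) (N M : Submodule (ZMod p) V)
    (h0 : N ≠ ⊥) (h1 : N ≠ ⊤) (hNM : N ≤ M) (hM : M ≠ ⊤) : N = M := by
  have := finite_of_card_sq hV
  have hN := finrank_of_ne_bot_ne_top hV N h0 h1
  have h2 := finrank_eq_two_of_card_sq hV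
  have hlt : Module.finrank (ZMod p) M < 2 := by
    rw [← h2]; exact Submodule.finrank_lt hM
  have hle : Module.finrank (ZMod p) N ≤ Module.finrank (ZMod p) M := Submodule.finrank_mono hNM
  exact Submodule.eq_of_le_of_finrank_eq hNM (by omega)

end lines

/-! ### the kernel of reduction inside `E[p]` -/

section assembly

variable (P : FreyPackage) {A : ValuationSubring Qbar}

theorem asC_xc_eq {W : WeierstrassCurve ℚ} (R : (W⁄Qbar).Point) :
    Fermat.Agent.S51.xc R = pbC_x R := by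
  rcases R with _ | ⟨x, y, h⟩ <;> rfl

/-- The kernel of reduction among the `p`-torsion points, as a `ZMod p`-submodule. -/
noncomputable def asC_V0 (hA : A.LiesOverPrime P.p) : Submodule (ZMod P.p) (FreyTors P) :=
  AddSubgroup.toZModSubmodule P.p
    ((E1 (asC_frey_integralB P hA)).comap
      (Submodule.torsionBy ℤ (P.freyCurve⁄Qbar).Point P.p).subtype.toAddMonoidHom)

theorem asC_mem_V0 (hA : A.LiesOverPrime P.p) (x : FreyTors P) :
    x ∈ asC_V0 P hA ↔ asC_inE1 A (x : (P.freyCurve⁄Qbar).Point) := by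
  unfold asC_V0 asC_inE1
  rw [AddSubgroup.mem_toZModSubmodule, AddSubgroup.mem_comap, mem_E1_iff', asC_xc_eq]
  rfl

/-- **Assembly of (C).** -/
theorem asC_contractC (hAc : ContractA P) (h1 : asC_HC1 P) (hPB : asC_HPB P) : ContractC P := by
  classical
  intro N hN
  obtain ⟨hst, hbot, htop⟩ := hN
  have : Fact P.p.Prime := ⟨P.pp⟩
  have hfin : Finite (FreyTors P) := Fermat.Agent.S13x.finite_of_card_sq hAc
  -- the finite set `T` of nonzero `p`-torsion points
  have hTfin : {R : (P.freyCurve⁄Qbar).Point | R ≠ 0 ∧ (P.p : ℤ) • R = 0}.Finite := by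
    refine Set.Finite.subset (Set.finite_range
      (Subtype.val : FreyTors P → (P.freyCurve⁄Qbar).Point)) ?_
    rintro R ⟨-, hR⟩
    exact ⟨⟨R, (Submodule.mem_torsionBy_iff _ _).mpr hR⟩, rfl⟩
  set T : Finset (P.freyCurve⁄Qbar).Point := hTfin.toFinset with hT
  have hTmem : ∀ R, R ∈ T ↔ (R ≠ 0 ∧ (P.p : ℤ) • R = 0) := fun R => by
    rw [hT, Set.Finite.mem_toFinset]; rfl
  -- the subset `S` of the nonzero points of `N`
  set S : Finset (P.freyCurve⁄Qbar).Point :=
    T.filter (fun R => ∃ x ∈ N, (x : (P.freyCurve⁄Qbar).Point) = R) with hS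
  have hSmem : ∀ R, R ∈ S ↔ (R ≠ 0 ∧ ∃ x ∈ N, (x : (P.freyCurve⁄Qbar).Point) = R) := by
    intro R
    rw [hS, Finset.mem_filter, hTmem]
    constructor
    · rintro ⟨⟨h0, -⟩, hx⟩; exact ⟨h0, hx⟩
    · rintro ⟨h0, x, hx, rfl⟩
      exact ⟨⟨h0, (Submodule.mem_torsionBy_iff _ _).mp x.2⟩, x, hx, rfl⟩
  have hST : S ⊆ T := Finset.filter_subset _ _
  have hSst : ∀ σ : GalQ, ∀ R ∈ S, σ • R ∈ S := by
    intro σ R hR
    obtain ⟨h0, x, hx, rfl⟩ := (hSmem R).mp hR
    refine (hSmem _).mpr ⟨?_, σ • x, hst σ x hx, rfl⟩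
    intro h
    apply h0
    have : σ • (x : (P.freyCurve⁄Qbar).Point) = σ • (0 : (P.freyCurve⁄Qbar).Point) :=
      h.trans (smul_point_zero P.freyCurve σ).symm
    exact MulAction.injective σ this
  have hSne : S.Nonempty := by
    obtain ⟨x, hxN, hx0⟩ := (Submodule.ne_bot_iff N).mp hbot
    refine ⟨(x : (P.freyCurve⁄Qbar).Point), (hSmem _).mpr ⟨?_, x, hxN, rfl⟩⟩
    intro h
    exact hx0 (Subtype.ext h)
  have hQ : ∃ Q ∈ T, Q ∉ S := by
    obtain ⟨x, hx⟩ : ∃ x : FreyTors P, x ∉ N := by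
      by_contra hcon
      push Not at hcon
      exact htop (eq_top_iff.mpr fun x _ => hcon x)
    have hx0 : x ≠ 0 := fun h => hx (h ▸ N.zero_mem)
    refine ⟨(x : (P.freyCurve⁄Qbar).Point), (hTmem _).mpr ⟨?_, ?_⟩, ?_⟩
    · intro h; exact hx0 (Subtype.ext h)
    · exact (Submodule.mem_torsionBy_iff _ _).mp x.2
    · intro hxS
      obtain ⟨-, x', hx', he⟩ := (hSmem _).mp hxS
      exact hx ((Subtype.ext he : x' = x) ▸ hx')
  -- per place: `N ⊓ V₀(A) = ⊥` or `N ≤ V₀(A)`
  have hdich : ∀ (A : ValuationSubring Qbar) (hA : A.LiesOverPrime P.p),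
      N ⊓ asC_V0 P hA = ⊥ ∨ N ≤ asC_V0 P hA :=
    fun A hA => asC_line_dichotomy hAc N (asC_V0 P hA) hbot htop
  -- `N ≤ V₀(A)` means that all of `S` lies in the kernel of reduction
  have hS_E1 : ∀ (A : ValuationSubring Qbar) (hA : A.LiesOverPrime P.p), N ≤ asC_V0 P hA →
      ∀ R ∈ S, pbC_x R ∉ A := by
    intro A hA hle R hR
    obtain ⟨h0, x, hx, rfl⟩ := (hSmem R).mp hR
    rcases (asC_mem_V0 P hA x).mp (hle hx) with h | h
    · exact absurd h h0
    · exact h
  -- `N ⊓ V₀(A) = ⊥` means that all of `S` is `A`-integral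
  have hS_int : ∀ (A : ValuationSubring Qbar) (hA : A.LiesOverPrime P.p),
      N ⊓ asC_V0 P hA = ⊥ → ∀ R ∈ S, pbC_x R ∈ A := by
    intro A hA hinf R hR
    obtain ⟨h0, x, hx, rfl⟩ := (hSmem R).mp hR
    by_contra hcon
    have hxV0 : x ∈ asC_V0 P hA := (asC_mem_V0 P hA x).mpr (Or.inr hcon)
    have : x ∈ N ⊓ asC_V0 P hA := ⟨hx, hxV0⟩
    rw [hinf, Submodule.mem_bot] at this
    exact h0 (by rw [this]; rfl)
  by_cases hex : ∃ (A : ValuationSubring Qbar) (hA : A.LiesOverPrime P.p), N ≤ asC_V0 P hA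
  · -- second alternative: inertia is trivial on the quotient
    right
    obtain ⟨A0, hA0, hle0⟩ := hex
    intro A hA σ hσ x
    have hle : N ≤ asC_V0 P hA := by
      rcases hdich A hA with h | h
      · exact (pbC_uniform P.pp hA0 hA S hSst hSne (hS_E1 A0 hA0 hle0) (hS_int A hA h)).elim
      · exact h
    have hne_top : asC_V0 P hA ≠ ⊤ := by
      intro htopV
      refine pbC_not_all_E1 P.pp hA (asC_frey_integral P hA) T S (hPB A hA T hTmem) hST hSst hSne
        hQ ?_
      intro R hR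
      obtain ⟨h0, hR'⟩ := (hTmem R).mp hR
      have hmem : (⟨R, (Submodule.mem_torsionBy_iff _ _).mpr hR'⟩ : FreyTors P) ∈ asC_V0 P hA := by
        rw [htopV]; exact Submodule.mem_top
      rcases (asC_mem_V0 P hA _).mp hmem with h | h
      · exact absurd h h0
      · exact h
    have heq : N = asC_V0 P hA := asC_eq_of_le_of_ne_top hAc N _ hbot htop hle hne_top
    rw [heq, asC_mem_V0]
    exact h1 A hA σ hσ x
  · -- first alternative: inertia is trivial on the line
    left
    push Not at hex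
    intro A hA σ hσ x hx
    have hinf : N ⊓ asC_V0 P hA = ⊥ := by
      rcases hdich A hA with h | h
      · exact h
      · exact absurd h (hex A hA)
    have hmem : σ • x - x ∈ N ⊓ asC_V0 P hA :=
      ⟨N.sub_mem (hst σ x hx) hx, (asC_mem_V0 P hA _).mpr (h1 A hA σ hσ x)⟩
    rw [hinf, Submodule.mem_bot] at hmem
    exact sub_eq_zero.mp hmem

end assembly

end Fermat.Agent.S13C
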