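/-
S13, package (C), step (C1): for a place `A` of `Qbar` above an ODD prime `q` (in particular
`q = p`), inertia at `A` moves every `p`-torsion point of the Frey curve by an element of the
kernel of reduction `E₁(A)`:  `σ • T - T ∈ E₁(A)`.

This is the S05 chain (good reduction: `Congruence.map_sub_mem_E1`; multiplicative reduction:
`MultEndgame` cases (a), (b), (c) + `LegLabel.torsion_label`) run BEFORE its final torsion-free
step, so that the residue characteristic `q` may be equal to `p`.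
-/
import Fermat.Agent.S05.TLProof
import Fermat.Agent.S05.MultEndgame
import Fermat.Agent.S05.KernelE1
import Fermat.Agent.S13.Contracts

set_option autoImplicit false

namespace Fermat.Agent.S13C

open WeierstrassCurve WeierstrassCurve.Affine Fermat.Agent.S05 Fermat.Agent.S05.Transport
open Fermat.Agent.S05.MultEndgame

section generic

variable {K : Type*} [Field K] [DecidableEq K] (A : ValuationSubring K) {W : Affine K}

/-- **Good reduction, key step.** If `Δ` is a unit of `A` and `τ` acts on coordinates through a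
map `s` which is trivial modulo the maximal ideal, then `τ P - P` lies in the kernel of reduction
for EVERY point `P`. -/
theorem inP_key_good (ha₁ : W.a₁ ∈ A) (ha₂ : W.a₂ ∈ A) (ha₃ : W.a₃ ∈ A) (ha₄ : W.a₄ ∈ A)
    (ha₆ : W.a₆ ∈ A) (hΔ : W.Δ ∉ A.nonunits)
    (τ : W.Point →+ W.Point) (s : K → K) (hs : ∀ x ∈ A, s x - x ∈ A.nonunits)
    (hsA : ∀ x, s x ∈ A → x ∈ A)
    (hτ : ∀ (x y : K) (h : W.Nonsingular x y), ∃ h', τ (.some x y h) = .some (s x) (s y) h')
    (hE1sub : ∀ P Q : W.Point, InE1 A P → InE1 A Q → InE1 A (P - Q))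
    (P : W.Point) : InE1 A (τ P - P) := by
  rcases P with _ | ⟨x, y, h⟩
  · have : τ Point.zero - Point.zero = (0 : W.Point) := by
      rw [← Point.zero_def, map_zero, sub_zero]
    rw [this]
    exact trivial
  · by_cases hx : x ∈ A
    · have hy : y ∈ A := y_mem_of_x_mem A ha₁ ha₂ ha₃ ha₄ ha₆ h.1 hx
      exact map_sub_mem_E1 A ha₁ ha₂ ha₃ ha₄ τ s hs hτ h hx hy
        (unit_Wx_or_Wy_of_Δ_unit A ha₁ ha₂ hΔ h.1 hx)
    · obtain ⟨h', e⟩ := hτ x y h
      rw [e]
      exact hE1sub _ _ (show s x ∉ A from fun hsx => hx (hsA x hsx)) (show x ∉ A from hx)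

/-- **Multiplicative reduction, key step** (the first half of
`MultEndgame.fixed_of_mult_reduction`, which does not use that `E₁` has no `n`-torsion). -/
theorem inP_key_mult (hW : LegType A W) (τ : W.Point →+ W.Point) (s : K →+* K)
    (hs : ∀ x ∈ A, s x - x ∈ A.nonunits) (hsA : ∀ x, s x ∈ A → x ∈ A)
    (hτ : ∀ (x y : K) (h : W.Nonsingular x y), ∃ h', τ (.some x y h) = .some (s x) (s y) h')
    (hE1sub : ∀ P Q : W.Point, InE1 A P → InE1 A Q → InE1 A (P - Q)) (n : ℤ)
    (hmid : ∀ (x y : K) (h : W.Nonsingular x y), n • Point.some x y h = 0 →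
      A.valuation W.a₄ < A.valuation x → A.valuation x < 1 →
        ∃ g : K, s g = g ∧ A.valuation g = A.valuation x)
    (P : W.Point) (hP : n • P = 0) : InE1 A (τ P - P) := by
  rcases P with _ | ⟨x, y, h⟩
  · exact sub_mem_E1_of_mem_E0 hW τ s hs hsA hτ hE1sub _ trivial
  · by_cases hx1 : A.valuation x < 1
    · by_cases hx2 : A.valuation W.a₄ < A.valuation x
      · obtain ⟨g, hg, hgx⟩ := hmid x y h hP hx2 hx1
        exact sub_mem_E1_of_mid hW τ s hs hτ h hx1 hx2 g hg hgx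
      · by_cases hx0 : x = 0
        · subst hx0
          have heq := hW.equation h.1
          have hy : y = 0 := by
            have : y ^ 2 = 0 := by rw [heq]; ring
            exact pow_eq_zero_iff (by norm_num) |>.mp this
          subst hy
          rw [map_origin hW τ s hτ, sub_self]
          exact trivial
        · exact sub_mem_E1_of_low hW τ s hs hsA hτ hE1sub h hx0 (not_lt.mp hx2)
    · exact sub_mem_E1_of_mem_E0 hW τ s hs hsA hτ hE1sub _
        (show x ∉ A.nonunits from fun hm => hx1 (A.mem_nonunits_iff.mp hm))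

end generic

section legendre

/-- **(C1) on the Legendre-type model** `y² = x (x - α) (x + β)`, `β = ± tᵖ`, `α` and `α + β`
prime to the ODD residue characteristic `q` (`q = p` allowed): inertia at `A | q` moves every
`p`-torsion point by an element of the kernel of reduction. -/
theorem inP_key_legendre (p q : ℕ) (α β t : ℤ) (hp : p.Prime)
    (hq : q.Prime) (hq2 : q ≠ 2) (hα : ¬ (q : ℤ) ∣ α) (hαβ : ¬ (q : ℤ) ∣ (α + β))
    (hα0 : α ≠ 0) (hβ0 : β ≠ 0) (hβt : β = t ^ p ∨ β = -t ^ p)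
    (A : ValuationSubring Qbar) (hA : A.LiesOverPrime q) (s : GalQ)
    (hs : s ∈ A.inertiaSubgroupIn ℚ) (T : (legK α β).Point) (hT : (p : ℤ) • T = 0) :
    InE1 A (s • T - T) := by
  have h2 : A.valuation (2 : Qbar) = 1 := valuation_two_eq_one hq hA hq2
  have hvα : A.valuation ((α : ℤ) : Qbar) = 1 := (valuation_intCast_eq_one_iff hq hA α).mpr hα
  have hvαβ : A.valuation ((α + β : ℤ) : Qbar) = 1 :=
    (valuation_intCast_eq_one_iff hq hA (α + β)).mpr hαβ
  have e1 : (legK α β).a₁ = 0 := legendre_bc_a₁ α β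
  have e3 : (legK α β).a₃ = 0 := legendre_bc_a₃ α β
  have e6 : (legK α β).a₆ = 0 := legendre_bc_a₆ α β
  have e2 : (legK α β).a₂ = ((β - α : ℤ) : Qbar) := legendre_bc_a₂ α β
  have e4 : (legK α β).a₄ = ((-(α * β) : ℤ) : Qbar) := legendre_bc_a₄ α β
  have m1 : (legK α β).a₁ ∈ A := by rw [e1]; exact A.zero_mem
  have m3 : (legK α β).a₃ ∈ A := by rw [e3]; exact A.zero_mem
  have m6 : (legK α β).a₆ ∈ A := by rw [e6]; exact A.zero_mem
  have m2 : (legK α β).a₂ ∈ A := by rw [e2]; exact intCast_mem A _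
  have m4 : (legK α β).a₄ ∈ A := by rw [e4]; exact intCast_mem A _
  have hWB : IntegralB A.valuation (legK α β) := IntegralB.of_coeffs A m1 m2 m3 m4 m6 h2
  let τ : (legK α β).Point →+ (legK α β).Point := DistribSMul.toAddMonoidHom (legK α β).Point s
  let sR : Qbar →+* Qbar := (s : Qbar ≃ₐ[ℚ] Qbar).toAlgHom.toRingHom
  have hsR : ∀ x ∈ A, sR x - x ∈ A.nonunits := fun x hx => inertia_sub_mem_nonunits hs hx
  have hsA : ∀ x, sR x ∈ A → x ∈ A := fun x hx => (inertia_mem_iff hs x).mp hx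
  have hτ : ∀ (x y : Qbar) (h : (legK α β).Nonsingular x y),
      ∃ h', τ (.some x y h) = .some (sR x) (sR y) h' :=
    fun x y h => ⟨nonsingular_apply _ s h, rfl⟩
  have hE1sub : ∀ P Q : (legK α β).Point, InE1 A P → InE1 A Q → InE1 A (P - Q) :=
    fun P Q hP hQ => KernelE1.inE1_sub_of_integralB A hWB hP hQ
  show InE1 A (τ T - T)
  by_cases hqβ : (q : ℤ) ∣ β
  · -- multiplicative reduction
    have hvβ : A.valuation ((β : ℤ) : Qbar) < 1 :=
      val_lt_one_of_mem_nonunits ((intCast_mem_nonunits_iff hq hA β).mpr hqβ)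
    have ha₂ : A.valuation (legK α β).a₂ = 1 := by
      rw [e2]
      have : ((β - α : ℤ) : Qbar) = -((α : ℤ) : Qbar) + ((β : ℤ) : Qbar) := by push_cast; ring
      rw [this]
      exact val_add_eq_one_of_lt (by rw [Valuation.map_neg]; exact hvα) hvβ
    have hva₄ : A.valuation (legK α β).a₄ = A.valuation ((β : ℤ) : Qbar) := by
      rw [e4]
      have : ((-(α * β) : ℤ) : Qbar) = -(((α : ℤ) : Qbar) * ((β : ℤ) : Qbar)) := by push_cast; ring
      rw [this, Valuation.map_neg, map_mul, hvα, one_mul]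
    have ha₄ : A.valuation (legK α β).a₄ < 1 := by rw [hva₄]; exact hvβ
    have ha₄0 : (legK α β).a₄ ≠ 0 := by
      rw [e4]
      exact_mod_cast neg_ne_zero.mpr (mul_ne_zero hα0 hβ0)
    have hvβt : A.valuation ((β : ℤ) : Qbar) = A.valuation ((t : ℤ) : Qbar) ^ p := by
      rcases hβt with h | h
      · rw [h]; push_cast; rw [map_pow]
      · rw [h]; push_cast; rw [Valuation.map_neg, map_pow]
    have hLT : LegType A (legK α β) := ⟨e1, e3, e6, ha₂, ha₄, ha₄0, h2⟩
    refine inP_key_mult A hLT τ sR hsR hsA hτ hE1sub (p : ℤ) ?_ T hT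
    intro x y h hn hx4 hx1
    rw [natCast_zsmul] at hn
    obtain ⟨r, hr⟩ := IsAlgClosed.exists_pow_nat_eq (legK α β).a₂ (n := 2) (by norm_num)
    have hN : LegLabel.Node A.valuation (legK α β) r := ⟨e1, e3, e6, ⟨hr, ha₂, ha₄, ha₄0, h2⟩⟩
    obtain ⟨k, hk⟩ := LegLabel.torsion_label hN h p hn hx4 hx1
    rw [hva₄, hvβt] at hk
    have hvx : A.valuation x = A.valuation ((t : ℤ) : Qbar) ^ k :=
      eq_zpow_of_pow_eq hp.ne_zero k hk
    refine ⟨((t : ℤ) : Qbar) ^ k, ?_, ?_⟩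
    · show s (((t : ℤ) : Qbar) ^ k) = _
      rw [map_zpow₀, map_intCast]
    · rw [map_zpow₀, hvx]
  · -- good reduction
    have hvβ : A.valuation ((β : ℤ) : Qbar) = 1 := (valuation_intCast_eq_one_iff hq hA β).mpr hqβ
    have hΔ : (legK α β).Δ ∉ A.nonunits := by
      rw [legendre_bc_Δ, A.mem_nonunits_iff, not_lt]
      have : A.valuation ((16 * (α * β * (α + β)) ^ 2 : ℤ) : Qbar) = 1 := by
        push_cast
        have h16 : A.valuation (16 : Qbar) = 1 := by
          have : (16 : Qbar) = 2 ^ 4 := by norm_num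
          rw [this, map_pow, h2, one_pow]
        have hαβ' : A.valuation (((α : ℤ) : Qbar) + ((β : ℤ) : Qbar)) = 1 := by
          have := hvαβ
          push_cast at this
          exact this
        rw [map_mul, map_pow, map_mul, map_mul, h16, hvα, hvβ, hαβ', one_mul, one_mul, one_mul,
          one_pow]
      exact this.ge
    exact inP_key_good A m1 m2 m3 m4 m6 hΔ τ sR hsR hsA hτ hE1sub T

end legendre

section transfer

variable (W₀ : WeierstrassCurve ℚ) (C₀ : VariableChange ℚ)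

/-- membership in the kernel of reduction is invariant under a variable change
`x ↦ u² x + r` with `u` a unit and `r` an element of `A`. -/
theorem inP_inE1_baseChangeEquiv (A : ValuationSubring Qbar)
    (hu : A.valuation (algebraMap ℚ Qbar (C₀.u : ℚ)) = 1) (hr : algebraMap ℚ Qbar C₀.r ∈ A)
    (Q : ((C₀ • W₀).toAffine⁄Qbar).Point) :
    InE1 A (baseChangeEquiv Qbar W₀ C₀ Q) ↔ InE1 A Q := by
  rcases Q with _ | ⟨x, y, h⟩
  · rw [baseChangeEquiv_zero]
    exact Iff.rfl
  · obtain ⟨h', e⟩ := baseChangeEquiv_some W₀ C₀ h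
    rw [e]
    show vcX (C₀.baseChange Qbar) x ∉ A ↔ x ∉ A
    have hX : vcX (C₀.baseChange Qbar) x =
        algebraMap ℚ Qbar (C₀.u : ℚ) ^ 2 * x + algebraMap ℚ Qbar C₀.r := rfl
    rw [hX, not_iff_not, ← A.valuation_le_one_iff, ← A.valuation_le_one_iff]
    have hr' : A.valuation (algebraMap ℚ Qbar C₀.r) ≤ 1 := (A.valuation_le_one_iff _).mpr hr
    have hu2 : A.valuation (algebraMap ℚ Qbar (C₀.u : ℚ) ^ 2 * x) = A.valuation x := by
      rw [map_mul, map_pow, hu, one_pow, one_mul]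
    constructor
    · intro hle
      have : algebraMap ℚ Qbar (C₀.u : ℚ) ^ 2 * x =
          (algebraMap ℚ Qbar (C₀.u : ℚ) ^ 2 * x + algebraMap ℚ Qbar C₀.r) -
            algebraMap ℚ Qbar C₀.r := by ring
      rw [← hu2, this]
      exact le_trans (Valuation.map_sub _ _ _) (max_le hle hr')
    · intro hle
      exact le_trans (Valuation.map_add _ _ _) (max_le (hu2.le.trans hle) hr')

/-- transfer of (C1) along a variable change defined over `ℚ`, unit `u`, integral `r`. -/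
theorem inP_transfer (A : ValuationSubring Qbar)
    (hu : A.valuation (algebraMap ℚ Qbar (C₀.u : ℚ)) = 1) (hr : algebraMap ℚ Qbar C₀.r ∈ A)
    {W₁ : WeierstrassCurve ℚ} (hW : W₁ = C₀ • W₀) (n : ℤ) (s : GalQ)
    (h : ∀ T' : (W₁.toAffine⁄Qbar).Point, n • T' = 0 → InE1 A (s • T' - T'))
    (T : (W₀.toAffine⁄Qbar).Point) (hT : n • T = 0) : InE1 A (s • T - T) := by
  subst hW
  set e := baseChangeEquiv Qbar W₀ C₀ with he
  have hT' : n • e.symm T = 0 := by rw [← map_zsmul, hT, map_zero]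
  have key := h (e.symm T) hT'
  rw [← inP_inE1_baseChangeEquiv W₀ C₀ A hu hr, ← he, map_sub, he, baseChangeEquiv_smul, ← he,
    AddEquiv.apply_symm_apply] at key
  exact key

end transfer

section frey

/-- **(C1) for the Frey curve**: at a place `A` above an odd prime `q` (for instance `q = p`),
inertia moves every `p`-torsion point by an element of the kernel of reduction. -/
theorem inP_frey_sub_mem_E1 (P : FreyPackage) {q : ℕ} (hq : q.Prime) (hq2 : q ≠ 2)
    (A : ValuationSubring Qbar) (hA : A.LiesOverPrime q) (s : GalQ)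
    (hs : s ∈ A.inertiaSubgroupIn ℚ) (T : (P.freyCurve.toAffine⁄Qbar).Point)
    (hT : (P.p : ℤ) • T = 0) : InE1 A (s • T - T) := by
  have hqi := Nat.prime_iff_prime_int.mp hq
  have hFLT := P.hFLT
  have hap : P.a ^ P.p ≠ 0 := pow_ne_zero _ P.ha0
  have hbp : P.b ^ P.p ≠ 0 := pow_ne_zero _ P.hb0
  have hcp : P.c ^ P.p ≠ 0 := pow_ne_zero _ P.hc0
  have hpow : ∀ x : ℤ, ¬ (q : ℤ) ∣ x → ¬ (q : ℤ) ∣ x ^ P.p := fun x hx h =>
    hx (hqi.dvd_of_dvd_pow h)
  have hpown : ∀ x : ℤ, ¬ (q : ℤ) ∣ x → ¬ (q : ℤ) ∣ -x ^ P.p := fun x hx h =>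
    hpow x hx ((dvd_neg).mp h)
  have h2 : A.valuation (2 : Qbar) = 1 := valuation_two_eq_one hq hA hq2
  -- the variable changes `freyChange t₀` have `u = 1/2` and `r = t₀ / 4`
  have hu : ∀ t₀ : ℚ, A.valuation (algebraMap ℚ Qbar ((freyChange t₀).u : ℚ)) = 1 := by
    intro t₀
    have : algebraMap ℚ Qbar ((freyChange t₀).u : ℚ) = (2 : Qbar)⁻¹ := by
      simp [freyChange]
    rw [this, map_inv₀, h2, inv_one]
  have hr : ∀ (t₀ : ℚ) (z : ℤ), t₀ = (z : ℚ) → algebraMap ℚ Qbar (freyChange t₀).r ∈ A := by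
    intro t₀ z hz
    subst hz
    have : algebraMap ℚ Qbar (freyChange (z : ℚ)).r =
        (z : Qbar) * ((2 : Qbar)⁻¹ * (2 : Qbar)⁻¹) := by
      simp [freyChange]
      ring
    rw [this]
    have h2inv : (2 : Qbar)⁻¹ ∈ A := by
      rw [← A.valuation_le_one_iff, map_inv₀, h2, inv_one]
    exact A.mul_mem _ _ (intCast_mem A z) (A.mul_mem _ _ h2inv h2inv)
  by_cases ha : (q : ℤ) ∣ P.a
  · -- the model with `(α, β) = (-cᵖ, aᵖ)`
    have hb := not_dvd_b_of_dvd_a P hq ha
    have hc := not_dvd_c_of_dvd_a P hq ha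
    have hsum : -P.c ^ P.p + P.a ^ P.p = -P.b ^ P.p := by linarith
    have hW : legendre ((-P.c ^ P.p : ℤ) : ℚ) ((P.a ^ P.p : ℤ) : ℚ) =
        freyChange ((P.a : ℚ) ^ P.p) • P.freyCurve := by
      rw [← freyChange_a]
      push_cast
      rfl
    refine inP_transfer P.freyCurve _ A (hu _) (hr _ (P.a ^ P.p) (by push_cast; rfl)) hW
      (P.p : ℤ) s (fun T' hT' => ?_) T hT
    exact inP_key_legendre P.p q (-P.c ^ P.p) (P.a ^ P.p) P.a P.pp hq hq2 (hpown _ hc)
      (by rw [hsum]; exact hpown _ hb) (neg_ne_zero.mpr hcp) hap (Or.inl rfl) A hA s hs T' hT'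
  · by_cases hc : (q : ℤ) ∣ P.c
    · -- the model with `(α, β) = (bᵖ, -cᵖ)`
      have hb := not_dvd_b_of_dvd_c P hq hc
      have hsum : P.b ^ P.p + -P.c ^ P.p = -P.a ^ P.p := by linarith
      have hW : legendre ((P.b ^ P.p : ℤ) : ℚ) ((-P.c ^ P.p : ℤ) : ℚ) =
          freyChange (-(P.b : ℚ) ^ P.p) • P.freyCurve := by
        rw [← freyChange_b]
        push_cast
        rfl
      refine inP_transfer P.freyCurve _ A (hu _) (hr _ (-P.b ^ P.p) (by push_cast; rfl)) hW
        (P.p : ℤ) s (fun T' hT' => ?_) T hT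
      exact inP_key_legendre P.p q (P.b ^ P.p) (-P.c ^ P.p) P.c P.pp hq hq2 (hpow _ hb)
        (by rw [hsum]; exact hpown _ ha) hbp (neg_ne_zero.mpr hcp) (Or.inr rfl) A hA s hs T' hT'
    · -- the model with `(α, β) = (aᵖ, bᵖ)`
      have hsum : P.a ^ P.p + P.b ^ P.p = P.c ^ P.p := hFLT
      have hW : legendre ((P.a ^ P.p : ℤ) : ℚ) ((P.b ^ P.p : ℤ) : ℚ) =
          freyChange 0 • P.freyCurve := by
        rw [← freyChange_zero]
        push_cast
        rfl
      refine inP_transfer P.freyCurve _ A (hu _) (hr _ 0 (by push_cast; rfl)) hW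
        (P.p : ℤ) s (fun T' hT' => ?_) T hT
      exact inP_key_legendre P.p q (P.a ^ P.p) (P.b ^ P.p) P.b P.pp hq hq2 (hpow _ ha)
        (by rw [hsum]; exact hpow _ hc) hap hbp (Or.inl rfl) A hA s hs T' hT'

end frey

section V0

open Fermat.Agent.S13x WeierstrassCurve.Affine.Point

variable (P : FreyPackage) (A : ValuationSubring Qbar)

/-- the Frey curve has `A`-integral coefficients at every place with `v(2) = 1`. -/
theorem inP_frey_integralB (h2 : A.valuation (2 : Qbar) = 1) :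
    IntegralB A.valuation (P.freyCurve.toAffine⁄Qbar) := by
  have h2inv : (2 : Qbar)⁻¹ ∈ A := by
    rw [← A.valuation_le_one_iff, map_inv₀, h2, inv_one]
  have hint : ∀ z : ℤ, (z : Qbar) ∈ A := fun z => intCast_mem A z
  refine IntegralB.of_coeffs A ?_ ?_ ?_ ?_ ?_ h2
  · show algebraMap ℚ Qbar P.freyCurve.a₁ ∈ A
    simp only [FreyPackage.freyCurve, map_one]
    exact A.one_mem
  · show algebraMap ℚ Qbar P.freyCurve.a₂ ∈ A
    have : algebraMap ℚ Qbar P.freyCurve.a₂ =
        ((P.b ^ P.p - 1 - P.a ^ P.p : ℤ) : Qbar) * ((2 : Qbar)⁻¹ * (2 : Qbar)⁻¹) := by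
      simp [FreyPackage.freyCurve]
      ring
    rw [this]
    exact A.mul_mem _ _ (hint _) (A.mul_mem _ _ h2inv h2inv)
  · show algebraMap ℚ Qbar P.freyCurve.a₃ ∈ A
    simp only [FreyPackage.freyCurve, _root_.map_zero]
    exact A.zero_mem
  · show algebraMap ℚ Qbar P.freyCurve.a₄ ∈ A
    have : algebraMap ℚ Qbar P.freyCurve.a₄ =
        ((-(P.a ^ P.p) * (P.b ^ P.p) : ℤ) : Qbar) *
          (((2 : Qbar)⁻¹ * (2 : Qbar)⁻¹) * ((2 : Qbar)⁻¹ * (2 : Qbar)⁻¹)) := by
      simp [FreyPackage.freyCurve]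
      ring
    rw [this]
    exact A.mul_mem _ _ (hint _)
      (A.mul_mem _ _ (A.mul_mem _ _ h2inv h2inv) (A.mul_mem _ _ h2inv h2inv))
  · show algebraMap ℚ Qbar P.freyCurve.a₆ ∈ A
    simp only [FreyPackage.freyCurve, _root_.map_zero]
    exact A.zero_mem

/-- `V₀(A) = E[p] ∩ E₁(A)` as an additive subgroup of `E[p]`. -/
noncomputable def inP_V0add (h2 : A.valuation (2 : Qbar) = 1) : AddSubgroup (FreyTors P) :=
  (E1 (inP_frey_integralB P A h2)).comap
    (Submodule.torsionBy ℤ (P.freyCurve.toAffine⁄Qbar).Point P.p).subtype.toAddMonoidHom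

/-- `V₀(A) = E[p] ∩ E₁(A)` as a `ZMod p`-submodule of `E[p]`. -/
noncomputable def inP_V0 (h2 : A.valuation (2 : Qbar) = 1) :
    Submodule (ZMod P.p) (FreyTors P) :=
  AddSubgroup.toZModSubmodule P.p (inP_V0add P A h2)

theorem inP_mem_V0_iff (h2 : A.valuation (2 : Qbar) = 1) (x : FreyTors P) :
    x ∈ inP_V0 P A h2 ↔ InE1 A (x : (P.freyCurve.toAffine⁄Qbar).Point) := by
  rw [KernelE1.inE1_iff_mem_E1 A (inP_frey_integralB P A h2)]
  exact Iff.rfl

/-- **(C1)**: inertia at a place `A` above an odd prime acts trivially on `V / V₀(A)`. -/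
theorem inP_sub_mem_V0 {q : ℕ} (hq : q.Prime) (hq2 : q ≠ 2) (hA : A.LiesOverPrime q)
    (σ : S13x.GalQ) (hσ : σ ∈ A.inertiaSubgroupIn ℚ) (x : FreyTors P) :
    σ • x - x ∈ inP_V0 P A (valuation_two_eq_one hq hA hq2) := by
  rw [inP_mem_V0_iff]
  have hx : (P.p : ℤ) • (x : (P.freyCurve.toAffine⁄Qbar).Point) = 0 :=
    (Submodule.mem_torsionBy_iff _ _).mp x.2
  exact inP_frey_sub_mem_E1 P hq hq2 A hA σ hσ (x : (P.freyCurve.toAffine⁄Qbar).Point) hx

/-- if a stable submodule `N` meets `V₀(A)` trivially, inertia at `A` is trivial on `N`. -/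
theorem inP_trivOnSub_of_disjoint {q : ℕ} (hq : q.Prime) (hq2 : q ≠ 2) (hA : A.LiesOverPrime q)
    (N : Submodule (ZMod P.p) (FreyTors P)) (hN : IsGaloisStable ℚ N)
    (hdisj : N ⊓ inP_V0 P A (valuation_two_eq_one hq hA hq2) = ⊥) :
    TrivOnSub P (A.inertiaSubgroupIn ℚ : Set S13x.GalQ) N := by
  intro σ hσ x hx
  have h1 : σ • x - x ∈ N := N.sub_mem (hN σ x hx) hx
  have h2 : σ • x - x ∈ inP_V0 P A (valuation_two_eq_one hq hA hq2) :=
    inP_sub_mem_V0 P A hq hq2 hA σ hσ x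
  have h3 : σ • x - x ∈ N ⊓ inP_V0 P A (valuation_two_eq_one hq hA hq2) := ⟨h1, h2⟩
  rw [hdisj, Submodule.mem_bot] at h3
  exact sub_eq_zero.mp h3

/-- if `V₀(A) ≤ N`, inertia at `A` is trivial on `V / N`. -/
theorem inP_trivOnQuot_of_le {q : ℕ} (hq : q.Prime) (hq2 : q ≠ 2) (hA : A.LiesOverPrime q)
    (N : Submodule (ZMod P.p) (FreyTors P))
    (hle : inP_V0 P A (valuation_two_eq_one hq hA hq2) ≤ N) :
    TrivOnQuot P (A.inertiaSubgroupIn ℚ : Set S13x.GalQ) N :=
  fun σ hσ x => hle (inP_sub_mem_V0 P A hq hq2 hA σ hσ x)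

/-- `V₀(A)` is stable under the decomposition group of `A` (here: under every `σ` with
`σ • A = A`, in the form `x ∈ A ↔ σ x ∈ A`). -/
theorem inP_smul_mem_V0 (h2 : A.valuation (2 : Qbar) = 1) (σ : S13x.GalQ)
    (hσ : ∀ z : Qbar, σ z ∈ A ↔ z ∈ A) (x : FreyTors P) (hx : x ∈ inP_V0 P A h2) :
    σ • x ∈ inP_V0 P A h2 := by
  rw [inP_mem_V0_iff] at hx ⊢
  obtain ⟨x, hxp⟩ := x
  rcases x with _ | ⟨a, b, h⟩
  · exact trivial
  · show σ a ∉ A
    exact fun h' => hx ((hσ a).mp h')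

end V0

end Fermat.Agent.S13C
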