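import Mathlib
import Fermat.Agent.S51.Torsion

set_option autoImplicit false
set_option linter.unusedSectionVars false

/-!
# S13, package (C): adapter (A) → (PB)

Model-free identification of a polynomial with the product over the `x`-coordinates of a finite
set of affine points, for the two candidate polynomials of (A):

* `(A-i)`: `F = Algebra.norm K[X] g`, `g` an element of the coordinate ring vanishing on `T`;
* `(A-ii)`: `F = ψ ^ 2`, `ψ` vanishing at the `x`-coordinates of `T`.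

`T` is a finite set of nonzero points, closed under negation, without `2`-torsion.
-/

namespace Fermat.Agent.S13C

open Polynomial WeierstrassCurve WeierstrassCurve.Affine Fermat.Agent.S51

section Poly

variable {K : Type*} [Field K]

/-- **(1)** A nonzero polynomial of degree `≤ 2 #S` divisible by `(X - a)²` for all `a ∈ S` is
`lc * ∏ (X - a)²`. -/
theorem nrC_eq_prod (F : K[X]) (S : Finset K) (hdvd : ∀ a ∈ S, (X - C a) ^ 2 ∣ F) (hF : F ≠ 0)
    (hdeg : F.natDegree ≤ 2 * S.card) :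
    F = C F.leadingCoeff * ∏ a ∈ S, (X - C a) ^ 2 := by
  classical
  have hcop : (S : Set K).Pairwise fun a b => IsCoprime ((X - C a) ^ 2) ((X - C b) ^ 2) := by
    intro a _ b _ hab
    exact (isCoprime_X_sub_C_of_isUnit_sub (sub_ne_zero.mpr hab).isUnit).pow
  obtain ⟨G, hG⟩ := Finset.prod_dvd_of_coprime hcop hdvd
  have hmonic : (∏ a ∈ S, (X - C a) ^ 2).Monic :=
    monic_prod_of_monic _ _ fun a _ => (monic_X_sub_C a).pow 2
  have hnat : (∏ a ∈ S, (X - C a) ^ 2).natDegree = 2 * S.card := by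
    rw [natDegree_prod_of_monic _ _ fun a _ => (monic_X_sub_C a).pow 2]
    simp [natDegree_pow, mul_comm]
  have hG0 : G ≠ 0 := by
    rintro rfl
    exact hF (by rw [hG, mul_zero])
  have hGdeg : G.natDegree = 0 := by
    have h1 : F.natDegree = 2 * S.card + G.natDegree := by
      rw [hG, hmonic.natDegree_mul' hG0, hnat]
    omega
  obtain ⟨c, rfl⟩ := natDegree_eq_zero.mp hGdeg
  have hlc : F.leadingCoeff = c := by
    rw [hG, leadingCoeff_mul, hmonic.leadingCoeff, one_mul, leadingCoeff_C]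
  rw [hlc, hG, mul_comm]

end Poly

section Points

variable {K : Type*} [Field K] [DecidableEq K] {W : Affine K}

/-- **(2a)** the fibre of `xc` through `P` in a negation-stable set of nonzero points without
`2`-torsion is `{P, -P}`. -/
theorem nrC_fiber (T : Finset W.Point) (h0 : (0 : W.Point) ∉ T) (hneg : ∀ P ∈ T, -P ∈ T)
    {P : W.Point} (hP : P ∈ T) :
    T.filter (fun Q => xc Q = xc P) = {P, -P} := by
  ext Q
  simp only [Finset.mem_filter, Finset.mem_insert, Finset.mem_singleton]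
  constructor
  · rintro ⟨hQ, hx⟩
    exact eq_or_eq_neg_of_xc_eq (fun h => h0 (h ▸ hQ)) (fun h => h0 (h ▸ hP)) hx
  · rintro (rfl | rfl)
    · exact ⟨hP, rfl⟩
    · exact ⟨hneg _ hP, xc_neg _⟩

/-- **(2)** product over the points = product over the `x`-values, squared. -/
theorem nrC_points (T : Finset W.Point) (h0 : (0 : W.Point) ∉ T) (hneg : ∀ P ∈ T, -P ∈ T)
    (h2 : ∀ P ∈ T, P ≠ -P) (f : K → K[X]) :
    ∏ P ∈ T, f (xc P) = ∏ a ∈ T.image xc, f a ^ 2 := by
  classical
  rw [← Finset.prod_fiberwise_of_maps_to (g := xc) (t := T.image xc)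
    (fun P hP => Finset.mem_image_of_mem _ hP)]
  refine Finset.prod_congr rfl fun a ha => ?_
  obtain ⟨P, hP, rfl⟩ := Finset.mem_image.mp ha
  rw [nrC_fiber T h0 hneg hP, Finset.prod_pair (h2 P hP), xc_neg, sq]

/-- **(2')** the number of points is twice the number of `x`-values. -/
theorem nrC_card (T : Finset W.Point) (h0 : (0 : W.Point) ∉ T) (hneg : ∀ P ∈ T, -P ∈ T)
    (h2 : ∀ P ∈ T, P ≠ -P) : T.card = 2 * (T.image xc).card := by
  classical
  rw [Finset.card_eq_sum_card_image xc T, Finset.sum_const_nat (m := 2), mul_comm]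
  intro a ha
  obtain ⟨P, hP, rfl⟩ := Finset.mem_image.mp ha
  rw [nrC_fiber T h0 hneg hP, Finset.card_pair (h2 P hP)]

/-- **(5)** `(A-ii)` form: `ψ` vanishes at the `x`-coordinates of `T`, `deg ψ² ≤ #T`; then
`ψ² = lc² * ∏_{R ∈ T} (X - x_R)`. -/
theorem nrC_sq_eq_prod (T : Finset W.Point) (h0 : (0 : W.Point) ∉ T) (hneg : ∀ P ∈ T, -P ∈ T)
    (h2 : ∀ P ∈ T, P ≠ -P) (ψ : K[X]) (hψ0 : ψ ≠ 0) (hroot : ∀ P ∈ T, ψ.eval (xc P) = 0)
    (hdeg : (ψ ^ 2).natDegree ≤ T.card) :
    ψ ^ 2 = C (ψ.leadingCoeff ^ 2) * ∏ P ∈ T, (X - C (xc P)) := by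
  classical
  rw [nrC_points T h0 hneg h2 fun a => X - C a]
  have h := nrC_eq_prod (ψ ^ 2) (T.image xc) ?_ (pow_ne_zero 2 hψ0) ?_
  · rwa [leadingCoeff_pow] at h
  · intro a ha
    obtain ⟨P, hP, rfl⟩ := Finset.mem_image.mp ha
    exact pow_dvd_pow_of_dvd (dvd_iff_isRoot.mpr (hroot P hP)) 2
  · rw [← nrC_card T h0 hneg h2]; exact hdeg

end Points

section Norm

variable {K : Type*} [Field K] [DecidableEq K] {W : Affine K}

open Ideal
open scoped Polynomial.Bivariate

/-- the maximal ideals of the two points over `x₀` are coprime. -/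
theorem nrC_isCoprime {x₀ y₀ : K} (hy : y₀ ≠ W.negY x₀ y₀) :
    IsCoprime (CoordinateRing.XYIdeal W x₀ (C (W.negY x₀ y₀)))
      (CoordinateRing.XYIdeal W x₀ (C y₀)) := by
  rw [Ideal.isCoprime_iff_exists]
  set c : K := (y₀ - W.negY x₀ y₀)⁻¹ with hc
  have hc1 : c * (y₀ - W.negY x₀ y₀) = 1 := inv_mul_cancel₀ (sub_ne_zero.mpr hy)
  refine ⟨CoordinateRing.mk W (C (C c)) * CoordinateRing.YClass W (C (W.negY x₀ y₀)),
    Ideal.mul_mem_left _ _ (Ideal.subset_span (by simp)),
    -(CoordinateRing.mk W (C (C c)) * CoordinateRing.YClass W (C y₀)),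
    neg_mem (Ideal.mul_mem_left _ _ (Ideal.subset_span (by simp))), ?_⟩
  simp only [CoordinateRing.YClass]
  rw [← sub_eq_add_neg, ← mul_sub, ← map_sub, ← map_mul]
  have : (C (C c) : K[X][Y]) * (Y - C (C (W.negY x₀ y₀)) - (Y - C (C y₀))) = 1 := by
    have h1 : (Y - C (C (W.negY x₀ y₀)) - (Y - C (C y₀)) : K[X][Y]) =
        C (C (y₀ - W.negY x₀ y₀)) := by
      simp only [map_sub]; ring
    rw [h1, ← C_mul, ← C_mul, hc1, C_1, C_1]
  rw [this, map_one]

/-- **(3)** if `g` vanishes at both points over `x₀` (which are distinct), then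
`(X - x₀)² ∣ N(g)`. -/
theorem nrC_sq_dvd_norm (g : W.CoordinateRing) {x₀ y₀ : K} (h : W.Nonsingular x₀ y₀)
    (hy : y₀ ≠ W.negY x₀ y₀) (hg1 : g ∈ CoordinateRing.XYIdeal W x₀ (C y₀))
    (hg2 : g ∈ CoordinateRing.XYIdeal W x₀ (C (W.negY x₀ y₀))) :
    (X - C x₀) ^ 2 ∣ Algebra.norm K[X] g := by
  have hmem : g ∈ CoordinateRing.XIdeal W x₀ := by
    rw [← CoordinateRing.XYIdeal_neg_mul h, Ideal.mul_eq_inf_of_isCoprime (nrC_isCoprime hy)]
    exact ⟨hg2, hg1⟩
  rw [CoordinateRing.XIdeal, Ideal.mem_span_singleton'] at hmem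
  obtain ⟨a, rfl⟩ := hmem
  rw [map_mul]
  have h1 : Algebra.norm K[X] (CoordinateRing.XClass W x₀) = (X - C x₀) ^ 2 := by
    have := Algebra.norm_algebraMap_of_basis (CoordinateRing.basis W) (X - C x₀)
    rw [Fintype.card_fin] at this
    exact this
  rw [h1]
  exact dvd_mul_left _ _

/-- **(4)** `(A-i)` form: `g` vanishes at all points of `T`, `deg N(g) ≤ #T`; then
`N(g) = lc * ∏_{R ∈ T} (X - x_R)`. -/
theorem nrC_norm_eq_prod (T : Finset W.Point) (h0 : (0 : W.Point) ∉ T)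
    (hneg : ∀ P ∈ T, -P ∈ T) (h2 : ∀ P ∈ T, P ≠ -P) (g : W.CoordinateRing) (hg0 : g ≠ 0)
    (hvan : ∀ (x y : K) (h : W.Nonsingular x y), Point.some x y h ∈ T →
      g ∈ CoordinateRing.XYIdeal W x (C y))
    (hdeg : (Algebra.norm K[X] g).natDegree ≤ T.card) :
    Algebra.norm K[X] g =
      C (Algebra.norm K[X] g).leadingCoeff * ∏ P ∈ T, (X - C (xc P)) := by
  classical
  rw [nrC_points T h0 hneg h2 fun a => X - C a]
  refine nrC_eq_prod _ (T.image xc) ?_ ?_ ?_
  · intro a ha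
    obtain ⟨P, hP, rfl⟩ := Finset.mem_image.mp ha
    rcases P with _ | ⟨x, y, h⟩
    · exact absurd hP h0
    · have hP' := hneg _ hP
      rw [Point.neg_some] at hP'
      have hy : y ≠ W.negY x y := by
        intro hy
        apply h2 _ hP
        rw [Point.neg_some]
        congr 1
      exact nrC_sq_dvd_norm g h hy (hvan x y h hP) (hvan x _ _ hP')
  · exact (Algebra.norm_ne_zero_iff_of_basis (CoordinateRing.basis W)).mpr hg0
  · rw [← nrC_card T h0 hneg h2]; exact hdeg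

end Norm

section Val

variable {K : Type*} [Field K] [DecidableEq K] {W : Affine K}
  {Γ₀ : Type*} [LinearOrderedCommGroupWithZero Γ₀]

/-- **(PB)** by evaluation at `0`: if `F = c * ∏_{R ∈ T} (X - x_R)` then
`v (F.coeff 0) = v c * ∏_{R ∈ T} v x_R`; in particular `v c * ∏ v x_R ≤ 1` as soon as the constant
coefficient of `F` is `v`-integral. -/
theorem nrC_val_coeff_zero (v : Valuation K Γ₀) (T : Finset W.Point) (c : K) (F : K[X])
    (hF : F = C c * ∏ P ∈ T, (X - C (xc P))) :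
    v (F.coeff 0) = v c * ∏ P ∈ T, v (xc P) := by
  rw [coeff_zero_eq_eval_zero, hF, eval_mul, eval_C, eval_prod, map_mul, map_prod]
  congr 1
  refine Finset.prod_congr rfl fun P _ => ?_
  rw [eval_sub, eval_X, eval_C, zero_sub, Valuation.map_neg]

theorem nrC_PB (v : Valuation K Γ₀) (T : Finset W.Point) (c : K) (F : K[X])
    (hF : F = C c * ∏ P ∈ T, (X - C (xc P))) (hint : v (F.coeff 0) ≤ 1) :
    v c * ∏ P ∈ T, v (xc P) ≤ 1 := by
  rw [← nrC_val_coeff_zero v T c F hF]; exact hint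

end Val

end Fermat.Agent.S13C
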