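import Fermat.Agent.S13.AssembleC
import Fermat.Agent.S13.InertiaP
import Fermat.Agent.S13.NormRoots

/-!
# S13, package (C): the two inputs of `asC_contractC`

* `asC_HC1_holds` : input (C1), from `InertiaP.lean` (`inP_frey_sub_mem_E1`).
* `asC_HPB_of_poly` : input (PB) from a polynomial `ψ : Qbar[X]` of degree `(p² - 1)/2` with
  `A`-integral coefficients (all `A` over `p`), leading coefficient of valuation `≥ v(p)`, vanishing
  at the `x`-coordinates of all nonzero `p`-torsion points (the ladder polynomial `ladF`, or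
  `preΨ' p`), together with `#E[p] = p²`.
* `asC_contractC_of_poly` : `ContractC P` from `ContractA P` and such a polynomial.
-/

set_option autoImplicit false

namespace Fermat.Agent.S13C

open WeierstrassCurve WeierstrassCurve.Affine Fermat.Agent.S05 Polynomial
open Fermat.Agent.S13x (FreyTors ContractA ContractC)

/-- Input (C1) of `asC_contractC` holds. -/
theorem asC_HC1_holds (P : FreyPackage) : asC_HC1 P := by
  intro A hA σ hσ x
  have hp2 : P.p ≠ 2 := by have := P.hp5; omega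
  have hx : (P.p : ℤ) • (x : (P.freyCurve⁄Qbar).Point) = 0 :=
    (Submodule.mem_torsionBy_iff _ _).mp x.2
  have key := inP_frey_sub_mem_E1 P P.pp hp2 A hA σ hσ (x : (P.freyCurve⁄Qbar).Point) hx
  have hcoe : ((σ • x - x : FreyTors P) : (P.freyCurve⁄Qbar).Point) =
      σ • (x : (P.freyCurve⁄Qbar).Point) - (x : (P.freyCurve⁄Qbar).Point) := rfl
  rw [hcoe]
  generalize σ • (x : (P.freyCurve⁄Qbar).Point) - (x : (P.freyCurve⁄Qbar).Point) = R at key
  rcases R with _ | ⟨x', y', h'⟩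
  · exact Or.inl rfl
  · exact Or.inr key

/-- Coefficients of a product of two polynomials with coefficients in a subring. -/
theorem asC_coeff_mul_mem {K : Type*} [Field K] (B : Subring K) {f g : Polynomial K}
    (hf : ∀ i, f.coeff i ∈ B) (hg : ∀ i, g.coeff i ∈ B) (i : ℕ) : (f * g).coeff i ∈ B := by
  rw [Polynomial.coeff_mul]
  exact Subring.sum_mem _ fun c _ => B.mul_mem (hf _) (hg _)

/-- The number of nonzero `p`-torsion points. -/
theorem asC_card_T (P : FreyPackage) (hAc : ContractA P)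
    (T : Finset (P.freyCurve⁄Qbar).Point)
    (hT : ∀ R, R ∈ T ↔ (R ≠ 0 ∧ (P.p : ℤ) • R = 0)) : T.card + 1 = P.p ^ 2 := by
  classical
  have : Fact P.p.Prime := ⟨P.pp⟩
  have hfin : Finite (FreyTors P) := Fermat.Agent.S13x.finite_of_card_sq hAc
  let _ : Fintype (FreyTors P) := Fintype.ofFinite _
  have h0 : (0 : (P.freyCurve⁄Qbar).Point) ∉ T := fun h => ((hT 0).mp h).1 rfl
  have himg : (Finset.univ : Finset (FreyTors P)).image
      (Subtype.val : FreyTors P → (P.freyCurve⁄Qbar).Point) = insert 0 T := by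
    ext R
    rw [Finset.mem_image, Finset.mem_insert, hT]
    constructor
    · rintro ⟨x, -, rfl⟩
      by_cases h : (x : (P.freyCurve⁄Qbar).Point) = 0
      · exact Or.inl h
      · exact Or.inr ⟨h, (Submodule.mem_torsionBy_iff _ _).mp x.2⟩
    · rintro (rfl | ⟨-, hR⟩)
      · exact ⟨0, Finset.mem_univ _, rfl⟩
      · exact ⟨⟨R, (Submodule.mem_torsionBy_iff _ _).mpr hR⟩, Finset.mem_univ _, rfl⟩
  have hcard := congrArg Finset.card himg
  rw [Finset.card_image_of_injective _ Subtype.val_injective, Finset.card_univ,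
    Finset.card_insert_of_notMem h0, ← Nat.card_eq_fintype_card, hAc] at hcard
  exact hcard.symm

/-- **Input (PB)** of `asC_contractC` from a polynomial vanishing at the `x`-coordinates of all
nonzero `p`-torsion points. -/
theorem asC_HPB_of_poly (P : FreyPackage) (hAc : ContractA P) (ψ : Polynomial Qbar)
    (hψ0 : ψ ≠ 0)
    (hint : ∀ A : ValuationSubring Qbar, A.LiesOverPrime P.p → ∀ i, ψ.coeff i ∈ A)
    (hdeg : 2 * ψ.natDegree + 1 ≤ P.p ^ 2)
    (hlc : ∀ A : ValuationSubring Qbar, A.LiesOverPrime P.p →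
      A.valuation ((P.p : ℕ) : Qbar) ≤ A.valuation ψ.leadingCoeff)
    (hroot : ∀ R : (P.freyCurve⁄Qbar).Point, R ≠ 0 → (P.p : ℤ) • R = 0 →
      ψ.eval (pbC_x R) = 0) : asC_HPB P := by
  classical
  intro A hA T hT
  have hcard := asC_card_T P hAc T hT
  have h0 : (0 : (P.freyCurve⁄Qbar).Point) ∉ T := fun h => ((hT 0).mp h).1 rfl
  have hneg : ∀ R ∈ T, -R ∈ T := by
    intro R hR
    obtain ⟨hR0, hRp⟩ := (hT R).mp hR
    exact (hT _).mpr ⟨neg_ne_zero.mpr hR0, by rw [zsmul_neg, hRp, neg_zero]⟩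
  have h2 : ∀ R ∈ T, R ≠ -R := by
    intro R hR heq
    obtain ⟨hR0, hRp⟩ := (hT R).mp hR
    apply hR0
    have h2R : (2 : ℤ) • R = 0 := by
      rw [two_zsmul]
      nth_rewrite 2 [heq]
      exact add_neg_cancel R
    obtain ⟨k, hk⟩ := P.hp_odd
    have h1 : ((P.p : ℤ) - (k : ℤ) * 2) • R = R := by
      have : ((P.p : ℤ) - (k : ℤ) * 2) = 1 := by rw [hk]; push_cast; ring
      rw [this, one_zsmul]
    rw [← h1, sub_zsmul, mul_zsmul, hRp, h2R, zsmul_zero, neg_zero, add_zero]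
  have hroot' : ∀ R ∈ T, ψ.eval (Fermat.Agent.S51.xc R) = 0 := by
    intro R hR
    obtain ⟨hR0, hRp⟩ := (hT R).mp hR
    rw [asC_xc_eq]
    exact hroot R hR0 hRp
  have hdeg' : (ψ ^ 2).natDegree ≤ T.card := by
    refine le_trans (Polynomial.natDegree_pow_le) ?_
    omega
  have hprod := nrC_sq_eq_prod T h0 hneg h2 ψ hψ0 hroot' hdeg'
  have hprod' : ψ ^ 2 = C (ψ.leadingCoeff ^ 2) * ∏ R ∈ T, (X - C (pbC_x R)) := by
    rw [hprod]
    congr 1
    exact Finset.prod_congr rfl fun R _ => by rw [asC_xc_eq]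
  have hF : ∀ i, (ψ ^ 2).coeff i ∈ A := by
    intro i
    rw [pow_two]
    exact asC_coeff_mul_mem A.toSubring (hint A hA) (hint A hA) i
  refine pbC_PB_of_poly T (ψ ^ 2) (ψ.leadingCoeff ^ 2) hF hprod' ?_
  rw [map_pow]
  exact pow_le_pow_left₀ zero_le (hlc A hA) 2

/-- `ContractC P` from `ContractA P` and a polynomial as in `asC_HPB_of_poly`. -/
theorem asC_contractC_of_poly (P : FreyPackage) (hAc : ContractA P) (ψ : Polynomial Qbar)
    (hψ0 : ψ ≠ 0)
    (hint : ∀ A : ValuationSubring Qbar, A.LiesOverPrime P.p → ∀ i, ψ.coeff i ∈ A)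
    (hdeg : 2 * ψ.natDegree + 1 ≤ P.p ^ 2)
    (hlc : ∀ A : ValuationSubring Qbar, A.LiesOverPrime P.p →
      A.valuation ((P.p : ℕ) : Qbar) ≤ A.valuation ψ.leadingCoeff)
    (hroot : ∀ R : (P.freyCurve⁄Qbar).Point, R ≠ 0 → (P.p : ℤ) • R = 0 →
      ψ.eval (pbC_x R) = 0) : ContractC P :=
  asC_contractC P hAc (asC_HC1_holds P) (asC_HPB_of_poly P hAc ψ hψ0 hint hdeg hlc hroot)

end Fermat.Agent.S13C
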