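/-
S13, package (C), ASSEMBLY: `ContractC P` from `ContractA P` (`#E[p] = p²`) and the numeric product
bound `ccA_ContractPB P` (`v_A(p)² · ∏_{R ∈ E[p]∖0} v_A(x(R)) ≤ 1` at every place `A` above `p`).

Inputs: (C1) `S13/InertiaP.lean` (inertia at `A | p` acts trivially on `V / V₀(A)`,
`V₀(A) = V ∩ E₁(A)`), `S13/PBound.lean` (`V₀(A) ≠ V` from the product bound and a stable line;
uniformity in `A`), `S13/ModPlumbing.lean` (lines in a plane over `ZMod p`).
-/
import Fermat.Agent.S13.InertiaP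
import Fermat.Agent.S13.PBound
import Fermat.Agent.S13.ModPlumbing

set_option autoImplicit false
set_option linter.style.haveILetI false

namespace Fermat.Agent.S13C

open WeierstrassCurve WeierstrassCurve.Affine WeierstrassCurve.Affine.Point
open Fermat.Agent.S05 Fermat.Agent.S13x

/-- **The product bound at `p`** (output of package (A), through `S13/NormRoots.lean`): at every
place `A` above `p`, `v_A(p)² · ∏_{R} v_A(x(R)) ≤ 1`, the product over the nonzero `p`-torsion
points of the Frey curve. -/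
def ccA_ContractPB (P : FreyPackage) : Prop :=
  ∀ A : ValuationSubring Qbar, A.LiesOverPrime P.p →
    ∀ T : Finset (P.freyCurve.toAffine⁄Qbar).Point,
      (∀ R, R ∈ T ↔ R ≠ 0 ∧ (P.p : ℤ) • R = 0) →
      A.valuation ((P.p : ℕ) : Qbar) ^ 2 * ∏ R ∈ T, A.valuation (pbC_x R) ≤ 1

variable (P : FreyPackage)

theorem ccA_p_ne_two : P.p ≠ 2 := by have := P.hp5; omega

/-- the coefficients of the Frey curve are integral at every place where `2` is a unit. -/
theorem ccA_integral (A : ValuationSubring Qbar) (h2 : A.valuation (2 : Qbar) = 1) :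
    pbC_Integral A P.freyCurve := by
  have h2inv : (2 : Qbar)⁻¹ ∈ A := by
    rw [← A.valuation_le_one_iff, map_inv₀, h2, inv_one]
  have hint : ∀ z : ℤ, (z : Qbar) ∈ A := fun z => intCast_mem A z
  refine ⟨?_, ?_, ?_, ?_, ?_⟩
  · show algebraMap ℚ Qbar P.freyCurve.a₁ ∈ A
    simp only [FreyPackage.freyCurve, map_one]
    exact A.one_mem
  · show algebraMap ℚ Qbar P.freyCurve.a₂ ∈ A
    have : algebraMap ℚ Qbar P.freyCurve.a₂ =
        ((P.b ^ P.p - 1 - P.a ^ P.p : ℤ) : Qbar) * ((2 : Qbar)⁻¹ * (2 : Qbar)⁻¹) := by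
      simp [FreyPackage.freyCurve]
      ring
    rw [this]
    exact A.mul_mem _ _ (hint _) (A.mul_mem _ _ h2inv h2inv)
  · show algebraMap ℚ Qbar P.freyCurve.a₃ ∈ A
    simp only [FreyPackage.freyCurve, _root_.map_zero]
    exact A.zero_mem
  · show algebraMap ℚ Qbar P.freyCurve.a₄ ∈ A
    have : algebraMap ℚ Qbar P.freyCurve.a₄ =
        ((-(P.a ^ P.p) * (P.b ^ P.p) : ℤ) : Qbar) *
          (((2 : Qbar)⁻¹ * (2 : Qbar)⁻¹) * ((2 : Qbar)⁻¹ * (2 : Qbar)⁻¹)) := by
      simp [FreyPackage.freyCurve]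
      ring
    rw [this]
    exact A.mul_mem _ _ (hint _)
      (A.mul_mem _ _ (A.mul_mem _ _ h2inv h2inv) (A.mul_mem _ _ h2inv h2inv))
  · show algebraMap ℚ Qbar P.freyCurve.a₆ ∈ A
    simp only [FreyPackage.freyCurve, _root_.map_zero]
    exact A.zero_mem

/-- for a nonzero point, `InE1 A R ↔ x(R) ∉ A`. -/
theorem ccA_inE1_iff (A : ValuationSubring Qbar) (R : (P.freyCurve.toAffine⁄Qbar).Point)
    (hR : R ≠ 0) : InE1 A R ↔ pbC_x R ∉ A := by
  rcases R with _ | ⟨x, y, h⟩
  · exact absurd rfl hR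
  · exact Iff.rfl

section place

variable (A : ValuationSubring Qbar) (hA : A.LiesOverPrime P.p)

/-- `V₀(A)` at a place above `p`. -/
noncomputable abbrev ccA_V0 : Submodule (ZMod P.p) (FreyTors P) :=
  inP_V0 P A (valuation_two_eq_one P.pp hA (ccA_p_ne_two P))

variable (hcard : ContractA P) (hPB : ccA_ContractPB P)
  (N : Submodule (ZMod P.p) (FreyTors P)) (hN : IsStableLine P N)

include hcard hPB hN in
/-- **`V₀(A) ≠ V`** (exclusion of the "supersingular" case), from the product bound and the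
existence of a stable line. -/
theorem ccA_V0_ne_top : ccA_V0 P A hA ≠ ⊤ := by
  classical
  haveI : Fact P.p.Prime := ⟨P.pp⟩
  haveI : Finite (FreyTors P) := finite_of_card_sq hcard
  intro htop
  -- the finite set of nonzero `p`-torsion points
  have hfinT : {R : (P.freyCurve.toAffine⁄Qbar).Point | R ≠ 0 ∧ (P.p : ℤ) • R = 0}.Finite := by
    refine (Set.finite_range (fun x : FreyTors P => (x : (P.freyCurve.toAffine⁄Qbar).Point))).subset
      fun R hR => ?_
    exact ⟨⟨R, (Submodule.mem_torsionBy_iff _ _).mpr hR.2⟩, rfl⟩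
  set T := hfinT.toFinset with hTdef
  have hT : ∀ R, R ∈ T ↔ R ≠ 0 ∧ (P.p : ℤ) • R = 0 := fun R => by
    rw [hTdef, Set.Finite.mem_toFinset]; rfl
  set S := T.filter (fun R => ∃ x : FreyTors P, x ∈ N ∧ (x : (P.freyCurve.toAffine⁄Qbar).Point) = R)
    with hSdef
  have hST : S ⊆ T := Finset.filter_subset _ _
  have hSstab : ∀ σ : S13x.GalQ, ∀ R ∈ S, σ • R ∈ S := by
    intro σ R hR
    rw [hSdef, Finset.mem_filter] at hR ⊢
    obtain ⟨hRT, x, hxN, rfl⟩ := hR
    have hσx : σ • x ∈ N := hN.1 σ x hxN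
    refine ⟨(hT _).mpr ⟨?_, (Submodule.mem_torsionBy_iff _ _).mp (σ • x).2⟩, σ • x, hσx, rfl⟩
    intro h0
    have hx0 : (x : (P.freyCurve.toAffine⁄Qbar).Point) = 0 := (smul_eq_zero_iff_eq σ).mp h0
    exact ((hT _).mp hRT).1 hx0
  have hSne : S.Nonempty := by
    obtain ⟨x, hxN, hx0⟩ := (Submodule.ne_bot_iff N).mp hN.2.1
    refine ⟨(x : (P.freyCurve.toAffine⁄Qbar).Point), ?_⟩
    rw [hSdef, Finset.mem_filter]
    refine ⟨(hT _).mpr ⟨fun h => hx0 (Subtype.ext h), (Submodule.mem_torsionBy_iff _ _).mp x.2⟩,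
      x, hxN, rfl⟩
  have hQ : ∃ Q ∈ T, Q ∉ S := by
    obtain ⟨x, hx⟩ : ∃ x : FreyTors P, x ∉ N := by
      by_contra hcon
      push Not at hcon
      exact hN.2.2 (eq_top_iff.mpr fun x _ => hcon x)
    have hx0 : x ≠ 0 := fun h => hx (h ▸ N.zero_mem)
    refine ⟨(x : (P.freyCurve.toAffine⁄Qbar).Point),
      (hT _).mpr ⟨fun h => hx0 (Subtype.ext h), (Submodule.mem_torsionBy_iff _ _).mp x.2⟩, ?_⟩
    rw [hSdef, Finset.mem_filter]
    rintro ⟨-, y, hyN, hy⟩
    exact hx ((Subtype.ext hy : y = x) ▸ hyN)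
  have h2 := valuation_two_eq_one P.pp hA (ccA_p_ne_two P)
  refine pbC_not_all_E1 P.pp hA (ccA_integral P A h2) T S (hPB A hA T hT) hST hSstab hSne hQ ?_
  intro R hR
  have hR' := (hT R).mp hR
  rw [← ccA_inE1_iff P A R hR'.1]
  have hmem : (⟨R, (Submodule.mem_torsionBy_iff _ _).mpr hR'.2⟩ : FreyTors P) ∈ ccA_V0 P A hA := by
    rw [htop]; exact Submodule.mem_top
  exact (inP_mem_V0_iff P A h2 _).mp hmem

include hcard hPB hN in
/-- per place: `N ⊓ V₀(A) = ⊥` or `V₀(A) = N`. -/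
theorem ccA_disjoint_or_eq : N ⊓ ccA_V0 P A hA = ⊥ ∨ ccA_V0 P A hA = N := by
  haveI : Fact P.p.Prime := ⟨P.pp⟩
  haveI : Finite (FreyTors P) := finite_of_card_sq hcard
  by_cases hdisj : N ⊓ ccA_V0 P A hA = ⊥
  · exact Or.inl hdisj
  · right
    have hV2 := finrank_eq_two_of_card_sq hcard
    have hN1 := finrank_of_ne_bot_ne_top hcard N hN.2.1 hN.2.2
    -- `N ⊓ V₀ = N`
    have h1 : 1 ≤ Module.finrank (ZMod P.p) ↥(N ⊓ ccA_V0 P A hA) := by
      rw [Nat.one_le_iff_ne_zero]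
      intro h
      exact hdisj (Submodule.finrank_eq_zero.mp h)
    have hle : N ⊓ ccA_V0 P A hA ≤ N := inf_le_left
    have heq : N ⊓ ccA_V0 P A hA = N :=
      Submodule.eq_of_le_of_finrank_le hle (by rw [hN1]; exact h1)
    have hNV : N ≤ ccA_V0 P A hA := by rw [← heq]; exact inf_le_right
    have hlt : Module.finrank (ZMod P.p) ↥(ccA_V0 P A hA) < 2 := by
      rw [← hV2]; exact Submodule.finrank_lt (ccA_V0_ne_top P A hA hcard hPB N hN)
    have hfin : Module.finrank (ZMod P.p) ↥(ccA_V0 P A hA) ≤ Module.finrank (ZMod P.p) ↥N := by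
      rw [hN1]; omega
    exact (Submodule.eq_of_le_of_finrank_le hNV hfin).symm

end place

/-- **`ContractC P`** from `#E[p] = p²` and the product bound at `p`. -/
theorem ccA_contractC (hcard : ContractA P) (hPB : ccA_ContractPB P) : ContractC P := by
  classical
  haveI : Fact P.p.Prime := ⟨P.pp⟩
  haveI : Finite (FreyTors P) := finite_of_card_sq hcard
  intro N hN
  have hq2 := ccA_p_ne_two P
  by_cases hex : ∃ (A₀ : ValuationSubring Qbar) (hA₀ : A₀.LiesOverPrime P.p),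
      N ⊓ ccA_V0 P A₀ hA₀ ≠ ⊥
  · -- second alternative, uniformly
    right
    obtain ⟨A₀, hA₀, hne₀⟩ := hex
    have hV₀ : ccA_V0 P A₀ hA₀ = N := by
      rcases ccA_disjoint_or_eq P A₀ hA₀ hcard hPB N hN with h | h
      · exact absurd h hne₀
      · exact h
    intro A hA
    rcases ccA_disjoint_or_eq P A hA hcard hPB N hN with hdisj | heq
    · exfalso
      -- the nonzero points of `N` lie in `E₁(A₀)` and are `A`-integral: impossible
      have hfinS : {R : (P.freyCurve.toAffine⁄Qbar).Point |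
          ∃ x : FreyTors P, x ∈ N ∧ x ≠ 0 ∧ (x : (P.freyCurve.toAffine⁄Qbar).Point) = R}.Finite := by
        refine (Set.finite_range
          (fun x : FreyTors P => (x : (P.freyCurve.toAffine⁄Qbar).Point))).subset fun R hR => ?_
        obtain ⟨x, -, -, rfl⟩ := hR
        exact ⟨x, rfl⟩
      set S := hfinS.toFinset with hSdef
      have hS : ∀ R, R ∈ S ↔ ∃ x : FreyTors P, x ∈ N ∧ x ≠ 0 ∧
          (x : (P.freyCurve.toAffine⁄Qbar).Point) = R := fun R => by
        rw [hSdef, Set.Finite.mem_toFinset]; rfl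
      have hSstab : ∀ σ : S13x.GalQ, ∀ R ∈ S, σ • R ∈ S := by
        intro σ R hR
        obtain ⟨x, hxN, hx0, rfl⟩ := (hS R).mp hR
        refine (hS _).mpr ⟨σ • x, hN.1 σ x hxN, ?_, rfl⟩
        intro h0
        exact hx0 ((smul_eq_zero_iff_eq σ).mp h0)
      have hSne : S.Nonempty := by
        obtain ⟨x, hxN, hx0⟩ := (Submodule.ne_bot_iff N).mp hN.2.1
        exact ⟨_, (hS _).mpr ⟨x, hxN, hx0, rfl⟩⟩
      refine pbC_uniform (W := P.freyCurve) P.pp hA₀ hA S hSstab hSne ?_ ?_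
      · intro R hR
        obtain ⟨x, hxN, hx0, rfl⟩ := (hS R).mp hR
        have hx0' : (x : (P.freyCurve.toAffine⁄Qbar).Point) ≠ 0 := fun h => hx0 (Subtype.ext h)
        rw [← ccA_inE1_iff P A₀ _ hx0']
        have : x ∈ ccA_V0 P A₀ hA₀ := by rw [hV₀]; exact hxN
        exact (inP_mem_V0_iff P A₀ _ x).mp this
      · intro R hR
        obtain ⟨x, hxN, hx0, rfl⟩ := (hS R).mp hR
        have hx0' : (x : (P.freyCurve.toAffine⁄Qbar).Point) ≠ 0 := fun h => hx0 (Subtype.ext h)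
        by_contra hnot
        rw [← ccA_inE1_iff P A _ hx0'] at hnot
        have hxV : x ∈ ccA_V0 P A hA := (inP_mem_V0_iff P A _ x).mpr hnot
        have : x ∈ N ⊓ ccA_V0 P A hA := ⟨hxN, hxV⟩
        rw [hdisj, Submodule.mem_bot] at this
        exact hx0 this
    · exact inP_trivOnQuot_of_le P A P.pp hq2 hA N heq.le
  · -- first alternative, uniformly
    left
    push Not at hex
    intro A hA
    exact inP_trivOnSub_of_disjoint P A P.pp hq2 hA N hN.1 (hex A hA)

end Fermat.Agent.S13C
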