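/-
S13, package (A), route (A-i) [Wronskian in `W.CoordinateRing`], the (A2) side: counting.

* `crdC_card_le_finrank` : finitely many distinct maximal ideals above `J` are at most
  `dim_F (R/J)` many (generic, CRT).
* `crdC_XYIdeal_isMaximal`, `crdC_XYIdeal_inj`, `crdC_finite_quotient`.
* `crdC_card_le` (c1 = T4) : a nonzero `w` of the coordinate ring lies in at most
  `natDegree (norm w)` of the ideals `m_P = XYIdeal W x (C y)`.
* `crdC_exists_gen` (c2 = T1, direction "torsion gives a generator"):
  `n • P = 0` for an affine `P` implies `m_P ^ n = span {f}` with `f ≠ 0`.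
Only Mathlib is imported.
-/
import Mathlib

set_option autoImplicit false
set_option linter.style.haveILetI false
set_option linter.unusedSimpArgs false

open Polynomial WeierstrassCurve WeierstrassCurve.Affine Ideal Function
open scoped Polynomial.Bivariate

namespace Fermat.Agent.S13A

section generic

variable {F R ι : Type*} [Field F] [CommRing R] [Algebra F R]

/-- Finitely many distinct maximal ideals above `J` : their number is at most `dim_F (R/J)`. -/
theorem crdC_card_le_finrank [Fintype ι] (J : Ideal R) [Module.Finite F (R ⧸ J)]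
    (m : ι → Ideal R) (hm : ∀ i, (m i).IsMaximal) (hinj : Function.Injective m)
    (hJ : ∀ i, J ≤ m i) : Fintype.card ι ≤ Module.finrank F (R ⧸ J) := by
  classical
  have hcop : Pairwise (IsCoprime on m) := by
    intro i j hij
    haveI := hm i
    haveI := hm j
    exact Ideal.isCoprime_of_isMaximal (fun h => hij (hinj h))
  have key : ∀ i : ι, ∃ e : R, ∀ j, e - (Pi.single i (1 : R) : ι → R) j ∈ m j := fun i =>
    Ideal.exists_forall_sub_mem_ideal hcop _
  choose e he using key
  have hli : LinearIndependent F (fun i => (Ideal.Quotient.mk J (e i) : R ⧸ J)) := by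
    rw [Fintype.linearIndependent_iff]
    intro c hc j
    have h1 : (∑ i, c i • e i) ∈ J := by
      rw [← Ideal.Quotient.eq_zero_iff_mem, map_sum]
      rw [← hc]
      refine Finset.sum_congr rfl fun i _ => ?_
      rw [Algebra.smul_def, Algebra.smul_def, map_mul]
      rfl
    have h2 : (∑ i, c i • e i) ∈ m j := hJ j h1
    have h3 : (∑ i, c i • e i) - algebraMap F R (c j) ∈ m j := by
      have : (∑ i, c i • e i) - algebraMap F R (c j)
          = ∑ i, c i • (e i - (Pi.single i (1 : R) : ι → R) j) := by
        simp only [smul_sub, Finset.sum_sub_distrib]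
        congr 1
        rw [Finset.sum_eq_single j]
        · simp [Algebra.smul_def]
        · intro b _ hb
          simp [Pi.single_apply, hb.symm]
        · simp
      rw [this]
      refine Ideal.sum_mem _ fun i _ => ?_
      rw [Algebra.smul_def]
      exact Ideal.mul_mem_left _ _ (he i j)
    have h4 : algebraMap F R (c j) ∈ m j := by
      have := Ideal.sub_mem _ h2 h3
      simpa using this
    by_contra hne
    have hu : IsUnit (algebraMap F R (c j)) := (IsUnit.mk0 _ hne).map _
    exact (hm j).ne_top (Ideal.eq_top_of_isUnit_mem _ h4 hu)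
  exact hli.fintype_card_le_finrank

end generic


variable {F : Type*} [Field F] {W : WeierstrassCurve.Affine F}

open CoordinateRing in
theorem crdC_XYIdeal_isMaximal {x y : F} (h : W.Equation x y) :
    (XYIdeal W x (C y)).IsMaximal := by
  have h' : (W.polynomial.eval (C y)).eval x = 0 := by
    rw [Affine.Equation, evalEval] at h
    exact h
  exact Ideal.Quotient.maximal_of_isField _
    ((quotientXYIdealEquiv h').toMulEquiv.isField (Field.toIsField F))

open CoordinateRing in
theorem crdC_XYIdeal_inj {x₁ y₁ x₂ y₂ : F} (h₂ : W.Equation x₂ y₂)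
    (h : XYIdeal W x₁ (C y₁) = XYIdeal W x₂ (C y₂)) : x₁ = x₂ ∧ y₁ = y₂ := by
  have hmax := crdC_XYIdeal_isMaximal h₂
  have hx1 : XClass W x₁ ∈ XYIdeal W x₂ (C y₂) := by
    rw [← h]; exact Ideal.subset_span (by simp)
  have hx2 : XClass W x₂ ∈ XYIdeal W x₂ (C y₂) := Ideal.subset_span (by simp)
  have hy1 : YClass W (C y₁) ∈ XYIdeal W x₂ (C y₂) := by
    rw [← h]; exact Ideal.subset_span (by simp)
  have hy2 : YClass W (C y₂) ∈ XYIdeal W x₂ (C y₂) := Ideal.subset_span (by simp)
  have hcx : algebraMap F W.CoordinateRing (x₁ - x₂) ∈ XYIdeal W x₂ (C y₂) := by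
    have : algebraMap F W.CoordinateRing (x₁ - x₂) = XClass W x₂ - XClass W x₁ := by
      simp only [XClass, ← map_sub]
      rw [show (X - C x₂ - (X - C x₁) : F[X]) = C (x₁ - x₂) by
        simp only [map_sub]; ring]
      rfl
    rw [this]; exact Ideal.sub_mem _ hx2 hx1
  have hcy : algebraMap F W.CoordinateRing (y₁ - y₂) ∈ XYIdeal W x₂ (C y₂) := by
    have : algebraMap F W.CoordinateRing (y₁ - y₂) = YClass W (C y₂) - YClass W (C y₁) := by
      simp only [YClass, ← map_sub]
      rw [show ((Y - C (C y₂)) - (Y - C (C y₁)) : F[X][Y]) = C (C (y₁ - y₂)) by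
        simp only [map_sub]; ring]
      rfl
    rw [this]; exact Ideal.sub_mem _ hy2 hy1
  have aux : ∀ c : F, algebraMap F W.CoordinateRing c ∈ XYIdeal W x₂ (C y₂) → c = 0 := by
    intro c hc
    by_contra hne
    exact hmax.ne_top (Ideal.eq_top_of_isUnit_mem _ hc ((IsUnit.mk0 _ hne).map _))
  exact ⟨sub_eq_zero.mp (aux _ hcx), sub_eq_zero.mp (aux _ hcy)⟩

theorem crdC_finite_quotient {w : W.CoordinateRing} (hw : w ≠ 0) :
    Module.Finite F (W.CoordinateRing ⧸ Ideal.span ({w} : Set W.CoordinateRing)) := by
  have h := Ideal.span_singleton_eq_bot.not.2 hw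
  exact Module.Finite.equiv (Ideal.quotientEquivDirectSum F (CoordinateRing.basis W) h).symm



/-- (c1) a nonzero `w` lies in at most `natDegree (norm w)` of the maximal ideals `m_P`. -/
theorem crdC_card_le {w : W.CoordinateRing} (hw : w ≠ 0) (S : Finset (F × F))
    (hS : ∀ s ∈ S, W.Equation s.1 s.2 ∧ w ∈ CoordinateRing.XYIdeal W s.1 (C s.2)) :
    S.card ≤ (Algebra.norm F[X] w).natDegree := by
  classical
  haveI := crdC_finite_quotient hw
  rw [← finrank_quotient_span_eq_natDegree_norm (CoordinateRing.basis W) hw, ← Fintype.card_coe]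
  refine crdC_card_le_finrank (Ideal.span ({w} : Set W.CoordinateRing))
    (fun i : {s // s ∈ S} => CoordinateRing.XYIdeal W i.1.1 (C i.1.2))
    (fun i => crdC_XYIdeal_isMaximal (hS i.1 i.2).1) ?_ ?_
  · intro i j hij
    have := crdC_XYIdeal_inj (hS j.1 j.2).1 hij
    exact Subtype.ext (Prod.ext this.1 this.2)
  · intro i
    rw [Ideal.span_singleton_le_iff_mem]
    exact (hS i.1 i.2).2


open CoordinateRing in
/-- (c2) if `n • P = 0` for an affine point `P`, then `m_P ^ n` is principal. -/
theorem crdC_exists_gen [DecidableEq F] {x y : F} (h : W.Nonsingular x y) {n : ℕ}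
    (hn : n • Point.some _ _ h = 0) :
    ∃ f : W.CoordinateRing, f ≠ 0 ∧ XYIdeal W x (C y) ^ n = Ideal.span {f} := by
  have h1 := congrArg Point.toClass hn
  rw [map_nsmul, Point.toClass_some, Point.toClass_zero] at h1
  have h2 : ClassGroup.mk W.FunctionField (XYIdeal' (W := W) h ^ n) = 1 := by
    rw [map_pow]
    exact h1
  refine (ClassGroup.mk_eq_one_of_coe_ideal ?_).mp h2
  rw [Units.val_pow_eq_pow_val, XYIdeal'_eq, FractionalIdeal.coeIdeal_pow]

end Fermat.Agent.S13A
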