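import Mathlib

/-
S13 (A-i), helper14: the invariant derivation of the affine coordinate ring of a Weierstrass curve.

`crdD W : Derivation F W.CoordinateRing W.CoordinateRing` is the descent of the Hamiltonian
derivation `X ↦ W_Y`, `Y ↦ -W_X` of `F[X][Y]` (it kills `W.polynomial`).
Main API: `crdD_X`, `crdD_Y`, `crdD_mk`, `crdD_smul_basis` (formula in the basis `{1, Y}` over `F[X]`).
-/

set_option autoImplicit false

open Polynomial
open scoped Polynomial.Bivariate

namespace Fermat.Agent.S13A

variable {F : Type*} [CommRing F]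

noncomputable def crdD_dY : Derivation F F[X][Y] F[X][Y] :=
  (Polynomial.derivative' (R := F[X])).restrictScalars F

@[simp] lemma crdD_dY_apply (f : F[X][Y]) : crdD_dY f = derivative f := rfl

noncomputable def crdD_dX : Derivation F F[X][Y] F[X][Y] :=
  Derivation.mk' ((Bivariate.swap (R := F)).toLinearMap ∘ₗ
      (crdD_dY (F := F)).toLinearMap ∘ₗ (Bivariate.swap (R := F)).toLinearMap) (by
    intro a b
    simp only [LinearMap.coe_comp, Function.comp_apply, AlgEquiv.toLinearMap_apply, map_mul,
      Derivation.coeFn_coe, Derivation.leibniz, smul_eq_mul, map_add, Bivariate.swap_swap_apply])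

lemma crdD_dX_apply (f : F[X][Y]) :
    crdD_dX f = Bivariate.swap (derivative (Bivariate.swap f)) := rfl

lemma crdD_dX_Y : crdD_dX (Y : F[X][Y]) = 0 := by
  rw [crdD_dX_apply, Bivariate.swap_Y, derivative_C, map_zero]

lemma crdD_dX_CX : crdD_dX (C X : F[X][Y]) = 1 := by
  rw [crdD_dX_apply, Bivariate.swap_X, derivative_X, map_one]

/-- chain rule for the inner variable -/
lemma crdD_dX_C (f : F[X]) : crdD_dX (C f : F[X][Y]) = C (derivative f) := by
  rw [crdD_dX_apply, Bivariate.swap_C, derivative_map, Bivariate.swap_map_C]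

lemma crdD_dY_C (f : F[X]) : crdD_dY (C f : F[X][Y]) = 0 := by simp

lemma crdD_dY_Y : crdD_dY (Y : F[X][Y]) = 1 := by simp

variable (W : WeierstrassCurve.Affine F)

lemma crdD_dY_polynomial : crdD_dY W.polynomial = W.polynomialY := by
  rw [crdD_dY_apply, WeierstrassCurve.Affine.polynomial, WeierstrassCurve.Affine.polynomialY]
  simp only [derivative_sub, derivative_add, derivative_pow, derivative_X, derivative_mul,
    derivative_C, zero_mul, zero_add, mul_one, sub_zero, Nat.cast_ofNat]
  simp only [map_ofNat, Nat.add_one_sub_one, pow_one]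

lemma crdD_dX_polynomial : crdD_dX W.polynomial = W.polynomialX := by
  rw [WeierstrassCurve.Affine.polynomial, WeierstrassCurve.Affine.polynomialX]
  simp only [map_sub, map_add, Derivation.leibniz, Derivation.leibniz_pow, crdD_dX_Y, crdD_dX_C,
    smul_zero, smul_eq_mul, zero_add, derivative_mul, derivative_C,
    derivative_X, derivative_pow, zero_mul, mul_one, mul_zero]
  simp only [C_0, add_zero, Nat.cast_ofNat, pow_one, map_mul, map_ofNat,
    show (3 - 1 : ℕ) = 2 from rfl, show (2 - 1 : ℕ) = 1 from rfl]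
  ring


/-- The Hamiltonian derivation of `F[X][Y]`: `X ↦ W_Y`, `Y ↦ -W_X`. -/
noncomputable def crdD_poly : Derivation F F[X][Y] F[X][Y] :=
  W.polynomialY • crdD_dX - W.polynomialX • crdD_dY

lemma crdD_poly_apply (f : F[X][Y]) :
    crdD_poly W f = W.polynomialY * crdD_dX f - W.polynomialX * crdD_dY f := rfl

lemma crdD_poly_polynomial : crdD_poly W W.polynomial = 0 := by
  rw [crdD_poly_apply, crdD_dX_polynomial, crdD_dY_polynomial]; ring

/-- the quotient map as an `F`-algebra hom -/
noncomputable def crdD_mkₐ : F[X][Y] →ₐ[F] W.CoordinateRing :=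
  (AdjoinRoot.mkₐ W.polynomial).restrictScalars F

lemma crdD_mkₐ_apply (f : F[X][Y]) : crdD_mkₐ W f = WeierstrassCurve.Affine.CoordinateRing.mk W f := rfl

lemma crdD_mkₐ_surjective : Function.Surjective (crdD_mkₐ W) := AdjoinRoot.mk_surjective

lemma crdD_poly_ker (x : F[X][Y]) (hx : crdD_mkₐ W x = 0) : crdD_mkₐ W (crdD_poly W x) = 0 := by
  rw [crdD_mkₐ_apply, AdjoinRoot.mk_eq_zero] at hx ⊢
  obtain ⟨q, rfl⟩ := hx
  rw [Derivation.leibniz, crdD_poly_polynomial, smul_zero, add_zero, smul_eq_mul]
  exact dvd_mul_right _ _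

/-- THE invariant derivation of the coordinate ring. -/
noncomputable def crdD : Derivation F W.CoordinateRing W.CoordinateRing :=
  Derivation.liftOfSurjective (crdD_mkₐ_surjective W) (d := crdD_poly W) (crdD_poly_ker W)

lemma crdD_mk (f : F[X][Y]) :
    crdD W (WeierstrassCurve.Affine.CoordinateRing.mk W f) =
      WeierstrassCurve.Affine.CoordinateRing.mk W (crdD_poly W f) :=
  Derivation.liftOfSurjective_apply (crdD_mkₐ_surjective W) (crdD_poly_ker W) f


open WeierstrassCurve.Affine in
lemma crdD_Y_sq : CoordinateRing.mk W Y * CoordinateRing.mk W Y =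
    CoordinateRing.mk W (C (X ^ 3 + C W.a₂ * X ^ 2 + C W.a₄ * X + C W.a₆) -
      C (C W.a₁ * X + C W.a₃) * Y) := by
  rw [← map_mul]
  exact AdjoinRoot.mk_eq_mk.mpr ⟨1, by rw [WeierstrassCurve.Affine.polynomial]; ring1⟩

open WeierstrassCurve.Affine in
/-- values on the generators -/
lemma crdD_X : crdD W (CoordinateRing.mk W (C X)) = CoordinateRing.mk W W.polynomialY := by
  rw [crdD_mk, crdD_poly_apply, crdD_dX_CX, crdD_dY_C, mul_one, mul_zero, sub_zero]

open WeierstrassCurve.Affine in
lemma crdD_Y : crdD W (CoordinateRing.mk W Y) = - CoordinateRing.mk W W.polynomialX := by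
  rw [crdD_mk, crdD_poly_apply, crdD_dX_Y, crdD_dY_Y, mul_one, mul_zero, zero_sub, map_neg]

open WeierstrassCurve.Affine in
/-- THE COORDINATE FORMULA in the basis `{1, Y}` over `F[X]`. -/
theorem crdD_smul_basis (p q : F[X]) :
    crdD W (p • (1 : W.CoordinateRing) + q • CoordinateRing.mk W Y) =
      ((C W.a₁ * X + C W.a₃) * derivative p +
          2 * (X ^ 3 + C W.a₂ * X ^ 2 + C W.a₄ * X + C W.a₆) * derivative q +
          (C 3 * X ^ 2 + C (2 * W.a₂) * X + C W.a₄) * q) • (1 : W.CoordinateRing) +
        (2 * derivative p - (C W.a₁ * X + C W.a₃) * derivative q - C W.a₁ * q) •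
          CoordinateRing.mk W Y := by
  have h1 : p • (1 : W.CoordinateRing) + q • CoordinateRing.mk W Y =
      CoordinateRing.mk W (C p + C q * Y) := by
    simp only [CoordinateRing.smul, map_add, map_mul, mul_one]
  rw [h1, crdD_mk, crdD_poly_apply]
  simp only [map_add, Derivation.leibniz, crdD_dX_C, crdD_dX_Y, crdD_dY_C, crdD_dY_Y,
    smul_eq_mul, add_zero, zero_add, mul_one, mul_zero, CoordinateRing.smul,
    WeierstrassCurve.Affine.polynomialX, WeierstrassCurve.Affine.polynomialY]
  have hY := crdD_Y_sq W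
  simp only [map_sub, map_add, map_mul, map_pow, map_ofNat] at hY ⊢
  linear_combination (2 * CoordinateRing.mk W (C (derivative q))) * hY

end Fermat.Agent.S13A
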