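import Mathlib

set_option autoImplicit false

/-!
# S13 (A-i): abstract "top symbol" calculus for determinants and Wronskians

Setting: `F` a field, `R` a commutative `F`-algebra with a filtration `le : ℕ → Submodule F R`
("pole order at most `n`") and symbol maps `top : ℕ → R →ₗ[F] F` ("coefficient of pole order `n`")
such that

* `hmul : f ∈ le m → g ∈ le n → f * g ∈ le (m + n) ∧ top (m + n) (f * g) = top m f * top n g`,
* `hone : 1 ∈ le 0 ∧ top 0 1 = 1`,
* `hD : f ∈ le n → D f ∈ le (n + 1) ∧ top (n + 1) (D f) = n * top n f` for a map `D : R → R`.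

Results: `crdX_prod` (finite products), `crdX_det` (determinants), `crdX_iterate` (iterates of `D`,
rising factorials), `crdX_det_ascPochhammer` (Vandermonde evaluation), `crdX_wronskian_top`
(the Wronskian `det (D^[i] (f j))` of functions of pairwise distinct pole orders has nonzero top
symbol in characteristic zero).
-/

namespace Fermat.Agent.S13A

open Finset Matrix Polynomial

section Abstract

variable {F R : Type*} [Field F] [CommRing R] [Algebra F R]
  (le : ℕ → Submodule F R) (top : ℕ → R →ₗ[F] F)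

/-- (X1) finite products. -/
theorem crdX_prod
    (hmul : ∀ (m n : ℕ) (f g : R), f ∈ le m → g ∈ le n →
      f * g ∈ le (m + n) ∧ top (m + n) (f * g) = top m f * top n g)
    (hone : (1 : R) ∈ le 0 ∧ top 0 1 = 1)
    {ι : Type*} (s : Finset ι) (n : ι → ℕ) (g : ι → R) (hg : ∀ i ∈ s, g i ∈ le (n i)) :
    ∏ i ∈ s, g i ∈ le (∑ i ∈ s, n i) ∧
      top (∑ i ∈ s, n i) (∏ i ∈ s, g i) = ∏ i ∈ s, top (n i) (g i) := by
  classical
  induction s using Finset.induction_on with
  | empty => simpa using hone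
  | insert a s ha ih =>
    have ih' := ih (fun i hi => hg i (Finset.mem_insert_of_mem hi))
    have h := hmul (n a) (∑ i ∈ s, n i) (g a) (∏ i ∈ s, g i)
      (hg a (Finset.mem_insert_self a s)) ih'.1
    rw [Finset.prod_insert ha, Finset.sum_insert ha, Finset.prod_insert ha]
    exact ⟨h.1, by rw [h.2, ih'.2]⟩

/-- (X2) determinants: if `M i j` has order at most `r i + c j`, then `det M` has order at most
`∑ r + ∑ c` and its top symbol is the determinant of the top symbols. -/
theorem crdX_det
    (hmul : ∀ (m n : ℕ) (f g : R), f ∈ le m → g ∈ le n →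
      f * g ∈ le (m + n) ∧ top (m + n) (f * g) = top m f * top n g)
    (hone : (1 : R) ∈ le 0 ∧ top 0 1 = 1)
    {k : ℕ} (r c : Fin k → ℕ) (M : Matrix (Fin k) (Fin k) R)
    (hM : ∀ i j, M i j ∈ le (r i + c j)) :
    M.det ∈ le (∑ i, r i + ∑ j, c j) ∧
      top (∑ i, r i + ∑ j, c j) M.det = (Matrix.of fun i j => top (r i + c j) (M i j)).det := by
  have key : ∀ σ : Equiv.Perm (Fin k),
      ∏ i, M (σ i) i ∈ le (∑ i, r i + ∑ j, c j) ∧
        top (∑ i, r i + ∑ j, c j) (∏ i, M (σ i) i) =
          ∏ i, top (r (σ i) + c i) (M (σ i) i) := by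
    intro σ
    have h := crdX_prod le top hmul hone Finset.univ (fun i => r (σ i) + c i)
      (fun i => M (σ i) i) (fun i _ => hM (σ i) i)
    have hN : ∑ i, (r (σ i) + c i) = ∑ i, r i + ∑ j, c j := by
      rw [Finset.sum_add_distrib, Equiv.sum_comp σ r]
    rw [hN] at h
    exact h
  constructor
  · rw [Matrix.det_apply]
    refine Submodule.sum_mem _ fun σ _ => ?_
    rcases Int.units_eq_one_or (Equiv.Perm.sign σ) with h | h
    · rw [h, one_smul]; exact (key σ).1
    · rw [h, Units.neg_smul, one_smul]; exact Submodule.neg_mem _ (key σ).1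
  · rw [Matrix.det_apply, Matrix.det_apply, map_sum]
    refine Finset.sum_congr rfl fun σ _ => ?_
    rcases Int.units_eq_one_or (Equiv.Perm.sign σ) with h | h
    · rw [h, one_smul, one_smul, (key σ).2]
      rfl
    · rw [h, Units.neg_smul, one_smul, Units.neg_smul, one_smul, map_neg, (key σ).2]
      rfl

/-- (X3) iterates of a derivation-like map: rising factorials. -/
theorem crdX_iterate (D : R → R)
    (hD : ∀ (n : ℕ) (f : R), f ∈ le n → D f ∈ le (n + 1) ∧ top (n + 1) (D f) = (n : F) * top n f)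
    (n : ℕ) (f : R) (hf : f ∈ le n) (i : ℕ) :
    D^[i] f ∈ le (n + i) ∧
      top (n + i) (D^[i] f) = (ascPochhammer F i).eval (n : F) * top n f := by
  induction i with
  | zero => simpa using hf
  | succ i ih =>
    have h := hD (n + i) (D^[i] f) ih.1
    rw [Function.iterate_succ_apply']
    refine ⟨h.1, ?_⟩
    rw [show n + (i + 1) = n + i + 1 from rfl, h.2, ih.2, ascPochhammer_succ_eval]
    push_cast
    ring

end Abstract

/-- (X4) the determinant of rising factorials is a Vandermonde determinant. -/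
theorem crdX_det_ascPochhammer {F : Type*} [Field F] {k : ℕ} (v : Fin k → F) :
    (Matrix.of fun i j : Fin k => (ascPochhammer F i).eval (v j)).det =
      ∏ i : Fin k, ∏ j ∈ Finset.Ioi i, (v j - v i) := by
  have h := Matrix.det_eval_matrixOfPolynomials_eq_det_vandermonde v
    (fun i : Fin k => ascPochhammer F i) (fun i => ascPochhammer_natDegree F i)
    (fun i => monic_ascPochhammer F i)
  rw [← Matrix.det_vandermonde, h, ← Matrix.det_transpose]
  rfl

theorem crdX_det_ascPochhammer_ne_zero {F : Type*} [Field F] {k : ℕ} (v : Fin k → F)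
    (hv : Function.Injective v) :
    (Matrix.of fun i j : Fin k => (ascPochhammer F i).eval (v j)).det ≠ 0 := by
  rw [crdX_det_ascPochhammer, ← Matrix.det_vandermonde]
  exact Matrix.det_vandermonde_ne_zero_iff.mpr hv

section Wronskian

variable {F R : Type*} [Field F] [CommRing R] [Algebra F R]
  (le : ℕ → Submodule F R) (top : ℕ → R →ₗ[F] F)

/-- (X5) **top symbol of the Wronskian.**  If `f j` has exact order `o j` (top symbol `≠ 0`) and
the orders are pairwise distinct, then in characteristic zero the Wronskian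
`det (D^[i] (f j))` has order at most `∑ i + ∑ o j`, with NONZERO top symbol
`(∏ top (f j)) * ∏_{i<j} (o j - o i)`. -/
theorem crdX_wronskian_top [CharZero F]
    (hmul : ∀ (m n : ℕ) (f g : R), f ∈ le m → g ∈ le n →
      f * g ∈ le (m + n) ∧ top (m + n) (f * g) = top m f * top n g)
    (hone : (1 : R) ∈ le 0 ∧ top 0 1 = 1)
    (D : R → R)
    (hD : ∀ (n : ℕ) (f : R), f ∈ le n → D f ∈ le (n + 1) ∧ top (n + 1) (D f) = (n : F) * top n f)
    {k : ℕ} (f : Fin k → R) (o : Fin k → ℕ) (hf : ∀ j, f j ∈ le (o j)) :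
    (Matrix.of fun i j : Fin k => D^[(i : ℕ)] (f j)).det ∈
        le (∑ i : Fin k, (i : ℕ) + ∑ j, o j) ∧
      top (∑ i : Fin k, (i : ℕ) + ∑ j, o j)
          (Matrix.of fun i j : Fin k => D^[(i : ℕ)] (f j)).det =
        (∏ j, top (o j) (f j)) * ∏ i : Fin k, ∏ j ∈ Finset.Ioi i, ((o j : F) - (o i : F)) := by
  have hit : ∀ i j : Fin k, D^[(i : ℕ)] (f j) ∈ le ((i : ℕ) + o j) ∧
      top ((i : ℕ) + o j) (D^[(i : ℕ)] (f j)) =
        (ascPochhammer F i).eval (o j : F) * top (o j) (f j) := by
    intro i j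
    have h := crdX_iterate le top D hD (o j) (f j) (hf j) i
    rw [add_comm (o j) (i : ℕ)] at h
    exact h
  have hdet := crdX_det le top hmul hone (fun i : Fin k => (i : ℕ)) o
    (Matrix.of fun i j : Fin k => D^[(i : ℕ)] (f j)) (fun i j => (hit i j).1)
  refine ⟨hdet.1, ?_⟩
  rw [hdet.2]
  have hmat : (Matrix.of fun i j : Fin k =>
      top ((i : ℕ) + o j) ((Matrix.of fun i j : Fin k => D^[(i : ℕ)] (f j)) i j)) =
      Matrix.of fun i j : Fin k => top (o j) (f j) *
        (Matrix.of fun i j : Fin k => (ascPochhammer F i).eval ((o j : F))) i j := by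
    ext i j
    simp only [Matrix.of_apply]
    rw [(hit i j).2, mul_comm]
  rw [hmat, Matrix.det_mul_row, crdX_det_ascPochhammer (fun j => (o j : F))]

/-- (X5') nonvanishing form. -/
theorem crdX_wronskian_top_ne_zero [CharZero F]
    (hmul : ∀ (m n : ℕ) (f g : R), f ∈ le m → g ∈ le n →
      f * g ∈ le (m + n) ∧ top (m + n) (f * g) = top m f * top n g)
    (hone : (1 : R) ∈ le 0 ∧ top 0 1 = 1)
    (D : R → R)
    (hD : ∀ (n : ℕ) (f : R), f ∈ le n → D f ∈ le (n + 1) ∧ top (n + 1) (D f) = (n : F) * top n f)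
    {k : ℕ} (f : Fin k → R) (o : Fin k → ℕ) (hf : ∀ j, f j ∈ le (o j))
    (hf0 : ∀ j, top (o j) (f j) ≠ 0) (ho : Function.Injective o) :
    top (∑ i : Fin k, (i : ℕ) + ∑ j, o j)
        (Matrix.of fun i j : Fin k => D^[(i : ℕ)] (f j)).det ≠ 0 := by
  rw [(crdX_wronskian_top le top hmul hone D hD f o hf).2]
  refine mul_ne_zero (Finset.prod_ne_zero_iff.mpr fun j _ => hf0 j) ?_
  rw [← Matrix.det_vandermonde]
  exact Matrix.det_vandermonde_ne_zero_iff.mpr
    (fun a b hab => ho (Nat.cast_injective (R := F) hab))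

end Wronskian

section Orders

/-- The pole orders `0, 2, 3, …, p` of the monomial basis of `L(p·O)`, indexed by `Fin p`. -/
def crdX_orders (p : ℕ) : Fin p → ℕ := fun j => if (j : ℕ) = 0 then 0 else (j : ℕ) + 1

theorem crdX_orders_injective (p : ℕ) : Function.Injective (crdX_orders p) := by
  intro a b hab
  unfold crdX_orders at hab
  apply Fin.ext
  split_ifs at hab with h1 h2 h2 <;> omega

theorem crdX_orders_le (p : ℕ) (j : Fin p) : crdX_orders p j ≤ p := by
  unfold crdX_orders
  have := j.2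
  split_ifs <;> omega

theorem crdX_orders_ne_one (p : ℕ) (j : Fin p) : crdX_orders p j ≠ 1 := by
  unfold crdX_orders
  split_ifs <;> omega

/-- `∑_{i<p} i + ∑_j o_j + 1 = p²` for the orders `o = (0,2,3,…,p)`. -/
theorem crdX_sum_orders (p : ℕ) (hp : 0 < p) :
    ∑ i : Fin p, (i : ℕ) + ∑ j : Fin p, crdX_orders p j + 1 = p ^ 2 := by
  obtain ⟨n, rfl⟩ : ∃ n, p = n + 1 := ⟨p - 1, by omega⟩
  unfold crdX_orders
  rw [Fin.sum_univ_eq_sum_range (fun i => i) (n + 1),
    Fin.sum_univ_eq_sum_range (fun j => if j = 0 then 0 else j + 1) (n + 1)]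
  clear hp
  induction n with
  | zero => simp
  | succ n ih =>
    rw [Finset.sum_range_succ, Finset.sum_range_succ _ (n + 1), if_neg (by omega)]
    nlinarith [ih]

theorem crdX_sum_orders' (p : ℕ) (hp : 0 < p) :
    ∑ i : Fin p, (i : ℕ) + ∑ j : Fin p, crdX_orders p j = p ^ 2 - 1 := by
  have := crdX_sum_orders p hp
  omega

end Orders

end Fermat.Agent.S13A
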