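import Mathlib
import Fermat.Agent.S13.CoordDeriv
import Fermat.Agent.S13.CoordDetSymbol

/-
S13, adapter (A-i) -> (C)(iii), helper16: integrality of the Wronskian.

`A : Subring F` containing the coefficients `a₁, …, a₆` of `W`.
* `crdI_pol A : Subring F[X]`  : polynomials with all coefficients in `A`.
* `crdI_int hA : Subring W.CoordinateRing` : the elements `p • 1 + q • Y` with `p, q ∈ crdI_pol A`.
* `crdI_D_mem`, `crdI_iterate_mem` : stable under the invariant derivation `crdD W`.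
* `crdI_det_mem` : determinants of matrices with entries in `crdI_int` are in `crdI_int`.
* `crdI_norm_mem`, `crdI_norm_coeff_mem` : the norm to `F[X]` of an element of `crdI_int` has
  all its coefficients in `A`.
* `crdI_wronskian_norm_coeff_mem` : every coefficient of `Norm (det (D^i g_j))` lies in `A` when
  the `g_j` lie in `crdI_int` (e.g. the monomials `X^a`, `X^a Y`).
* `crdI_norm_even`, `crdI_norm_even_degreeLT`, `crdI_leadingCoeff_norm_even` : degree and leading
  coefficient of the norm of an element of even pole order `2m`: `(coeff m p)^2`.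
* `crdI_vdm p`, `crdI_vdm_cast`, `crdI_vdm_eq` : the Vandermonde number `∏_{i<j} (o_j - o_i)` of the
  pole orders `o = (0,2,3,…,p)` (helper19's `crdX_orders`) is `p * u` with `p ∤ u` (`p` prime).
-/

set_option autoImplicit false

open Polynomial
open scoped Polynomial.Bivariate

namespace Fermat.Agent.S13A

open WeierstrassCurve.Affine

section Integral

variable {F : Type*} [CommRing F]

/-- polynomials with all coefficients in the subring `A` -/
noncomputable def crdI_pol (A : Subring F) : Subring F[X] := (mapRingHom A.subtype).range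

variable {A : Subring F}

lemma crdI_pol_C {a : F} (ha : a ∈ A) : C a ∈ crdI_pol A :=
  ⟨C ⟨a, ha⟩, by simp⟩

lemma crdI_pol_X : (X : F[X]) ∈ crdI_pol A := ⟨X, by simp⟩

lemma crdI_pol_derivative {p : F[X]} (hp : p ∈ crdI_pol A) : derivative p ∈ crdI_pol A := by
  obtain ⟨p', rfl⟩ := hp
  exact ⟨derivative p', by simp [derivative_map]⟩

lemma crdI_pol_coeff {p : F[X]} (hp : p ∈ crdI_pol A) (i : ℕ) : p.coeff i ∈ A := by
  obtain ⟨p', rfl⟩ := hp
  simp [coeff_map]

lemma crdI_pol_of_coeff {p : F[X]} (hp : ∀ i, p.coeff i ∈ A) : p ∈ crdI_pol A := by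
  refine ⟨∑ i ∈ p.support, monomial i ⟨p.coeff i, hp i⟩, ?_⟩
  rw [coe_mapRingHom, Polynomial.map_sum]
  conv_rhs => rw [p.as_sum_support]
  refine Finset.sum_congr rfl fun i _ => ?_
  rw [map_monomial]
  rfl

/-- the Weierstrass coefficients lie in `A` -/
def crdI_Integral (W : WeierstrassCurve.Affine F) (A : Subring F) : Prop :=
  W.a₁ ∈ A ∧ W.a₂ ∈ A ∧ W.a₃ ∈ A ∧ W.a₄ ∈ A ∧ W.a₆ ∈ A

variable {W : WeierstrassCurve.Affine F}

lemma crdI_pol_u (hA : crdI_Integral W A) : C W.a₁ * X + C W.a₃ ∈ crdI_pol A :=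
  add_mem (mul_mem (crdI_pol_C hA.1) crdI_pol_X) (crdI_pol_C hA.2.2.1)

lemma crdI_pol_c (hA : crdI_Integral W A) :
    X ^ 3 + C W.a₂ * X ^ 2 + C W.a₄ * X + C W.a₆ ∈ crdI_pol A :=
  add_mem (add_mem (add_mem (pow_mem crdI_pol_X 3) (mul_mem (crdI_pol_C hA.2.1)
    (pow_mem crdI_pol_X 2))) (mul_mem (crdI_pol_C hA.2.2.2.1) crdI_pol_X)) (crdI_pol_C hA.2.2.2.2)

lemma crdI_pol_c' (hA : crdI_Integral W A) :
    C 3 * X ^ 2 + C (2 * W.a₂) * X + C W.a₄ ∈ crdI_pol A := by
  have h3 : (3 : F) ∈ A := by exact_mod_cast natCast_mem A 3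
  have h2 : (2 : F) ∈ A := by exact_mod_cast natCast_mem A 2
  exact add_mem (add_mem (mul_mem (crdI_pol_C h3) (pow_mem crdI_pol_X 2))
    (mul_mem (crdI_pol_C (mul_mem h2 hA.2.1)) crdI_pol_X)) (crdI_pol_C hA.2.2.2.1)

lemma crdI_mul_formula (p₁ q₁ p₂ q₂ : F[X]) :
    (p₁ • (1 : W.CoordinateRing) + q₁ • CoordinateRing.mk W Y) *
        (p₂ • (1 : W.CoordinateRing) + q₂ • CoordinateRing.mk W Y) =
      (p₁ * p₂ + q₁ * q₂ * (X ^ 3 + C W.a₂ * X ^ 2 + C W.a₄ * X + C W.a₆)) •
          (1 : W.CoordinateRing) +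
        (p₁ * q₂ + q₁ * p₂ - q₁ * q₂ * (C W.a₁ * X + C W.a₃)) • CoordinateRing.mk W Y := by
  have hY := crdD_Y_sq W
  simp only [CoordinateRing.smul, map_sub, map_add, map_mul, map_pow, mul_one] at hY ⊢
  linear_combination (CoordinateRing.mk W (C q₁) * CoordinateRing.mk W (C q₂)) * hY

/-- the `A`-integral elements of the coordinate ring -/
def crdI_int (hA : crdI_Integral W A) : Subring W.CoordinateRing where
  carrier := {f | ∃ p ∈ crdI_pol A, ∃ q ∈ crdI_pol A,
    f = p • (1 : W.CoordinateRing) + q • CoordinateRing.mk W Y}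
  mul_mem' := by
    rintro _ _ ⟨p₁, hp₁, q₁, hq₁, rfl⟩ ⟨p₂, hp₂, q₂, hq₂, rfl⟩
    exact ⟨_, add_mem (mul_mem hp₁ hp₂) (mul_mem (mul_mem hq₁ hq₂) (crdI_pol_c hA)), _,
      sub_mem (add_mem (mul_mem hp₁ hq₂) (mul_mem hq₁ hp₂))
        (mul_mem (mul_mem hq₁ hq₂) (crdI_pol_u hA)), crdI_mul_formula _ _ _ _⟩
  one_mem' := ⟨1, one_mem _, 0, zero_mem _, by simp⟩
  add_mem' := by
    rintro _ _ ⟨p₁, hp₁, q₁, hq₁, rfl⟩ ⟨p₂, hp₂, q₂, hq₂, rfl⟩
    exact ⟨_, add_mem hp₁ hp₂, _, add_mem hq₁ hq₂, by simp only [add_smul]; abel⟩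
  zero_mem' := ⟨0, zero_mem _, 0, zero_mem _, by simp⟩
  neg_mem' := by
    rintro _ ⟨p₁, hp₁, q₁, hq₁, rfl⟩
    exact ⟨_, neg_mem hp₁, _, neg_mem hq₁, by simp only [neg_smul]; abel⟩

lemma crdI_mem_int (hA : crdI_Integral W A) {f : W.CoordinateRing} :
    f ∈ crdI_int hA ↔ ∃ p ∈ crdI_pol A, ∃ q ∈ crdI_pol A,
      f = p • (1 : W.CoordinateRing) + q • CoordinateRing.mk W Y := Iff.rfl

lemma crdI_smul_basis_mem (hA : crdI_Integral W A) {p q : F[X]} (hp : p ∈ crdI_pol A)
    (hq : q ∈ crdI_pol A) :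
    p • (1 : W.CoordinateRing) + q • CoordinateRing.mk W Y ∈ crdI_int hA :=
  ⟨p, hp, q, hq, rfl⟩

/-- `X^a ∈ crdI_int` -/
lemma crdI_X_pow_mem (hA : crdI_Integral W A) (a : ℕ) :
    CoordinateRing.mk W (C (X ^ a)) ∈ crdI_int hA :=
  ⟨X ^ a, pow_mem crdI_pol_X a, 0, zero_mem _, by simp [CoordinateRing.smul]⟩

/-- `X^a Y ∈ crdI_int` -/
lemma crdI_X_pow_Y_mem (hA : crdI_Integral W A) (a : ℕ) :
    CoordinateRing.mk W (C (X ^ a) * Y) ∈ crdI_int hA :=
  ⟨0, zero_mem _, X ^ a, pow_mem crdI_pol_X a, by simp [CoordinateRing.smul]⟩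

/-- stability under the invariant derivation -/
theorem crdI_D_mem (hA : crdI_Integral W A) {f : W.CoordinateRing} (hf : f ∈ crdI_int hA) :
    crdD W f ∈ crdI_int hA := by
  obtain ⟨p, hp, q, hq, rfl⟩ := hf
  rw [crdD_smul_basis]
  have h2 : (2 : F[X]) ∈ crdI_pol A := by exact_mod_cast natCast_mem (crdI_pol A) 2
  refine crdI_smul_basis_mem hA ?_ ?_
  · exact add_mem (add_mem (mul_mem (crdI_pol_u hA) (crdI_pol_derivative hp))
      (mul_mem (mul_mem h2 (crdI_pol_c hA)) (crdI_pol_derivative hq)))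
      (mul_mem (crdI_pol_c' hA) hq)
  · exact sub_mem (sub_mem (mul_mem h2 (crdI_pol_derivative hp))
      (mul_mem (crdI_pol_u hA) (crdI_pol_derivative hq))) (mul_mem (crdI_pol_C hA.1) hq)

theorem crdI_iterate_mem (hA : crdI_Integral W A) {f : W.CoordinateRing} (hf : f ∈ crdI_int hA)
    (i : ℕ) : (crdD W)^[i] f ∈ crdI_int hA := by
  induction i with
  | zero => simpa using hf
  | succ i ih => rw [Function.iterate_succ_apply']; exact crdI_D_mem hA ih

/-- determinants -/
theorem crdI_det_mem (hA : crdI_Integral W A) {n : Type*} [Fintype n] [DecidableEq n]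
    (M : Matrix n n W.CoordinateRing) (hM : ∀ i j, M i j ∈ crdI_int hA) :
    M.det ∈ crdI_int hA := by
  rw [Matrix.det_apply]
  refine Subring.sum_mem _ fun σ _ => ?_
  rw [Units.smul_def]
  exact Subring.zsmul_mem _ (Subring.prod_mem _ fun i _ => hM _ _) _

/-- norms -/
theorem crdI_norm_mem (hA : crdI_Integral W A) {f : W.CoordinateRing} (hf : f ∈ crdI_int hA) :
    Algebra.norm F[X] f ∈ crdI_pol A := by
  obtain ⟨p, hp, q, hq, rfl⟩ := hf
  rw [CoordinateRing.norm_smul_basis]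
  exact sub_mem (sub_mem (pow_mem hp 2) (mul_mem (mul_mem hp hq) (crdI_pol_u hA)))
    (mul_mem (pow_mem hq 2) (crdI_pol_c hA))

theorem crdI_norm_coeff_mem (hA : crdI_Integral W A) {f : W.CoordinateRing}
    (hf : f ∈ crdI_int hA) (i : ℕ) : (Algebra.norm F[X] f).coeff i ∈ A :=
  crdI_pol_coeff (crdI_norm_mem hA hf) i

/-- **(I1)** every coefficient of the norm of the Wronskian `det (D^i g_j)` lies in `A`. -/
theorem crdI_wronskian_norm_coeff_mem (hA : crdI_Integral W A) {k : ℕ}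
    (g : Fin k → W.CoordinateRing) (hg : ∀ j, g j ∈ crdI_int hA) (i : ℕ) :
    (Algebra.norm F[X]
      (Matrix.det (Matrix.of fun (i j : Fin k) => (crdD W)^[(i : ℕ)] (g j)))).coeff i ∈ A :=
  crdI_norm_coeff_mem hA (crdI_det_mem hA _ fun i j => crdI_iterate_mem hA (hg j) i) i

end Integral

section NormEven

variable {F : Type*} [CommRing F] (W : WeierstrassCurve.Affine F)

lemma crdI_natDegree_u : (C W.a₁ * X + C W.a₃ : F[X]).natDegree ≤ 1 :=
  natDegree_linear_le

lemma crdI_natDegree_c : (X ^ 3 + C W.a₂ * X ^ 2 + C W.a₄ * X + C W.a₆ : F[X]).natDegree ≤ 3 := by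
  have : (X ^ 3 + C W.a₂ * X ^ 2 + C W.a₄ * X + C W.a₆ : F[X]) =
      C 1 * X ^ 3 + C W.a₂ * X ^ 2 + C W.a₄ * X + C W.a₆ := by simp
  rw [this]
  exact natDegree_cubic_le

/-- pole order `2m` (even): `p` of degree `≤ m`, `q = 0` or `deg q + 2 ≤ m`.  Then the norm has
degree `≤ 2m` and its `2m`-th coefficient is the square of the `m`-th coefficient of `p`. -/
theorem crdI_norm_even (p q : F[X]) (m : ℕ) (hp : p.natDegree ≤ m)
    (hq : q = 0 ∨ q.natDegree + 2 ≤ m) :
    (Algebra.norm F[X] (p • (1 : W.CoordinateRing) + q • CoordinateRing.mk W Y)).natDegree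
        ≤ 2 * m ∧
      (Algebra.norm F[X] (p • (1 : W.CoordinateRing) + q • CoordinateRing.mk W Y)).coeff (2 * m)
        = p.coeff m ^ 2 := by
  rw [CoordinateRing.norm_smul_basis]
  have h1 : (p ^ 2).natDegree ≤ 2 * m := by
    refine (natDegree_pow_le).trans ?_
    exact Nat.mul_le_mul_left 2 hp
  have h1c : (p ^ 2).coeff (2 * m) = p.coeff m ^ 2 := by
    rw [two_mul, pow_two, pow_two]
    exact coeff_mul_add_eq_of_natDegree_le hp hp
  rcases hq with rfl | hq
  · simp only [mul_zero, zero_mul, sub_zero, ne_eq, OfNat.ofNat_ne_zero, not_false_eq_true,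
      zero_pow]
    exact ⟨h1, h1c⟩
  · have h2 : (p * q * (C W.a₁ * X + C W.a₃)).natDegree < 2 * m := by
      refine lt_of_le_of_lt natDegree_mul_le ?_
      have := natDegree_mul_le (p := p) (q := q)
      have := crdI_natDegree_u W
      omega
    have h3 : (q ^ 2 * (X ^ 3 + C W.a₂ * X ^ 2 + C W.a₄ * X + C W.a₆)).natDegree < 2 * m := by
      refine lt_of_le_of_lt natDegree_mul_le ?_
      have := natDegree_pow_le (p := q) (n := 2)
      have := crdI_natDegree_c W
      omega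
    refine ⟨?_, ?_⟩
    · refine (natDegree_sub_le _ _).trans (max_le ((natDegree_sub_le _ _).trans
        (max_le h1 h2.le)) h3.le)
    · rw [coeff_sub, coeff_sub, h1c, coeff_eq_zero_of_natDegree_lt h2,
        coeff_eq_zero_of_natDegree_lt h3, sub_zero, sub_zero]

/-- `degreeLT` form of `crdI_norm_even` (the shape of the pole-order filtration `wrS_F W (2m)`). -/
theorem crdI_norm_even_degreeLT (p q : F[X]) (m : ℕ) (hp : p ∈ degreeLT F (m + 1))
    (hq : q ∈ degreeLT F (m - 1)) :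
    (Algebra.norm F[X] (p • (1 : W.CoordinateRing) + q • CoordinateRing.mk W Y)).natDegree
        ≤ 2 * m ∧
      (Algebra.norm F[X] (p • (1 : W.CoordinateRing) + q • CoordinateRing.mk W Y)).coeff (2 * m)
        = p.coeff m ^ 2 := by
  refine crdI_norm_even W p q m ?_ ?_
  · rw [mem_degreeLT] at hp
    by_cases hp0 : p = 0
    · simp [hp0]
    · rw [degree_eq_natDegree hp0] at hp
      have : p.natDegree < m + 1 := by exact_mod_cast hp
      omega
  · rw [mem_degreeLT] at hq
    by_cases hq0 : q = 0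
    · exact Or.inl hq0
    · right
      rw [degree_eq_natDegree hq0] at hq
      have : q.natDegree < m - 1 := by exact_mod_cast hq
      omega

/-- leading coefficient form -/
theorem crdI_leadingCoeff_norm_even [IsDomain F] (p q : F[X]) (m : ℕ) (hp : p.natDegree ≤ m)
    (hq : q = 0 ∨ q.natDegree + 2 ≤ m) (hpm : p.coeff m ≠ 0) :
    (Algebra.norm F[X] (p • (1 : W.CoordinateRing) + q • CoordinateRing.mk W Y)).natDegree
        = 2 * m ∧
      (Algebra.norm F[X] (p • (1 : W.CoordinateRing) + q • CoordinateRing.mk W Y)).leadingCoeff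
        = p.coeff m ^ 2 := by
  obtain ⟨h1, h2⟩ := crdI_norm_even W p q m hp hq
  have h3 : (Algebra.norm F[X] (p • (1 : W.CoordinateRing) + q • CoordinateRing.mk W Y)).natDegree
      = 2 * m := by
    refine le_antisymm h1 (le_natDegree_of_ne_zero ?_)
    rw [h2]
    exact pow_ne_zero 2 hpm
  exact ⟨h3, by rw [leadingCoeff, h3, h2]⟩

end NormEven

section Vdm

/-- the orders are strictly increasing -/
theorem crdI_orders_strictMono (p : ℕ) : StrictMono (crdX_orders p) := by
  intro a b hab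
  unfold crdX_orders
  have := Fin.lt_def.mp hab
  split_ifs <;> omega

/-- the Vandermonde number of the pole orders `(0,2,3,…,p)` -/
def crdI_vdm (p : ℕ) : ℕ :=
  ∏ i : Fin p, ∏ j ∈ Finset.Ioi i, (crdX_orders p j - crdX_orders p i)

theorem crdI_vdm_cast {F : Type*} [CommRing F] (p : ℕ) :
    ((crdI_vdm p : ℕ) : F) =
      ∏ i : Fin p, ∏ j ∈ Finset.Ioi i, ((crdX_orders p j : F) - (crdX_orders p i : F)) := by
  unfold crdI_vdm
  rw [Nat.cast_prod]
  refine Finset.prod_congr rfl fun i _ => ?_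
  rw [Nat.cast_prod]
  refine Finset.prod_congr rfl fun j hj => ?_
  rw [Nat.cast_sub]
  exact (crdI_orders_strictMono p (Finset.mem_Ioi.mp hj)).le

/-- `p ∥ ∏_{i<j} (o_j - o_i)` for `o = (0,2,3,…,p)`, `p` prime. -/
theorem crdI_vdm_eq (p : ℕ) (hp : p.Prime) : ∃ u : ℕ, crdI_vdm p = p * u ∧ ¬ p ∣ u := by
  classical
  have hp2 := hp.two_le
  set s : Finset (Σ _ : Fin p, Fin p) := Finset.univ.sigma (fun i => Finset.Ioi i) with hs
  have hprod : crdI_vdm p = ∏ x ∈ s, (crdX_orders p x.2 - crdX_orders p x.1) := by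
    unfold crdI_vdm
    rw [hs, Finset.prod_sigma]
  set a0 : Fin p := ⟨0, by omega⟩ with ha0
  set al : Fin p := ⟨p - 1, by omega⟩ with hal
  have hmem : (⟨a0, al⟩ : Σ _ : Fin p, Fin p) ∈ s := by
    rw [hs, Finset.mem_sigma]
    refine ⟨Finset.mem_univ _, Finset.mem_Ioi.mpr ?_⟩
    rw [Fin.lt_def]
    simp only [ha0, hal]
    omega
  have hval : crdX_orders p al - crdX_orders p a0 = p := by
    unfold crdX_orders
    simp only [ha0, hal]
    rw [if_neg (by omega)]
    simp only [if_true]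
    omega
  refine ⟨∏ x ∈ s.erase ⟨a0, al⟩, (crdX_orders p x.2 - crdX_orders p x.1), ?_, ?_⟩
  · rw [hprod, ← Finset.mul_prod_erase s _ hmem, hval]
  · intro hdvd
    obtain ⟨x, hx, hxd⟩ := (Prime.dvd_finsetProd_iff hp.prime _).mp hdvd
    obtain ⟨hne, hxs⟩ := Finset.mem_erase.mp hx
    rw [hs, Finset.mem_sigma] at hxs
    have hlt := Fin.lt_def.mp (Finset.mem_Ioi.mp hxs.2)
    obtain ⟨i, j⟩ := x
    simp only at hlt hxd hne
    have hpos : 0 < crdX_orders p j - crdX_orders p i := by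
      have := crdI_orders_strictMono p (Fin.lt_def.mpr hlt)
      omega
    have hltp : crdX_orders p j - crdX_orders p i < p := by
      have hi := i.2
      have hj := j.2
      unfold crdX_orders
      split_ifs with h1 h2 h2
      · omega
      · -- i ≠ 0 = j impossible
        omega
      · -- i = 0, j ≠ 0: j + 1 < p unless j = p - 1
        have hjne : (j : ℕ) ≠ p - 1 := by
          intro hj'
          apply hne
          have hi0 : i = a0 := Fin.ext (by simpa [ha0] using h2)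
          have hjl : j = al := Fin.ext (by simpa [hal] using hj')
          rw [hi0, hjl]
        omega
      · omega
    exact absurd (Nat.le_of_dvd hpos hxd) (by omega)

end Vdm

end Fermat.Agent.S13A
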