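import Mathlib
import Fermat.Agent.S05.Interface
import Fermat.Agent.S13.CoordIntegral

/-
S13, adapter (A-i) -> (C)(iii), helper16: valuation of the leading coefficient of `Norm(Wr)`.

`A` a valuation subring of a field `L` over the prime `p` (prelude `LiesOverPrime`):
* `crdI_vdm_val`     : `v_A (crdI_vdm p) = v_A p`  (`crdI_vdm p = ∏_{i<j} (o_j - o_i)`, `o = (0,2,…,p)`).
* `crdI_vdm_sq_val`  : `v_A ((crdI_vdm p)^2) = v_A p ^ 2`.
* `crdI_PB_lc`       : if the leading coefficient `c` of a polynomial is `(t * crdI_vdm p)^2` with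
  `v_A t = 1` then `v_A p ^ 2 ≤ v_A c`  (= the hypothesis `hc` of helper17's `pbC_PB_of_poly`).
-/

set_option autoImplicit false

namespace Fermat.Agent.S13A

open Fermat.Agent.S05

variable {L : Type*} [Field L] {A : ValuationSubring L} {p : ℕ}

theorem crdI_vdm_val (hp : p.Prime) (hA : A.LiesOverPrime p) :
    A.valuation ((crdI_vdm p : ℕ) : L) = A.valuation ((p : ℕ) : L) := by
  obtain ⟨u, hu, hpu⟩ := crdI_vdm_eq p hp
  rw [hu, Nat.cast_mul, map_mul, (valuation_natCast_eq_one_iff hp hA u).mpr hpu, mul_one]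

theorem crdI_vdm_sq_val (hp : p.Prime) (hA : A.LiesOverPrime p) :
    A.valuation (((crdI_vdm p : ℕ) : L) ^ 2) = A.valuation ((p : ℕ) : L) ^ 2 := by
  rw [map_pow, crdI_vdm_val hp hA]

theorem crdI_PB_lc (hp : p.Prime) (hA : A.LiesOverPrime p) {c t : L}
    (ht : A.valuation t = 1) (hc : c = (t * ((crdI_vdm p : ℕ) : L)) ^ 2) :
    A.valuation ((p : ℕ) : L) ^ 2 ≤ A.valuation c := by
  rw [hc, map_pow, map_mul, ht, one_mul, crdI_vdm_val hp hA]

end Fermat.Agent.S13A
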