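import Mathlib

/-!
# S13 (A-i): local structure of the coordinate ring of a Weierstrass curve at a point

(helper15)  Second-engine file for the coordinate-ring / Wronskian route to `E[p] ≠ 0` and
`#E[p] ≤ p²`.  Everything is stated for an arbitrary field `F` and an arbitrary `F`-derivation `D`
of `W.CoordinateRing`, so it does not depend on the construction of the invariant derivation.

* `crdL_isMaximal_XYIdeal`, `crdL_exists_eq_XYIdeal` : over an algebraically closed field the maximal
  ideals of the coordinate ring are exactly the `⟨X - x, Y - y⟩` of the points of the curve.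
* `crdL_evalAt`, `crdL_ker_evalAt`, `crdL_evalAt_mk` : evaluation at a point.
* `crdL_pow_ne_pow_succ` : `m_P^j ≠ m_P^(j+1)` at a nonsingular point.
* `crdL_XYIdeal_le_of_Y`, `crdL_XYIdeal_le_of_X` : `m_P = (π) + m_P²` with `π = X - x` resp. `Y - y`.
* `crdL_taylor_abstract`, `crdL_taylor_point` : `D^i f ∈ m_P` for all `i < k` implies `f ∈ m_P^k`.
* `crdL_exists_combination_of_det_mem` : a vanishing determinant at a point gives a kernel vector.
-/

set_option autoImplicit false

namespace Fermat.Agent.S13A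

open WeierstrassCurve WeierstrassCurve.Affine Polynomial
open scoped Polynomial.Bivariate nonZeroDivisors

section Abstract

variable {K R : Type*} [Field K] [CommRing R] [Algebra K R]

/-- a derivation lowers the `m`-adic order by at most one. -/
theorem crdL_deriv_pow_succ_le (D : Derivation K R R) (m : Ideal R) :
    ∀ (j : ℕ) (g : R), g ∈ m ^ (j + 1) → D g ∈ m ^ j := by
  intro j
  induction j with
  | zero => intro g _; simp
  | succ j ih =>
    intro g hg
    rw [pow_succ] at hg
    refine Submodule.mul_induction_on hg ?_ ?_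
    · intro a ha b hb
      rw [Derivation.leibniz, smul_eq_mul, smul_eq_mul]
      refine Ideal.add_mem _ (Ideal.mul_mem_right _ _ ha) ?_
      rw [pow_succ, mul_comm]
      exact Ideal.mul_mem_mul hb (ih a ha)
    · intro a b ha hb
      rw [map_add]; exact Ideal.add_mem _ ha hb

/-- if `m = (π) + m²` then `m^k = (π^k) + m^(k+1)`. -/
theorem crdL_pow_le_span_pow_sup (m : Ideal R) (π : R) (hπ : π ∈ m)
    (hgen : m ≤ Ideal.span {π} ⊔ m ^ 2) :
    ∀ k : ℕ, m ^ k ≤ Ideal.span {π ^ k} ⊔ m ^ (k + 1) := by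
  intro k
  induction k with
  | zero => simp
  | succ k ih =>
    have h1 : m ^ (k + 1) ≤ (Ideal.span {π ^ k} ⊔ m ^ (k + 1)) * (Ideal.span {π} ⊔ m ^ 2) := by
      rw [pow_succ]; exact Ideal.mul_mono ih hgen
    refine h1.trans ?_
    rw [Ideal.mul_sup, Ideal.sup_mul, Ideal.sup_mul, Ideal.span_singleton_mul_span_singleton,
      ← pow_succ]
    have hπk : Ideal.span {π ^ k} ≤ m ^ k := by
      rw [Ideal.span_singleton_le_iff_mem]; exact Ideal.pow_mem_pow hπ k
    have hπ1 : Ideal.span {π} ≤ m := by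
      rw [Ideal.span_singleton_le_iff_mem]; exact hπ
    refine sup_le (sup_le le_sup_left (le_sup_of_le_right ?_))
      (sup_le (le_sup_of_le_right ?_) (le_sup_of_le_right ?_))
    · calc m ^ (k + 1) * Ideal.span {π} ≤ m ^ (k + 1) * m := Ideal.mul_mono le_rfl hπ1
        _ = m ^ (k + 1 + 1) := (pow_succ _ _).symm
    · calc Ideal.span {π ^ k} * m ^ 2 ≤ m ^ k * m ^ 2 := Ideal.mul_mono hπk le_rfl
        _ = m ^ (k + 1 + 1) := by rw [← pow_add]
    · calc m ^ (k + 1) * m ^ 2 = m ^ (k + 1 + 2) := by rw [← pow_add]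
        _ ≤ m ^ (k + 1 + 1) := Ideal.pow_le_pow_right (by omega)

/-- one Taylor step: `f ∈ m^k`, `D f ∈ m^k` (`k ≥ 1`) force `f ∈ m^(k+1)`. -/
theorem crdL_taylor_step [CharZero K] (D : Derivation K R R) (m : Ideal R)
    (hKm : ∀ r : R, ∃ c : K, r - algebraMap K R c ∈ m)
    (π : R) (hπ : π ∈ m) (u : R) (hu : u * D π - 1 ∈ m)
    (hgen : m ≤ Ideal.span {π} ⊔ m ^ 2)
    (hne : ∀ j, m ^ j ≠ m ^ (j + 1))
    (k : ℕ) (f : R) (hf : f ∈ m ^ (k + 1)) (hDf : D f ∈ m ^ (k + 1)) : f ∈ m ^ (k + 2) := by
  -- write f = c π^(k+1) + g', g' ∈ m^(k+2)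
  have hB := crdL_pow_le_span_pow_sup m π hπ hgen (k + 1) hf
  obtain ⟨r, g, hg, hfr⟩ := Ideal.mem_span_singleton_sup.mp hB
  obtain ⟨c, hc⟩ := hKm r
  have hπk : π ^ (k + 1) ∈ m ^ (k + 1) := Ideal.pow_mem_pow hπ _
  set g' : R := (r - algebraMap K R c) * π ^ (k + 1) + g with hg'
  have hg'mem : g' ∈ m ^ (k + 2) := by
    refine Ideal.add_mem _ ?_ hg
    have : m ^ (k + 2) = m * m ^ (k + 1) := by rw [← pow_succ']
    rw [this]; exact Ideal.mul_mem_mul hc hπk
  have hfc : f = algebraMap K R c * π ^ (k + 1) + g' := by rw [← hfr, hg']; ring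
  by_cases hc0 : c = 0
  · rw [hfc, hc0, map_zero, zero_mul, zero_add]; exact hg'mem
  exfalso
  -- D f = c (k+1) π^k Dπ + D g'
  have hDg' : D g' ∈ m ^ (k + 1) := crdL_deriv_pow_succ_le D m (k + 1) g' hg'mem
  have hDf' : D f = algebraMap K R (c * ((k + 1 : ℕ) : K)) * π ^ k * D π + D g' := by
    rw [hfc, map_add, Derivation.leibniz, Derivation.map_algebraMap, smul_zero, add_zero,
      Derivation.leibniz_pow, smul_eq_mul, smul_eq_mul, map_mul, map_natCast, nsmul_eq_mul]
    simp only [Nat.add_sub_cancel]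
    ring
  have h1 : algebraMap K R (c * ((k + 1 : ℕ) : K)) * π ^ k * D π ∈ m ^ (k + 1) := by
    have : algebraMap K R (c * ((k + 1 : ℕ) : K)) * π ^ k * D π = D f - D g' := by
      rw [hDf']; ring
    rw [this]; exact Ideal.sub_mem _ hDf hDg'
  have h2 : algebraMap K R (c * ((k + 1 : ℕ) : K)) * π ^ k ∈ m ^ (k + 1) := by
    have e1 : algebraMap K R (c * ((k + 1 : ℕ) : K)) * π ^ k =
        u * (algebraMap K R (c * ((k + 1 : ℕ) : K)) * π ^ k * D π) -
        algebraMap K R (c * ((k + 1 : ℕ) : K)) * (π ^ k * (u * D π - 1)) := by ring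
    rw [e1]
    refine Ideal.sub_mem _ (Ideal.mul_mem_left _ _ h1) (Ideal.mul_mem_left _ _ ?_)
    rw [pow_succ]; exact Ideal.mul_mem_mul (Ideal.pow_mem_pow hπ k) hu
  have hck : c * ((k + 1 : ℕ) : K) ≠ 0 :=
    mul_ne_zero hc0 (Nat.cast_ne_zero.mpr (Nat.succ_ne_zero k))
  have h3 : π ^ k ∈ m ^ (k + 1) := by
    have : π ^ k = algebraMap K R (c * ((k + 1 : ℕ) : K))⁻¹ *
        (algebraMap K R (c * ((k + 1 : ℕ) : K)) * π ^ k) := by
      rw [← mul_assoc, ← map_mul, inv_mul_cancel₀ hck, map_one, one_mul]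
    rw [this]; exact Ideal.mul_mem_left _ _ h2
  have h4 : m ^ k ≤ m ^ (k + 1) := by
    refine (crdL_pow_le_span_pow_sup m π hπ hgen k).trans (sup_le ?_ le_rfl)
    rw [Ideal.span_singleton_le_iff_mem]; exact h3
  exact hne k (le_antisymm h4 (Ideal.pow_le_pow_right (Nat.le_succ k)))

/-- **Abstract Taylor lemma**: if all derivatives `D^i f`, `i < k`, vanish at `m` then `f ∈ m^k`. -/
theorem crdL_taylor_abstract [CharZero K] (D : Derivation K R R) (m : Ideal R)
    (hKm : ∀ r : R, ∃ c : K, r - algebraMap K R c ∈ m)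
    (π : R) (hπ : π ∈ m) (u : R) (hu : u * D π - 1 ∈ m)
    (hgen : m ≤ Ideal.span {π} ⊔ m ^ 2)
    (hne : ∀ j, m ^ j ≠ m ^ (j + 1)) :
    ∀ (k : ℕ) (f : R), (∀ i < k, (⇑D)^[i] f ∈ m) → f ∈ m ^ k := by
  intro k
  induction k with
  | zero => intro f _; simp
  | succ k ih =>
    intro f hf
    rcases k with _ | k
    · simpa using hf 0 (by omega)
    · have h1 : f ∈ m ^ (k + 1) := ih f (fun i hi => hf i (by omega))
      have h2 : D f ∈ m ^ (k + 1) := by
        refine ih (D f) (fun i hi => ?_)
        have := hf (i + 1) (by omega)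
        rwa [Function.iterate_succ_apply] at this
      exact crdL_taylor_step D m hKm π hπ u hu hgen hne k f h1 h2

end Abstract

variable {F : Type*} [Field F] (W : Affine F)

theorem crdL_isMaximal_XYIdeal {x y : F} (h : W.Equation x y) :
    (CoordinateRing.XYIdeal W x (C y)).IsMaximal := by
  have h' : (W.polynomial.eval (C y)).eval x = 0 := h
  have e := CoordinateRing.quotientXYIdealEquiv (W' := W) h'
  exact Ideal.Quotient.maximal_of_isField _ (e.toRingEquiv.toMulEquiv.isField (Field.toIsField F))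

theorem crdL_finiteType : Algebra.FiniteType F W.CoordinateRing := by
  have h1 : Algebra.FiniteType F F[X][Y] := inferInstance
  exact Algebra.FiniteType.of_surjective
    ((AdjoinRoot.mkₐ W.polynomial).restrictScalars F) AdjoinRoot.mk_surjective

theorem crdL_exists_eq_XYIdeal [IsAlgClosed F] (m : Ideal W.CoordinateRing) (hm : m.IsMaximal) :
    ∃ x y : F, W.Equation x y ∧ m = CoordinateRing.XYIdeal W x (C y) := by
  have := crdL_finiteType W
  let _ := Ideal.Quotient.field m
  have : Algebra.FiniteType F (W.CoordinateRing ⧸ m) :=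
    Algebra.FiniteType.of_surjective (Ideal.Quotient.mkₐ F m) Ideal.Quotient.mk_surjective
  have : Module.Finite F (W.CoordinateRing ⧸ m) :=
    finite_of_finite_type_of_isJacobsonRing F (W.CoordinateRing ⧸ m)
  have : Algebra.IsIntegral F (W.CoordinateRing ⧸ m) := Algebra.IsIntegral.of_finite F _
  have hbij := IsAlgClosed.algebraMap_bijective_of_isIntegral (k := F) (K := W.CoordinateRing ⧸ m)
  obtain ⟨x, hx⟩ := hbij.2 (Ideal.Quotient.mk m (CoordinateRing.mk W (C X)))
  obtain ⟨y, hy⟩ := hbij.2 (Ideal.Quotient.mk m (CoordinateRing.mk W Y))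
  -- the two ring homs agree
  have hφ : ((Ideal.Quotient.mk m).comp (CoordinateRing.mk W) : F[X][Y] →+* _) =
      (algebraMap F (W.CoordinateRing ⧸ m)).comp (evalEvalRingHom x y) := by
    refine Polynomial.ringHom_ext (fun p => ?_) ?_
    · revert p
      have : ((Ideal.Quotient.mk m).comp (CoordinateRing.mk W)).comp (C : F[X] →+* F[X][Y]) =
          ((algebraMap F (W.CoordinateRing ⧸ m)).comp (evalEvalRingHom x y)).comp C := by
        refine Polynomial.ringHom_ext (fun a => ?_) ?_
        · simp only [RingHom.comp_apply, coe_evalRingHom, eval_C]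
          rfl
        · simp only [RingHom.comp_apply, coe_evalRingHom, eval_C, eval_X]
          exact hx.symm
      exact fun p => RingHom.congr_fun this p
    · simp only [RingHom.comp_apply, coe_evalRingHom, eval_X, eval_C]
      exact hy.symm
  have heq : W.Equation x y := by
    have h0 : (Ideal.Quotient.mk m) (CoordinateRing.mk W W.polynomial) = 0 := by
      rw [AdjoinRoot.mk_self, map_zero]
    have h1 := RingHom.congr_fun hφ W.polynomial
    rw [RingHom.comp_apply, RingHom.comp_apply, coe_evalEvalRingHom, h0] at h1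
    exact hbij.1 (by rw [map_zero]; exact h1.symm)
  refine ⟨x, y, heq, ?_⟩
  have hle : CoordinateRing.XYIdeal W x (C y) ≤ m := by
    rw [CoordinateRing.XYIdeal, Ideal.span_le]
    rintro z (rfl | rfl)
    · -- XClass
      rw [SetLike.mem_coe, ← Ideal.Quotient.eq_zero_iff_mem]
      have h1 := RingHom.congr_fun hφ (C (X - C x))
      simp only [RingHom.comp_apply, coe_evalRingHom, eval_sub, eval_X, eval_C,
        sub_self, map_zero] at h1
      exact h1
    · rw [SetLike.mem_coe, ← Ideal.Quotient.eq_zero_iff_mem]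
      have h1 := RingHom.congr_fun hφ (Y - C (C y))
      simp only [RingHom.comp_apply, coe_evalRingHom, eval_sub, eval_X, eval_C,
        sub_self, map_zero] at h1
      exact h1
  exact ((crdL_isMaximal_XYIdeal W heq).eq_of_le hm.ne_top hle).symm

/-- evaluation of regular functions at a point of the curve. -/
noncomputable def crdL_evalAt {x y : F} (h : W.Equation x y) : W.CoordinateRing →ₐ[F] F :=
  ((CoordinateRing.quotientXYIdealEquiv (W' := W) (x := x) (y := C y) h).toAlgHom).comp
    (Ideal.Quotient.mkₐ F (CoordinateRing.XYIdeal W x (C y)))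

theorem crdL_ker_evalAt {x y : F} (h : W.Equation x y) (a : W.CoordinateRing) :
    crdL_evalAt W h a = 0 ↔ a ∈ CoordinateRing.XYIdeal W x (C y) := by
  unfold crdL_evalAt
  rw [AlgHom.comp_apply]
  constructor
  · intro h0
    have : (Ideal.Quotient.mkₐ F (CoordinateRing.XYIdeal W x (C y))) a = 0 := by
      apply (CoordinateRing.quotientXYIdealEquiv (W' := W) (x := x) (y := C y) h).injective
      rw [map_zero]; exact h0
    exact Ideal.Quotient.eq_zero_iff_mem.mp this
  · intro ha
    have : (Ideal.Quotient.mkₐ F (CoordinateRing.XYIdeal W x (C y))) a = 0 :=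
      Ideal.Quotient.eq_zero_iff_mem.mpr ha
    rw [this]; exact map_zero _

theorem crdL_sub_evalAt_mem {x y : F} (h : W.Equation x y) (a : W.CoordinateRing) :
    a - algebraMap F W.CoordinateRing (crdL_evalAt W h a) ∈ CoordinateRing.XYIdeal W x (C y) := by
  rw [← crdL_ker_evalAt W h, map_sub, AlgHom.commutes, Algebra.algebraMap_self_apply, sub_self]

theorem crdL_evalAt_mk {x y : F} (h : W.Equation x y) (p : F[X][Y]) :
    crdL_evalAt W h (CoordinateRing.mk W p) = p.evalEval x y := by
  have hX : crdL_evalAt W h (CoordinateRing.mk W (C X)) = x := by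
    have h1 : CoordinateRing.XClass W x ∈ CoordinateRing.XYIdeal W x (C y) :=
      Ideal.subset_span (by simp)
    rw [← crdL_ker_evalAt W h, CoordinateRing.XClass, C_sub, map_sub, map_sub, sub_eq_zero] at h1
    rw [h1]
    exact (crdL_evalAt W h).commutes x
  have hY : crdL_evalAt W h (CoordinateRing.mk W Y) = y := by
    have h1 : CoordinateRing.YClass W (C y) ∈ CoordinateRing.XYIdeal W x (C y) :=
      Ideal.subset_span (by simp)
    rw [← crdL_ker_evalAt W h, CoordinateRing.YClass, map_sub, map_sub, sub_eq_zero] at h1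
    rw [h1]
    exact (crdL_evalAt W h).commutes y
  have hφ : ((crdL_evalAt W h : W.CoordinateRing →+* F).comp (CoordinateRing.mk W) :
      F[X][Y] →+* F) = evalEvalRingHom x y := by
    refine Polynomial.ringHom_ext (fun p => ?_) ?_
    · revert p
      have : ((crdL_evalAt W h : W.CoordinateRing →+* F).comp (CoordinateRing.mk W)).comp
          (C : F[X] →+* F[X][Y]) = (evalEvalRingHom x y).comp C := by
        refine Polynomial.ringHom_ext (fun a => ?_) ?_
        · simp only [RingHom.comp_apply, coe_evalRingHom, eval_C]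
          exact (crdL_evalAt W h).commutes a
        · simp only [RingHom.comp_apply, coe_evalRingHom, eval_C, eval_X]
          exact hX
      exact fun p => RingHom.congr_fun this p
    · simp only [RingHom.comp_apply, coe_evalRingHom, eval_X, eval_C]
      exact hY
  have := RingHom.congr_fun hφ p
  rw [coe_evalEvalRingHom] at this
  exact this

/-- powers of the maximal ideal of a nonsingular point are pairwise distinct. -/
theorem crdL_pow_ne_pow_succ {x y : F} (h : W.Nonsingular x y) (j : ℕ) :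
    CoordinateRing.XYIdeal W x (C y) ^ j ≠ CoordinateRing.XYIdeal W x (C y) ^ (j + 1) := by
  intro heq
  have hmax := crdL_isMaximal_XYIdeal W h.1
  set m := CoordinateRing.XYIdeal W x (C y) with hm
  have hu : ((CoordinateRing.XYIdeal' h : (FractionalIdeal W.CoordinateRing⁰ W.FunctionField)ˣ) :
      FractionalIdeal W.CoordinateRing⁰ W.FunctionField) = (m : FractionalIdeal _ _) := rfl
  have h1 : ((m ^ j : Ideal W.CoordinateRing) : FractionalIdeal W.CoordinateRing⁰ W.FunctionField) =
      ((m ^ (j + 1) : Ideal W.CoordinateRing) : FractionalIdeal _ _) := by rw [heq]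
  rw [FractionalIdeal.coeIdeal_pow, FractionalIdeal.coeIdeal_pow, ← hu, pow_succ] at h1
  have h2 : (1 : FractionalIdeal W.CoordinateRing⁰ W.FunctionField) =
      (CoordinateRing.XYIdeal' h : (FractionalIdeal W.CoordinateRing⁰ W.FunctionField)ˣ) := by
    have h3 : (CoordinateRing.XYIdeal' h) ^ j = (CoordinateRing.XYIdeal' h) ^ j *
        (CoordinateRing.XYIdeal' h) := by
      apply Units.ext
      rw [Units.val_mul, Units.val_pow_eq_pow_val]
      exact h1
    have h4 : CoordinateRing.XYIdeal' h = 1 := by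
      exact left_eq_mul.mp h3
    rw [h4, Units.val_one]
  rw [hu, ← FractionalIdeal.coeIdeal_top, FractionalIdeal.coeIdeal_inj] at h2
  exact hmax.ne_top h2.symm

/-- Taylor expansion of the Weierstrass equation at a point, in the coordinate ring. -/
theorem crdL_taylor_relation {x y : F} (h : W.Equation x y) :
    algebraMap F W.CoordinateRing (W.a₁ * y - (3 * x ^ 2 + 2 * W.a₂ * x + W.a₄)) *
        CoordinateRing.XClass W x +
      algebraMap F W.CoordinateRing (2 * y + W.a₁ * x + W.a₃) * CoordinateRing.YClass W (C y) =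
    -(algebraMap F W.CoordinateRing W.a₁ * CoordinateRing.XClass W x * CoordinateRing.YClass W (C y)
      + CoordinateRing.YClass W (C y) ^ 2
      - algebraMap F W.CoordinateRing (3 * x + W.a₂) * CoordinateRing.XClass W x ^ 2
      - CoordinateRing.XClass W x ^ 3) := by
  have halg : ∀ a : F, algebraMap F W.CoordinateRing a = CoordinateRing.mk W (C (C a)) :=
    fun a => rfl
  rw [halg, halg, halg, halg, CoordinateRing.XClass, CoordinateRing.YClass, ← sub_eq_zero]
  simp only [← map_mul, ← map_add, ← map_sub, ← map_neg, ← map_pow]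
  rw [AdjoinRoot.mk_eq_zero]
  refine ⟨1, ?_⟩
  have heq := (equation_iff ..).mp h
  rw [WeierstrassCurve.Affine.polynomial]
  linear_combination (norm := skip) (-1 : F[X][Y]) * congr_arg C (congr_arg C heq)
  simp only [map_ofNat, C_add, C_sub, C_mul, C_pow]
  ring1

theorem crdL_quadratic_mem_sq {x y : F} :
    (algebraMap F W.CoordinateRing W.a₁ * CoordinateRing.XClass W x * CoordinateRing.YClass W (C y)
      + CoordinateRing.YClass W (C y) ^ 2
      - algebraMap F W.CoordinateRing (3 * x + W.a₂) * CoordinateRing.XClass W x ^ 2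
      - CoordinateRing.XClass W x ^ 3) ∈ CoordinateRing.XYIdeal W x (C y) ^ 2 := by
  set m := CoordinateRing.XYIdeal W x (C y) with hm
  have hu : CoordinateRing.XClass W x ∈ m := Ideal.subset_span (by simp)
  have hv : CoordinateRing.YClass W (C y) ∈ m := Ideal.subset_span (by simp)
  have huu : CoordinateRing.XClass W x ^ 2 ∈ m ^ 2 := Ideal.pow_mem_pow hu 2
  have hvv : CoordinateRing.YClass W (C y) ^ 2 ∈ m ^ 2 := Ideal.pow_mem_pow hv 2
  have huv : CoordinateRing.XClass W x * CoordinateRing.YClass W (C y) ∈ m ^ 2 := by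
    rw [pow_two]; exact Ideal.mul_mem_mul hu hv
  refine Ideal.sub_mem _ (Ideal.sub_mem _ (Ideal.add_mem _ ?_ hvv) ?_) ?_
  · rw [mul_assoc]; exact Ideal.mul_mem_left _ _ huv
  · exact Ideal.mul_mem_left _ _ huu
  · have : CoordinateRing.XClass W x ^ 3 = CoordinateRing.XClass W x ^ 2 * CoordinateRing.XClass W x := by
      ring
    rw [this]; exact Ideal.mul_mem_right _ _ huu

theorem crdL_XYIdeal_le_of_Y {x y : F} (h : W.Equation x y) (hy : 2 * y + W.a₁ * x + W.a₃ ≠ 0) :
    CoordinateRing.XYIdeal W x (C y) ≤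
      Ideal.span {CoordinateRing.XClass W x} ⊔ CoordinateRing.XYIdeal W x (C y) ^ 2 := by
  have hrel := crdL_taylor_relation W h
  have hq := crdL_quadratic_mem_sq W (x := x) (y := y)
  set m := CoordinateRing.XYIdeal W x (C y) with hm
  set u := CoordinateRing.XClass W x with hu
  set v := CoordinateRing.YClass W (C y) with hv
  set J := Ideal.span {u} ⊔ m ^ 2 with hJ
  have huJ : u ∈ J := Ideal.mem_sup_left (Ideal.subset_span rfl)
  have hbv : algebraMap F W.CoordinateRing (2 * y + W.a₁ * x + W.a₃) * v ∈ J := by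
    have : algebraMap F W.CoordinateRing (2 * y + W.a₁ * x + W.a₃) * v =
        -(algebraMap F W.CoordinateRing W.a₁ * u * v + v ^ 2
          - algebraMap F W.CoordinateRing (3 * x + W.a₂) * u ^ 2 - u ^ 3) -
        algebraMap F W.CoordinateRing (W.a₁ * y - (3 * x ^ 2 + 2 * W.a₂ * x + W.a₄)) * u := by
      rw [← hrel]; ring
    rw [this]
    exact Ideal.sub_mem _ (neg_mem (Ideal.mem_sup_right hq)) (Ideal.mul_mem_left _ _ huJ)
  have hvJ : v ∈ J := by
    have : v = algebraMap F W.CoordinateRing (2 * y + W.a₁ * x + W.a₃)⁻¹ *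
        (algebraMap F W.CoordinateRing (2 * y + W.a₁ * x + W.a₃) * v) := by
      rw [← mul_assoc, ← map_mul, inv_mul_cancel₀ hy, map_one, one_mul]
    rw [this]; exact Ideal.mul_mem_left _ _ hbv
  rw [hm, CoordinateRing.XYIdeal, Ideal.span_le]
  rintro z (rfl | rfl)
  · exact huJ
  · exact hvJ

theorem crdL_XYIdeal_le_of_X {x y : F} (h : W.Equation x y)
    (hx : W.a₁ * y - (3 * x ^ 2 + 2 * W.a₂ * x + W.a₄) ≠ 0) :
    CoordinateRing.XYIdeal W x (C y) ≤
      Ideal.span {CoordinateRing.YClass W (C y)} ⊔ CoordinateRing.XYIdeal W x (C y) ^ 2 := by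
  have hrel := crdL_taylor_relation W h
  have hq := crdL_quadratic_mem_sq W (x := x) (y := y)
  set m := CoordinateRing.XYIdeal W x (C y) with hm
  set u := CoordinateRing.XClass W x with hu
  set v := CoordinateRing.YClass W (C y) with hv
  set J := Ideal.span {v} ⊔ m ^ 2 with hJ
  have hvJ : v ∈ J := Ideal.mem_sup_left (Ideal.subset_span rfl)
  have hbu : algebraMap F W.CoordinateRing (W.a₁ * y - (3 * x ^ 2 + 2 * W.a₂ * x + W.a₄)) * u ∈ J := by
    have : algebraMap F W.CoordinateRing (W.a₁ * y - (3 * x ^ 2 + 2 * W.a₂ * x + W.a₄)) * u =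
        -(algebraMap F W.CoordinateRing W.a₁ * u * v + v ^ 2
          - algebraMap F W.CoordinateRing (3 * x + W.a₂) * u ^ 2 - u ^ 3) -
        algebraMap F W.CoordinateRing (2 * y + W.a₁ * x + W.a₃) * v := by
      rw [← hrel]; ring
    rw [this]
    exact Ideal.sub_mem _ (neg_mem (Ideal.mem_sup_right hq)) (Ideal.mul_mem_left _ _ hvJ)
  have huJ : u ∈ J := by
    have : u = algebraMap F W.CoordinateRing (W.a₁ * y - (3 * x ^ 2 + 2 * W.a₂ * x + W.a₄))⁻¹ *
        (algebraMap F W.CoordinateRing (W.a₁ * y - (3 * x ^ 2 + 2 * W.a₂ * x + W.a₄)) * u) := by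
      rw [← mul_assoc, ← map_mul, inv_mul_cancel₀ hx, map_one, one_mul]
    rw [this]; exact Ideal.mul_mem_left _ _ hbu
  rw [hm, CoordinateRing.XYIdeal, Ideal.span_le]
  rintro z (rfl | rfl)
  · exact huJ
  · exact hvJ

/-- **Taylor lemma at a point of the curve**: for any `F`-derivation `D` of the coordinate ring
whose values on `X`, `Y` at the point are those of the invariant derivation
(`D X = 2Y + a₁X + a₃`, `D Y = 3X² + 2a₂X + a₄ - a₁Y`), a function all of whose derivatives
`D^i f`, `i < k`, vanish at the point lies in the `k`-th power of the maximal ideal. -/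
theorem crdL_taylor_point [CharZero F] (D : Derivation F W.CoordinateRing W.CoordinateRing)
    {x y : F} (h : W.Nonsingular x y)
    (hDX : crdL_evalAt W h.1 (D (CoordinateRing.mk W (C X))) = 2 * y + W.a₁ * x + W.a₃)
    (hDY : crdL_evalAt W h.1 (D (CoordinateRing.mk W Y)) =
      3 * x ^ 2 + 2 * W.a₂ * x + W.a₄ - W.a₁ * y)
    (k : ℕ) (f : W.CoordinateRing)
    (hf : ∀ i < k, (⇑D)^[i] f ∈ CoordinateRing.XYIdeal W x (C y)) :
    f ∈ CoordinateRing.XYIdeal W x (C y) ^ k := by
  have hKm : ∀ r : W.CoordinateRing, ∃ c : F,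
      r - algebraMap F W.CoordinateRing c ∈ CoordinateRing.XYIdeal W x (C y) :=
    fun r => ⟨_, crdL_sub_evalAt_mem W h.1 r⟩
  have halg : ∀ a : F, algebraMap F W.CoordinateRing a = CoordinateRing.mk W (C (C a)) :=
    fun a => rfl
  have hDXc : D (CoordinateRing.XClass W x) = D (CoordinateRing.mk W (C X)) := by
    rw [CoordinateRing.XClass, C_sub, map_sub, map_sub, ← halg, Derivation.map_algebraMap, sub_zero]
  have hDYc : D (CoordinateRing.YClass W (C y)) = D (CoordinateRing.mk W Y) := by
    rw [CoordinateRing.YClass, map_sub, map_sub, ← halg, Derivation.map_algebraMap, sub_zero]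
  rcases ((nonsingular_iff' ..).mp h).2 with hx | hy
  · -- π = YClass
    refine crdL_taylor_abstract D _ hKm (CoordinateRing.YClass W (C y))
      (Ideal.subset_span (by simp))
      (algebraMap F W.CoordinateRing (-(W.a₁ * y - (3 * x ^ 2 + 2 * W.a₂ * x + W.a₄)))⁻¹) ?_
      (crdL_XYIdeal_le_of_X W h.1 hx) (crdL_pow_ne_pow_succ W h) k f hf
    rw [← crdL_ker_evalAt W h.1, map_sub, map_mul, map_one, AlgHom.commutes, hDYc, hDY,
      Algebra.algebraMap_self_apply]
    have : 3 * x ^ 2 + 2 * W.a₂ * x + W.a₄ - W.a₁ * y =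
        -(W.a₁ * y - (3 * x ^ 2 + 2 * W.a₂ * x + W.a₄)) := by ring
    rw [this, inv_mul_cancel₀ (neg_ne_zero.mpr hx), sub_self]
  · refine crdL_taylor_abstract D _ hKm (CoordinateRing.XClass W x)
      (Ideal.subset_span (by simp))
      (algebraMap F W.CoordinateRing (2 * y + W.a₁ * x + W.a₃)⁻¹) ?_
      (crdL_XYIdeal_le_of_Y W h.1 hy) (crdL_pow_ne_pow_succ W h) k f hf
    rw [← crdL_ker_evalAt W h.1, map_sub, map_mul, map_one, AlgHom.commutes, hDXc, hDX,
      Algebra.algebraMap_self_apply, inv_mul_cancel₀ hy, sub_self]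

/-- **Wronskian kernel vector**: if a determinant of regular functions vanishes at a point then
some non-trivial `F`-linear combination of the columns vanishes at the point in every row. -/
theorem crdL_exists_combination_of_det_mem {x y : F} (h : W.Equation x y) {n : ℕ}
    (g : Matrix (Fin n) (Fin n) W.CoordinateRing)
    (hdet : g.det ∈ CoordinateRing.XYIdeal W x (C y)) :
    ∃ c : Fin n → F, c ≠ 0 ∧ ∀ i, ∑ j, algebraMap F W.CoordinateRing (c j) * g i j ∈
      CoordinateRing.XYIdeal W x (C y) := by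
  have h0 : (g.map (crdL_evalAt W h)).det = 0 := by
    have := (RingHom.map_det (crdL_evalAt W h : W.CoordinateRing →+* F) g).symm
    rw [RingHom.mapMatrix_apply] at this
    rw [show (g.map (crdL_evalAt W h)) = g.map (⇑(crdL_evalAt W h : W.CoordinateRing →+* F))
      from rfl, this]
    exact (crdL_ker_evalAt W h _).mpr hdet
  obtain ⟨c, hc0, hc⟩ := Matrix.exists_mulVec_eq_zero_iff.mpr h0
  refine ⟨c, hc0, fun i => ?_⟩
  rw [← crdL_ker_evalAt W h, map_sum]
  have := congrFun hc i
  simp only [Matrix.mulVec, dotProduct, Matrix.map_apply, Pi.zero_apply] at this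
  rw [← this]
  refine Finset.sum_congr rfl (fun j _ => ?_)
  rw [map_mul, AlgHom.commutes, Algebra.algebraMap_self_apply, mul_comm]

end Fermat.Agent.S13A
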