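import Fermat.Agent.S13.CoordLocal

/-!
# S13 (A-i): complements to `CoordLocal` (helper15)

* `crdL_iterate_mem_pow` : (f') `f ∈ m^k`, `i ≤ k` ⟹ `D^[i] f ∈ m^(k-i)` (Leibniz), for any derivation.
* `crdL_iterate_mem_of_mem_pow` : `f ∈ m^k`, `i < k` ⟹ `D^[i] f ∈ m`.
* `crdL_det_mem_of_combination` : converse of `crdL_exists_combination_of_det_mem`: a non-trivial
  combination of the columns vanishing at the point in every row forces the determinant to vanish.
* `crdL_iterate_sum` : `D^[i]` commutes with `F`-linear combinations.
-/

set_option autoImplicit false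

namespace Fermat.Agent.S13A

open WeierstrassCurve WeierstrassCurve.Affine Polynomial
open scoped Polynomial.Bivariate

section Abstract

variable {K R : Type*} [Field K] [CommRing R] [Algebra K R]

/-- (f') iterated derivatives lower the `m`-adic order by at most the number of derivations. -/
theorem crdL_iterate_mem_pow (D : Derivation K R R) (m : Ideal R) :
    ∀ (i k : ℕ), i ≤ k → ∀ f : R, f ∈ m ^ k → (⇑D)^[i] f ∈ m ^ (k - i) := by
  intro i
  induction i with
  | zero => intro k _ f hf; simpa using hf
  | succ i ih =>
    intro k hik f hf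
    obtain ⟨k', rfl⟩ : ∃ k', k = k' + 1 := ⟨k - 1, by omega⟩
    rw [Function.iterate_succ_apply]
    have h1 : D f ∈ m ^ k' := crdL_deriv_pow_succ_le D m k' f hf
    have h2 := ih k' (by omega) (D f) h1
    have : k' + 1 - (i + 1) = k' - i := by omega
    rw [this]; exact h2

theorem crdL_iterate_mem_of_mem_pow (D : Derivation K R R) (m : Ideal R) {i k : ℕ} (hik : i < k)
    {f : R} (hf : f ∈ m ^ k) : (⇑D)^[i] f ∈ m := by
  have h := crdL_iterate_mem_pow D m i k hik.le f hf
  have hle : m ^ (k - i) ≤ m := by
    have : k - i = (k - i - 1) + 1 := by omega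
    rw [this, pow_succ]; exact Ideal.mul_le_right
  exact hle h

/-- iterates of a `K`-linear map commute with `K`-linear combinations. -/
theorem crdL_iterate_sum (D : Derivation K R R) {ι : Type*} (s : Finset ι) (c : ι → K) (g : ι → R)
    (i : ℕ) : (⇑D)^[i] (∑ j ∈ s, algebraMap K R (c j) * g j) =
      ∑ j ∈ s, algebraMap K R (c j) * (⇑D)^[i] (g j) := by
  induction i generalizing g with
  | zero => simp
  | succ i ih =>
    simp only [Function.iterate_succ_apply]
    rw [map_sum]
    have : ∀ j, D (algebraMap K R (c j) * g j) = algebraMap K R (c j) * D (g j) := by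
      intro j
      rw [Derivation.leibniz, Derivation.map_algebraMap, smul_zero, add_zero, smul_eq_mul]
    simp only [this]
    exact ih (fun j => D (g j))

end Abstract

variable {F : Type*} [Field F] (W : Affine F)

/-- converse kernel statement: a non-trivial combination of the columns vanishing at the point in
every row forces the determinant to vanish at the point. -/
theorem crdL_det_mem_of_combination {x y : F} (h : W.Equation x y) {n : ℕ}
    (g : Matrix (Fin n) (Fin n) W.CoordinateRing) (c : Fin n → F) (hc : c ≠ 0)
    (hrow : ∀ i, ∑ j, algebraMap F W.CoordinateRing (c j) * g i j ∈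
      CoordinateRing.XYIdeal W x (C y)) :
    g.det ∈ CoordinateRing.XYIdeal W x (C y) := by
  rw [← crdL_ker_evalAt W h]
  have hdet : (g.map (crdL_evalAt W h)).det = crdL_evalAt W h g.det := by
    have := (RingHom.map_det (crdL_evalAt W h : W.CoordinateRing →+* F) g).symm
    rw [RingHom.mapMatrix_apply] at this
    exact this
  rw [← hdet]
  refine Matrix.exists_mulVec_eq_zero_iff.mp ⟨c, hc, ?_⟩
  funext i
  have := (crdL_ker_evalAt W h _).mpr (hrow i)
  rw [map_sum] at this
  simp only [Matrix.mulVec, dotProduct, Matrix.map_apply, Pi.zero_apply]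
  rw [← this]
  refine Finset.sum_congr rfl (fun j _ => ?_)
  rw [map_mul, AlgHom.commutes, Algebra.algebraMap_self_apply, mul_comm]

end Fermat.Agent.S13A
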