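/-
S13 package (A-i), chunks (i)+(j)+(k) (helper8): in the coordinate ring `R = F[W]` of a Weierstrass
curve over a field, for a nonsingular affine point `P = (x, y)` with maximal ideal
`m = XYIdeal W x (C y)`:

* `crdP_pow_succ_ne`        : `m ^ (n + 1) ≠ m ^ n` (from the invertibility of `m`);
* `crdP_le_finrank_quot_pow`: `n ≤ finrank F (R ⧸ m ^ n)`;
* `crdP_span_eq_pow`        : `f ≠ 0`, `f ∈ m ^ n`, `natDegree (norm f) ≤ n`  ⟹  `(f) = m ^ n`;
* `crdP_nsmul_eq_zero`      : `(f) = m ^ n`, `f ≠ 0`  ⟹  `n • P = 0`;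
* `crdP_torsion_of_mem_pow` : the combination, in the shape consumed by the Wronskian argument.
-/
import Mathlib

set_option linter.unusedSectionVars false
set_option linter.style.longLine false

namespace Fermat.Agent.S13A

open WeierstrassCurve WeierstrassCurve.Affine Polynomial Ideal Module
open scoped Polynomial.Bivariate nonZeroDivisors

variable {F : Type*} [Field F] {W : WeierstrassCurve.Affine F}

/-! ### Generic dimension lemmas for quotients of an `F`-algebra -/

/-- If `I ≤ J`, `R ⧸ I` is finite-dimensional and `dim R/I ≤ dim R/J`, then `I = J`. -/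
theorem crdP_eq_of_le_of_finrank_le {R : Type*} [CommRing R] [Algebra F R] {I J : Ideal R}
    (hIJ : I ≤ J) [Module.Finite F (R ⧸ I)]
    (hle : finrank F (R ⧸ I) ≤ finrank F (R ⧸ J)) : I = J := by
  refine le_antisymm hIJ ?_
  let φ : (R ⧸ I) →ₗ[F] (R ⧸ J) := (Ideal.Quotient.factorₐ F hIJ).toLinearMap
  have hsurj : Function.Surjective φ := Ideal.Quotient.factor_surjective hIJ
  have : Module.Finite F (R ⧸ J) := Module.Finite.of_surjective φ hsurj
  have hle2 : finrank F (R ⧸ J) ≤ finrank F (R ⧸ I) := φ.finrank_le_finrank_of_surjective hsurj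
  have hinj : Function.Injective φ :=
    (LinearMap.injective_iff_surjective_of_finrank_eq_finrank (le_antisymm hle hle2)).mpr hsurj
  intro a ha
  have : φ (Ideal.Quotient.mk I a) = 0 := by
    change Ideal.Quotient.factor hIJ (Ideal.Quotient.mk I a) = 0
    rw [Ideal.Quotient.factor_mk]
    exact Ideal.Quotient.eq_zero_iff_mem.mpr ha
  have h0 : Ideal.Quotient.mk I a = 0 := hinj (by rw [this, map_zero])
  exact Ideal.Quotient.eq_zero_iff_mem.mp h0

/-- If `I < J` (strictly) and `R ⧸ I` is finite-dimensional then `dim R/J + 1 ≤ dim R/I`. -/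
theorem crdP_finrank_succ_le_of_lt {R : Type*} [CommRing R] [Algebra F R] {I J : Ideal R}
    (hIJ : I < J) [Module.Finite F (R ⧸ I)] :
    finrank F (R ⧸ J) + 1 ≤ finrank F (R ⧸ I) := by
  let φ : (R ⧸ I) →ₗ[F] (R ⧸ J) := (Ideal.Quotient.factorₐ F hIJ.le).toLinearMap
  have hsurj : Function.Surjective φ := Ideal.Quotient.factor_surjective hIJ.le
  have hrk := φ.finrank_range_add_finrank_ker
  rw [LinearMap.range_eq_top.mpr hsurj, finrank_top] at hrk
  obtain ⟨a, haJ, haI⟩ := Set.exists_of_ssubset hIJ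
  have hker : (Ideal.Quotient.mk I a) ∈ LinearMap.ker φ := by
    rw [LinearMap.mem_ker]
    change Ideal.Quotient.factor hIJ.le (Ideal.Quotient.mk I a) = 0
    rw [Ideal.Quotient.factor_mk]
    exact Ideal.Quotient.eq_zero_iff_mem.mpr haJ
  have hne : (Ideal.Quotient.mk I a) ≠ 0 := fun h0 => haI (Ideal.Quotient.eq_zero_iff_mem.mp h0)
  have hpos : 0 < finrank F (LinearMap.ker φ) := by
    rw [Module.finrank_pos_iff_exists_ne_zero]
    exact ⟨⟨_, hker⟩, fun h0 => hne (congrArg Subtype.val h0)⟩
  omega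

/-! ### The coordinate ring -/

/-- Quotients of the coordinate ring by nonzero ideals are finite-dimensional. -/
theorem crdP_finite_quot {I : Ideal W.CoordinateRing} (hI : I ≠ ⊥) :
    Module.Finite F (W.CoordinateRing ⧸ I) := by
  classical
  have e := Ideal.quotientEquivDirectSum F (CoordinateRing.basis W) hI
  exact Module.Finite.equiv e.symm

/-- The maximal ideal of an affine point is proper. -/
theorem crdP_XYIdeal_ne_top {x y : F} (h : W.Equation x y) :
    CoordinateRing.XYIdeal W x (C y) ≠ ⊤ := by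
  intro htop
  have e := CoordinateRing.quotientXYIdealEquiv (W' := W) (x := x) (y := C y)
    (by simpa [Affine.Equation, Polynomial.evalEval] using h)
  have : Subsingleton (W.CoordinateRing ⧸ CoordinateRing.XYIdeal W x (C y)) := by
    rw [htop]; exact Ideal.Quotient.subsingleton_iff.mpr rfl
  exact (not_subsingleton F) e.symm.toEquiv.subsingleton

/-- The maximal ideal of an affine point is nonzero. -/
theorem crdP_XYIdeal_ne_bot (x y : F) :
    CoordinateRing.XYIdeal W x (C y) ≠ ⊥ := by
  intro hbot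
  have hmem : CoordinateRing.XClass W x ∈ CoordinateRing.XYIdeal W x (C y) :=
    Ideal.subset_span (Set.mem_insert _ _)
  rw [hbot, Ideal.mem_bot] at hmem
  exact CoordinateRing.XClass_ne_zero x hmem

/-- `m ^ (n + 1) ≠ m ^ n` for the maximal ideal of a nonsingular point. -/
theorem crdP_pow_succ_ne {x y : F} (h : W.Nonsingular x y) (n : ℕ) :
    CoordinateRing.XYIdeal W x (C y) ^ (n + 1) ≠ CoordinateRing.XYIdeal W x (C y) ^ n := by
  intro heq
  have h1 : ((CoordinateRing.XYIdeal' h : (FractionalIdeal W.CoordinateRing⁰ W.FunctionField)ˣ) :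
      FractionalIdeal W.CoordinateRing⁰ W.FunctionField) ^ (n + 1) =
      ((CoordinateRing.XYIdeal' h : (FractionalIdeal W.CoordinateRing⁰ W.FunctionField)ˣ) :
      FractionalIdeal W.CoordinateRing⁰ W.FunctionField) ^ n := by
    rw [CoordinateRing.XYIdeal'_eq, ← FractionalIdeal.coeIdeal_pow,
      ← FractionalIdeal.coeIdeal_pow, heq]
  have h2 : (CoordinateRing.XYIdeal' h) ^ (n + 1) = (CoordinateRing.XYIdeal' h) ^ n := by
    apply Units.ext
    simpa using h1
  have h3 : CoordinateRing.XYIdeal' h = 1 := by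
    have := h2
    rw [pow_succ] at this
    exact mul_eq_left.mp this
  have h4 : ((CoordinateRing.XYIdeal W x (C y) : Ideal W.CoordinateRing) :
      FractionalIdeal W.CoordinateRing⁰ W.FunctionField) =
      ((⊤ : Ideal W.CoordinateRing) : FractionalIdeal W.CoordinateRing⁰ W.FunctionField) := by
    rw [← CoordinateRing.XYIdeal'_eq h, h3, FractionalIdeal.coeIdeal_top]; rfl
  exact crdP_XYIdeal_ne_top h.left (FractionalIdeal.coeIdeal_injective h4)

/-- `m ^ (n + 1) < m ^ n`. -/
theorem crdP_pow_succ_lt {x y : F} (h : W.Nonsingular x y) (n : ℕ) :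
    CoordinateRing.XYIdeal W x (C y) ^ (n + 1) < CoordinateRing.XYIdeal W x (C y) ^ n :=
  lt_of_le_of_ne (Ideal.pow_le_pow_right n.le_succ) (crdP_pow_succ_ne h n)

/-- `n ≤ dim_F R ⧸ m ^ n`. -/
theorem crdP_le_finrank_quot_pow {x y : F} (h : W.Nonsingular x y) (n : ℕ) :
    n ≤ finrank F (W.CoordinateRing ⧸ CoordinateRing.XYIdeal W x (C y) ^ n) := by
  induction n with
  | zero => exact Nat.zero_le _
  | succ n ih =>
    have : Module.Finite F (W.CoordinateRing ⧸ CoordinateRing.XYIdeal W x (C y) ^ (n + 1)) :=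
      crdP_finite_quot (pow_ne_zero _ (crdP_XYIdeal_ne_bot x y))
    have := crdP_finrank_succ_le_of_lt (F := F) (crdP_pow_succ_lt h n)
    omega

/-- **(i)** A nonzero `f ∈ m ^ n` whose norm has degree at most `n` generates `m ^ n`. -/
theorem crdP_span_eq_pow {x y : F} (h : W.Nonsingular x y) {n : ℕ} {f : W.CoordinateRing}
    (hf : f ≠ 0) (hmem : f ∈ CoordinateRing.XYIdeal W x (C y) ^ n)
    (hdeg : (Algebra.norm F[X] f).natDegree ≤ n) :
    Ideal.span {f} = CoordinateRing.XYIdeal W x (C y) ^ n := by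
  have hne : Ideal.span ({f} : Set W.CoordinateRing) ≠ ⊥ := by
    rwa [Ne, Ideal.span_singleton_eq_bot]
  have : Module.Finite F (W.CoordinateRing ⧸ Ideal.span ({f} : Set W.CoordinateRing)) :=
    crdP_finite_quot hne
  refine crdP_eq_of_le_of_finrank_le (F := F) ((Ideal.span_singleton_le_iff_mem _).mpr hmem) ?_
  rw [finrank_quotient_span_eq_natDegree_norm (CoordinateRing.basis W) hf]
  exact hdeg.trans (crdP_le_finrank_quot_pow h n)

/-- **(j)** If `m_P ^ n` is principal then `n • P = 0`. -/
theorem crdP_nsmul_eq_zero [DecidableEq F] {x y : F} (h : W.Nonsingular x y) {n : ℕ}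
    {f : W.CoordinateRing} (hf : f ≠ 0)
    (hspan : Ideal.span {f} = CoordinateRing.XYIdeal W x (C y) ^ n) :
    n • (Point.some x y h : W.Point) = 0 := by
  rw [← Point.toClass_eq_zero, map_nsmul, Point.toClass_some]
  change Additive.ofMul ((ClassGroup.mk W.FunctionField (CoordinateRing.XYIdeal' (W := W) h)) ^ n) = 0
  rw [← map_pow]
  have hcoe : (((CoordinateRing.XYIdeal' (W := W) h) ^ n :
      (FractionalIdeal W.CoordinateRing⁰ W.FunctionField)ˣ) :
      FractionalIdeal W.CoordinateRing⁰ W.FunctionField) =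
      ((CoordinateRing.XYIdeal W x (C y) ^ n : Ideal W.CoordinateRing) :
        FractionalIdeal W.CoordinateRing⁰ W.FunctionField) := by
    rw [Units.val_pow_eq_pow_val, CoordinateRing.XYIdeal'_eq, FractionalIdeal.coeIdeal_pow]
  exact (ClassGroup.mk_eq_one_of_coe_ideal hcoe).mpr ⟨f, hf, hspan.symm⟩

/-- **(k)** The consumer shape: a nonzero function with a zero of order `≥ n` at the nonsingular
affine point `P` and a pole of order `≤ n` at infinity shows that `P` is a nonzero `n`-torsion
point. -/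
theorem crdP_torsion_of_mem_pow [DecidableEq F] {x y : F} (h : W.Nonsingular x y) {n : ℕ}
    {f : W.CoordinateRing} (hf : f ≠ 0) (hmem : f ∈ CoordinateRing.XYIdeal W x (C y) ^ n)
    (hdeg : (Algebra.norm F[X] f).natDegree ≤ n) :
    n • (Point.some x y h : W.Point) = 0 ∧ (Point.some x y h : W.Point) ≠ 0 :=
  ⟨crdP_nsmul_eq_zero h hf (crdP_span_eq_pow h hf hmem hdeg), Point.some_ne_zero h⟩

end Fermat.Agent.S13A
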