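/-
S13 package (A-i) (helper8), continuation of `CoordPrincipal.lean`: EXACT dimensions, without any
uniformiser.  For a nonsingular affine point `P = (x, y)` with `m = m_P = XYIdeal W x (C y)` and
`m' = m_{-P}`:  `m ^ n * m' ^ n = (X - x) ^ n` has codimension `2 n` (degree of the norm), and the
chain `m ^ n > m ^ n m' > ... > m ^ n m' ^ n` is strict by invertibility, so `dim R/m^n ≤ n`.

* `crdP_finrank_quot_pow`      : `finrank F (R ⧸ m ^ n) = n`                         (e')
* `crdP_natDegree_norm_of_span`: `(f) = m ^ n`, `f ≠ 0` ⟹ `natDegree (norm f) = n`   (T3)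
* `crdP_exists_smul_sub_mem_pow`: `g ∈ m^k ∖ m^(k+1)`, `f ∈ m^k` ⟹ `∃ c, f - c • g ∈ m^(k+1)`.
-/
import Fermat.Agent.S13.CoordPrincipal

set_option linter.unusedSectionVars false
set_option linter.style.longLine false

namespace Fermat.Agent.S13A

open WeierstrassCurve WeierstrassCurve.Affine Polynomial Ideal Module
open scoped Polynomial.Bivariate nonZeroDivisors

variable {F : Type*} [Field F] {W : WeierstrassCurve.Affine F}

theorem crdP_isUnit_coe {x y : F} (h : W.Nonsingular x y) :
    IsUnit ((CoordinateRing.XYIdeal W x (C y) : Ideal W.CoordinateRing) :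
      FractionalIdeal W.CoordinateRing⁰ W.FunctionField) := by
  rw [← CoordinateRing.XYIdeal'_eq h]
  exact (CoordinateRing.XYIdeal' h).isUnit

theorem crdP_mul_lt {x y : F} (h : W.Nonsingular x y) {J : Ideal W.CoordinateRing}
    (hJ : IsUnit ((J : Ideal W.CoordinateRing) :
      FractionalIdeal W.CoordinateRing⁰ W.FunctionField)) :
    J * CoordinateRing.XYIdeal W x (C y) < J := by
  refine lt_of_le_of_ne Ideal.mul_le_left ?_
  intro heq
  have h1 := congrArg (fun I : Ideal W.CoordinateRing =>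
    (I : FractionalIdeal W.CoordinateRing⁰ W.FunctionField)) heq
  simp only [FractionalIdeal.coeIdeal_mul] at h1
  have h2 : ((CoordinateRing.XYIdeal W x (C y) : Ideal W.CoordinateRing) :
      FractionalIdeal W.CoordinateRing⁰ W.FunctionField) = 1 := by
    have := hJ.mul_left_cancel (b := ((CoordinateRing.XYIdeal W x (C y) : Ideal W.CoordinateRing) :
      FractionalIdeal W.CoordinateRing⁰ W.FunctionField)) (c := 1) (by rw [h1, mul_one])
    exact this
  rw [← FractionalIdeal.coeIdeal_top] at h2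
  exact crdP_XYIdeal_ne_top h.left (FractionalIdeal.coeIdeal_injective h2)

theorem crdP_norm_XClass (x : F) :
    Algebra.norm F[X] (CoordinateRing.XClass W x) = (X - C x) ^ 2 := by
  have : CoordinateRing.XClass W x = algebraMap F[X] W.CoordinateRing (X - C x) := rfl
  rw [this, Algebra.norm_algebraMap, Module.finrank_eq_card_basis (CoordinateRing.basis W)]
  simp

/-- `dim R ⧸ (m_P ^ n * m_{-P} ^ j) ≥ dim R ⧸ m_P ^ n + j`. -/
theorem crdP_finrank_mul_pow_ge {x y : F} (h : W.Nonsingular x y) (n j : ℕ) :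
    finrank F (W.CoordinateRing ⧸ CoordinateRing.XYIdeal W x (C y) ^ n) + j ≤
      finrank F (W.CoordinateRing ⧸ (CoordinateRing.XYIdeal W x (C y) ^ n *
        CoordinateRing.XYIdeal W x (C (W.negY x y)) ^ j)) := by
  have h' : W.Nonsingular x (W.negY x y) := (nonsingular_neg ..).mpr h
  induction j with
  | zero => rw [pow_zero, Ideal.one_eq_top, Ideal.mul_top, add_zero]
  | succ j ih =>
    have hunit : IsUnit (((CoordinateRing.XYIdeal W x (C y) ^ n *
        CoordinateRing.XYIdeal W x (C (W.negY x y)) ^ j : Ideal W.CoordinateRing)) :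
        FractionalIdeal W.CoordinateRing⁰ W.FunctionField) := by
      rw [FractionalIdeal.coeIdeal_mul, FractionalIdeal.coeIdeal_pow, FractionalIdeal.coeIdeal_pow]
      exact ((crdP_isUnit_coe h).pow n).mul ((crdP_isUnit_coe h').pow j)
    have hlt := crdP_mul_lt h' hunit
    rw [mul_assoc, ← pow_succ] at hlt
    have hne : CoordinateRing.XYIdeal W x (C y) ^ n *
        CoordinateRing.XYIdeal W x (C (W.negY x y)) ^ (j + 1) ≠ ⊥ :=
      mul_ne_zero (pow_ne_zero _ (crdP_XYIdeal_ne_bot x y))
        (pow_ne_zero _ (crdP_XYIdeal_ne_bot x _))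
    have : Module.Finite F (W.CoordinateRing ⧸ (CoordinateRing.XYIdeal W x (C y) ^ n *
        CoordinateRing.XYIdeal W x (C (W.negY x y)) ^ (j + 1))) := crdP_finite_quot hne
    have := crdP_finrank_succ_le_of_lt (F := F) hlt
    omega

/-- **(e')** `dim_F R ⧸ m_P ^ n = n`. -/
theorem crdP_finrank_quot_pow {x y : F} (h : W.Nonsingular x y) (n : ℕ) :
    finrank F (W.CoordinateRing ⧸ CoordinateRing.XYIdeal W x (C y) ^ n) = n := by
  refine le_antisymm ?_ (crdP_le_finrank_quot_pow h n)
  have h1 := crdP_finrank_mul_pow_ge h n n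
  have h2 : CoordinateRing.XYIdeal W x (C y) ^ n *
      CoordinateRing.XYIdeal W x (C (W.negY x y)) ^ n =
      Ideal.span {CoordinateRing.XClass W x ^ n} := by
    rw [← mul_pow, mul_comm, CoordinateRing.XYIdeal_neg_mul h, CoordinateRing.XIdeal,
      Ideal.span_singleton_pow]
  have h3 : finrank F (W.CoordinateRing ⧸ Ideal.span {CoordinateRing.XClass W x ^ n}) = 2 * n := by
    rw [finrank_quotient_span_eq_natDegree_norm (CoordinateRing.basis W)
      (pow_ne_zero _ (CoordinateRing.XClass_ne_zero x)), map_pow, crdP_norm_XClass,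
      ← pow_mul, natDegree_pow, natDegree_X_sub_C]
    ring
  rw [h2, h3] at h1
  omega


/-- Generic: if `I ≤ J`, `R ⧸ I` is finite-dimensional and `dim R/I = dim R/J + 1` then `J / I` is
one-dimensional: for `g ∈ J ∖ I` and `f ∈ J` there is `c` with `f - c • g ∈ I`. -/
theorem crdP_exists_smul_sub_mem {R : Type*} [CommRing R] [Algebra F R] {I J : Ideal R}
    (hIJ : I ≤ J) [Module.Finite F (R ⧸ I)]
    (hdim : finrank F (R ⧸ I) = finrank F (R ⧸ J) + 1) {f g : R} (hf : f ∈ J) (hg : g ∈ J)
    (hgI : g ∉ I) : ∃ c : F, f - c • g ∈ I := by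
  let φ : (R ⧸ I) →ₗ[F] (R ⧸ J) := (Ideal.Quotient.factorₐ F hIJ).toLinearMap
  have hsurj : Function.Surjective φ := Ideal.Quotient.factor_surjective hIJ
  have hrk := φ.finrank_range_add_finrank_ker
  rw [LinearMap.range_eq_top.mpr hsurj, finrank_top] at hrk
  have hker1 : finrank F (LinearMap.ker φ) = 1 := by omega
  have hmemker : ∀ a ∈ J, (Ideal.Quotient.mk I a) ∈ LinearMap.ker φ := by
    intro a ha
    rw [LinearMap.mem_ker]
    change Ideal.Quotient.factor hIJ (Ideal.Quotient.mk I a) = 0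
    rw [Ideal.Quotient.factor_mk]
    exact Ideal.Quotient.eq_zero_iff_mem.mpr ha
  have hne : (⟨Ideal.Quotient.mk I g, hmemker g hg⟩ : LinearMap.ker φ) ≠ 0 := by
    intro h0
    exact hgI (Ideal.Quotient.eq_zero_iff_mem.mp (congrArg Subtype.val h0))
  obtain ⟨c, hc⟩ := (finrank_eq_one_iff_of_nonzero' _ hne).mp hker1
    ⟨Ideal.Quotient.mk I f, hmemker f hf⟩
  refine ⟨c, ?_⟩
  have hc' : c • (Ideal.Quotient.mk I g) = Ideal.Quotient.mk I f := congrArg Subtype.val hc
  rw [← Ideal.Quotient.eq_zero_iff_mem, map_sub, ← hc']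
  have : Ideal.Quotient.mk I (c • g) = c • Ideal.Quotient.mk I g := by
    rw [Algebra.smul_def, Algebra.smul_def, map_mul]; rfl
  rw [this, sub_self]


/-- **(T3)** If `m_P ^ n = (f)` then the norm of `f` has degree exactly `n`. -/
theorem crdP_natDegree_norm_of_span {x y : F} (h : W.Nonsingular x y) {n : ℕ}
    {f : W.CoordinateRing} (hf : f ≠ 0)
    (hspan : Ideal.span {f} = CoordinateRing.XYIdeal W x (C y) ^ n) :
    (Algebra.norm F[X] f).natDegree = n := by
  rw [← finrank_quotient_span_eq_natDegree_norm (CoordinateRing.basis W) hf,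
    (Ideal.quotientEquivAlgOfEq F hspan).toLinearEquiv.finrank_eq, crdP_finrank_quot_pow h n]

/-- The graded pieces `m ^ k / m ^ (k + 1)` are one-dimensional, in usable form. -/
theorem crdP_exists_smul_sub_mem_pow {x y : F} (h : W.Nonsingular x y) (k : ℕ)
    {f g : W.CoordinateRing} (hf : f ∈ CoordinateRing.XYIdeal W x (C y) ^ k)
    (hg : g ∈ CoordinateRing.XYIdeal W x (C y) ^ k)
    (hg' : g ∉ CoordinateRing.XYIdeal W x (C y) ^ (k + 1)) :
    ∃ c : F, f - c • g ∈ CoordinateRing.XYIdeal W x (C y) ^ (k + 1) := by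
  have : Module.Finite F (W.CoordinateRing ⧸ CoordinateRing.XYIdeal W x (C y) ^ (k + 1)) :=
    crdP_finite_quot (pow_ne_zero _ (crdP_XYIdeal_ne_bot x y))
  exact crdP_exists_smul_sub_mem (F := F) (Ideal.pow_le_pow_right k.le_succ)
    (by rw [crdP_finrank_quot_pow h, crdP_finrank_quot_pow h]) hf hg hg'

end Fermat.Agent.S13A
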