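import Mathlib
import Fermat.Agent.S13.CoordDetSymbol

set_option autoImplicit false

/-!
# S13 (A-i): abstract span / linear-independence statements for a filtration with symbols

Same abstract setting as `CoordDetSymbol.lean`: `le : ℕ → Submodule F R`, `top : ℕ → R →ₗ[F] F`.

* `crdZ_mem_span` : if `le (n+1) ∩ ker (top (n+1)) ⊆ le n` (S3), `le 0 ∩ ker (top 0) = 0`, `top 1 = 0`
  on `le 1`, and `mono n ∈ le n` has symbol `1` for `n ≠ 1`, then `le n` is spanned by the
  `mono k`, `k ≤ n`, `k ≠ 1`;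
* `crdZ_exists_coeff` : the same in the form `f = ∑ j : Fin p, c j • mono (crdX_orders p j)`;
* `crdZ_lincomb_top` : a nontrivial linear combination of elements of pairwise distinct exact
  orders has exact order the maximal order occurring; in particular it is nonzero
  (`crdZ_lincomb_ne_zero`).
-/

namespace Fermat.Agent.S13A

open Finset

section Abstract

variable {F R : Type*} [Field F] [CommRing R] [Algebra F R]
  (le : ℕ → Submodule F R) (top : ℕ → R →ₗ[F] F)

/-- (Z1) `le n` is spanned by the monomials of order `≤ n` (there is none of order `1`). -/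
theorem crdZ_mem_span
    (hS3 : ∀ (n : ℕ) (f : R), f ∈ le (n + 1) → top (n + 1) f = 0 → f ∈ le n)
    (hS30 : ∀ f : R, f ∈ le 0 → top 0 f = 0 → f = 0)
    (htop1 : ∀ f : R, f ∈ le 1 → top 1 f = 0)
    (mono : ℕ → R) (hmono : ∀ n, n ≠ 1 → mono n ∈ le n ∧ top n (mono n) = 1)
    (n : ℕ) (f : R) (hf : f ∈ le n) :
    f ∈ Submodule.span F (mono '' {k | k ≤ n ∧ k ≠ 1}) := by
  induction n generalizing f with
  | zero =>
    have h0 := hmono 0 (by omega)
    have hz : f - top 0 f • mono 0 = 0 := by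
      apply hS30
      · exact Submodule.sub_mem _ hf (Submodule.smul_mem _ _ h0.1)
      · rw [map_sub, map_smul, h0.2, smul_eq_mul, mul_one, sub_self]
    have hf' : f = top 0 f • mono 0 := sub_eq_zero.mp hz
    rw [hf']
    exact Submodule.smul_mem _ _ (Submodule.subset_span ⟨0, ⟨le_refl 0, by omega⟩, rfl⟩)
  | succ n ih =>
    have hsub : Submodule.span F (mono '' {k | k ≤ n ∧ k ≠ 1}) ≤
        Submodule.span F (mono '' {k | k ≤ n + 1 ∧ k ≠ 1}) := by
      apply Submodule.span_mono
      apply Set.image_mono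
      intro k hk
      exact ⟨Nat.le_succ_of_le hk.1, hk.2⟩
    by_cases hn : n + 1 = 1
    · have hn0 : n = 0 := by omega
      subst hn0
      exact hsub (ih f (hS3 0 f hf (htop1 f hf)))
    · have h1 := hmono (n + 1) hn
      have hz : f - top (n + 1) f • mono (n + 1) ∈ le n := by
        apply hS3
        · exact Submodule.sub_mem _ hf (Submodule.smul_mem _ _ h1.1)
        · rw [map_sub, map_smul, h1.2, smul_eq_mul, mul_one, sub_self]
      have hf' : f = (f - top (n + 1) f • mono (n + 1)) + top (n + 1) f • mono (n + 1) := by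
        rw [sub_add_cancel]
      rw [hf']
      refine Submodule.add_mem _ (hsub (ih _ hz)) (Submodule.smul_mem _ _ ?_)
      exact Submodule.subset_span ⟨n + 1, ⟨le_refl _, hn⟩, rfl⟩

/-- (Z2) the `Fin p` form for the orders `(0,2,3,…,p)`. -/
theorem crdZ_exists_coeff
    (hS3 : ∀ (n : ℕ) (f : R), f ∈ le (n + 1) → top (n + 1) f = 0 → f ∈ le n)
    (hS30 : ∀ f : R, f ∈ le 0 → top 0 f = 0 → f = 0)
    (htop1 : ∀ f : R, f ∈ le 1 → top 1 f = 0)
    (mono : ℕ → R) (hmono : ∀ n, n ≠ 1 → mono n ∈ le n ∧ top n (mono n) = 1)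
    (p : ℕ) (hp : 0 < p) (f : R) (hf : f ∈ le p) :
    ∃ c : Fin p → F, f = ∑ j, c j • mono (crdX_orders p j) := by
  have h := crdZ_mem_span le top hS3 hS30 htop1 mono hmono p f hf
  have hset : mono '' {k | k ≤ p ∧ k ≠ 1} ⊆ Set.range fun j : Fin p => mono (crdX_orders p j) := by
    rintro _ ⟨k, ⟨hk, hk1⟩, rfl⟩
    rcases Nat.eq_zero_or_pos k with rfl | hk0
    · exact ⟨⟨0, hp⟩, by simp [crdX_orders]⟩
    · have hk2 : 2 ≤ k := by omega
      refine ⟨⟨k - 1, by omega⟩, ?_⟩
      simp only [crdX_orders]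
      rw [if_neg (by omega), show k - 1 + 1 = k by omega]
  have h' := Submodule.span_mono hset h
  obtain ⟨c, hc⟩ := (Submodule.mem_span_range_iff_exists_fun F).mp h'
  exact ⟨c, hc.symm⟩

/-- (Z3) a nontrivial linear combination of elements of pairwise distinct exact orders has exact
order the maximal order occurring, with the expected symbol. -/
theorem crdZ_lincomb_top
    (hle : ∀ m n : ℕ, m ≤ n → le m ≤ le n)
    (hS2 : ∀ (m n : ℕ) (f : R), f ∈ le m → m < n → top n f = 0)
    {k : ℕ} (g : Fin k → R) (o : Fin k → ℕ) (ho : Function.Injective o)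
    (hg : ∀ j, g j ∈ le (o j)) (c : Fin k → F) (hc : c ≠ 0) :
    ∃ j, c j ≠ 0 ∧ (∑ i, c i • g i) ∈ le (o j) ∧
      top (o j) (∑ i, c i • g i) = c j * top (o j) (g j) := by
  classical
  have hne : (Finset.univ.filter fun j => c j ≠ 0).Nonempty := by
    by_contra hcon
    rw [Finset.not_nonempty_iff_eq_empty] at hcon
    apply hc
    funext j
    by_contra hj
    have hj' : c j ≠ 0 := hj
    have : j ∈ Finset.univ.filter fun j => c j ≠ 0 := by simp [hj']
    rw [hcon] at this
    exact absurd this (Finset.notMem_empty j)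
  obtain ⟨j, hjmem, hjmax⟩ := Finset.exists_max_image _ o hne
  have hcj : c j ≠ 0 := (Finset.mem_filter.mp hjmem).2
  have hmax : ∀ i, c i ≠ 0 → o i ≤ o j := fun i hi => hjmax i (by simp [hi])
  refine ⟨j, hcj, ?_, ?_⟩
  · refine Submodule.sum_mem _ fun i _ => ?_
    by_cases hi : c i = 0
    · rw [hi, zero_smul]; exact Submodule.zero_mem _
    · exact Submodule.smul_mem _ _ (hle _ _ (hmax i hi) (hg i))
  · rw [map_sum]
    rw [Finset.sum_eq_single j]
    · rw [map_smul, smul_eq_mul]
    · intro i _ hij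
      rw [map_smul, smul_eq_mul]
      by_cases hi : c i = 0
      · rw [hi, zero_mul]
      · have hlt : o i < o j := lt_of_le_of_ne (hmax i hi) (fun h => hij (ho h))
        rw [hS2 _ _ _ (hg i) hlt, mul_zero]
    · intro h; exact absurd (Finset.mem_univ j) h

/-- (Z3') in particular such a combination is nonzero. -/
theorem crdZ_lincomb_ne_zero
    (hle : ∀ m n : ℕ, m ≤ n → le m ≤ le n)
    (hS2 : ∀ (m n : ℕ) (f : R), f ∈ le m → m < n → top n f = 0)
    {k : ℕ} (g : Fin k → R) (o : Fin k → ℕ) (ho : Function.Injective o)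
    (hg : ∀ j, g j ∈ le (o j)) (hg0 : ∀ j, top (o j) (g j) ≠ 0)
    (c : Fin k → F) (hc : c ≠ 0) : (∑ i, c i • g i) ≠ 0 := by
  obtain ⟨j, hcj, -, htop⟩ := crdZ_lincomb_top le top hle hS2 g o ho hg c hc
  intro h0
  rw [h0, map_zero] at htop
  exact mul_ne_zero hcj (hg0 j) htop.symm

end Abstract

end Fermat.Agent.S13A
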