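import Mathlib

set_option autoImplicit false

/-!
# S13 (A-i): the pure polynomial core of (S6) for the pole-order filtration

For `f = p • 1 + q • Y` in the coordinate ring, `D f = P • 1 + Q • Y` with
`P = crdY_P a₁ a₂ a₃ a₄ a₆ p q`, `Q = crdY_Q a₁ a₃ p q` (helper14's `crdD_smul_basis`, verbatim).
"`f` has pole order `≤ n`" is, in coefficient form,
`(∀ j, n < 2 * j → p.coeff j = 0) ∧ (∀ j, n < 2 * j + 3 → q.coeff j = 0)`
(`crdY_mem_degreeLT_p/q` translate to `Polynomial.degreeLT`).  We prove: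

* `crdY_P_coeff_eq_zero`, `crdY_Q_coeff_eq_zero` : `D f` has pole order `≤ n + 1`;
* `crdY_Q_coeff_top` (`n = 2 (a + 1)` even): `Q.coeff a = n * p.coeff (a + 1)`;
* `crdY_P_coeff_top` (`n = 2 a + 3` odd): `P.coeff (a + 2) = n * q.coeff a`.
-/

open Polynomial
namespace Fermat.Agent.S13A
variable {K : Type*} [Field K] (a1 a2 a3 a4 a6 : K)

/-- first coordinate of `D (p + q Y)` -/
noncomputable def crdY_P (p q : K[X]) : K[X] :=
  (C a1 * X + C a3) * derivative p +
          2 * (X ^ 3 + C a2 * X ^ 2 + C a4 * X + C a6) * derivative q +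
          (C 3 * X ^ 2 + C (2 * a2) * X + C a4) * q
/-- second coordinate of `D (p + q Y)` -/
noncomputable def crdY_Q (p q : K[X]) : K[X] :=
  2 * derivative p - (C a1 * X + C a3) * derivative q - C a1 * q

theorem crdY_P_eq (p q : K[X]) : crdY_P a1 a2 a3 a4 a6 p q =
    C a1 * (X ^ 1 * derivative p) + C a3 * derivative p
      + C 2 * (X ^ 3 * derivative q + C a2 * (X ^ 2 * derivative q) + C a4 * (X ^ 1 * derivative q)
        + C a6 * derivative q)
      + (C 3 * (X ^ 2 * q) + C (2 * a2) * (X ^ 1 * q) + C a4 * q) := by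
  unfold crdY_P
  simp only [map_mul, map_ofNat]
  ring

theorem crdY_Q_eq (p q : K[X]) : crdY_Q a1 a3 p q =
    C 2 * derivative p - (C a1 * (X ^ 1 * derivative q) + C a3 * derivative q) - C a1 * q := by
  unfold crdY_Q
  simp only [map_ofNat]
  ring

theorem crdY_P_coeff_eq_zero (p q : K[X]) (n k : ℕ)
    (hp : ∀ j, n < 2 * j → p.coeff j = 0) (hq : ∀ j, n < 2 * j + 3 → q.coeff j = 0)
    (hk : n + 1 < 2 * k) : (crdY_P a1 a2 a3 a4 a6 p q).coeff k = 0 := by
  rw [crdY_P_eq]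
  simp only [coeff_add, coeff_C_mul, coeff_X_pow_mul', coeff_derivative]
  have e1 : p.coeff (k - 1 + 1) = 0 := hp _ (by omega)
  have e2 : p.coeff (k + 1) = 0 := hp _ (by omega)
  have e3 : q.coeff (k - 3 + 1) = 0 := hq _ (by omega)
  have e4 : q.coeff (k - 2 + 1) = 0 := hq _ (by omega)
  have e5 : q.coeff (k - 1 + 1) = 0 := hq _ (by omega)
  have e6 : q.coeff (k + 1) = 0 := hq _ (by omega)
  have e7 : q.coeff (k - 2) = 0 := hq _ (by omega)
  have e8 : q.coeff (k - 1) = 0 := hq _ (by omega)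
  have e9 : q.coeff k = 0 := hq _ (by omega)
  simp [e1, e2, e3, e4, e5, e6, e7, e8, e9]

theorem crdY_Q_coeff_eq_zero (p q : K[X]) (n k : ℕ)
    (hp : ∀ j, n < 2 * j → p.coeff j = 0) (hq : ∀ j, n < 2 * j + 3 → q.coeff j = 0)
    (hk : n + 1 < 2 * k + 3) : (crdY_Q a1 a3 p q).coeff k = 0 := by
  rw [crdY_Q_eq]
  simp only [coeff_add, coeff_sub, coeff_C_mul, coeff_X_pow_mul', coeff_derivative]
  have e1 : p.coeff (k + 1) = 0 := hp _ (by omega)
  have e2 : q.coeff (k - 1 + 1) = 0 := hq _ (by omega)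
  have e3 : q.coeff (k + 1) = 0 := hq _ (by omega)
  have e4 : q.coeff k = 0 := hq _ (by omega)
  simp [e1, e2, e3, e4]

/-- even order `n = 2a`, `a ≥ 1`: the top coefficient of `D f` is `n * top f`. -/
theorem crdY_Q_coeff_top (p q : K[X]) (a : ℕ)
    (hq : ∀ j, 2 * (a + 1) < 2 * j + 3 → q.coeff j = 0) :
    (crdY_Q a1 a3 p q).coeff a = ((2 * (a + 1) : ℕ) : K) * p.coeff (a + 1) := by
  rw [crdY_Q_eq]
  simp only [coeff_add, coeff_sub, coeff_C_mul, coeff_X_pow_mul', coeff_derivative]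
  have e2 : q.coeff (a - 1 + 1) = 0 := hq _ (by omega)
  have e3 : q.coeff (a + 1) = 0 := hq _ (by omega)
  have e4 : q.coeff a = 0 := hq _ (by omega)
  simp [e2, e3, e4]
  ring

/-- odd order `n = 2a + 3`: the top coefficient of `D f` is `n * top f`. -/
theorem crdY_P_coeff_top (p q : K[X]) (a : ℕ)
    (hp : ∀ j, 2 * a + 3 < 2 * j → p.coeff j = 0) (hq : ∀ j, 2 * a + 3 < 2 * j + 3 → q.coeff j = 0) :
    (crdY_P a1 a2 a3 a4 a6 p q).coeff (a + 2) = ((2 * a + 3 : ℕ) : K) * q.coeff a := by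
  rw [crdY_P_eq]
  simp only [coeff_add, coeff_C_mul, coeff_X_pow_mul', coeff_derivative]
  have e1 : p.coeff (a + 2 - 1 + 1) = 0 := hp _ (by omega)
  have e2 : p.coeff (a + 2 + 1) = 0 := hp _ (by omega)
  have e4 : q.coeff (a + 2 - 2 + 1) = 0 := hq _ (by omega)
  have e5 : q.coeff (a + 2 - 1 + 1) = 0 := hq _ (by omega)
  have e6 : q.coeff (a + 2 + 1) = 0 := hq _ (by omega)
  have e8 : q.coeff (a + 2 - 1) = 0 := hq _ (by omega)
  have e9 : q.coeff (a + 2) = 0 := hq _ (by omega)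
  rw [e1, e2, e4, e5, e6, e8, e9]
  rcases Nat.eq_zero_or_pos a with rfl | ha
  · simp
  · obtain ⟨b, rfl⟩ : ∃ b, a = b + 1 := ⟨a - 1, by omega⟩
    have h3 : 3 ≤ b + 1 + 2 := by omega
    have h2 : 2 ≤ b + 1 + 2 := by omega
    simp only [h3, h2, if_true, show b + 1 + 2 - 3 = b by omega,
      show b + 1 + 2 - 2 = b + 1 by omega]
    push_cast
    ring

theorem crdY_mem_degreeLT_p (n : ℕ) (p : K[X]) :
    p ∈ degreeLT K (n / 2 + 1) ↔ ∀ j, n < 2 * j → p.coeff j = 0 := by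
  rw [mem_degreeLT, degree_lt_iff_coeff_zero]
  constructor
  · intro h j hj
    exact h j (by omega)
  · intro h j hj
    exact h j (by omega)

theorem crdY_mem_degreeLT_q (n : ℕ) (q : K[X]) :
    q ∈ degreeLT K ((n - 1) / 2) ↔ ∀ j, n < 2 * j + 3 → q.coeff j = 0 := by
  rw [mem_degreeLT, degree_lt_iff_coeff_zero]
  constructor
  · intro h j hj
    exact h j (by omega)
  · intro h j hj
    exact h j (by omega)

end Fermat.Agent.S13A
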