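/-
S13 package (A-i), chunks (g), (h), converse and abstract assembly (helper13).

`F` a field, `W : WeierstrassCurve.Affine F`, `R := W.CoordinateRing`.

* `crdT_eval h : R →+* F` : evaluation at a point of the curve, kernel `XYIdeal W x (C y)`
  (`crdT_mem_XYIdeal_iff`), `crdT_norm_eval` : the norm to `F[X]` evaluated at `x` is the product
  of the values at the two points above `x`;
* **(g)** `crdT_exists_mem_XYIdeal` : a `g : R` whose norm is not constant vanishes at some point
  (`F` algebraically closed); `crdT_isRoot_norm_of_mem` : conversely zeros give roots of the norm;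
* **(h)** `crdT_exists_kernel` / `crdT_det_mem_of_kernel` : `det M ∈ m_P` iff `M` has a nontrivial
  kernel vector modulo `m_P`;
* `crdT_exists_span_eq_pow` : `n • P = 0` implies `m_P ^ n` principal (converse of helper8's (j));
* `crdT_derivation_pow_succ`, `crdT_iterate_mem`, `crdT_iterate_sum` : derivation bookkeeping;
* `crdT_wrMatrix`, **`crdT_exists_torsion`** (= (A1) from the Wronskian inputs),
  **`crdT_wr_mem_of_torsion`** (the Wronskian vanishes at every affine `n`-torsion point);
* `crdT_finite_of_roots`, `crdT_card_le_sq`, **`crdT_torsionBy_card_le`** (= (A2)).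
-/
import Mathlib

set_option autoImplicit false

namespace Fermat.Agent.S13A

open Polynomial WeierstrassCurve WeierstrassCurve.Affine WeierstrassCurve.Affine.CoordinateRing
open scoped Polynomial.Bivariate nonZeroDivisors

variable {F : Type*} [Field F] (W : WeierstrassCurve.Affine F)

/-- evaluation of the coordinate ring at a point of the curve. -/
noncomputable def crdT_eval {x y : F} (h : W.Equation x y) : W.CoordinateRing →+* F :=
  AdjoinRoot.evalEval (p := W.polynomial) h

variable {W}

theorem crdT_eval_mk {x y : F} (h : W.Equation x y) (g : F[X][Y]) :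
    crdT_eval W h (CoordinateRing.mk W g) = g.evalEval x y :=
  AdjoinRoot.evalEval_mk h g

theorem crdT_eval_smul_basis {x y : F} (h : W.Equation x y) (p q : F[X]) :
    crdT_eval W h (p • (1 : W.CoordinateRing) + q • CoordinateRing.mk W Y) =
      p.eval x + q.eval x * y := by
  rw [CoordinateRing.smul, CoordinateRing.smul, mul_one, ← map_mul, ← map_add, crdT_eval_mk]
  simp [evalEval]

theorem crdT_eval_algebraMap {x y : F} (h : W.Equation x y) (a : F) :
    crdT_eval W h (algebraMap F W.CoordinateRing a) = a := by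
  have : algebraMap F W.CoordinateRing a = CoordinateRing.mk W (C (C a)) := rfl
  rw [this, crdT_eval_mk]
  simp [evalEval]

theorem crdT_eval_smul {x y : F} (h : W.Equation x y) (a : F) (g : W.CoordinateRing) :
    crdT_eval W h (a • g) = a * crdT_eval W h g := by
  rw [Algebra.smul_def, map_mul, crdT_eval_algebraMap]

theorem crdT_mem_XYIdeal_iff {x y : F} (h : W.Equation x y) (g : W.CoordinateRing) :
    g ∈ XYIdeal W x (C y) ↔ crdT_eval W h g = 0 := by
  constructor
  · intro hg
    have hle : XYIdeal W x (C y) ≤ RingHom.ker (crdT_eval W h) := by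
      rw [XYIdeal, Ideal.span_le]
      rintro _ (rfl | rfl)
      · rw [SetLike.mem_coe, RingHom.mem_ker, XClass, crdT_eval_mk]
        simp [evalEval]
      · rw [SetLike.mem_coe, RingHom.mem_ker, YClass, crdT_eval_mk]
        simp [evalEval]
    exact hle hg
  · intro hg
    obtain ⟨G, rfl⟩ := AdjoinRoot.mk_surjective g
    have hG : G.evalEval x y = 0 := by
      have := crdT_eval_mk h G
      rw [← this]; exact hg
    have hmem : G ∈ Ideal.span {C (X - C x), (X : F[X][Y]) - C (C y)} :=
      mem_span_C_X_sub_C_X_sub_C_iff_eval_eval_eq_zero.mpr hG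
    have := Ideal.mem_map_of_mem (CoordinateRing.mk W) hmem
    rw [Ideal.map_span, Set.image_pair] at this
    exact this

theorem crdT_norm_eval {x y : F} (h : W.Equation x y) (g : W.CoordinateRing) :
    (Algebra.norm F[X] g).eval x =
      crdT_eval W h g * crdT_eval W ((W.equation_neg x y).mpr h) g := by
  obtain ⟨p, q, rfl⟩ := CoordinateRing.exists_smul_basis_eq g
  rw [CoordinateRing.norm_smul_basis, crdT_eval_smul_basis, crdT_eval_smul_basis]
  have he := (W.equation_iff x y).mp h
  simp only [eval_sub, eval_mul, eval_pow, eval_add, eval_C, eval_X, negY]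
  linear_combination (q.eval x) ^ 2 * he

theorem crdT_exists_equation [IsAlgClosed F] (x : F) : ∃ y : F, W.Equation x y := by
  obtain ⟨y, hy⟩ := IsAlgClosed.exists_root
    (X ^ 2 + C (W.a₁ * x + W.a₃) * X - C (x ^ 3 + W.a₂ * x ^ 2 + W.a₄ * x + W.a₆) : F[X])
    (by
      have : (X ^ 2 + C (W.a₁ * x + W.a₃) * X - C (x ^ 3 + W.a₂ * x ^ 2 + W.a₄ * x + W.a₆) :
          F[X]).degree = 2 := by
        compute_degree!
      rw [this]; norm_num)
  refine ⟨y, (W.equation_iff x y).mpr ?_⟩
  simp only [IsRoot.def, eval_sub, eval_add, eval_pow, eval_X, eval_mul, eval_C] at hy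
  linear_combination hy

/-- **(g)** an element of the coordinate ring whose norm is not constant vanishes at some point
of the curve. -/
theorem crdT_exists_mem_XYIdeal [IsAlgClosed F] (g : W.CoordinateRing)
    (hg : 0 < (Algebra.norm F[X] g).natDegree) :
    ∃ x y : F, W.Equation x y ∧ g ∈ XYIdeal W x (C y) := by
  obtain ⟨x, hx⟩ := IsAlgClosed.exists_root (Algebra.norm F[X] g)
    (by
      intro h0
      have := natDegree_eq_zero_iff_degree_le_zero.mpr h0.le
      omega)
  obtain ⟨y, hy⟩ := crdT_exists_equation (W := W) x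
  have hprod := crdT_norm_eval hy g
  rw [IsRoot.def] at hx
  rw [hx] at hprod
  rcases mul_eq_zero.mp hprod.symm with h0 | h0
  · exact ⟨x, y, hy, (crdT_mem_XYIdeal_iff hy g).mpr h0⟩
  · exact ⟨x, W.negY x y, (W.equation_neg x y).mpr hy,
      (crdT_mem_XYIdeal_iff ((W.equation_neg x y).mpr hy) g).mpr h0⟩

/-- the `x`-coordinate of a zero of `g` is a root of the norm of `g`. -/
theorem crdT_isRoot_norm_of_mem {x y : F} (h : W.Equation x y) {g : W.CoordinateRing}
    (hg : g ∈ XYIdeal W x (C y)) : (Algebra.norm F[X] g).IsRoot x := by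
  rw [IsRoot.def, crdT_norm_eval h g, (crdT_mem_XYIdeal_iff h g).mp hg, zero_mul]

/-- **(h)** a matrix over the coordinate ring whose determinant vanishes at a point has a
nontrivial kernel vector modulo the maximal ideal of that point. -/
theorem crdT_exists_kernel {n : ℕ} (M : Matrix (Fin n) (Fin n) W.CoordinateRing) {x y : F}
    (h : W.Equation x y) (hdet : M.det ∈ XYIdeal W x (C y)) :
    ∃ c : Fin n → F, c ≠ 0 ∧ ∀ i, ∑ j, c j • M i j ∈ XYIdeal W x (C y) := by
  have h0 : ((crdT_eval W h).mapMatrix M).det = 0 := by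
    rw [← RingHom.map_det]
    exact (crdT_mem_XYIdeal_iff h _).mp hdet
  obtain ⟨c, hc, hMc⟩ := Matrix.exists_mulVec_eq_zero_iff.mpr h0
  refine ⟨c, hc, fun i => (crdT_mem_XYIdeal_iff h _).mpr ?_⟩
  have := congrFun hMc i
  rw [Matrix.mulVec, dotProduct, Pi.zero_apply] at this
  rw [map_sum]
  simp only [crdT_eval_smul]
  rw [← this]
  refine Finset.sum_congr rfl fun j _ => ?_
  rw [RingHom.mapMatrix_apply, Matrix.map_apply, mul_comm]

/-- converse of **(h)**. -/
theorem crdT_det_mem_of_kernel {n : ℕ} (M : Matrix (Fin n) (Fin n) W.CoordinateRing) {x y : F}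
    (h : W.Equation x y) (c : Fin n → F) (hc : c ≠ 0)
    (hker : ∀ i, ∑ j, c j • M i j ∈ XYIdeal W x (C y)) : M.det ∈ XYIdeal W x (C y) := by
  rw [crdT_mem_XYIdeal_iff h, RingHom.map_det]
  refine Matrix.exists_mulVec_eq_zero_iff.mp ⟨c, hc, ?_⟩
  funext i
  have := (crdT_mem_XYIdeal_iff h _).mp (hker i)
  rw [map_sum] at this
  simp only [crdT_eval_smul] at this
  rw [Matrix.mulVec, dotProduct, Pi.zero_apply, ← this]
  refine Finset.sum_congr rfl fun j _ => ?_
  rw [RingHom.mapMatrix_apply, Matrix.map_apply, mul_comm]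


/-- **(α)** if `n • P = 0` for an affine point `P`, the `n`-th power of its maximal ideal is
principal. -/
theorem crdT_exists_span_eq_pow [DecidableEq F] {x y : F} (h : W.Nonsingular x y) (n : ℕ)
    (hn : n • Point.some x y h = 0) :
    ∃ g : W.CoordinateRing, g ≠ 0 ∧ XYIdeal W x (C y) ^ n = Ideal.span {g} := by
  have h1 : Point.toClass (n • Point.some x y h) = 0 := by rw [hn, map_zero]
  rw [map_nsmul, Point.toClass_some] at h1
  have h2 : ClassGroup.mk W.FunctionField (XYIdeal' (W := W) h ^ n) = 1 := by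
    rw [map_pow]
    exact h1
  refine (ClassGroup.mk_eq_one_of_coe_ideal (I' := XYIdeal W x (C y) ^ n) ?_).mp h2
  rw [Units.val_pow_eq_pow_val, XYIdeal'_eq, FractionalIdeal.coeIdeal_pow]

/-- **(δ)** a derivation maps `m ^ (k + 1)` into `m ^ k`. -/
theorem crdT_derivation_pow_succ {R : Type*} [CommRing R] [Algebra F R] (D : Derivation F R R)
    (m : Ideal R) (k : ℕ) {g : R} (hg : g ∈ m ^ (k + 1)) : D g ∈ m ^ k := by
  induction k generalizing g with
  | zero => simp
  | succ k ih =>
    rw [pow_succ] at hg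
    refine Submodule.mul_induction_on hg ?_ ?_
    · intro a ha b hb
      rw [Derivation.leibniz]
      refine Ideal.add_mem _ ?_ ?_
      · rw [smul_eq_mul]
        exact Ideal.mul_mem_right _ _ ha
      · rw [smul_eq_mul, pow_succ]
        exact Ideal.mul_mem_mul_rev (ih ha) hb
    · intro a b ha hb
      rw [map_add]
      exact Ideal.add_mem _ ha hb


/-- iterated form of **(δ)**. -/
theorem crdT_iterate_mem_pow {R : Type*} [CommRing R] [Algebra F R] (D : Derivation F R R)
    (m : Ideal R) (i : ℕ) : ∀ (n : ℕ) {g : R}, i ≤ n → g ∈ m ^ n → (⇑D)^[i] g ∈ m ^ (n - i) := by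
  induction i with
  | zero => intro n g _ hg; simpa using hg
  | succ i ih =>
    intro n g hi hg
    obtain ⟨k, rfl⟩ : ∃ k, n = k + 1 := ⟨n - 1, by omega⟩
    rw [Function.iterate_succ_apply]
    have := ih k (g := D g) (by omega) (crdT_derivation_pow_succ D m k hg)
    rwa [Nat.add_sub_add_right]

theorem crdT_iterate_mem {R : Type*} [CommRing R] [Algebra F R] (D : Derivation F R R)
    (m : Ideal R) {n i : ℕ} (hi : i < n) {g : R} (hg : g ∈ m ^ n) : (⇑D)^[i] g ∈ m := by
  have h := crdT_iterate_mem_pow D m i n hi.le hg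
  exact Ideal.pow_le_self (by omega) h

theorem crdT_iterate_sum {R : Type*} [CommRing R] [Algebra F R] (D : Derivation F R R)
    {ι : Type*} (s : Finset ι) (c : ι → F) (f : ι → R) (i : ℕ) :
    (⇑D)^[i] (∑ j ∈ s, c j • f j) = ∑ j ∈ s, c j • (⇑D)^[i] (f j) := by
  induction i with
  | zero => rfl
  | succ i ih =>
    rw [Function.iterate_succ_apply', ih, map_sum]
    refine Finset.sum_congr rfl fun j _ => ?_
    rw [Derivation.map_smul, Function.iterate_succ_apply']


/-- the Wronskian matrix of a family `f` with respect to `D`. -/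
noncomputable def crdT_wrMatrix (D : Derivation F W.CoordinateRing W.CoordinateRing) {n : ℕ}
    (f : Fin n → W.CoordinateRing) : Matrix (Fin n) (Fin n) W.CoordinateRing :=
  Matrix.of fun i j => (⇑D)^[(i : ℕ)] (f j)

theorem crdT_wrMatrix_apply (D : Derivation F W.CoordinateRing W.CoordinateRing) {n : ℕ}
    (f : Fin n → W.CoordinateRing) (i j : Fin n) :
    crdT_wrMatrix D f i j = (⇑D)^[(i : ℕ)] (f j) := rfl

/-- **(A1), abstract assembly.** -/
theorem crdT_exists_torsion [IsAlgClosed F] [DecidableEq F] {n : ℕ}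
    (D : Derivation F W.CoordinateRing W.CoordinateRing) (f : Fin n → W.CoordinateRing)
    (hWr : 0 < (Algebra.norm F[X] (crdT_wrMatrix D f).det).natDegree)
    (hns : ∀ x y, W.Equation x y → W.Nonsingular x y)
    (hTaylor : ∀ x y : F, W.Nonsingular x y → ∀ g : W.CoordinateRing,
      (∀ i < n, (⇑D)^[i] g ∈ XYIdeal W x (C y)) → g ∈ XYIdeal W x (C y) ^ n)
    (hspan : ∀ c : Fin n → F, c ≠ 0 →
      ∑ j, c j • f j ≠ 0 ∧ (Algebra.norm F[X] (∑ j, c j • f j)).natDegree ≤ n)
    (hprinc : ∀ (x y : F) (h : W.Nonsingular x y) (g : W.CoordinateRing), g ≠ 0 →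
      g ∈ XYIdeal W x (C y) ^ n → (Algebra.norm F[X] g).natDegree ≤ n →
      n • Point.some x y h = 0) :
    ∃ P : W.Point, P ≠ 0 ∧ n • P = 0 := by
  obtain ⟨x, y, hxy, hmem⟩ := crdT_exists_mem_XYIdeal _ hWr
  obtain ⟨c, hc, hker⟩ := crdT_exists_kernel _ hxy hmem
  have hns' := hns x y hxy
  obtain ⟨hg0, hgdeg⟩ := hspan c hc
  have hgm : ∑ j, c j • f j ∈ XYIdeal W x (C y) ^ n := by
    refine hTaylor x y hns' _ fun i hi => ?_
    rw [crdT_iterate_sum]
    exact hker ⟨i, hi⟩
  exact ⟨Point.some x y hns', Point.some_ne_zero hns', hprinc x y hns' _ hg0 hgm hgdeg⟩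

/-- **(A2), key step**: the Wronskian vanishes at every affine `n`-torsion point. -/
theorem crdT_wr_mem_of_torsion [DecidableEq F] {n : ℕ}
    (D : Derivation F W.CoordinateRing W.CoordinateRing) (f : Fin n → W.CoordinateRing)
    (hspan' : ∀ g : W.CoordinateRing, (Algebra.norm F[X] g).natDegree ≤ n →
      ∃ c : Fin n → F, g = ∑ j, c j • f j)
    (hdim : ∀ x y : F, W.Nonsingular x y →
      Module.finrank F (W.CoordinateRing ⧸ XYIdeal W x (C y) ^ n) ≤ n)
    {x y : F} (h : W.Nonsingular x y) (hn : n • Point.some x y h = 0) :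
    (crdT_wrMatrix D f).det ∈ XYIdeal W x (C y) := by
  obtain ⟨g, hg0, hg⟩ := crdT_exists_span_eq_pow h n hn
  have hdeg : (Algebra.norm F[X] g).natDegree ≤ n := by
    rw [← finrank_quotient_span_eq_natDegree_norm (CoordinateRing.basis W) hg0,
      ← (Ideal.quotientEquivAlgOfEq F hg).toLinearEquiv.finrank_eq]
    exact hdim x y h
  obtain ⟨c, hc⟩ := hspan' g hdeg
  have hc0 : c ≠ 0 := by
    rintro rfl
    apply hg0
    rw [hc]
    simp
  have hgm : g ∈ XYIdeal W x (C y) ^ n := by
    rw [hg]; exact Ideal.mem_span_singleton_self g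
  refine crdT_det_mem_of_kernel _ h.1 c hc0 fun i => ?_
  have := crdT_iterate_mem D (XYIdeal W x (C y)) i.2 hgm
  rw [hc, crdT_iterate_sum] at this
  exact this


/-- coordinates of a point. -/
def crdT_coords : W.Point → Option (F × F)
  | .zero => none
  | .some x y _ => some (x, y)

theorem crdT_coords_injective : Function.Injective (crdT_coords (W := W)) := by
  rintro (_ | ⟨x₁, y₁, h₁⟩) (_ | ⟨x₂, y₂, h₂⟩) h <;>
    simp only [crdT_coords, Option.some.injEq, Prod.mk.injEq, reduceCtorEq] at h
  · rfl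
  · obtain ⟨rfl, rfl⟩ := h; rfl

/-- the quadratic in `y` cutting out the points above `x`. -/
noncomputable def crdT_fibrePoly (W : WeierstrassCurve.Affine F) (x : F) : F[X] :=
  X ^ 2 + C (W.a₁ * x + W.a₃) * X - C (x ^ 3 + W.a₂ * x ^ 2 + W.a₄ * x + W.a₆)

theorem crdT_fibrePoly_natDegree (x : F) : (crdT_fibrePoly W x).natDegree = 2 := by
  unfold crdT_fibrePoly
  compute_degree!

theorem crdT_fibrePoly_ne_zero (x : F) : crdT_fibrePoly W x ≠ 0 := by
  intro h
  have := crdT_fibrePoly_natDegree (W := W) x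
  rw [h, natDegree_zero] at this
  omega

theorem crdT_fibrePoly_isRoot {x y : F} (h : W.Equation x y) : (crdT_fibrePoly W x).IsRoot y := by
  have he := (W.equation_iff x y).mp h
  simp only [crdT_fibrePoly, IsRoot.def, eval_sub, eval_add, eval_pow, eval_X, eval_mul, eval_C]
  linear_combination he

/-- the finite set of pairs `(x, y)` with `x` a root of `N` and `y` above `x`. -/
noncomputable def crdT_pairs [DecidableEq F] (W : WeierstrassCurve.Affine F) (N : F[X]) :
    Finset (F × F) :=
  N.roots.toFinset.biUnion fun x => (crdT_fibrePoly W x).roots.toFinset.image fun y => (x, y)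

theorem crdT_pairs_card_le [DecidableEq F] (N : F[X]) :
    (crdT_pairs W N).card ≤ 2 * N.natDegree := by
  unfold crdT_pairs
  refine Finset.card_biUnion_le.trans ?_
  have h1 : ∀ x ∈ N.roots.toFinset,
      ((crdT_fibrePoly W x).roots.toFinset.image fun y => (x, y)).card ≤ 2 := by
    intro x _
    refine Finset.card_image_le.trans ?_
    refine (Multiset.toFinset_card_le _).trans ?_
    exact (card_roots' _).trans (crdT_fibrePoly_natDegree x).le
  refine (Finset.sum_le_card_nsmul _ _ 2 h1).trans ?_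
  rw [smul_eq_mul, mul_comm]
  refine Nat.mul_le_mul_left 2 ?_
  exact (Multiset.toFinset_card_le _).trans (card_roots' _)

/-- **(A2), counting step.** If the `x`-coordinate of every affine point of a set `S` of points
is a root of the nonzero polynomial `N`, then `S` is finite with at most `2 deg N + 1` elements. -/
theorem crdT_finite_of_roots [DecidableEq F] (N : F[X]) (hN : N ≠ 0) (S : Set W.Point)
    (hS : ∀ (x y : F) (h : W.Nonsingular x y), Point.some x y h ∈ S → N.IsRoot x) :
    S.Finite ∧ S.ncard ≤ 2 * N.natDegree + 1 := by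
  classical
  set T : Set (Option (F × F)) := insert none (some '' (crdT_pairs W N : Set (F × F))) with hT
  have hTfin : T.Finite := (((crdT_pairs W N).finite_toSet).image _).insert _
  have hsub : S ⊆ crdT_coords ⁻¹' T := by
    rintro (_ | ⟨x, y, h⟩) hP
    · exact Set.mem_insert _ _
    · refine Set.mem_insert_of_mem _ ⟨(x, y), ?_, rfl⟩
      have hx := hS x y h hP
      simp only [crdT_pairs, Finset.coe_biUnion, Finset.mem_coe, Multiset.mem_toFinset,
        Finset.coe_image, Set.mem_iUnion, Set.mem_image, Prod.mk.injEq, exists_prop]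
      exact ⟨x, (mem_roots hN).mpr hx, y,
        (mem_roots (crdT_fibrePoly_ne_zero x)).mpr (crdT_fibrePoly_isRoot h.1), rfl, rfl⟩
  have hpre : (crdT_coords (W := W) ⁻¹' T).Finite :=
    hTfin.preimage crdT_coords_injective.injOn
  refine ⟨hpre.subset hsub, ?_⟩
  calc S.ncard ≤ T.ncard :=
        Set.ncard_le_ncard_of_injOn crdT_coords (fun a ha => hsub ha)
          crdT_coords_injective.injOn hTfin
    _ ≤ (some '' (crdT_pairs W N : Set (F × F))).ncard + 1 := Set.ncard_insert_le _ _
    _ ≤ 2 * N.natDegree + 1 := by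
      refine Nat.add_le_add_right ?_ 1
      rw [Set.ncard_image_of_injective _ (Option.some_injective _), Set.ncard_coe_finset]
      exact crdT_pairs_card_le N


theorem crdT_card_le_sq_aux {G : Type*} [AddCommGroup G] [Finite G] {p : ℕ} [Fact p.Prime]
    [Module (ZMod p) G] (hlt : Nat.card G < p ^ 3) : Nat.card G ≤ p ^ 2 := by
  have hp : p.Prime := Fact.out
  have hfin : Module.Finite (ZMod p) G := Module.Finite.of_finite
  have h := Module.natCard_eq_pow_finrank (K := ZMod p) (V := G)
  rw [Nat.card_zmod] at h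
  rw [h] at hlt ⊢
  have : Module.finrank (ZMod p) G < 3 := (Nat.pow_lt_pow_iff_right hp.one_lt).mp hlt
  exact Nat.pow_le_pow_right hp.pos (by omega)

/-- a finite abelian group killed by the prime `p` with fewer than `p ^ 3` elements has at most
`p ^ 2` elements. -/
theorem crdT_card_le_sq {G : Type*} [AddCommGroup G] [Finite G] {p : ℕ} (hp : p.Prime)
    (hG : ∀ g : G, p • g = 0) (hlt : Nat.card G < p ^ 3) : Nat.card G ≤ p ^ 2 :=
  @crdT_card_le_sq_aux G _ _ p ⟨hp⟩ (AddCommGroup.zmodModule hG) hlt


/-- **(A2), final form.** -/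
theorem crdT_torsionBy_card_le [DecidableEq F] {p : ℕ} (hp : p.Prime) (N : F[X]) (hN : N ≠ 0)
    (hdeg : N.natDegree ≤ p ^ 2 - 1)
    (hroot : ∀ (x y : F) (h : W.Nonsingular x y), p • Point.some x y h = 0 → N.IsRoot x) :
    Finite ↥(Submodule.torsionBy ℤ W.Point (p : ℤ)) ∧
      Nat.card ↥(Submodule.torsionBy ℤ W.Point (p : ℤ)) ≤ p ^ 2 := by
  set S : Set W.Point := (Submodule.torsionBy ℤ W.Point (p : ℤ) : Set W.Point) with hSdef
  have hmem : ∀ P : W.Point, P ∈ S ↔ p • P = 0 := by
    intro P
    rw [hSdef, SetLike.mem_coe, Submodule.mem_torsionBy_iff, natCast_zsmul]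
  obtain ⟨hfin, hcard⟩ := crdT_finite_of_roots N hN S
    (fun x y h hP => hroot x y h ((hmem _).mp hP))
  have hfin' : Finite ↥(Submodule.torsionBy ℤ W.Point (p : ℤ)) := hfin.to_subtype
  refine ⟨hfin', ?_⟩
  have hcard' : Nat.card ↥(Submodule.torsionBy ℤ W.Point (p : ℤ)) = S.ncard :=
    Nat.card_coe_set_eq S
  have hp2 : 1 ≤ p ^ 2 := Nat.one_le_pow _ _ hp.pos
  have hlt : Nat.card ↥(Submodule.torsionBy ℤ W.Point (p : ℤ)) < p ^ 3 := by
    rw [hcard']
    have h2 : 2 * p ^ 2 ≤ p ^ 3 := by
      rw [pow_succ p 2, mul_comm]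
      exact Nat.mul_le_mul_left _ hp.two_le
    have : 2 * N.natDegree + 1 ≤ 2 * (p ^ 2 - 1) + 1 := by omega
    omega
  refine crdT_card_le_sq hp (fun g => ?_) hlt
  apply Subtype.ext
  have := (hmem g.1).mp g.2
  simpa using this


end Fermat.Agent.S13A
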