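/-
S13, package (C): the input `asC_HC1 P` of `S13/AssembleC.lean` (`asC_contractC`) and of the
integration file `S13/Frontier.lean`, from (C1) = `S13/InertiaP.lean`.
-/
import Fermat.Agent.S13.InertiaP
import Fermat.Agent.S13.AssembleC

set_option autoImplicit false

namespace Fermat.Agent.S13C

open WeierstrassCurve WeierstrassCurve.Affine Fermat.Agent.S05 Fermat.Agent.S13x

/-- `S05.InE1` implies the `asC_inE1` form of the kernel of reduction. -/
theorem hc1_asC_inE1_of_inE1 {W : WeierstrassCurve ℚ} (A : ValuationSubring Qbar)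
    (R : (W⁄Qbar).Point) (h : InE1 A R) : asC_inE1 A R := by
  rcases R with _ | ⟨x, y, hxy⟩
  · exact Or.inl rfl
  · exact Or.inr h

/-- **`asC_HC1 P` holds** (inertia at `p` moves `p`-torsion points of the Frey curve by elements
of the kernel of reduction). -/
theorem hc1_asC_HC1 (P : FreyPackage) : asC_HC1 P := by
  intro A hA σ hσ x
  have hq2 : P.p ≠ 2 := by have := P.hp5; omega
  have hx : (P.p : ℤ) • (x : (P.freyCurve.toAffine⁄Qbar).Point) = 0 :=
    (Submodule.mem_torsionBy_iff _ _).mp x.2
  exact hc1_asC_inE1_of_inE1 A _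
    (inP_frey_sub_mem_E1 P P.pp hq2 A hA σ hσ (x : (P.freyCurve.toAffine⁄Qbar).Point) hx)

end Fermat.Agent.S13C
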