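import Fermat.Agent.S51.Torsion
import Fermat.Agent.S05.FreyNT
import Fermat.Agent.S13.Contracts

/-!
# S13, package (A), ladder route: from a "torsion polynomial" to `ContractA1`, `ContractA2`

Ladder-free counting part.  `K` a field, `W` a Weierstrass curve over `K` with `Δ ≠ 0`.
* `ladC_exists_point` : over an algebraically closed field every `x₀` is the `x`-coordinate of an
  affine point;
* `ladC_finite_ncard` : a set of points whose nonzero members have `x`-coordinate a root of
  `G ≠ 0` is finite of cardinality `≤ 1 + 2 deg G`;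
* `ladC_contractA1`, `ladC_contractA2` : the two contracts of `Contracts.lean` for the Frey curve
  from a polynomial `G` over `Qbar` detecting `p`-torsion.
-/

set_option autoImplicit false
set_option linter.unusedSectionVars false

namespace Fermat.Agent.S13L

open WeierstrassCurve WeierstrassCurve.Affine Polynomial
open Fermat.Agent.S51 (xc)

section generic

variable {K : Type*} [Field K] [DecidableEq K] {W : WeierstrassCurve.Affine K}

/-- Over an algebraically closed field, every `x₀` is the `x`-coordinate of a nonzero point. -/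
theorem ladC_exists_point [IsAlgClosed K] (hΔ : W.Δ ≠ 0) (x0 : K) :
    ∃ Q : W.Point, Q ≠ 0 ∧ xc Q = x0 := by
  obtain ⟨y, hy⟩ := IsAlgClosed.exists_root
    (X ^ 2 + C (W.a₁ * x0 + W.a₃) * X - C (x0 ^ 3 + W.a₂ * x0 ^ 2 + W.a₄ * x0 + W.a₆) : K[X])
    (by
      have : (X ^ 2 + C (W.a₁ * x0 + W.a₃) * X
          - C (x0 ^ 3 + W.a₂ * x0 ^ 2 + W.a₄ * x0 + W.a₆) : K[X]).degree = 2 := by
        compute_degree!
      rw [this]; norm_num)
  have heq : W.Equation x0 y := by
    rw [Affine.equation_iff]
    simp only [IsRoot.def, eval_sub, eval_add, eval_pow, eval_X, eval_mul, eval_C] at hy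
    linear_combination hy
  have hns : W.Nonsingular x0 y := (W.equation_iff_nonsingular_of_Δ_ne_zero hΔ).mp heq
  exact ⟨Point.some x0 y hns, Point.some_ne_zero _, rfl⟩

/-- A set of points whose nonzero members have `x`-coordinate among the roots of `G ≠ 0`
is finite with at most `1 + 2 deg G` elements. -/
theorem ladC_finite_ncard {G : K[X]} (hG : G ≠ 0) (S : Set W.Point)
    (hS : ∀ Q ∈ S, Q ≠ 0 → G.IsRoot (xc Q)) :
    S.Finite ∧ S.ncard ≤ 1 + 2 * G.natDegree := by
  classical
  set r : Finset K := G.roots.toFinset with hr_def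
  have hr : r.card ≤ G.natDegree :=
    (Multiset.toFinset_card_le _).trans (Polynomial.card_roots' G)
  let pick : K → W.Point := fun a =>
    if h : ∃ Q : W.Point, Q ≠ 0 ∧ xc Q = a then h.choose else 0
  let T : Finset W.Point := insert 0 (r.image pick ∪ r.image (fun a => - pick a))
  have hsub : S ⊆ (T : Set W.Point) := by
    intro Q hQ
    by_cases h0 : Q = 0
    · subst h0
      simp [T]
    · have hroot := hS Q hQ h0
      have ha : xc Q ∈ r := by
        rw [hr_def, Multiset.mem_toFinset, Polynomial.mem_roots hG]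
        exact hroot
      have hex : ∃ Q' : W.Point, Q' ≠ 0 ∧ xc Q' = xc Q := ⟨Q, h0, rfl⟩
      have hp : pick (xc Q) ≠ 0 ∧ xc (pick (xc Q)) = xc Q := by
        simp only [pick, dif_pos hex]
        exact hex.choose_spec
      have hmem : Q ∈ r.image pick ∪ r.image (fun a => - pick a) := by
        rcases Fermat.Agent.S51.eq_or_eq_neg_of_xc_eq h0 hp.1 hp.2.symm with h | h
        · exact Finset.mem_union_left _ (Finset.mem_image.mpr ⟨xc Q, ha, h.symm⟩)
        · exact Finset.mem_union_right _ (Finset.mem_image.mpr ⟨xc Q, ha, h.symm⟩)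
      exact Finset.mem_coe.mpr (Finset.mem_insert_of_mem hmem)
  have hT : T.card ≤ 1 + 2 * G.natDegree := by
    have h1 : T.card ≤ (r.image pick ∪ r.image (fun a => - pick a)).card + 1 :=
      Finset.card_insert_le _ _
    have h2 : (r.image pick ∪ r.image (fun a => - pick a)).card ≤
        (r.image pick).card + (r.image (fun a => - pick a)).card := Finset.card_union_le _ _
    have h3 : (r.image pick).card ≤ r.card := Finset.card_image_le
    have h4 : (r.image (fun a => - pick a)).card ≤ r.card := Finset.card_image_le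
    omega
  refine ⟨T.finite_toSet.subset hsub, ?_⟩
  calc S.ncard ≤ (T : Set W.Point).ncard := Set.ncard_le_ncard hsub T.finite_toSet
    _ = T.card := Set.ncard_coe_finset T
    _ ≤ _ := hT

end generic

section frey

open Fermat.Agent.S13x

local notation "Qb" => AlgebraicClosure ℚ

/-- `ContractA1` from a polynomial of positive degree whose roots are `x`-coordinates of
`p`-torsion points only. -/
theorem ladC_contractA1 (P : FreyPackage) (G : Qb[X]) (hdeg : G.natDegree ≠ 0)
    (h : ∀ Q : (P.freyCurve⁄Qb).Point, Q ≠ 0 → G.IsRoot (xc Q) → P.p • Q = 0) :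
    ContractA1 P := by
  have hdeg' : G.degree ≠ 0 := by
    intro h0
    exact hdeg (natDegree_eq_zero_iff_degree_le_zero.mpr h0.le)
  obtain ⟨x0, hx0⟩ := IsAlgClosed.exists_root G hdeg'
  obtain ⟨Q, hQ0, hQx⟩ := ladC_exists_point (W := P.freyCurve⁄Qb)
    (Fermat.Agent.S05.FreyNT.bc_Δ_ne_zero (P := P) (K := Qb)) x0
  have htors : P.p • Q = 0 := h Q hQ0 (by rw [hQx]; exact hx0)
  have hmem : Q ∈ Submodule.torsionBy ℤ (P.freyCurve⁄Qb).Point P.p := by
    rw [Submodule.mem_torsionBy_iff, natCast_zsmul]
    exact htors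
  refine ⟨⟨Q, hmem⟩, ?_⟩
  intro h0
  exact hQ0 (congrArg Subtype.val h0)

/-- `ContractA2` from a nonzero polynomial of degree `≤ (p² - 1)/2` vanishing at the
`x`-coordinates of all nonzero `p`-torsion points. -/
theorem ladC_contractA2 (P : FreyPackage) (G : Qb[X]) (hG : G ≠ 0)
    (hdeg : 1 + 2 * G.natDegree ≤ P.p ^ 2)
    (h : ∀ Q : (P.freyCurve⁄Qb).Point, Q ≠ 0 → P.p • Q = 0 → G.IsRoot (xc Q)) :
    ContractA2 P := by
  set S : Set (P.freyCurve⁄Qb).Point :=
    SetLike.coe (Submodule.torsionBy ℤ (P.freyCurve⁄Qb).Point P.p) with hS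
  have hS' : ∀ Q ∈ S, Q ≠ 0 → G.IsRoot (xc Q) := by
    intro Q hQ hQ0
    have : ((P.p : ℕ) : ℤ) • Q = 0 := (Submodule.mem_torsionBy_iff _ _).mp hQ
    rw [natCast_zsmul] at this
    exact h Q hQ0 this
  obtain ⟨hfin, hcard⟩ := ladC_finite_ncard hG S hS'
  refine ⟨hfin.to_subtype, ?_⟩
  have : Nat.card (FreyTors P) = S.ncard := _root_.Nat.card_coe_set_eq S
  rw [this]
  exact hcard.trans hdeg

end frey

end Fermat.Agent.S13L
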