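import Mathlib

/-!
# The x-only Montgomery ladder (S13, package (A), route "ladder"): definitions

For a Weierstrass curve `W` over a commutative ring `R` and a base `x`-coordinate `x : R` we define,
by binary recursion, the ladder state `ladv W x m = (X_m, Z_m, X_{m+1}, Z_{m+1})` of projective
`x`-coordinates of `m • P, (m+1) • P` where `x = x(P)`.  Everything is natural in ring
homomorphisms (`ladv_map`); the polynomial ladder is `lad W = ladv (W.map C) X` over `R[X]`, and
evaluating it at `x₀` gives back `ladv W x₀` (`lad_eval`).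
-/

set_option autoImplicit false

namespace Fermat.Agent.S13L

variable {R : Type*} [CommRing R] {S : Type*} [CommRing S]

/-! ### The ladder steps -/

/-- Projective doubling on the `x`-line: numerator (`phi2` homogenised). -/
def dblX (W : WeierstrassCurve R) (a b : R) : R :=
  a ^ 4 - W.b₄ * a ^ 2 * b ^ 2 - 2 * W.b₆ * a * b ^ 3 - W.b₈ * b ^ 4

/-- Projective doubling on the `x`-line: denominator (`f2` homogenised, times `b`). -/
def dblZ (W : WeierstrassCurve R) (a b : R) : R :=
  b * (4 * a ^ 3 + W.b₂ * a ^ 2 * b + 2 * W.b₄ * a * b ^ 2 + W.b₆ * b ^ 3)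

/-- Differential addition: denominator. -/
def daddZ (a₁ b₁ a₂ b₂ : R) : R := (a₁ * b₂ - a₂ * b₁) ^ 2

/-- Differential addition (the difference of the two points has `x`-coordinate `x`): numerator,
from the *sum* formula for `x(Q₁+Q₂) + x(Q₁-Q₂)`. -/
def daddX (W : WeierstrassCurve R) (x a₁ b₁ a₂ b₂ : R) : R :=
  2 * a₁ * a₂ * (a₁ * b₂ + a₂ * b₁) + W.b₂ * a₁ * a₂ * b₁ * b₂
    + W.b₄ * (a₁ * b₂ + a₂ * b₁) * b₁ * b₂ + W.b₆ * b₁ ^ 2 * b₂ ^ 2
    - x * (a₁ * b₂ - a₂ * b₁) ^ 2

lemma dblX_map (f : R →+* S) (W : WeierstrassCurve R) (a b : R) :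
    f (dblX W a b) = dblX (W.map f) (f a) (f b) := by
  simp [dblX, map_ofNat]

lemma dblZ_map (f : R →+* S) (W : WeierstrassCurve R) (a b : R) :
    f (dblZ W a b) = dblZ (W.map f) (f a) (f b) := by
  simp [dblZ, map_ofNat]

lemma daddZ_map (f : R →+* S) (a₁ b₁ a₂ b₂ : R) :
    f (daddZ a₁ b₁ a₂ b₂) = daddZ (f a₁) (f b₁) (f a₂) (f b₂) := by
  simp [daddZ]

lemma daddX_map (f : R →+* S) (W : WeierstrassCurve R) (x a₁ b₁ a₂ b₂ : R) :
    f (daddX W x a₁ b₁ a₂ b₂) = daddX (W.map f) (f x) (f a₁) (f b₁) (f a₂) (f b₂) := by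
  simp [daddX, map_ofNat]

/-- State of the ladder: `(X_m, Z_m, X_{m+1}, Z_{m+1})`. -/
@[ext] structure LadState (R : Type*) where
  /-- `X_m` -/
  X1 : R
  /-- `Z_m` -/
  Z1 : R
  /-- `X_{m+1}` -/
  X2 : R
  /-- `Z_{m+1}` -/
  Z2 : R

/-- Apply a function to all four components. -/
def LadState.map {A B : Type*} (f : A → B) (s : LadState A) : LadState B :=
  ⟨f s.X1, f s.Z1, f s.X2, f s.Z2⟩

@[simp] lemma LadState.map_X1 {A B : Type*} (f : A → B) (s : LadState A) :
    (s.map f).X1 = f s.X1 := rfl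
@[simp] lemma LadState.map_Z1 {A B : Type*} (f : A → B) (s : LadState A) :
    (s.map f).Z1 = f s.Z1 := rfl
@[simp] lemma LadState.map_X2 {A B : Type*} (f : A → B) (s : LadState A) :
    (s.map f).X2 = f s.X2 := rfl
@[simp] lemma LadState.map_Z2 {A B : Type*} (f : A → B) (s : LadState A) :
    (s.map f).Z2 = f s.Z2 := rfl

/-- From the state at `m` to the state at `2m`. -/
def stepEven (W : WeierstrassCurve R) (x : R) (s : LadState R) : LadState R :=
  ⟨dblX W s.X1 s.Z1, dblZ W s.X1 s.Z1, daddX W x s.X1 s.Z1 s.X2 s.Z2, daddZ s.X1 s.Z1 s.X2 s.Z2⟩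

/-- From the state at `m` to the state at `2m+1`. -/
def stepOdd (W : WeierstrassCurve R) (x : R) (s : LadState R) : LadState R :=
  ⟨daddX W x s.X1 s.Z1 s.X2 s.Z2, daddZ s.X1 s.Z1 s.X2 s.Z2, dblX W s.X2 s.Z2, dblZ W s.X2 s.Z2⟩

lemma stepEven_map (f : R →+* S) (W : WeierstrassCurve R) (x : R) (s : LadState R) :
    (stepEven W x s).map f = stepEven (W.map f) (f x) (s.map f) := by
  simp only [stepEven, LadState.map, dblX_map, dblZ_map, daddX_map, daddZ_map]

lemma stepOdd_map (f : R →+* S) (W : WeierstrassCurve R) (x : R) (s : LadState R) :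
    (stepOdd W x s).map f = stepOdd (W.map f) (f x) (s.map f) := by
  simp only [stepOdd, LadState.map, dblX_map, dblZ_map, daddX_map, daddZ_map]

/-- The ladder state at `n`: `(X_n, Z_n, X_{n+1}, Z_{n+1})`, for base `x`-coordinate `x`. -/
def ladv (W : WeierstrassCurve R) (x : R) : ℕ → LadState R
  | 0 => ⟨1, 0, x, 1⟩
  | (n + 1) =>
    if (n + 1) % 2 = 0 then stepEven W x (ladv W x ((n + 1) / 2))
    else stepOdd W x (ladv W x ((n + 1) / 2))
  decreasing_by all_goals omega

lemma ladv_zero (W : WeierstrassCurve R) (x : R) : ladv W x 0 = ⟨1, 0, x, 1⟩ := by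
  rw [ladv]

lemma ladv_two_mul_add_one (W : WeierstrassCurve R) (x : R) (m : ℕ) :
    ladv W x (2 * m + 1) = stepOdd W x (ladv W x m) := by
  rw [ladv]
  have h1 : (2 * m + 1) % 2 ≠ 0 := by omega
  have h2 : (2 * m + 1) / 2 = m := by omega
  rw [if_neg h1, h2]

lemma ladv_two_mul (W : WeierstrassCurve R) (x : R) (m : ℕ) :
    ladv W x (2 * m) = stepEven W x (ladv W x m) := by
  rcases Nat.eq_zero_or_pos m with rfl | hm
  · rw [Nat.mul_zero, ladv_zero]
    simp only [stepEven, dblX, dblZ, daddX, daddZ]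
    congr 1 <;> ring
  · obtain ⟨k, hk⟩ : ∃ k, 2 * m = k + 1 := ⟨2 * m - 1, by omega⟩
    rw [hk, ladv]
    have h1 : (k + 1) % 2 = 0 := by omega
    have h2 : (k + 1) / 2 = m := by omega
    rw [if_pos h1, h2]

/-- Binary induction principle adapted to `ladv`. -/
lemma binary_induction {motive : ℕ → Prop} (h0 : motive 0)
    (heven : ∀ m, motive m → motive (2 * m)) (hodd : ∀ m, motive m → motive (2 * m + 1)) :
    ∀ n, motive n := by
  intro n
  induction n using Nat.strong_induction_on with
  | _ n ih =>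
    rcases Nat.eq_zero_or_pos n with rfl | hn
    · exact h0
    · rcases Nat.even_or_odd' n with ⟨m, rfl | rfl⟩
      · exact heven m (ih m (by omega))
      · exact hodd m (ih m (by omega))

/-- Naturality of the ladder in ring homomorphisms. -/
lemma ladv_map (f : R →+* S) (W : WeierstrassCurve R) (x : R) (n : ℕ) :
    (ladv W x n).map f = ladv (W.map f) (f x) n := by
  induction n using binary_induction with
  | h0 => simp [ladv_zero, LadState.map]
  | heven m ih => rw [ladv_two_mul, ladv_two_mul, stepEven_map, ih]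
  | hodd m ih => rw [ladv_two_mul_add_one, ladv_two_mul_add_one, stepOdd_map, ih]

/-- The odd "division polynomial" value: `X_{m+1} Z_m - X_m Z_{m+1}`; vanishes at `x = x(P)` iff
`(2m+1) • P = 0`. -/
def ladFv (W : WeierstrassCurve R) (x : R) (m : ℕ) : R :=
  (ladv W x m).X2 * (ladv W x m).Z1 - (ladv W x m).X1 * (ladv W x m).Z2

lemma ladFv_map (f : R →+* S) (W : WeierstrassCurve R) (x : R) (m : ℕ) :
    f (ladFv W x m) = ladFv (W.map f) (f x) m := by
  simp only [ladFv, ← ladv_map, LadState.map, map_sub, map_mul]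

/-! ### The polynomial ladder -/

open Polynomial

/-- The ladder over `R[X]` with base `x`-coordinate the variable `X`. -/
noncomputable def lad (W : WeierstrassCurve R) (n : ℕ) : LadState R[X] :=
  ladv (W.map (C : R →+* R[X])) X n

/-- The odd division polynomial `F_{2m+1} = X_{m+1} Z_m - X_m Z_{m+1} ∈ R[X]`. -/
noncomputable def ladF (W : WeierstrassCurve R) (m : ℕ) : R[X] :=
  ladFv (W.map (C : R →+* R[X])) X m

lemma ladF_def (W : WeierstrassCurve R) (m : ℕ) :
    ladF W m = (lad W m).X2 * (lad W m).Z1 - (lad W m).X1 * (lad W m).Z2 := rfl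

lemma map_C_map_eval (W : WeierstrassCurve R) (x₀ : R) :
    (W.map (C : R →+* R[X])).map (evalRingHom x₀) = W := by
  rw [WeierstrassCurve.map_map]
  have : (evalRingHom x₀).comp (C : R →+* R[X]) = RingHom.id R := by
    ext a; simp
  rw [this, WeierstrassCurve.map_id]

/-- Evaluating the polynomial ladder at `x₀` gives the value ladder. -/
lemma lad_eval (W : WeierstrassCurve R) (x₀ : R) (n : ℕ) :
    (lad W n).map (eval x₀) = ladv W x₀ n := by
  have := ladv_map (evalRingHom x₀) (W.map (C : R →+* R[X])) X n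
  rw [map_C_map_eval] at this
  simpa [lad] using this

lemma ladF_eval (W : WeierstrassCurve R) (x₀ : R) (m : ℕ) :
    (ladF W m).eval x₀ = ladFv W x₀ m := by
  have := ladFv_map (evalRingHom x₀) (W.map (C : R →+* R[X])) X m
  rw [map_C_map_eval] at this
  simpa [ladF] using this

lemma map_C_map_mapRingHom (f : R →+* S) (W : WeierstrassCurve R) :
    (W.map (C : R →+* R[X])).map (mapRingHom f) = (W.map f).map (C : S →+* S[X]) := by
  rw [WeierstrassCurve.map_map, WeierstrassCurve.map_map]
  congr 1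
  ext a; simp

/-- Base change of the polynomial ladder. -/
lemma lad_map (f : R →+* S) (W : WeierstrassCurve R) (n : ℕ) :
    (lad W n).map (Polynomial.map f) = lad (W.map f) n := by
  have := ladv_map (mapRingHom f) (W.map (C : R →+* R[X])) X n
  rw [map_C_map_mapRingHom] at this
  simpa [lad] using this

lemma ladF_map (f : R →+* S) (W : WeierstrassCurve R) (m : ℕ) :
    (ladF W m).map f = ladF (W.map f) m := by
  have := ladFv_map (mapRingHom f) (W.map (C : R →+* R[X])) X m
  rw [map_C_map_mapRingHom] at this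
  simpa [ladF] using this

end Fermat.Agent.S13L
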