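/-
S13, (A-iii) → (C) adapter piece (helper4): integrality of the coefficients of the ladder division
polynomial.  If the Weierstrass coefficients `a₁, …, a₆` of `W` (over a ring `K`) lie in a subring
`A`, then every coefficient of `ladF W m` lies in `A` (it is the image of the ladder polynomial of
the curve over `A`, by `ladF_map`).  Specialisation to a valuation subring, and to the Frey curve
over `Qbar` at a place where `2` is a unit.
-/
import Mathlib
import Fermat.Agent.S13.LadderDefs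

set_option autoImplicit false

open Polynomial

namespace Fermat.Agent.S13L

variable {K : Type*} [CommRing K]

/-- the curve over the subring `A` with the same coefficients. -/
def ladI_descend (A : Subring K) (W : WeierstrassCurve K) (h1 : W.a₁ ∈ A) (h2 : W.a₂ ∈ A)
    (h3 : W.a₃ ∈ A) (h4 : W.a₄ ∈ A) (h6 : W.a₆ ∈ A) : WeierstrassCurve A :=
  ⟨⟨W.a₁, h1⟩, ⟨W.a₂, h2⟩, ⟨W.a₃, h3⟩, ⟨W.a₄, h4⟩, ⟨W.a₆, h6⟩⟩

theorem ladI_descend_map (A : Subring K) (W : WeierstrassCurve K) (h1 : W.a₁ ∈ A)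
    (h2 : W.a₂ ∈ A) (h3 : W.a₃ ∈ A) (h4 : W.a₄ ∈ A) (h6 : W.a₆ ∈ A) :
    (ladI_descend A W h1 h2 h3 h4 h6).map A.subtype = W := by
  ext <;> rfl

/-- **integrality of the ladder polynomial**: coefficients in a subring containing the `aᵢ`. -/
theorem ladI_coeff_mem (A : Subring K) (W : WeierstrassCurve K) (h1 : W.a₁ ∈ A) (h2 : W.a₂ ∈ A)
    (h3 : W.a₃ ∈ A) (h4 : W.a₄ ∈ A) (h6 : W.a₆ ∈ A) (m i : ℕ) : (ladF W m).coeff i ∈ A := by
  have h := ladF_map A.subtype (ladI_descend A W h1 h2 h3 h4 h6) m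
  rw [ladI_descend_map] at h
  rw [← h, coeff_map]
  exact Subtype.property _

/-- the same for a valuation subring of a field. -/
theorem ladI_coeff_mem_valuationSubring {F : Type*} [Field F] (A : ValuationSubring F)
    (W : WeierstrassCurve F) (h1 : W.a₁ ∈ A) (h2 : W.a₂ ∈ A) (h3 : W.a₃ ∈ A) (h4 : W.a₄ ∈ A)
    (h6 : W.a₆ ∈ A) (m i : ℕ) : (ladF W m).coeff i ∈ A :=
  ladI_coeff_mem A.toSubring W h1 h2 h3 h4 h6 m i

/-- constant coefficient of the square. -/
theorem ladI_sq_coeff_zero_mem {F : Type*} [Field F] (A : ValuationSubring F)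
    (W : WeierstrassCurve F) (h1 : W.a₁ ∈ A) (h2 : W.a₂ ∈ A) (h3 : W.a₃ ∈ A) (h4 : W.a₄ ∈ A)
    (h6 : W.a₆ ∈ A) (m : ℕ) : ((ladF W m) ^ 2).coeff 0 ∈ A := by
  have h : ((ladF W m) ^ 2).coeff 0 = (ladF W m).coeff 0 * (ladF W m).coeff 0 := by
    rw [pow_two, mul_coeff_zero]
  rw [h]
  exact A.mul_mem _ _ (ladI_coeff_mem_valuationSubring A W h1 h2 h3 h4 h6 m 0)
    (ladI_coeff_mem_valuationSubring A W h1 h2 h3 h4 h6 m 0)

/-- every coefficient of the square. -/
theorem ladI_sq_coeff_mem {F : Type*} [Field F] (A : ValuationSubring F)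
    (W : WeierstrassCurve F) (h1 : W.a₁ ∈ A) (h2 : W.a₂ ∈ A) (h3 : W.a₃ ∈ A) (h4 : W.a₄ ∈ A)
    (h6 : W.a₆ ∈ A) (m i : ℕ) : ((ladF W m) ^ 2).coeff i ∈ A := by
  rw [pow_two, coeff_mul]
  exact A.toSubring.sum_mem fun x _ =>
    A.mul_mem _ _ (ladI_coeff_mem_valuationSubring A W h1 h2 h3 h4 h6 m x.1)
      (ladI_coeff_mem_valuationSubring A W h1 h2 h3 h4 h6 m x.2)

end Fermat.Agent.S13L
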