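import Fermat.Agent.S13.AssembleC
import Fermat.Agent.S13.NormRoots
import Fermat.Agent.S13.LadderEval
import Fermat.Agent.S13.LadderTop
import Fermat.Agent.S05.FreyNT

/-!
# S13: the product bound `asC_HPB P` from the ladder polynomial
-/

set_option autoImplicit false
set_option linter.unusedSectionVars false

namespace Fermat.Agent.S13L

open Polynomial WeierstrassCurve WeierstrassCurve.Affine
open Fermat.Agent.S51 (xc)
open Fermat.Agent.S13x (FreyTors ContractA)
open Fermat.Agent.S13C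
open Fermat.Agent.S05 (Qbar)

/-- If the coefficients of `W` lie in a subring `A`, so do the coefficients of `ladF W m`. -/
theorem ladPB_coeff_mem {K : Type*} [CommRing K] (A : Subring K) (W : WeierstrassCurve K)
    (h1 : W.a₁ ∈ A) (h2 : W.a₂ ∈ A) (h3 : W.a₃ ∈ A) (h4 : W.a₄ ∈ A) (h6 : W.a₆ ∈ A) (m i : ℕ) :
    (ladF W m).coeff i ∈ A := by
  let WA : WeierstrassCurve A := ⟨⟨_, h1⟩, ⟨_, h2⟩, ⟨_, h3⟩, ⟨_, h4⟩, ⟨_, h6⟩⟩
  have hW : WA.map A.subtype = W := by ext <;> rfl
  rw [← hW, ← ladF_map, coeff_map]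
  exact (coeff (ladF WA m) i).2


theorem ladPB_x_eq {W : WeierstrassCurve ℚ} (R : (W⁄Qbar).Point) : pbC_x R = xc R := by
  rcases R with _ | ⟨x, y, h⟩ <;> rfl

/-- The set of nonzero `p`-torsion points has `p² - 1` elements, given `ContractA`. -/
theorem ladPB_card (P : FreyPackage) (hA : ContractA P)
    (T : Finset (P.freyCurve⁄Qbar).Point)
    (hT : ∀ R, R ∈ T ↔ (R ≠ 0 ∧ (P.p : ℤ) • R = 0)) : T.card + 1 = P.p ^ 2 := by
  classical
  have h0 : (0 : (P.freyCurve⁄Qbar).Point) ∉ T := fun h => ((hT 0).mp h).1 rfl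
  have e : FreyTors P ≃ {R // R ∈ insert (0 : (P.freyCurve⁄Qbar).Point) T} :=
    Equiv.subtypeEquivRight (fun R => by
      rw [Submodule.mem_torsionBy_iff, Finset.mem_insert, hT]
      constructor
      · intro h
        by_cases hR : R = 0
        · exact Or.inl hR
        · exact Or.inr ⟨hR, h⟩
      · rintro (rfl | ⟨_, h⟩)
        · exact smul_zero _
        · exact h)
  have h1 : Nat.card (FreyTors P) = (insert (0 : (P.freyCurve⁄Qbar).Point) T).card := by
    rw [Nat.card_congr e, Nat.card_eq_fintype_card, Fintype.card_coe]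
  rw [Finset.card_insert_of_notMem h0] at h1
  rw [← h1]
  exact hA


/-- **(HPB)** the product bound for the nonzero `p`-torsion points of the Frey curve, from the
ladder polynomial `ladF`. -/
theorem ladPB_HPB (P : FreyPackage) (hA : ContractA P) : asC_HPB P := by
  classical
  intro A hAp T hT
  have hΔ : (P.freyCurve⁄Qbar).Δ ≠ 0 := Fermat.Agent.S05.FreyNT.bc_Δ_ne_zero (K := Qbar) P
  have h2 : (2 : Qbar) ≠ 0 := two_ne_zero
  obtain ⟨m, hm⟩ : ∃ m, P.p = 2 * m + 1 := by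
    rcases P.pp.eq_two_or_odd' with h | h
    · have := P.hp5; omega
    · obtain ⟨m, hm⟩ := h; exact ⟨m, hm⟩
  have hcard := ladPB_card P hA T hT
  -- the torsion set
  have h0 : (0 : (P.freyCurve⁄Qbar).Point) ∉ T := fun h => ((hT 0).mp h).1 rfl
  have hneg : ∀ R ∈ T, -R ∈ T := by
    intro R hR
    obtain ⟨hR0, hRp⟩ := (hT R).mp hR
    exact (hT (-R)).mpr ⟨neg_ne_zero.mpr hR0, by rw [zsmul_neg, hRp, neg_zero]⟩
  have hnsmul : ∀ R ∈ T, (2 * m + 1) • R = 0 := by
    intro R hR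
    have := ((hT R).mp hR).2
    rw [hm] at this
    exact_mod_cast this
  have h2' : ∀ R ∈ T, R ≠ -R := by
    intro R hR hEq
    have h2R : 2 • R = 0 := by
      rw [two_nsmul]
      nth_rewrite 2 [hEq]
      exact add_neg_cancel R
    have := hnsmul R hR
    rw [add_smul, mul_smul, one_smul] at this
    have hmR : (2 : ℕ) • m • R = m • (2 : ℕ) • R := smul_comm _ _ _
    rw [hmR, h2R, nsmul_zero, zero_add] at this
    exact ((hT R).mp hR).1 this
  -- the polynomial
  set ψ : Qbar[X] := ladF (P.freyCurve⁄Qbar) m with hψ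
  have hlc0 : (2 * (m : Qbar) + 1) ≠ 0 := by
    have : (2 * (m : Qbar) + 1) = ((2 * m + 1 : ℕ) : Qbar) := by push_cast; ring
    rw [this]
    exact Nat.cast_ne_zero.mpr (by omega)
  have hψ0 : ψ ≠ 0 := ladF_ne_zero _ m hlc0
  have hdegψ : ψ.natDegree = 2 * m ^ 2 + 2 * m := natDegree_ladF _ m hlc0
  have hlcψ : ψ.leadingCoeff = -(2 * (m : Qbar) + 1) := leadingCoeff_ladF _ m hlc0
  have hroot : ∀ R ∈ T, ψ.eval (xc R) = 0 := by
    intro R hR
    exact (ladF_isRoot_iff h2 hΔ ((hT R).mp hR).1 m).mpr (hnsmul R hR)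
  have hdeg : (ψ ^ 2).natDegree ≤ T.card := by
    rw [natDegree_pow, hdegψ]
    have : T.card + 1 = (2 * m + 1) ^ 2 := by rw [hcard, hm]
    nlinarith
  have hprod := Fermat.Agent.S13C.nrC_sq_eq_prod T h0 hneg h2' ψ hψ0 hroot hdeg
  -- integrality
  have hint := asC_frey_integral P hAp
  have hcoeff : ∀ i, (ψ ^ 2).coeff i ∈ A := by
    have h1 : ∀ i, ψ.coeff i ∈ A := fun i =>
      ladPB_coeff_mem A.toSubring (P.freyCurve⁄Qbar) hint.1 hint.2.1 hint.2.2.1 hint.2.2.2.1
        hint.2.2.2.2 m i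
    intro i
    rw [pow_two, coeff_mul]
    exact A.toSubring.sum_mem fun x _ => A.mul_mem _ _ (h1 _) (h1 _)
  refine pbC_PB_of_poly (W := P.freyCurve) T (ψ ^ 2) (ψ.leadingCoeff ^ 2) hcoeff ?_ ?_
  · rw [hprod]
    congr 1
    exact Finset.prod_congr rfl fun R _ => by rw [ladPB_x_eq]
  · rw [hlcψ, map_pow, Valuation.map_neg]
    have : (2 * (m : Qbar) + 1) = ((P.p : ℕ) : Qbar) := by rw [hm]; push_cast; ring
    rw [this]

end Fermat.Agent.S13L
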