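import Fermat.Agent.S51.Torsion

/-!
# Points with prescribed `x`-coordinate, and counting points by `x`-coordinates (ladder-free)

* `exists_point_of_xc`: over an algebraically closed field, a Weierstrass curve with `Δ ≠ 0` has a
  nonzero point with any prescribed `x`-coordinate.
* `card_le_of_xc_root`: a finite set of points all of whose nonzero members have their
  `x`-coordinate among the roots of a nonzero polynomial `G` has at most `1 + 2 deg G` elements.
-/

set_option autoImplicit false

namespace Fermat.Agent.S13L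

open WeierstrassCurve WeierstrassCurve.Affine Polynomial
open Fermat.Agent.S51 (xc)

variable {K : Type*} [Field K] [DecidableEq K] {W : WeierstrassCurve.Affine K}

/-- Over an algebraically closed field every `x₀` is the `x`-coordinate of an affine point. -/
theorem exists_point_of_xc [IsAlgClosed K] (hΔ : W.Δ ≠ 0) (x₀ : K) :
    ∃ P : W.Point, P ≠ 0 ∧ xc P = x₀ := by
  -- the monic quadratic in `y`
  let q : K[X] := C (1 : K) * X ^ 2 + C (W.a₁ * x₀ + W.a₃) * X +
    C (-(x₀ ^ 3 + W.a₂ * x₀ ^ 2 + W.a₄ * x₀ + W.a₆))
  have hq : q.degree ≠ 0 := by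
    have : q.degree = 2 := degree_quadratic one_ne_zero
    rw [this]; norm_num
  obtain ⟨y, hy⟩ := IsAlgClosed.exists_root q hq
  have heq : W.Equation x₀ y := by
    rw [Affine.equation_iff]
    have : q.eval y = 0 := hy
    simp only [q, eval_add, eval_mul, eval_C, eval_pow, eval_X] at this
    linear_combination this
  have hns : W.Nonsingular x₀ y := (W.equation_iff_nonsingular_of_Δ_ne_zero hΔ).mp heq
  exact ⟨Point.some x₀ y hns, Point.some_ne_zero _, rfl⟩

/-- The fibres of `xc` on nonzero points have at most two elements. -/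
lemma card_fiber_xc_le (S : Finset W.Point) (h0 : ∀ Q ∈ S, Q ≠ 0) (a : K) :
    (S.filter fun Q => xc Q = a).card ≤ 2 := by
  classical
  rcases (S.filter fun Q => xc Q = a).eq_empty_or_nonempty with h | ⟨Q, hQ⟩
  · rw [h]; simp
  · have hQ' := Finset.mem_filter.mp hQ
    have hsub : (S.filter fun Q => xc Q = a) ⊆ {Q, -Q} := by
      intro Q' hQ''
      have hQ2 := Finset.mem_filter.mp hQ''
      rcases Fermat.Agent.S51.eq_or_eq_neg_of_xc_eq (h0 Q' hQ2.1) (h0 Q hQ'.1)
        (hQ2.2.trans hQ'.2.symm) with h | h
      · simp [h]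
      · simp [h]
    exact (Finset.card_le_card hsub).trans Finset.card_le_two

/-- Counting points by their `x`-coordinates. -/
theorem card_le_of_xc_root (G : K[X]) (hG : G ≠ 0) (S : Finset W.Point)
    (hS : ∀ Q ∈ S, Q ≠ 0 → G.IsRoot (xc Q)) : S.card ≤ 1 + 2 * G.natDegree := by
  classical
  set S' := S.filter fun Q => Q ≠ 0 with hS'
  have h1 : S.card ≤ 1 + S'.card := by
    have hsub : S ⊆ insert 0 S' := by
      intro Q hQ
      by_cases h : Q = 0
      · simp [h]
      · exact Finset.mem_insert_of_mem (Finset.mem_filter.mpr ⟨hQ, h⟩)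
    calc S.card ≤ (insert 0 S').card := Finset.card_le_card hsub
      _ ≤ S'.card + 1 := Finset.card_insert_le _ _
      _ = 1 + S'.card := add_comm _ _
  have h2 : S'.card ≤ 2 * (S'.image xc).card :=
    Finset.card_le_mul_card_image S' 2 fun a _ =>
      card_fiber_xc_le S' (fun Q hQ => (Finset.mem_filter.mp hQ).2) a
  have h3 : (S'.image xc).card ≤ G.natDegree := by
    have hsub : S'.image xc ⊆ G.roots.toFinset := by
      intro a ha
      obtain ⟨Q, hQ, rfl⟩ := Finset.mem_image.mp ha
      have hQ' := Finset.mem_filter.mp hQ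
      rw [Multiset.mem_toFinset, mem_roots hG]
      exact hS Q hQ'.1 hQ'.2
    calc (S'.image xc).card ≤ G.roots.toFinset.card := Finset.card_le_card hsub
      _ ≤ Multiset.card G.roots := Multiset.toFinset_card_le _
      _ ≤ G.natDegree := card_roots' G
  omega

end Fermat.Agent.S13L
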