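import Fermat.Agent.S05.XIdent
import Fermat.Agent.S13.LadderDefs

/-!
# The x-only Montgomery ladder (S13, package (A), route "ladder"): the two steps are correct

`Rep Q a b` : `(a : b)` is a projective `x`-coordinate of the point `Q` of a Weierstrass curve
over a field (`b = 0 ↔ Q = 0`, `(a, b) ≠ (0, 0)`, `a = x(Q) b`).

* `rep_dbl`  : `Rep Q a b → Rep (2 • Q) (dblX W a b) (dblZ W a b)` (needs `2 ≠ 0`, `Δ ≠ 0`);
* `rep_dadd` : `P ≠ 0 → Q₂ - Q₁ = P → Rep Q₁ a₁ b₁ → Rep Q₂ a₂ b₂ →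
    Rep (Q₁ + Q₂) (daddX W (xc P) a₁ b₁ a₂ b₂) (daddZ a₁ b₁ a₂ b₂)`.
All degenerate cases (`Q = 0`, `2 • Q = 0`, `Q₁ = 0`, `Q₂ = 0`, `Q₁ + Q₂ = 0`) are included.
-/

set_option autoImplicit false
set_option linter.unusedSectionVars false

namespace Fermat.Agent.S13L

open WeierstrassCurve WeierstrassCurve.Affine
open Fermat.Agent.S51 (xc f2 phi2)
open Fermat.Agent.S05 (addT)


variable {F : Type*} [Field F] [DecidableEq F] {W : WeierstrassCurve.Affine F}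

/-- `(a : b)` is a projective `x`-coordinate of the point `Q`. -/
def Rep (Q : W.Point) (a b : F) : Prop :=
  ¬(a = 0 ∧ b = 0) ∧ (b = 0 ↔ Q = 0) ∧ (Q ≠ 0 → a = xc Q * b)

lemma rep_zero_iff {a b : F} : Rep (0 : W.Point) a b ↔ a ≠ 0 ∧ b = 0 := by
  unfold Rep
  constructor
  · rintro ⟨h1, h2, -⟩
    have hb : b = 0 := h2.mpr rfl
    exact ⟨fun ha => h1 ⟨ha, hb⟩, hb⟩
  · rintro ⟨ha, hb⟩
    exact ⟨fun h => ha h.1, ⟨fun _ => rfl, fun _ => hb⟩, fun h => absurd rfl h⟩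

lemma rep_of_ne_zero {Q : W.Point} {a b : F} (hQ : Q ≠ 0) (hb : b ≠ 0) (ha : a = xc Q * b) :
    Rep Q a b :=
  ⟨fun h => hb h.2, ⟨fun h => absurd h hb, fun h => absurd h hQ⟩, fun _ => ha⟩

lemma Rep.ne_zero_right {Q : W.Point} {a b : F} (h : Rep Q a b) (hQ : Q ≠ 0) : b ≠ 0 :=
  fun hb => hQ (h.2.1.mp hb)

/-- A common zero of `phi2` and `f2` forces `Δ = 0` (characteristic `≠ 2`). -/
lemma lstep_Δ_eq_zero (h2 : (2 : F) ≠ 0) {x : F} (hA : phi2 W x = 0) (hB : f2 W x = 0) :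
    W.Δ = 0 := by
  have hrel := W.b_relation
  have h1 : (12 * x ^ 2 + 2 * W.b₂ * x + 2 * W.b₄) ^ 2 = 0 := by
    have : (12 * x ^ 2 + 2 * W.b₂ * x + 2 * W.b₄) ^ 2 =
        16 * phi2 W x + (32 * x + 4 * W.b₂) * f2 W x := by
      simp only [phi2, f2]
      linear_combination (4 : F) * hrel
    rw [this, hA, hB]
    ring
  have h2' : 12 * x ^ 2 + 2 * W.b₂ * x + 2 * W.b₄ = 0 :=
    pow_eq_zero_iff (two_ne_zero) |>.mp h1
  have h3 : (8 : F) * W.Δ =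
      (-12 * (W.b₂ ^ 2 - 24 * W.b₄) * x + (-2 * W.b₂ ^ 3 + 60 * W.b₂ * W.b₄ - 216 * W.b₆)) *
        f2 W x +
      (4 * (W.b₂ ^ 2 - 24 * W.b₄) * x ^ 2 + (W.b₂ ^ 3 - 28 * W.b₂ * W.b₄ + 72 * W.b₆) * x +
        (W.b₂ ^ 2 * W.b₄ + 6 * W.b₂ * W.b₆ - 32 * W.b₄ ^ 2)) *
        (12 * x ^ 2 + 2 * W.b₂ * x + 2 * W.b₄) := by
    simp only [f2, WeierstrassCurve.Δ]
    linear_combination (-2 * W.b₂ ^ 2) * hrel
  rw [hB, h2'] at h3
  have h8 : (8 : F) ≠ 0 := by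
    have : (8 : F) = 2 ^ 3 := by norm_num
    rw [this]; exact pow_ne_zero 3 h2
  have : (8 : F) * W.Δ = 0 := by rw [h3]; ring
  exact (mul_eq_zero.mp this).resolve_left h8

lemma lstep_dblX_mul (x b : F) : dblX W (x * b) b = b ^ 4 * phi2 W x := by
  unfold dblX phi2; ring

lemma lstep_dblZ_mul (x b : F) : dblZ W (x * b) b = b ^ 4 * f2 W x := by
  unfold dblZ f2; ring

lemma lstep_two_nsmul_eq_zero_iff {Q : W.Point} (hQ : Q ≠ 0) : 2 • Q = 0 ↔ f2 W (xc Q) = 0 := by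
  cases Q with
  | zero => exact absurd rfl hQ
  | some x y h => exact Fermat.Agent.S51.two_nsmul_eq_zero_iff h

/-- Doubling step of the ladder. -/
theorem rep_dbl (h2 : (2 : F) ≠ 0) (hΔ : W.Δ ≠ 0) {Q : W.Point} {a b : F} (h : Rep Q a b) :
    Rep (2 • Q) (dblX W a b) (dblZ W a b) := by
  by_cases hQ : Q = 0
  · subst hQ
    obtain ⟨ha, hb⟩ := rep_zero_iff.mp h
    subst hb
    rw [smul_zero]
    refine rep_zero_iff.mpr ⟨?_, ?_⟩
    · unfold dblX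
      simpa using ha
    · unfold dblZ; ring
  · have hb : b ≠ 0 := h.ne_zero_right hQ
    have ha : a = xc Q * b := h.2.2 hQ
    subst ha
    rw [lstep_dblX_mul, lstep_dblZ_mul]
    have hb4 : b ^ 4 ≠ 0 := pow_ne_zero 4 hb
    by_cases hd : 2 • Q = 0
    · have hf : f2 W (xc Q) = 0 := (lstep_two_nsmul_eq_zero_iff hQ).mp hd
      rw [hd, hf, mul_zero]
      refine rep_zero_iff.mpr ⟨mul_ne_zero hb4 ?_, rfl⟩
      intro hph
      exact hΔ (lstep_Δ_eq_zero h2 hph hf)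
    · obtain ⟨hf, hx⟩ := Fermat.Agent.S51.xc_two_nsmul hQ hd
      refine rep_of_ne_zero hd (mul_ne_zero hb4 hf) ?_
      rw [← hx]; ring

lemma lstep_daddZ_mul (x1 b1 x2 b2 : F) :
    daddZ (x1 * b1) b1 (x2 * b2) b2 = b1 ^ 2 * b2 ^ 2 * (x1 - x2) ^ 2 := by
  unfold daddZ; ring

lemma lstep_daddX_mul (x x1 b1 x2 b2 : F) :
    daddX W x (x1 * b1) b1 (x2 * b2) b2 =
      b1 ^ 2 * b2 ^ 2 * (addT W x1 x2 - x * (x1 - x2) ^ 2) := by
  unfold daddX addT; ring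

lemma lstep_addT_self (x : F) : addT W x x = f2 W x := by
  unfold addT f2; ring

/-- Differential addition step of the ladder. -/
theorem rep_dadd {P Q1 Q2 : W.Point} {a1 b1 a2 b2 : F} (hP : P ≠ 0) (hd : Q2 - Q1 = P)
    (h1 : Rep Q1 a1 b1) (h2 : Rep Q2 a2 b2) :
    Rep (Q1 + Q2) (daddX W (xc P) a1 b1 a2 b2) (daddZ a1 b1 a2 b2) := by
  by_cases hQ1 : Q1 = 0
  · subst hQ1
    obtain ⟨ha1, hb1⟩ := rep_zero_iff.mp h1
    subst hb1
    rw [sub_zero] at hd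
    subst hd
    have hb2 : b2 ≠ 0 := h2.ne_zero_right hP
    have ha2 : a2 = xc Q2 * b2 := h2.2.2 hP
    subst ha2
    rw [zero_add]
    refine rep_of_ne_zero hP (b := daddZ a1 0 (xc Q2 * b2) b2) ?_ ?_
    · unfold daddZ
      simpa using mul_ne_zero ha1 hb2
    · unfold daddX daddZ; ring
  by_cases hQ2 : Q2 = 0
  · subst hQ2
    obtain ⟨ha2, hb2⟩ := rep_zero_iff.mp h2
    subst hb2
    have hPx : xc P = xc Q1 := by
      rw [← hd, zero_sub, Fermat.Agent.S51.xc_neg]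
    have hb1 : b1 ≠ 0 := h1.ne_zero_right hQ1
    have ha1 : a1 = xc Q1 * b1 := h1.2.2 hQ1
    subst ha1
    rw [add_zero, hPx]
    refine rep_of_ne_zero hQ1 (b := daddZ (xc Q1 * b1) b1 a2 0) ?_ ?_
    · unfold daddZ
      simpa using mul_ne_zero ha2 hb1
    · unfold daddX daddZ; ring
  have hb1 : b1 ≠ 0 := h1.ne_zero_right hQ1
  have ha1 : a1 = xc Q1 * b1 := h1.2.2 hQ1
  have hb2 : b2 ≠ 0 := h2.ne_zero_right hQ2
  have ha2 : a2 = xc Q2 * b2 := h2.2.2 hQ2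
  subst ha1 ha2
  rw [lstep_daddX_mul, lstep_daddZ_mul]
  have hbb : b1 ^ 2 * b2 ^ 2 ≠ 0 := mul_ne_zero (pow_ne_zero 2 hb1) (pow_ne_zero 2 hb2)
  by_cases hx : xc Q1 = xc Q2
  · rcases Fermat.Agent.S51.eq_or_eq_neg_of_xc_eq hQ1 hQ2 hx with h | h
    · exact absurd (by rw [← hd, h, sub_self]) hP
    · have hsum : Q1 + Q2 = 0 := by rw [h]; exact neg_add_cancel Q2
      have h2Q : 2 • Q2 = P := by rw [← hd, h, two_nsmul, sub_neg_eq_add]
      have hf : f2 W (xc Q2) ≠ 0 := by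
        intro hf
        exact hP (by rw [← h2Q]; exact (lstep_two_nsmul_eq_zero_iff hQ2).mpr hf)
      rw [hsum, hx, sub_self, lstep_addT_self]
      refine rep_zero_iff.mpr ⟨?_, by ring⟩
      have : b1 ^ 2 * b2 ^ 2 * (f2 W (xc Q2) - xc P * 0 ^ 2) = b1 ^ 2 * b2 ^ 2 * f2 W (xc Q2) := by
        ring
      rw [this]
      exact mul_ne_zero hbb hf
  · have hne : Q1 + Q2 ≠ 0 := Fermat.Agent.S05.add_ne_zero_of_xc_ne hQ1 hQ2 hx
    have hs := Fermat.Agent.S05.xc_add_add_xc_sub hQ1 hQ2 hx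
    have hPx : xc (Q1 - Q2) = xc P := by
      rw [← hd, ← neg_sub Q2 Q1, Fermat.Agent.S51.xc_neg]
    rw [hPx] at hs
    have hxx : (xc Q1 - xc Q2) ^ 2 ≠ 0 := pow_ne_zero 2 (sub_ne_zero.mpr hx)
    refine rep_of_ne_zero hne (mul_ne_zero hbb hxx) ?_
    rw [← hs]; ring

end Fermat.Agent.S13L
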