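import Fermat.Agent.S13.LadderEval
import Fermat.Agent.S13.LadderTop
import Fermat.Agent.S13.LadderPoint

/-!
# Odd torsion of a Weierstrass curve over an algebraically closed field of characteristic zero

From the ladder polynomial `ladF W m` (degree `2m²+2m`, leading coefficient `-(2m+1)`, roots = the
`x`-coordinates of the nonzero `(2m+1)`-torsion points):
* `exists_odd_torsion`: for `m ≥ 1` there is a nonzero point killed by `2m+1`;
* `card_odd_torsion_le`: any finite set of points killed by `2m+1` has at most `(2m+1)²` elements.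
-/

set_option autoImplicit false

namespace Fermat.Agent.S13L

open WeierstrassCurve WeierstrassCurve.Affine Polynomial
open Fermat.Agent.S51 (xc)

variable {K : Type*} [Field K] [DecidableEq K] [CharZero K] {W : WeierstrassCurve.Affine K}

lemma two_mul_add_one_ne_zero (m : ℕ) : (2 * (m : K) + 1) ≠ 0 := by
  have : ((2 * m + 1 : ℕ) : K) ≠ 0 := Nat.cast_ne_zero.mpr (by omega)
  simpa using this

/-- (A1), generic form: a nonzero point of order dividing `2m+1`, `m ≥ 1`. -/
theorem exists_odd_torsion [IsAlgClosed K] (hΔ : W.Δ ≠ 0) (m : ℕ) (hm : 1 ≤ m) :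
    ∃ Q : W.Point, Q ≠ 0 ∧ (2 * m + 1) • Q = 0 := by
  have h2 : (2 : K) ≠ 0 := two_ne_zero
  have hdeg : (ladF W m).degree ≠ 0 := by
    have hnd := natDegree_ladF W m (two_mul_add_one_ne_zero m)
    intro h0
    have : (ladF W m).natDegree = 0 := natDegree_eq_zero_iff_degree_le_zero.mpr h0.le
    rw [hnd] at this
    have : 0 < 2 * m ^ 2 + 2 * m := by positivity
    omega
  obtain ⟨x₀, hx₀⟩ := IsAlgClosed.exists_root (ladF W m) hdeg
  obtain ⟨Q, hQ, rfl⟩ := exists_point_of_xc (W := W) hΔ x₀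
  exact ⟨Q, hQ, (ladF_isRoot_iff h2 hΔ hQ m).mp hx₀⟩

/-- (A2), generic form: at most `(2m+1)²` points killed by `2m+1`. -/
theorem card_odd_torsion_le (hΔ : W.Δ ≠ 0) (m : ℕ) (S : Finset W.Point)
    (hS : ∀ Q ∈ S, (2 * m + 1) • Q = 0) : S.card ≤ (2 * m + 1) ^ 2 := by
  have h2 : (2 : K) ≠ 0 := two_ne_zero
  have hne := ladF_ne_zero W m (two_mul_add_one_ne_zero m)
  have h := card_le_of_xc_root (ladF W m) hne S
    (fun Q hQ hQ0 => (ladF_isRoot_iff h2 hΔ hQ0 m).mpr (hS Q hQ))
  have hnd := natDegree_ladF_le W m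
  have : (2 * m + 1) ^ 2 = 1 + 2 * (2 * m ^ 2 + 2 * m) := by ring
  omega

end Fermat.Agent.S13L
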