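/-
S13 package (C), step (C4) (helper4): assembly of `ContractC` from the three (C) inputs, for an
ABSTRACT family `V0 A` of submodules of `V = E[p](Qbar)` (think `V0 A = V ∩ E₁(A)`, the `p`-torsion
in the kernel of reduction at the place `A` over `p`):

* (C1) `hsub`  : inertia at `A` moves every `x ∈ V` inside its class modulo `V0 A`;
* (C3) `hne`   : `V0 A ≠ ⊤` as soon as a stable line exists (product bound);
* (C-unif) `hunif` : for a stable line `N`, `N ≤ V0 A` does not depend on the place `A` over `p`;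
* (A)  `hA`    : `#V = p²`.

Pure linear algebra over `ZMod p` (Lagrange); no elliptic-curve input.
-/
import Mathlib
import Fermat.Agent.S13.Contracts

set_option autoImplicit false

open WeierstrassCurve WeierstrassCurve.Affine WeierstrassCurve.Affine.Point

namespace Fermat.Agent.S13C

open Fermat.Agent.S13x

/-- a submodule of a module of cardinality `p²` (as an additive group) has cardinality
`1`, `p` or `p²`. -/
theorem pcA_card_submodule {p : ℕ} (hp : p.Prime) {M : Type*} [AddCommGroup M] [Module (ZMod p) M]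
    (hM : Nat.card M = p ^ 2) (S : Submodule (ZMod p) M) :
    Nat.card S = 1 ∨ Nat.card S = p ∨ Nat.card S = p ^ 2 := by
  have hdvd : Nat.card S ∣ p ^ 2 := by
    rw [← hM]
    exact AddSubgroup.card_addSubgroup_dvd_card S.toAddSubgroup
  obtain ⟨k, hk, hk'⟩ := (Nat.dvd_prime_pow hp).1 hdvd
  interval_cases k
  · left; simpa using hk'
  · right; left; simpa using hk'
  · right; right; exact hk'

theorem pcA_eq_bot_of_card {p : ℕ} {M : Type*} [AddCommGroup M] [Module (ZMod p) M]
    (S : Submodule (ZMod p) M) (h : Nat.card S = 1) : S = ⊥ := by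
  rw [Submodule.eq_bot_iff]
  intro x hx
  have hsub : Subsingleton S := (Nat.card_eq_one_iff_unique.1 h).1
  have := Subsingleton.elim (⟨x, hx⟩ : S) 0
  exact congrArg Subtype.val this

theorem pcA_eq_of_le_of_card_le {p : ℕ} {M : Type*} [AddCommGroup M] [Module (ZMod p) M]
    (N S : Submodule (ZMod p) M) (hfin : (S : Set M).Finite) (hle : N ≤ S)
    (hc : Nat.card S ≤ Nat.card N) : N = S := by
  apply SetLike.coe_injective
  refine Set.eq_of_subset_of_ncard_le hle ?_ hfin
  have h1 : Nat.card S = (S : Set M).ncard := Nat.card_coe_set_eq (S : Set M)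
  have h2 : Nat.card N = (N : Set M).ncard := Nat.card_coe_set_eq (N : Set M)
  rw [← h1, ← h2]
  exact hc

theorem pcA_eq_top_of_card {p : ℕ} {M : Type*} [AddCommGroup M] [Module (ZMod p) M]
    [Finite M] (S : Submodule (ZMod p) M) (h : Nat.card S = Nat.card M) : S = ⊤ := by
  refine pcA_eq_of_le_of_card_le S ⊤ (Set.toFinite _) le_top ?_
  have : Nat.card (⊤ : Submodule (ZMod p) M) = Nat.card M :=
    Nat.card_congr (Submodule.topEquiv (R := ZMod p) (M := M)).toEquiv
  rw [this, h]

/-- a line (`≠ ⊥, ⊤`) in a module of cardinality `p²` has `p` elements. -/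
theorem pcA_card_line {p : ℕ} (hp : p.Prime) {M : Type*} [AddCommGroup M] [Module (ZMod p) M]
    (hM : Nat.card M = p ^ 2) (S : Submodule (ZMod p) M) (hbot : S ≠ ⊥) (htop : S ≠ ⊤) :
    Nat.card S = p := by
  have : Finite M := Nat.finite_of_card_ne_zero (by rw [hM]; exact (pow_pos hp.pos 2).ne')
  rcases pcA_card_submodule hp hM S with h | h | h
  · exact absurd (pcA_eq_bot_of_card S h) hbot
  · exact h
  · exact absurd (pcA_eq_top_of_card S (h.trans hM.symm)) htop

/-- two submodules `N ≤ S`, `N` of cardinality `p`, `S ≠ ⊤`, in a module of cardinality `p²`: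
`S = N`. -/
theorem pcA_eq_of_le {p : ℕ} (hp : p.Prime) {M : Type*} [AddCommGroup M] [Module (ZMod p) M]
    (hM : Nat.card M = p ^ 2) (N S : Submodule (ZMod p) M) (hN : Nat.card N = p) (hle : N ≤ S)
    (htop : S ≠ ⊤) : S = N := by
  have : Finite M := Nat.finite_of_card_ne_zero (by rw [hM]; exact (pow_pos hp.pos 2).ne')
  have hNS : Nat.card N ≤ Nat.card S :=
    Nat.card_le_card_of_injective (Submodule.inclusion hle) (Submodule.inclusion_injective hle)
  have hS : Nat.card S = p := by
    rcases pcA_card_submodule hp hM S with h | h | h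
    · rw [h, hN] at hNS; exact absurd hNS (by have := hp.one_lt; omega)
    · exact h
    · exact absurd (pcA_eq_top_of_card S (h.trans hM.symm)) htop
  exact (pcA_eq_of_le_of_card_le N S (Set.toFinite _) hle (by rw [hS, hN])).symm

/-- a submodule of cardinality `p` meeting `S` nontrivially is contained in `S`. -/
theorem pcA_le_of_inf_ne_bot {p : ℕ} (hp : p.Prime) {M : Type*} [AddCommGroup M]
    [Module (ZMod p) M] (N S : Submodule (ZMod p) M) (hN : Nat.card N = p)
    (hne : N ⊓ S ≠ ⊥) : N ≤ S := by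
  have hNfin : Finite N := Nat.finite_of_card_ne_zero (by rw [hN]; exact hp.pos.ne')
  have hNfin' : (N : Set M).Finite := Set.toFinite _
  set T : Submodule (ZMod p) M := N ⊓ S with hT
  have hTN : T ≤ N := inf_le_left
  have hTcard : Nat.card T ∣ p := by
    have h1 : Nat.card (T.comap N.subtype) ∣ Nat.card N :=
      AddSubgroup.card_addSubgroup_dvd_card (T.comap N.subtype).toAddSubgroup
    have h2 : Nat.card (T.comap N.subtype) = Nat.card T := by
      refine Nat.card_congr ?_
      exact
        { toFun := fun z => ⟨z.1.1, z.2⟩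
          invFun := fun z => ⟨⟨z.1, hTN z.2⟩, z.2⟩
          left_inv := fun z => rfl
          right_inv := fun z => rfl }
    rw [h2, hN] at h1
    exact h1
  have hT1 : Nat.card T ≠ 1 := fun h => hne (pcA_eq_bot_of_card T h)
  have hTp : Nat.card T = p := ((Nat.dvd_prime hp).1 hTcard).resolve_left hT1
  have hTeq : T = N := pcA_eq_of_le_of_card_le T N hNfin' hTN (by rw [hTp, hN])
  calc N = T := hTeq.symm
    _ ≤ S := inf_le_right

/-- **(C4)**: `ContractC` from (C1), (C3), (C-unif) and (A), for an abstract family `V0`. -/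
theorem pcA_contractC (P : FreyPackage) (hA : ContractA P)
    (V0 : ValuationSubring (AlgebraicClosure ℚ) → Submodule (ZMod P.p) (FreyTors P))
    (hsub : ∀ A : ValuationSubring (AlgebraicClosure ℚ), A.LiesOverPrime P.p →
      ∀ σ ∈ A.inertiaSubgroupIn ℚ, ∀ x : FreyTors P, σ • x - x ∈ V0 A)
    (hne : ∀ N : Submodule (ZMod P.p) (FreyTors P), IsStableLine P N →
      ∀ A : ValuationSubring (AlgebraicClosure ℚ), A.LiesOverPrime P.p → V0 A ≠ ⊤)
    (hunif : ∀ N : Submodule (ZMod P.p) (FreyTors P), IsStableLine P N →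
      ∀ A A' : ValuationSubring (AlgebraicClosure ℚ), A.LiesOverPrime P.p →
        A'.LiesOverPrime P.p → N ≤ V0 A → N ≤ V0 A') :
    ContractC P := by
  intro N hN
  have hp : P.p.Prime := P.pp
  have hcard : Nat.card (FreyTors P) = P.p ^ 2 := hA
  have hNcard : Nat.card N = P.p := pcA_card_line hp hcard N hN.2.1 hN.2.2
  by_cases hall : ∀ A : ValuationSubring (AlgebraicClosure ℚ), A.LiesOverPrime P.p →
      N ⊓ V0 A = ⊥
  · left
    intro A hAp σ hσ x hx
    have h1 : σ • x - x ∈ V0 A := hsub A hAp σ hσ x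
    have h2 : σ • x - x ∈ N := N.sub_mem (hN.1 σ x hx) hx
    have h3 : σ • x - x ∈ N ⊓ V0 A := Submodule.mem_inf.2 ⟨h2, h1⟩
    rw [hall A hAp, Submodule.mem_bot] at h3
    exact sub_eq_zero.1 h3
  · right
    push Not at hall
    obtain ⟨A₀, hA₀, hne₀⟩ := hall
    have hle₀ : N ≤ V0 A₀ := pcA_le_of_inf_ne_bot hp N (V0 A₀) hNcard hne₀
    intro A hAp σ hσ x
    have hle : N ≤ V0 A := hunif N hN A₀ A hA₀ hAp hle₀
    have heq : V0 A = N := pcA_eq_of_le hp hcard N (V0 A) hNcard hle (hne N hN A hAp)
    rw [← heq]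
    exact hsub A hAp σ hσ x

end Fermat.Agent.S13C
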