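/-
S13 package (C), final wiring (helper4): `ContractC` from `ContractA` and the product bound.

`pcF_ContractPB P` is the ONLY input package (C) needs from package (A): at every place `A` of `Qbar`
over `p`, the nonzero `p`-torsion points `T` of the Frey curve satisfy
`v(p)² · ∏_{R ∈ T} v(x R) ≤ 1`  (= `pbC_PB_of_poly` / `nrC_PB` applied to the `p`-division
polynomial `F = c ∏ (X - x R)`, `A`-integral coefficients, `v(p)² ≤ v(c)`).

Chain: (C1) `inP_sub_mem_V0` (helper5), (C3)/(C-unif) `pbC_not_all_E1`, `pbC_uniform` (helper17),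
(C4) `pcA_contractC`.
-/
import Mathlib
import Fermat.Agent.S13.PAssembly
import Fermat.Agent.S13.InertiaP
import Fermat.Agent.S13.PBound

set_option autoImplicit false

open WeierstrassCurve WeierstrassCurve.Affine WeierstrassCurve.Affine.Point

namespace Fermat.Agent.S13C

open Fermat.Agent.S13x Fermat.Agent.S05

/-- **The (A) → (C) interface**: product bound for the nonzero `p`-torsion points of the Frey
curve at every place over `p`. -/
def pcF_ContractPB (P : FreyPackage) : Prop :=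
  ∀ A : ValuationSubring Qbar, A.LiesOverPrime P.p →
    ∀ T : Finset (P.freyCurve⁄Qbar).Point,
      (∀ R : (P.freyCurve⁄Qbar).Point, R ∈ T ↔ R ≠ 0 ∧ (P.p : ℤ) • R = 0) →
      A.valuation ((P.p : ℕ) : Qbar) ^ 2 * ∏ R ∈ T, A.valuation (pbC_x R) ≤ 1

variable (P : FreyPackage)

/-- the Frey curve has `A`-integral coefficients at every place with `v(2) = 1`. -/
theorem pcF_integral (A : ValuationSubring Qbar) (h2 : A.valuation (2 : Qbar) = 1) :
    pbC_Integral A P.freyCurve := by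
  have h2inv : (2 : Qbar)⁻¹ ∈ A := by
    rw [← A.valuation_le_one_iff, map_inv₀, h2, inv_one]
  have hint : ∀ z : ℤ, (z : Qbar) ∈ A := fun z => intCast_mem A z
  refine ⟨?_, ?_, ?_, ?_, ?_⟩
  · show algebraMap ℚ Qbar P.freyCurve.a₁ ∈ A
    simp only [FreyPackage.freyCurve, map_one]
    exact A.one_mem
  · show algebraMap ℚ Qbar P.freyCurve.a₂ ∈ A
    have : algebraMap ℚ Qbar P.freyCurve.a₂ =
        ((P.b ^ P.p - 1 - P.a ^ P.p : ℤ) : Qbar) * ((2 : Qbar)⁻¹ * (2 : Qbar)⁻¹) := by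
      simp [FreyPackage.freyCurve]
      ring
    rw [this]
    exact A.mul_mem _ _ (hint _) (A.mul_mem _ _ h2inv h2inv)
  · show algebraMap ℚ Qbar P.freyCurve.a₃ ∈ A
    simp only [FreyPackage.freyCurve, _root_.map_zero]
    exact A.zero_mem
  · show algebraMap ℚ Qbar P.freyCurve.a₄ ∈ A
    have : algebraMap ℚ Qbar P.freyCurve.a₄ =
        ((-(P.a ^ P.p) * (P.b ^ P.p) : ℤ) : Qbar) *
          (((2 : Qbar)⁻¹ * (2 : Qbar)⁻¹) * ((2 : Qbar)⁻¹ * (2 : Qbar)⁻¹)) := by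
      simp [FreyPackage.freyCurve]
      ring
    rw [this]
    exact A.mul_mem _ _ (hint _)
      (A.mul_mem _ _ (A.mul_mem _ _ h2inv h2inv) (A.mul_mem _ _ h2inv h2inv))
  · show algebraMap ℚ Qbar P.freyCurve.a₆ ∈ A
    simp only [FreyPackage.freyCurve, _root_.map_zero]
    exact A.zero_mem

/-- the underlying point of a torsion element. -/
abbrev pcF_pt (x : FreyTors P) : (P.freyCurve⁄Qbar).Point := (x : (P.freyCurve⁄Qbar).Point)

theorem pcF_pt_injective : Function.Injective (pcF_pt P) := Subtype.val_injective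

theorem pcF_pt_smul (σ : S13x.GalQ) (x : FreyTors P) : pcF_pt P (σ • x) = σ • pcF_pt P x := rfl

theorem pcF_pt_eq_zero_iff (x : FreyTors P) : pcF_pt P x = 0 ↔ x = 0 := by
  constructor
  · intro h
    exact Subtype.ext h
  · intro h
    rw [h]
    rfl

theorem pcF_smul_ne_zero (σ : S13x.GalQ) {x : FreyTors P} (hx : x ≠ 0) : σ • x ≠ 0 := by
  intro h
  apply hx
  have : σ⁻¹ • (σ • x) = σ⁻¹ • (0 : FreyTors P) := by rw [h]
  rwa [inv_smul_smul, smul_zero] at this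

/-- for a nonzero torsion element, membership in `V₀(A)` is `x ∉ A`. -/
theorem pcF_mem_V0_iff (A : ValuationSubring Qbar) (h2 : A.valuation (2 : Qbar) = 1)
    {x : FreyTors P} (hx : x ≠ 0) : x ∈ inP_V0 P A h2 ↔ pbC_x (pcF_pt P x) ∉ A := by
  rw [inP_mem_V0_iff]
  have hne : pcF_pt P x ≠ 0 := fun h => hx ((pcF_pt_eq_zero_iff P x).1 h)
  obtain ⟨x, hxp⟩ := x
  rcases x with _ | ⟨a, b, h⟩
  · exact absurd rfl hne
  · exact Iff.rfl

section finite

variable [Fintype (FreyTors P)] [DecidableEq (FreyTors P)]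
  (N : Submodule (ZMod P.p) (FreyTors P)) [DecidablePred (· ∈ N)]

/-- all nonzero torsion points, as a finset of points. -/
noncomputable def pcF_T : Finset (P.freyCurve⁄Qbar).Point :=
  (Finset.univ.filter fun x : FreyTors P => x ≠ 0).map ⟨pcF_pt P, pcF_pt_injective P⟩

/-- the nonzero points of `N`, as a finset of points. -/
noncomputable def pcF_S : Finset (P.freyCurve⁄Qbar).Point :=
  (Finset.univ.filter fun x : FreyTors P => x ≠ 0 ∧ x ∈ N).map ⟨pcF_pt P, pcF_pt_injective P⟩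

theorem pcF_mem_T (R : (P.freyCurve⁄Qbar).Point) :
    R ∈ pcF_T P ↔ ∃ x : FreyTors P, x ≠ 0 ∧ pcF_pt P x = R := by
  simp [pcF_T]

theorem pcF_mem_S (R : (P.freyCurve⁄Qbar).Point) :
    R ∈ pcF_S P N ↔ ∃ x : FreyTors P, (x ≠ 0 ∧ x ∈ N) ∧ pcF_pt P x = R := by
  simp [pcF_S]

theorem pcF_mem_T_iff (R : (P.freyCurve⁄Qbar).Point) :
    R ∈ pcF_T P ↔ R ≠ 0 ∧ (P.p : ℤ) • R = 0 := by
  rw [pcF_mem_T]
  constructor
  · rintro ⟨x, hx, rfl⟩
    refine ⟨fun h => hx ((pcF_pt_eq_zero_iff P x).1 h), ?_⟩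
    exact (Submodule.mem_torsionBy_iff _ _).mp x.2
  · rintro ⟨h0, hp⟩
    refine ⟨⟨R, (Submodule.mem_torsionBy_iff _ _).mpr hp⟩, ?_, rfl⟩
    intro h
    apply h0
    exact (pcF_pt_eq_zero_iff P _).2 h

theorem pcF_S_subset_T : pcF_S P N ⊆ pcF_T P := by
  intro R hR
  obtain ⟨x, ⟨hx, -⟩, rfl⟩ := (pcF_mem_S P N R).1 hR
  exact (pcF_mem_T P _).2 ⟨x, hx, rfl⟩

theorem pcF_S_stable (hN : IsGaloisStable ℚ N) (σ : S13x.GalQ) (R : (P.freyCurve⁄Qbar).Point)
    (hR : R ∈ pcF_S P N) : σ • R ∈ pcF_S P N := by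
  obtain ⟨x, ⟨hx, hxN⟩, rfl⟩ := (pcF_mem_S P N R).1 hR
  exact (pcF_mem_S P N _).2 ⟨σ • x, ⟨pcF_smul_ne_zero P σ hx, hN σ x hxN⟩, rfl⟩

theorem pcF_S_nonempty (hbot : N ≠ ⊥) : (pcF_S P N).Nonempty := by
  obtain ⟨x, hxN, hx0⟩ := (Submodule.ne_bot_iff N).1 hbot
  exact ⟨pcF_pt P x, (pcF_mem_S P N _).2 ⟨x, ⟨hx0, hxN⟩, rfl⟩⟩

theorem pcF_exists_not_mem_S (htop : N ≠ ⊤) : ∃ Q ∈ pcF_T P, Q ∉ pcF_S P N := by
  have : ∃ x : FreyTors P, x ∉ N := by
    by_contra h
    push Not at h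
    exact htop (eq_top_iff.2 fun x _ => h x)
  obtain ⟨x, hx⟩ := this
  have hx0 : x ≠ 0 := fun h => hx (h ▸ N.zero_mem)
  refine ⟨pcF_pt P x, (pcF_mem_T P _).2 ⟨x, hx0, rfl⟩, fun hS => ?_⟩
  obtain ⟨y, ⟨-, hyN⟩, hy⟩ := (pcF_mem_S P N _).1 hS
  exact hx ((pcF_pt_injective P hy) ▸ hyN)

end finite

/-- **(C)**: `ContractC` from `ContractA` and the product bound `pcF_ContractPB`. -/
theorem pcF_contractC (hA : ContractA P) (hPB : pcF_ContractPB P) : ContractC P := by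
  classical
  have hp : P.p.Prime := P.pp
  have hp2 : P.p ≠ 2 := by have := P.hp5; omega
  have hfin : Finite (FreyTors P) :=
    Nat.finite_of_card_ne_zero (by rw [hA]; exact (pow_pos hp.pos 2).ne')
  letI : Fintype (FreyTors P) := Fintype.ofFinite _
  have h2 : ∀ A : ValuationSubring Qbar, A.LiesOverPrime P.p → A.valuation (2 : Qbar) = 1 :=
    fun A hAp => valuation_two_eq_one hp hAp hp2
  -- the family `V₀`
  let V0 : ValuationSubring Qbar → Submodule (ZMod P.p) (FreyTors P) := fun A =>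
    if h : A.valuation (2 : Qbar) = 1 then inP_V0 P A h else ⊥
  have hV0 : ∀ A : ValuationSubring Qbar, ∀ hAp : A.LiesOverPrime P.p,
      V0 A = inP_V0 P A (h2 A hAp) := fun A hAp => dif_pos (h2 A hAp)
  refine pcA_contractC P hA V0 ?_ ?_ ?_
  · -- (C1)
    intro A hAp σ hσ x
    rw [hV0 A hAp]
    exact inP_sub_mem_V0 P A hp hp2 hAp σ hσ x
  · -- (C3)
    intro N hN A hAp htop
    rw [hV0 A hAp] at htop
    have hall : ∀ R ∈ pcF_T P, pbC_x R ∉ A := by
      intro R hR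
      obtain ⟨x, hx, rfl⟩ := (pcF_mem_T P R).1 hR
      exact (pcF_mem_V0_iff P A (h2 A hAp) hx).1 (htop ▸ Submodule.mem_top)
    exact pbC_not_all_E1 hp hAp (pcF_integral P A (h2 A hAp)) (pcF_T P) (pcF_S P N)
      (hPB A hAp (pcF_T P) (pcF_mem_T_iff P)) (pcF_S_subset_T P N)
      (pcF_S_stable P N hN.1) (pcF_S_nonempty P N hN.2.1) (pcF_exists_not_mem_S P N hN.2.2) hall
  · -- (C-unif)
    intro N hN A A' hAp hAp' hle
    rw [hV0 A hAp] at hle
    rw [hV0 A' hAp']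
    by_contra hnle
    have hNcard : Nat.card N = P.p := pcA_card_line hp hA N hN.2.1 hN.2.2
    have hdisj : N ⊓ inP_V0 P A' (h2 A' hAp') = ⊥ := by
      by_contra hne
      exact hnle (pcA_le_of_inf_ne_bot hp N _ hNcard hne)
    refine pbC_uniform hp hAp hAp' (pcF_S P N) (pcF_S_stable P N hN.1)
      (pcF_S_nonempty P N hN.2.1) ?_ ?_
    · intro R hR
      obtain ⟨x, ⟨hx, hxN⟩, rfl⟩ := (pcF_mem_S P N R).1 hR
      exact (pcF_mem_V0_iff P A (h2 A hAp) hx).1 (hle hxN)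
    · intro R hR
      obtain ⟨x, ⟨hx, hxN⟩, rfl⟩ := (pcF_mem_S P N R).1 hR
      by_contra hnot
      have hxV : x ∈ inP_V0 P A' (h2 A' hAp') := (pcF_mem_V0_iff P A' (h2 A' hAp') hx).2 hnot
      have : x ∈ N ⊓ inP_V0 P A' (h2 A' hAp') := ⟨hxN, hxV⟩
      rw [hdisj, Submodule.mem_bot] at this
      exact hx this

end Fermat.Agent.S13C
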