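/-
S13 (C)-uniformity tools: membership of a RATIONAL number in a valuation subring of `Qbar` lying
over `p` does not depend on the subring (it only depends on `p ∤ denominator`); Galois-invariant
elements of `Qbar` are rational; hence for a Galois-invariant `π : Qbar` the statement `π ∈ A`
is independent of the place `A` over `p`.
-/
import Mathlib
import Fermat.Prelude.Def_FLTPrelim_Ramification
import Fermat.Agent.CFT.S14.CycloField

set_option autoImplicit false

namespace Fermat.Agent.S13x

local notation "Qb" => AlgebraicClosure ℚ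

/-- integers lie in every valuation subring -/
theorem unifP_intCast_mem (A : ValuationSubring Qb) (n : ℤ) : (n : Qb) ∈ A :=
  intCast_mem A n

/-- an integer prime to `p` has valuation one at a place over `p` -/
theorem unifP_valuation_eq_one {p : ℕ} (A : ValuationSubring Qb) (hA : A.LiesOverPrime p)
    (n : ℤ) (hn : IsCoprime n (p : ℤ)) : A.valuation (n : Qb) = 1 := by
  have hp : A.valuation (p : Qb) < 1 := A.mem_nonunits_iff.mp hA
  have hle : A.valuation (n : Qb) ≤ 1 := (A.valuation_le_one_iff _).mpr (unifP_intCast_mem A n)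
  rcases lt_or_eq_of_le hle with hlt | heq
  · exfalso
    obtain ⟨a, b, hab⟩ := hn
    have h1 : (a : Qb) * (n : Qb) + (b : Qb) * (p : Qb) = 1 := by
      have := congrArg (fun z : ℤ => (z : Qb)) hab
      simpa using this
    have ha : A.valuation (a : Qb) ≤ 1 := (A.valuation_le_one_iff _).mpr (unifP_intCast_mem A a)
    have hb : A.valuation (b : Qb) ≤ 1 := (A.valuation_le_one_iff _).mpr (unifP_intCast_mem A b)
    have h2 : A.valuation ((a : Qb) * (n : Qb)) < 1 := by
      rw [map_mul]
      calc A.valuation (a : Qb) * A.valuation (n : Qb) ≤ 1 * A.valuation (n : Qb) :=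
            mul_le_mul_left ha _
        _ = A.valuation (n : Qb) := one_mul _
        _ < 1 := hlt
    have h3 : A.valuation ((b : Qb) * (p : Qb)) < 1 := by
      rw [map_mul]
      calc A.valuation (b : Qb) * A.valuation (p : Qb) ≤ 1 * A.valuation (p : Qb) :=
            mul_le_mul_left hb _
        _ = A.valuation (p : Qb) := one_mul _
        _ < 1 := hp
    have h4 : A.valuation (1 : Qb) < 1 := by
      rw [← h1]
      exact lt_of_le_of_lt (A.valuation.map_add _ _) (max_lt h2 h3)
    rw [map_one] at h4
    exact lt_irrefl _ h4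
  · exact heq

/-- **Place-independence for rationals**: `r ∈ A` iff `p ∤ den r`, for every place `A` over `p`. -/
theorem unifP_rat_mem_iff {p : ℕ} (hp : p.Prime) (A : ValuationSubring Qb)
    (hA : A.LiesOverPrime p) (r : ℚ) :
    algebraMap ℚ Qb r ∈ A ↔ ¬ (p ∣ r.den) := by
  have hr : algebraMap ℚ Qb r = (r.num : Qb) / (r.den : Qb) := by
    conv_lhs => rw [← Rat.num_div_den r]
    simp
  have hden0 : (r.den : Qb) ≠ 0 := by exact_mod_cast r.den_nz
  constructor
  · intro hmem hdvd
    -- p ∣ den, so p ∤ num, v(num) = 1, v(den) < 1, v(r) > 1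
    have hcop : IsCoprime r.num (p : ℤ) := by
      have h1 : Nat.Coprime r.num.natAbs r.den := r.reduced
      have h2 : Nat.Coprime r.num.natAbs p := Nat.Coprime.coprime_dvd_right hdvd h1
      rw [Int.isCoprime_iff_gcd_eq_one, Int.gcd, Int.natAbs_natCast]
      exact h2
    have hvnum := unifP_valuation_eq_one A hA r.num hcop
    have hp1 : A.valuation (p : Qb) < 1 := A.mem_nonunits_iff.mp hA
    obtain ⟨k, hk⟩ := hdvd
    have hvden : A.valuation (r.den : Qb) < 1 := by
      have : (r.den : Qb) = (p : Qb) * ((k : ℤ) : Qb) := by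
        rw [hk]; push_cast; ring
      rw [this, map_mul]
      have hk1 : A.valuation (((k : ℤ)) : Qb) ≤ 1 :=
        (A.valuation_le_one_iff _).mpr (unifP_intCast_mem A k)
      calc A.valuation (p : Qb) * A.valuation (((k : ℤ)) : Qb)
          ≤ A.valuation (p : Qb) * 1 := mul_le_mul_right hk1 _
        _ = A.valuation (p : Qb) := mul_one _
        _ < 1 := hp1
    have hmul : (r.num : Qb) = algebraMap ℚ Qb r * (r.den : Qb) := by
      rw [hr]; field_simp
    have hvr : A.valuation (algebraMap ℚ Qb r) ≤ 1 := (A.valuation_le_one_iff _).mpr hmem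
    have : (1 : A.ValueGroup) < 1 := by
      calc (1 : A.ValueGroup) = A.valuation (r.num : Qb) := hvnum.symm
        _ = A.valuation (algebraMap ℚ Qb r) * A.valuation (r.den : Qb) := by rw [hmul, map_mul]
        _ ≤ 1 * A.valuation (r.den : Qb) := mul_le_mul_left hvr _
        _ = A.valuation (r.den : Qb) := one_mul _
        _ < 1 := hvden
    exact lt_irrefl _ this
  · intro hnd
    have hcop : IsCoprime (r.den : ℤ) (p : ℤ) := by
      rw [Int.isCoprime_iff_gcd_eq_one, Int.gcd_natCast_natCast]
      exact (Nat.Coprime.symm ((Nat.Prime.coprime_iff_not_dvd hp).mpr hnd))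
    have hv := unifP_valuation_eq_one A hA (r.den : ℤ) hcop
    have hinv : ((r.den : ℤ) : Qb)⁻¹ ∈ A := by
      rw [← A.valuation_le_one_iff, map_inv₀, hv, inv_one]
    rw [hr, div_eq_mul_inv]
    have : ((r.den : ℤ) : Qb) = (r.den : Qb) := by push_cast; rfl
    rw [← this]
    exact A.mul_mem _ _ (unifP_intCast_mem A r.num) hinv

/-- Galois-invariant elements of `Qbar` are rational. -/
theorem unifP_rational_of_invariant (π : Qb) (hπ : ∀ σ : Qb ≃ₐ[ℚ] Qb, σ π = π) :
    ∃ r : ℚ, algebraMap ℚ Qb r = π := by
  exact (InfiniteGalois.mem_range_algebraMap_iff_fixed (k := ℚ) (K := Qb) π).mpr hπ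

/-- For a Galois-invariant `π : Qbar`, `π ∈ A` does not depend on the place `A` over `p`. -/
theorem unifP_invariant_mem_iff {p : ℕ} (hp : p.Prime) (π : Qb)
    (hπ : ∀ σ : Qb ≃ₐ[ℚ] Qb, σ π = π) (A A' : ValuationSubring Qb)
    (hA : A.LiesOverPrime p) (hA' : A'.LiesOverPrime p) : π ∈ A ↔ π ∈ A' := by
  obtain ⟨r, rfl⟩ := unifP_rational_of_invariant π hπ
  rw [unifP_rat_mem_iff hp A hA r, unifP_rat_mem_iff hp A' hA' r]

/-- The product of a Galois-stable finite set is Galois-invariant. -/
theorem unifP_prod_invariant (T : Finset Qb) (hT : ∀ σ : Qb ≃ₐ[ℚ] Qb, ∀ t ∈ T, σ t ∈ T)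
    (σ : Qb ≃ₐ[ℚ] Qb) : σ (∏ t ∈ T, t) = ∏ t ∈ T, t := by
  rw [map_prod]
  have himg : T.image σ = T := by
    apply Finset.eq_of_subset_of_card_le
    · intro y hy
      obtain ⟨t, ht, rfl⟩ := Finset.mem_image.mp hy
      exact hT σ t ht
    · rw [Finset.card_image_of_injective _ σ.injective]
  conv_rhs => rw [← himg]
  rw [Finset.prod_image (fun x _ y _ h => σ.injective h)]

/-- a product of elements of `A` is in `A` -/
theorem unifP_prod_mem (A : ValuationSubring Qb) (T : Finset Qb) (h : ∀ t ∈ T, t ∈ A) :
    (∏ t ∈ T, t) ∈ A := by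
  classical
  induction T using Finset.induction_on with
  | empty => simp
  | insert a s ha ih =>
    rw [Finset.prod_insert ha]
    exact A.mul_mem _ _ (h a (Finset.mem_insert_self a s))
      (ih fun t ht => h t (Finset.mem_insert_of_mem ht))

/-- a nonempty product of non-elements of a valuation subring is a non-element -/
theorem unifP_prod_not_mem (A : ValuationSubring Qb) (T : Finset Qb) (hne : T.Nonempty)
    (h : ∀ t ∈ T, t ∉ A) : (∏ t ∈ T, t) ∉ A := by
  classical
  have key : ∀ S : Finset Qb, (∀ t ∈ S, t ∉ A) → 1 ≤ A.valuation (∏ t ∈ S, t) ∧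
      (S.Nonempty → 1 < A.valuation (∏ t ∈ S, t)) := by
    intro S
    induction S using Finset.induction_on with
    | empty => intro _; simp
    | insert a s ha ih =>
      intro hS
      have hs := ih fun t ht => hS t (Finset.mem_insert_of_mem ht)
      have hav : 1 < A.valuation a := by
        have := hS a (Finset.mem_insert_self a s)
        rw [← A.valuation_le_one_iff] at this
        exact not_le.mp this
      rw [Finset.prod_insert ha, map_mul]
      have : 1 < A.valuation a * A.valuation (∏ t ∈ s, t) := by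
        calc (1 : A.ValueGroup) < A.valuation a := hav
          _ = A.valuation a * 1 := (mul_one _).symm
          _ ≤ A.valuation a * A.valuation (∏ t ∈ s, t) := mul_le_mul_right hs.1 _
      exact ⟨this.le, fun _ => this⟩
  have := (key T h).2 hne
  rw [← A.valuation_le_one_iff]
  exact not_le.mpr this

/-- **Uniformity over the places above `p`** (abstract form for (C)): for a nonempty Galois-stable
finite set `T ⊆ Qbar`, a per-place dichotomy "all of `T` in `A`, or none of `T` in `A`" is uniform
in the place `A` over `p`. -/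
theorem unifP_uniform {p : ℕ} (hp : p.Prime) (T : Finset Qb) (hne : T.Nonempty)
    (hT : ∀ σ : Qb ≃ₐ[ℚ] Qb, ∀ t ∈ T, σ t ∈ T)
    (hdich : ∀ A : ValuationSubring Qb, A.LiesOverPrime p →
      (∀ t ∈ T, t ∈ A) ∨ (∀ t ∈ T, t ∉ A)) :
    (∀ A : ValuationSubring Qb, A.LiesOverPrime p → ∀ t ∈ T, t ∈ A) ∨
    (∀ A : ValuationSubring Qb, A.LiesOverPrime p → ∀ t ∈ T, t ∉ A) := by
  by_cases hex : ∃ A₀ : ValuationSubring Qb, A₀.LiesOverPrime p ∧ ∀ t ∈ T, t ∈ A₀
  · obtain ⟨A₀, hA₀, hin⟩ := hex
    left
    intro A hA
    rcases hdich A hA with h | h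
    · exact h
    · exfalso
      have h1 := unifP_prod_mem A₀ T hin
      have h2 := unifP_prod_not_mem A T hne h
      exact h2 ((unifP_invariant_mem_iff hp _ (unifP_prod_invariant T hT) A₀ A hA₀ hA).mp h1)
  · right
    intro A hA
    rcases hdich A hA with h | h
    · exact absurd ⟨A, hA, h⟩ hex
    · exact h

end Fermat.Agent.S13x
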