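import Mathlib
import Fermat.Agent.S13.CoordDeriv
import Fermat.Agent.S13.CoordDetSymbol
import Fermat.Agent.S13.CoordLocal
import Fermat.Agent.S13.CoordPrincipal

/-!
# S13 (A-i): assembly of the Wronskian route — existence of a nonzero `p`-torsion point

`wrM_exists_torsion`: for a Weierstrass curve `W` over an algebraically closed field of
characteristic zero all of whose affine points are nonsingular, and any pole-order calculus
`(le, top)` on the coordinate ring with the properties (S1),(S2),(S4)–(S7) of the (A-i) plan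
(passed as hypotheses, to be instantiated by the concrete filtration of `WrSymbol`), there is a
point `P ≠ 0` with `p • P = 0`, for every `p ≥ 2`.
-/

set_option autoImplicit false

namespace Fermat.Agent.S13A

open WeierstrassCurve WeierstrassCurve.Affine Polynomial
open scoped Polynomial.Bivariate

variable {F : Type*} [Field F] (W : Affine F)

/-- iterates of a derivation are `F`-linear on finite combinations. -/
theorem wrM_iterate_sum (D : Derivation F W.CoordinateRing W.CoordinateRing) {ι : Type*}
    (s : Finset ι) (c : ι → F) (g : ι → W.CoordinateRing) (i : ℕ) :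
    (⇑D)^[i] (∑ j ∈ s, algebraMap F W.CoordinateRing (c j) * g j) =
      ∑ j ∈ s, algebraMap F W.CoordinateRing (c j) * (⇑D)^[i] (g j) := by
  induction i with
  | zero => simp
  | succ i ih =>
    rw [Function.iterate_succ_apply', ih, map_sum]
    refine Finset.sum_congr rfl (fun j _ => ?_)
    rw [Function.iterate_succ_apply', Derivation.leibniz, Derivation.map_algebraMap, smul_zero,
      add_zero, smul_eq_mul]

/-- values of the invariant derivation at a point, in the shape wanted by `crdL_taylor_point`. -/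
theorem wrM_evalAt_crdD_X {x y : F} (h : W.Equation x y) :
    crdL_evalAt W h (crdD W (CoordinateRing.mk W (C X))) = 2 * y + W.a₁ * x + W.a₃ := by
  rw [crdD_X, crdL_evalAt_mk, evalEval_polynomialY]

theorem wrM_evalAt_crdD_Y {x y : F} (h : W.Equation x y) :
    crdL_evalAt W h (crdD W (CoordinateRing.mk W Y)) =
      3 * x ^ 2 + 2 * W.a₂ * x + W.a₄ - W.a₁ * y := by
  rw [crdD_Y, map_neg, crdL_evalAt_mk, evalEval_polynomialX]
  ring

/-- **(A1), abstract form.** -/
theorem wrM_exists_torsion [IsAlgClosed F] [CharZero F] [DecidableEq F]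
    (hns : ∀ x y : F, W.Equation x y → W.Nonsingular x y)
    (le : ℕ → Submodule F W.CoordinateRing) (top : ℕ → W.CoordinateRing →ₗ[F] F)
    (hmul : ∀ (m n : ℕ) (f g : W.CoordinateRing), f ∈ le m → g ∈ le n →
      f * g ∈ le (m + n) ∧ top (m + n) (f * g) = top m f * top n g)
    (hone : (1 : W.CoordinateRing) ∈ le 0 ∧ top 0 1 = 1)
    (hD : ∀ (n : ℕ) (f : W.CoordinateRing), f ∈ le n →
      crdD W f ∈ le (n + 1) ∧ top (n + 1) (crdD W f) = (n : F) * top n f)
    (hmono : ∀ m n : ℕ, m ≤ n → le m ≤ le n)
    (hlt : ∀ (m n : ℕ) (f : W.CoordinateRing), f ∈ le m → m < n → top n f = 0)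
    (hdeg_le : ∀ (n : ℕ) (f : W.CoordinateRing), f ∈ le n →
      (Algebra.norm F[X] f).natDegree ≤ n)
    (hdeg_eq : ∀ (n : ℕ) (f : W.CoordinateRing), f ∈ le n → top n f ≠ 0 →
      (Algebra.norm F[X] f).natDegree = n)
    (p : ℕ) (hp : 2 ≤ p) (g : Fin p → W.CoordinateRing)
    (hg : ∀ j, g j ∈ le (crdX_orders p j)) (hg1 : ∀ j, top (crdX_orders p j) (g j) ≠ 0) :
    ∃ P : W.Point, P ≠ 0 ∧ p • P = 0 := by
  classical
  -- the Wronskian
  set M : Matrix (Fin p) (Fin p) W.CoordinateRing :=
    Matrix.of fun i j : Fin p => (⇑(crdD W))^[(i : ℕ)] (g j) with hM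
  have hsum := crdX_sum_orders' p (by omega)
  have hW1 : M.det ∈ le (p ^ 2 - 1) := by
    have := (crdX_wronskian_top le top hmul hone (⇑(crdD W)) hD g (crdX_orders p) hg).1
    rwa [hsum] at this
  have hW2 : top (p ^ 2 - 1) M.det ≠ 0 := by
    have := crdX_wronskian_top_ne_zero le top hmul hone (⇑(crdD W)) hD g (crdX_orders p) hg hg1
      (crdX_orders_injective p)
    rwa [hsum] at this
  have hWdeg : (Algebra.norm F[X] M.det).natDegree = p ^ 2 - 1 := hdeg_eq _ _ hW1 hW2
  have hp2 : 0 < p ^ 2 - 1 := by
    have : 4 ≤ p ^ 2 := by nlinarith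
    omega
  -- the Wronskian is not a unit
  have hnu : ¬ IsUnit M.det := by
    intro hu
    have hu' : IsUnit (Algebra.norm F[X] M.det) := hu.map (Algebra.norm F[X])
    have := Polynomial.natDegree_eq_zero_of_isUnit hu'
    omega
  -- hence lies in a maximal ideal, which is the ideal of a point
  have hne : Ideal.span {M.det} ≠ ⊤ := by
    rwa [Ne, Ideal.span_singleton_eq_top]
  obtain ⟨m, hm, hle⟩ := Ideal.exists_le_maximal _ hne
  obtain ⟨x, y, heq, rfl⟩ := crdL_exists_eq_XYIdeal W m hm
  have hdet : M.det ∈ CoordinateRing.XYIdeal W x (C y) :=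
    hle (Ideal.subset_span (Set.mem_singleton _))
  have h : W.Nonsingular x y := hns x y heq
  -- kernel vector
  obtain ⟨c, hc0, hc⟩ := crdL_exists_combination_of_det_mem W heq M hdet
  set f : W.CoordinateRing := ∑ j, algebraMap F W.CoordinateRing (c j) * g j with hf
  -- all derivatives of `f` of order `< p` vanish at the point
  have hvan : ∀ i < p, (⇑(crdD W))^[i] f ∈ CoordinateRing.XYIdeal W x (C y) := by
    intro i hi
    rw [hf, wrM_iterate_sum]
    have := hc ⟨i, hi⟩
    simpa [hM] using this
  have hmem : f ∈ CoordinateRing.XYIdeal W x (C y) ^ p :=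
    crdL_taylor_point W (crdD W) h (wrM_evalAt_crdD_X W h.1) (wrM_evalAt_crdD_Y W h.1) p f hvan
  -- `f` has pole order `≤ p`
  have hfle : f ∈ le p := by
    rw [hf]
    refine Submodule.sum_mem _ (fun j _ => ?_)
    rw [← Algebra.smul_def]
    exact Submodule.smul_mem _ _ (hmono _ _ (crdX_orders_le p j) (hg j))
  have hfdeg : (Algebra.norm F[X] f).natDegree ≤ p := hdeg_le _ _ hfle
  -- `f ≠ 0`: look at the largest order with a nonzero coefficient
  have hfne : f ≠ 0 := by
    have hex : (Finset.univ.filter fun j => c j ≠ 0).Nonempty := by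
      by_contra hempty
      rw [Finset.not_nonempty_iff_eq_empty] at hempty
      apply hc0
      funext j
      show c j = 0
      by_contra hj
      have : j ∈ Finset.univ.filter fun j => c j ≠ 0 :=
        Finset.mem_filter.mpr ⟨Finset.mem_univ _, hj⟩
      rw [hempty] at this
      exact absurd this (Finset.notMem_empty _)
    obtain ⟨j₀, hj₀, hmax⟩ := Finset.exists_max_image _ (crdX_orders p) hex
    have hcj₀ : c j₀ ≠ 0 := (Finset.mem_filter.mp hj₀).2
    intro hf0
    have htop : top (crdX_orders p j₀) f = c j₀ * top (crdX_orders p j₀) (g j₀) := by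
      rw [hf, map_sum, Finset.sum_eq_single j₀]
      · rw [← Algebra.smul_def, map_smul, smul_eq_mul]
      · intro j _ hj
        rw [← Algebra.smul_def, map_smul, smul_eq_mul]
        by_cases hcj : c j = 0
        · rw [hcj, zero_mul]
        · have hle' : crdX_orders p j ≤ crdX_orders p j₀ :=
            hmax j (Finset.mem_filter.mpr ⟨Finset.mem_univ _, hcj⟩)
          have hlt' : crdX_orders p j < crdX_orders p j₀ :=
            lt_of_le_of_ne hle' (fun he => hj (crdX_orders_injective p he))
          rw [hlt _ _ _ (hg j) hlt', mul_zero]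
      · intro hj; exact absurd (Finset.mem_univ _) hj
    rw [hf0, map_zero] at htop
    exact mul_ne_zero hcj₀ (hg1 j₀) htop.symm
  obtain ⟨h1, h2⟩ := crdP_torsion_of_mem_pow h hfne hmem hfdeg
  exact ⟨_, h2, h1⟩

end Fermat.Agent.S13A
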