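/-
(A-i) coordinate-ring route for S13, chunk "WrSymbol" (owner helper14, prefix `wrS_`).

For a Weierstrass curve `W` over a field `K` the coordinate ring `R = K[X][Y]/(W)` is free over
`K[X]` on `{1, Y}`.  We attach to `f = p • 1 + q • Y` its "symbol polynomial"
`wrS_P W f = p(X^2) + X^3 * q(X^2)` (pole order of `X` is `2`, of `Y` is `3`), the pole-order
filtration `wrS_F W n = {f | natDegree (wrS_P W f) ≤ n}` and the top-coefficient functional
`wrS_c W n f = coeff (wrS_P W f) n`.  Main facts: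
  (S1) `wrS_mono`, (S2) `wrS_c_eq_zero_of_lt`, (S3) `wrS_mem_of_c_eq_zero`,
  (S4) `wrS_mul`, (S5) `wrS_one`, (S6) `wrS_D` (for the derivation `crdD W`).
-/
import Fermat.Agent.S13.CoordDeriv

set_option autoImplicit false
set_option linter.unusedSimpArgs false

open Polynomial
open scoped Polynomial.Bivariate
open WeierstrassCurve.Affine

namespace Fermat.Agent.S13A

variable {K : Type*} [Field K] (W : WeierstrassCurve.Affine K)

/-- first coordinate in the basis `{1, Y}` over `K[X]` -/
noncomputable def wrS_rp : W.CoordinateRing →ₗ[K] K[X] :=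
  ((CoordinateRing.basis W).coord 0).restrictScalars K

/-- second coordinate in the basis `{1, Y}` over `K[X]` -/
noncomputable def wrS_rq : W.CoordinateRing →ₗ[K] K[X] :=
  ((CoordinateRing.basis W).coord 1).restrictScalars K

lemma wrS_rp_smul_basis (p q : K[X]) :
    wrS_rp W (p • (1 : W.CoordinateRing) + q • CoordinateRing.mk W Y) = p := by
  have h : p • (1 : W.CoordinateRing) + q • CoordinateRing.mk W Y =
      p • CoordinateRing.basis W 0 + q • CoordinateRing.basis W 1 := by
    rw [CoordinateRing.basis_zero, CoordinateRing.basis_one]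
  rw [h]
  simp only [wrS_rp, LinearMap.coe_restrictScalars, Module.Basis.coord_apply, map_add, map_smul,
    Module.Basis.repr_self, Finsupp.coe_add, Finsupp.coe_smul, Pi.add_apply, Pi.smul_apply,
    Finsupp.single_apply, smul_eq_mul]
  simp

lemma wrS_rq_smul_basis (p q : K[X]) :
    wrS_rq W (p • (1 : W.CoordinateRing) + q • CoordinateRing.mk W Y) = q := by
  have h : p • (1 : W.CoordinateRing) + q • CoordinateRing.mk W Y =
      p • CoordinateRing.basis W 0 + q • CoordinateRing.basis W 1 := by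
    rw [CoordinateRing.basis_zero, CoordinateRing.basis_one]
  rw [h]
  simp only [wrS_rq, LinearMap.coe_restrictScalars, Module.Basis.coord_apply, map_add, map_smul,
    Module.Basis.repr_self, Finsupp.coe_add, Finsupp.coe_smul, Pi.add_apply, Pi.smul_apply,
    Finsupp.single_apply, smul_eq_mul]
  simp

lemma wrS_eq_smul_basis (f : W.CoordinateRing) :
    f = wrS_rp W f • (1 : W.CoordinateRing) + wrS_rq W f • CoordinateRing.mk W Y := by
  obtain ⟨p, q, rfl⟩ := CoordinateRing.exists_smul_basis_eq f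
  rw [wrS_rp_smul_basis, wrS_rq_smul_basis]


/-- the symbol polynomial `p(T²) + T³ q(T²)` of `f = p + qY` (so that `ord_O f = natDegree`) -/
noncomputable def wrS_P : W.CoordinateRing →ₗ[K] K[X] :=
  (expand K 2).toLinearMap ∘ₗ wrS_rp W +
    (LinearMap.mulLeft K (X ^ 3 : K[X])) ∘ₗ (expand K 2).toLinearMap ∘ₗ wrS_rq W

lemma wrS_P_apply (f : W.CoordinateRing) :
    wrS_P W f = expand K 2 (wrS_rp W f) + X ^ 3 * expand K 2 (wrS_rq W f) := rfl

lemma wrS_P_smul_basis (p q : K[X]) :
    wrS_P W (p • (1 : W.CoordinateRing) + q • CoordinateRing.mk W Y) =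
      expand K 2 p + X ^ 3 * expand K 2 q := by
  rw [wrS_P_apply, wrS_rp_smul_basis, wrS_rq_smul_basis]

lemma wrS_P_coeff_even (f : W.CoordinateRing) (k : ℕ) :
    (wrS_P W f).coeff (2 * k) = (wrS_rp W f).coeff k := by
  rw [wrS_P_apply, coeff_add, coeff_X_pow_mul', coeff_expand (by norm_num : 0 < 2),
    coeff_expand (by norm_num : 0 < 2)]
  have h1 : (2 : ℕ) ∣ 2 * k := dvd_mul_right 2 k
  have h2 : ¬ (3 ≤ 2 * k ∧ (2 : ℕ) ∣ 2 * k - 3) := by
    rintro ⟨h3, h4⟩; omega
  rw [if_pos h1, Nat.mul_div_cancel_left k (by norm_num : 0 < 2)]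
  by_cases h3 : 3 ≤ 2 * k
  · rw [if_pos h3, if_neg (fun h4 => h2 ⟨h3, h4⟩), add_zero]
  · rw [if_neg h3, add_zero]

lemma wrS_P_coeff_odd (f : W.CoordinateRing) (k : ℕ) :
    (wrS_P W f).coeff (2 * k + 3) = (wrS_rq W f).coeff k := by
  rw [wrS_P_apply, coeff_add, coeff_X_pow_mul', coeff_expand (by norm_num : 0 < 2),
    coeff_expand (by norm_num : 0 < 2)]
  have h1 : ¬ (2 : ℕ) ∣ 2 * k + 3 := by omega
  have h3 : 3 ≤ 2 * k + 3 := by omega
  rw [if_neg h1, if_pos h3, zero_add, Nat.add_sub_cancel, if_pos (dvd_mul_right 2 k),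
    Nat.mul_div_cancel_left k (by norm_num : 0 < 2)]

lemma wrS_P_coeff_one (f : W.CoordinateRing) : (wrS_P W f).coeff 1 = 0 := by
  rw [wrS_P_apply, coeff_add, coeff_X_pow_mul', coeff_expand (by norm_num : 0 < 2)]
  norm_num

lemma wrS_P_eq_zero_iff (f : W.CoordinateRing) : wrS_P W f = 0 ↔ f = 0 := by
  constructor
  · intro h
    have hp : wrS_rp W f = 0 := by
      ext k; rw [← wrS_P_coeff_even, h, coeff_zero, coeff_zero]
    have hq : wrS_rq W f = 0 := by
      ext k; rw [← wrS_P_coeff_odd, h, coeff_zero, coeff_zero]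
    rw [wrS_eq_smul_basis W f, hp, hq, zero_smul, zero_smul, add_zero]
  · rintro rfl; exact map_zero _

/-- the pole-order filtration: `ord_O f ≤ n` -/
noncomputable def wrS_F (n : ℕ) : Submodule K W.CoordinateRing :=
  (degreeLT K (n + 1)).comap (wrS_P W)

lemma wrS_mem_F {n : ℕ} {f : W.CoordinateRing} :
    f ∈ wrS_F W n ↔ (wrS_P W f).natDegree ≤ n := by
  rw [wrS_F, Submodule.mem_comap, mem_degreeLT, degree_lt_iff_coeff_zero,
    natDegree_le_iff_coeff_eq_zero]
  exact forall_congr' fun m => by rw [Nat.succ_le_iff]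

/-- the top symbol: coefficient of the monomial of order `n` -/
noncomputable def wrS_c (n : ℕ) : W.CoordinateRing →ₗ[K] K :=
  (lcoeff K n).comp (wrS_P W)

lemma wrS_c_apply (n : ℕ) (f : W.CoordinateRing) : wrS_c W n f = (wrS_P W f).coeff n := rfl

/-- (S1) -/
lemma wrS_mono {m n : ℕ} (h : m ≤ n) : wrS_F W m ≤ wrS_F W n := fun f hf => by
  rw [wrS_mem_F] at hf ⊢; exact hf.trans h

/-- (S2) -/
lemma wrS_c_eq_zero_of_lt {m n : ℕ} {f : W.CoordinateRing} (hf : f ∈ wrS_F W m) (h : m < n) :
    wrS_c W n f = 0 := by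
  rw [wrS_mem_F] at hf
  exact coeff_eq_zero_of_natDegree_lt (hf.trans_lt h)

/-- (S3) -/
lemma wrS_mem_of_c_eq_zero {n : ℕ} {f : W.CoordinateRing} (hf : f ∈ wrS_F W (n + 1))
    (h : wrS_c W (n + 1) f = 0) : f ∈ wrS_F W n := by
  rw [wrS_mem_F] at hf ⊢
  rw [natDegree_le_iff_coeff_eq_zero] at hf ⊢
  intro N hN
  rcases Nat.lt_or_ge (n + 1) N with h1 | h1
  · exact hf N h1
  · have : N = n + 1 := by omega
    rw [this]; exact h


/-- coordinate bounds from membership in the filtration -/
lemma wrS_coord_of_mem {n : ℕ} {f : W.CoordinateRing} (hf : f ∈ wrS_F W n) :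
    (wrS_rp W f).natDegree * 2 ≤ n ∧
      (wrS_rq W f = 0 ∨ (wrS_rq W f).natDegree * 2 + 3 ≤ n) := by
  rw [wrS_mem_F] at hf
  constructor
  · by_cases hp : wrS_rp W f = 0
    · rw [hp, natDegree_zero]; omega
    · have h1 : (wrS_P W f).coeff (2 * (wrS_rp W f).natDegree) ≠ 0 := by
        rw [wrS_P_coeff_even]; exact leadingCoeff_ne_zero.mpr hp
      have := le_natDegree_of_ne_zero h1
      omega
  · by_cases hq : wrS_rq W f = 0
    · exact Or.inl hq
    · right
      have h1 : (wrS_P W f).coeff (2 * (wrS_rq W f).natDegree + 3) ≠ 0 := by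
        rw [wrS_P_coeff_odd]; exact leadingCoeff_ne_zero.mpr hq
      have := le_natDegree_of_ne_zero h1
      omega

lemma wrS_natDegree_expand (p : K[X]) : (expand K 2 p).natDegree = p.natDegree * 2 :=
  natDegree_expand 2 p

/-- membership in the filtration from coordinate bounds -/
lemma wrS_mem_of_coord {n : ℕ} {p q : K[X]} (hp : p.natDegree * 2 ≤ n)
    (hq : q = 0 ∨ q.natDegree * 2 + 3 ≤ n) :
    p • (1 : W.CoordinateRing) + q • CoordinateRing.mk W Y ∈ wrS_F W n := by
  rw [wrS_mem_F, wrS_P_smul_basis]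
  refine (natDegree_add_le _ _).trans (max_le ?_ ?_)
  · rw [wrS_natDegree_expand]; exact hp
  · rcases hq with rfl | hq
    · simp
    · refine natDegree_mul_le.trans ?_
      rw [natDegree_X_pow, wrS_natDegree_expand]; omega

/-- the product in coordinates -/
lemma wrS_mul_smul_basis (p₁ q₁ p₂ q₂ : K[X]) :
    (p₁ • (1 : W.CoordinateRing) + q₁ • CoordinateRing.mk W Y) *
        (p₂ • (1 : W.CoordinateRing) + q₂ • CoordinateRing.mk W Y) =
      (p₁ * p₂ + q₁ * q₂ * (X ^ 3 + C W.a₂ * X ^ 2 + C W.a₄ * X + C W.a₆)) •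
          (1 : W.CoordinateRing) +
        (p₁ * q₂ + q₁ * p₂ - q₁ * q₂ * (C W.a₁ * X + C W.a₃)) • CoordinateRing.mk W Y := by
  have hY := crdD_Y_sq W
  simp only [CoordinateRing.smul, map_sub, map_add, map_mul, map_pow, mul_one] at hY ⊢
  linear_combination (CoordinateRing.mk W (C q₁) * CoordinateRing.mk W (C q₂)) * hY

/-- the correction polynomial -/
noncomputable def wrS_kappa : K[X] :=
  C W.a₂ * X ^ 4 - C W.a₁ * X ^ 5 + C W.a₄ * X ^ 2 - C W.a₃ * X ^ 3 + C W.a₆

lemma wrS_natDegree_kappa_le : (wrS_kappa W).natDegree ≤ 5 := by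
  rw [wrS_kappa]
  compute_degree

/-- the symbol polynomial is multiplicative up to lower order terms -/
lemma wrS_P_mul (f g : W.CoordinateRing) :
    wrS_P W (f * g) = wrS_P W f * wrS_P W g +
      expand K 2 (wrS_rq W f * wrS_rq W g) * wrS_kappa W := by
  conv_lhs => rw [wrS_eq_smul_basis W f, wrS_eq_smul_basis W g, wrS_mul_smul_basis,
    wrS_P_smul_basis]
  rw [wrS_P_apply, wrS_P_apply, wrS_kappa]
  simp only [map_add, map_sub, map_mul, map_pow, expand_X, expand_C]
  ring


/-- the correction term has order `< m + n` -/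
lemma wrS_corr_coeff {m n : ℕ} {f g : W.CoordinateRing} (hf : f ∈ wrS_F W m)
    (hg : g ∈ wrS_F W n) (N : ℕ) (hN : m + n ≤ N) :
    (expand K 2 (wrS_rq W f * wrS_rq W g) * wrS_kappa W).coeff N = 0 := by
  rcases (wrS_coord_of_mem W hf).2 with h1 | h1
  · rw [h1, zero_mul, map_zero, zero_mul, coeff_zero]
  rcases (wrS_coord_of_mem W hg).2 with h2 | h2
  · rw [h2, mul_zero, map_zero, zero_mul, coeff_zero]
  apply coeff_eq_zero_of_natDegree_lt
  refine lt_of_le_of_lt natDegree_mul_le ?_
  rw [wrS_natDegree_expand]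
  have h3 := natDegree_mul_le (p := wrS_rq W f) (q := wrS_rq W g)
  have h4 := wrS_natDegree_kappa_le W
  omega

/-- (S4) multiplicativity of the filtration and of the top symbol -/
theorem wrS_mul {m n : ℕ} {f g : W.CoordinateRing} (hf : f ∈ wrS_F W m) (hg : g ∈ wrS_F W n) :
    f * g ∈ wrS_F W (m + n) ∧ wrS_c W (m + n) (f * g) = wrS_c W m f * wrS_c W n g := by
  have hf' := (wrS_mem_F W).1 hf
  have hg' := (wrS_mem_F W).1 hg
  constructor
  · rw [wrS_mem_F, natDegree_le_iff_coeff_eq_zero]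
    intro N hN
    rw [wrS_P_mul, coeff_add, wrS_corr_coeff W hf hg N hN.le, add_zero]
    apply coeff_eq_zero_of_natDegree_lt
    exact lt_of_le_of_lt natDegree_mul_le (by omega)
  · rw [wrS_c_apply, wrS_c_apply, wrS_c_apply, wrS_P_mul, coeff_add,
      wrS_corr_coeff W hf hg (m + n) le_rfl, add_zero]
    exact coeff_mul_add_eq_of_natDegree_le hf' hg'

/-- (S5) -/
lemma wrS_one : (1 : W.CoordinateRing) ∈ wrS_F W 0 ∧ wrS_c W 0 (1 : W.CoordinateRing) = 1 := by
  have h : (1 : W.CoordinateRing) = (1 : K[X]) • (1 : W.CoordinateRing) +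
      (0 : K[X]) • CoordinateRing.mk W Y := by simp
  have hP : wrS_P W (1 : W.CoordinateRing) = 1 := by
    conv_lhs => rw [h, wrS_P_smul_basis]
    simp
  constructor
  · rw [wrS_mem_F, hP, natDegree_one]
  · rw [wrS_c_apply, hP, coeff_one_zero]


/-- lower order part of the symbol polynomial of `crdD W f` -/
noncomputable def wrS_L (f : W.CoordinateRing) : K[X] :=
  expand K 2 ((C W.a₁ * X + C W.a₃) * derivative (wrS_rp W f)) +
    2 * expand K 2 (C W.a₂ * X ^ 2 + C W.a₄ * X + C W.a₆) *
      expand K 2 (derivative (wrS_rq W f)) +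
    expand K 2 (C (2 * W.a₂) * X + C W.a₄) * expand K 2 (wrS_rq W f) -
    X ^ 3 * expand K 2 ((C W.a₁ * X + C W.a₃) * derivative (wrS_rq W f) +
      C W.a₁ * wrS_rq W f)

lemma wrS_P_D (f : W.CoordinateRing) :
    wrS_P W (crdD W f) = X ^ 2 * derivative (wrS_P W f) + wrS_L W f := by
  conv_lhs => rw [wrS_eq_smul_basis W f, crdD_smul_basis, wrS_P_smul_basis]
  rw [wrS_P_apply, wrS_L]
  simp only [map_add, map_sub, map_mul, map_pow, expand_X, expand_C, derivative_add,
    derivative_mul, derivative_X_pow, derivative_expand, map_ofNat, Nat.cast_ofNat]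
  ring


lemma wrS_natDegree_lin_mul_derivative_le (a b : K) (p : K[X]) :
    ((C a * X + C b) * derivative p).natDegree ≤ p.natDegree := by
  by_cases hp : derivative p = 0
  · rw [hp, mul_zero, natDegree_zero]; exact Nat.zero_le _
  · have h1 : p.natDegree ≠ 0 := fun h0 => hp (by
      rw [eq_C_of_natDegree_eq_zero h0, derivative_C])
    have h2 : (C a * X + C b : K[X]).natDegree ≤ 1 := by compute_degree
    have h3 := natDegree_derivative_le p
    have h4 := natDegree_mul_le (p := (C a * X + C b : K[X])) (q := derivative p)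
    omega

lemma wrS_natDegree_L_le {n : ℕ} {f : W.CoordinateRing} (hf : f ∈ wrS_F W n) :
    (wrS_L W f).natDegree ≤ n := by
  obtain ⟨hp, hq⟩ := wrS_coord_of_mem W hf
  rw [wrS_L]
  have t1 : (expand K 2 ((C W.a₁ * X + C W.a₃) * derivative (wrS_rp W f))).natDegree ≤ n := by
    rw [wrS_natDegree_expand]
    have := wrS_natDegree_lin_mul_derivative_le W.a₁ W.a₃ (wrS_rp W f)
    omega
  have t2 : (2 * expand K 2 (C W.a₂ * X ^ 2 + C W.a₄ * X + C W.a₆) *
      expand K 2 (derivative (wrS_rq W f))).natDegree ≤ n := by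
    by_cases hd : derivative (wrS_rq W f) = 0
    · rw [hd, map_zero, mul_zero, natDegree_zero]; exact Nat.zero_le _
    · have hq0 : wrS_rq W f ≠ 0 := fun h0 => hd (by rw [h0, derivative_zero])
      have hq' := hq.resolve_left hq0
      have h1 : (wrS_rq W f).natDegree ≠ 0 := fun h0 => hd (by
        rw [eq_C_of_natDegree_eq_zero h0, derivative_C])
      have h2 : (C W.a₂ * X ^ 2 + C W.a₄ * X + C W.a₆ : K[X]).natDegree ≤ 2 := by compute_degree
      have h3 := natDegree_derivative_le (wrS_rq W f)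
      refine natDegree_mul_le.trans ?_
      have h5 : (2 * expand K 2 (C W.a₂ * X ^ 2 + C W.a₄ * X + C W.a₆) : K[X]).natDegree ≤ 4 := by
        refine natDegree_mul_le.trans ?_
        rw [wrS_natDegree_expand]
        have : (2 : K[X]).natDegree = 0 := natDegree_ofNat 2
        omega
      rw [wrS_natDegree_expand]
      omega
  have t3 : (expand K 2 (C (2 * W.a₂) * X + C W.a₄) * expand K 2 (wrS_rq W f)).natDegree ≤ n := by
    rcases hq with hq | hq
    · rw [hq, map_zero, mul_zero, natDegree_zero]; exact Nat.zero_le _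
    · refine natDegree_mul_le.trans ?_
      rw [wrS_natDegree_expand, wrS_natDegree_expand]
      have h2 : (C (2 * W.a₂) * X + C W.a₄ : K[X]).natDegree ≤ 1 := by compute_degree
      omega
  have t4 : (X ^ 3 * expand K 2 ((C W.a₁ * X + C W.a₃) * derivative (wrS_rq W f) +
      C W.a₁ * wrS_rq W f)).natDegree ≤ n := by
    rcases hq with hq | hq
    · rw [hq, derivative_zero, mul_zero, mul_zero, add_zero, map_zero, mul_zero, natDegree_zero]
      exact Nat.zero_le _
    · refine natDegree_mul_le.trans ?_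
      rw [natDegree_X_pow, wrS_natDegree_expand]
      have h1 := wrS_natDegree_lin_mul_derivative_le W.a₁ W.a₃ (wrS_rq W f)
      have h2 : (C W.a₁ * wrS_rq W f).natDegree ≤ (wrS_rq W f).natDegree :=
        natDegree_C_mul_le _ _
      have h3 := natDegree_add_le ((C W.a₁ * X + C W.a₃) * derivative (wrS_rq W f))
        (C W.a₁ * wrS_rq W f)
      have h4 := max_le h1 h2
      omega
  exact (natDegree_sub_le _ _).trans (max_le ((natDegree_add_le _ _).trans
    (max_le ((natDegree_add_le _ _).trans (max_le t1 t2)) t3)) t4)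

/-- (S6) the derivation raises the order by one and multiplies the top symbol by the order -/
theorem wrS_D {n : ℕ} {f : W.CoordinateRing} (hf : f ∈ wrS_F W n) :
    crdD W f ∈ wrS_F W (n + 1) ∧ wrS_c W (n + 1) (crdD W f) = (n : K) * wrS_c W n f := by
  have hf' := (wrS_mem_F W).1 hf
  have hL := wrS_natDegree_L_le W hf
  have hd := natDegree_derivative_le (wrS_P W f)
  constructor
  · rw [wrS_mem_F, wrS_P_D]
    refine (natDegree_add_le _ _).trans (max_le ?_ (hL.trans (Nat.le_succ n)))
    by_cases h0 : derivative (wrS_P W f) = 0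
    · rw [h0, mul_zero, natDegree_zero]; exact Nat.zero_le _
    · have h1 : (wrS_P W f).natDegree ≠ 0 := fun h => h0 (by
        rw [eq_C_of_natDegree_eq_zero h, derivative_C])
      refine natDegree_mul_le.trans ?_
      rw [natDegree_X_pow]; omega
  · rw [wrS_c_apply, wrS_c_apply, wrS_P_D, coeff_add,
      coeff_eq_zero_of_natDegree_lt (lt_of_le_of_lt hL (Nat.lt_succ_self n)), add_zero,
      coeff_X_pow_mul']
    rcases Nat.eq_zero_or_pos n with rfl | hn
    · simp
    · have h2 : 2 ≤ n + 1 := by omega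
      rw [if_pos h2]
      have h3 : n + 1 - 2 = n - 1 := by omega
      rw [h3, coeff_derivative]
      have h4 : n - 1 + 1 = n := by omega
      rw [h4]
      have h5 : ((n - 1 : ℕ) : K) + 1 = (n : K) := by
        rw [← Nat.cast_add_one, h4]
      rw [h5, mul_comm]

end Fermat.Agent.S13A
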