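import Mathlib
import Fermat.Agent.S13.WrMain
import Fermat.Agent.S13.WrSymbol
import Fermat.Agent.S13.TorsAdapter

/-!
# S13 (A-i): `ContractA1 P` — the Frey curve has a nonzero `p`-torsion point

Final plug of the Wronskian route: (S7) norm degrees and (S8) monomials for helper14's concrete
pole-order calculus `wrS_F`, `wrS_c`, then `wrM_exists_torsion` and helper8's `torsA_contractA1`.
Main results: `wrF_exists_torsion` (any Weierstrass curve with nonsingular affine points over an
algebraically closed field of characteristic zero has a nonzero `p`-torsion point, `p ≥ 2`) and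
`wrF_contractA1 (P : FreyPackage) : ContractA1 P`.
-/

set_option autoImplicit false

namespace Fermat.Agent.S13A

open WeierstrassCurve WeierstrassCurve.Affine Polynomial
open scoped Polynomial.Bivariate

variable {K : Type*} [Field K] (W : Affine K)

/-- degree of the norm in coordinates (ℕ-valued form of Mathlib's `degree_norm_smul_basis`). -/
theorem wrF_degree_norm (f : W.CoordinateRing) :
    (Algebra.norm K[X] f).degree =
      max (2 • (wrS_rp W f).degree) (2 • (wrS_rq W f).degree + 3) := by
  conv_lhs => rw [wrS_eq_smul_basis W f]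
  exact CoordinateRing.degree_norm_smul_basis _ _

/-- (S7a) -/
theorem wrF_natDegree_norm_le {n : ℕ} {f : W.CoordinateRing} (hf : f ∈ wrS_F W n) :
    (Algebra.norm K[X] f).natDegree ≤ n := by
  obtain ⟨hp, hq⟩ := wrS_coord_of_mem W hf
  apply natDegree_le_of_degree_le
  rw [wrF_degree_norm]
  refine max_le ?_ ?_
  · by_cases hp0 : wrS_rp W f = 0
    · rw [hp0, degree_zero]; simp
    · rw [degree_eq_natDegree hp0]
      have : (2 • ((wrS_rp W f).natDegree : WithBot ℕ)) = (((2 * (wrS_rp W f).natDegree : ℕ)) : WithBot ℕ) := by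
        simp [two_mul]
      rw [this]
      exact_mod_cast (by omega : 2 * (wrS_rp W f).natDegree ≤ n)
  · rcases hq with hq0 | hq
    · rw [hq0, degree_zero]; simp
    · by_cases hq0 : wrS_rq W f = 0
      · rw [hq0, degree_zero]; simp
      · rw [degree_eq_natDegree hq0]
        have : (2 • ((wrS_rq W f).natDegree : WithBot ℕ)) + 3 =
            (((2 * (wrS_rq W f).natDegree + 3 : ℕ)) : WithBot ℕ) := by
          simp [two_mul]
        rw [this]
        exact_mod_cast (by omega : 2 * (wrS_rq W f).natDegree + 3 ≤ n)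


/-- (S7b) -/
theorem wrF_natDegree_norm_eq {n : ℕ} {f : W.CoordinateRing} (hf : f ∈ wrS_F W n)
    (hc : wrS_c W n f ≠ 0) : (Algebra.norm K[X] f).natDegree = n := by
  refine le_antisymm (wrF_natDegree_norm_le W hf) ?_
  apply le_natDegree_of_coe_le_degree
  rw [wrF_degree_norm, wrS_c_apply] at *
  rcases Nat.even_or_odd' n with ⟨k, rfl | rfl⟩
  · rw [wrS_P_coeff_even] at hc
    have hp0 : wrS_rp W f ≠ 0 := fun h0 => hc (by rw [h0, coeff_zero])
    have hk : k ≤ (wrS_rp W f).natDegree := le_natDegree_of_ne_zero hc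
    refine le_max_of_le_left ?_
    rw [degree_eq_natDegree hp0]
    have : (2 • ((wrS_rp W f).natDegree : WithBot ℕ)) =
        (((2 * (wrS_rp W f).natDegree : ℕ)) : WithBot ℕ) := by simp [two_mul]
    rw [this]
    exact_mod_cast (by omega : 2 * k ≤ 2 * (wrS_rp W f).natDegree)
  · rcases k with _ | k
    · exact absurd (wrS_P_coeff_one W f) (by simpa using hc)
    · have h23 : 2 * (k + 1) + 1 = 2 * k + 3 := by ring
      rw [h23] at hc ⊢
      rw [wrS_P_coeff_odd] at hc
      have hq0 : wrS_rq W f ≠ 0 := fun h0 => hc (by rw [h0, coeff_zero])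
      have hk : k ≤ (wrS_rq W f).natDegree := le_natDegree_of_ne_zero hc
      refine le_max_of_le_right ?_
      rw [degree_eq_natDegree hq0]
      have : (2 • ((wrS_rq W f).natDegree : WithBot ℕ)) + 3 =
          (((2 * (wrS_rq W f).natDegree + 3 : ℕ)) : WithBot ℕ) := by simp [two_mul]
      rw [this]
      exact_mod_cast (by omega : 2 * k + 3 ≤ 2 * (wrS_rq W f).natDegree + 3)

/-- (S8) the monomial of pole order `n` (`n ≠ 1`): `X^(n/2)` for `n` even, `X^((n-3)/2) Y` for `n` odd. -/
noncomputable def wrF_mono (n : ℕ) : W.CoordinateRing :=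
  if Even n then (X ^ (n / 2) : K[X]) • (1 : W.CoordinateRing) + (0 : K[X]) • CoordinateRing.mk W Y
  else (0 : K[X]) • (1 : W.CoordinateRing) + (X ^ ((n - 3) / 2) : K[X]) • CoordinateRing.mk W Y

theorem wrF_mono_mem (n : ℕ) (hn : n ≠ 1) : wrF_mono W n ∈ wrS_F W n := by
  unfold wrF_mono
  split_ifs with he
  · apply wrS_mem_of_coord
    · rw [natDegree_X_pow]; omega
    · exact Or.inl rfl
  · have ho : Odd n := Nat.not_even_iff_odd.mp he
    obtain ⟨k, rfl⟩ := ho
    apply wrS_mem_of_coord
    · simp
    · right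
      rw [natDegree_X_pow]; omega

theorem wrF_mono_top (n : ℕ) (hn : n ≠ 1) : wrS_c W n (wrF_mono W n) = 1 := by
  unfold wrF_mono
  rw [wrS_c_apply]
  split_ifs with he
  · obtain ⟨k, rfl⟩ := he
    have : (k + k) / 2 = k := by omega
    rw [this, show k + k = 2 * k by ring, wrS_P_coeff_even, wrS_rp_smul_basis, coeff_X_pow, if_pos rfl]
  · have ho : Odd n := Nat.not_even_iff_odd.mp he
    obtain ⟨k, rfl⟩ := ho
    rcases k with _ | k
    · exact absurd rfl hn
    · have h1 : (2 * (k + 1) + 1 - 3) / 2 = k := by omega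
      have h23 : 2 * (k + 1) + 1 = 2 * k + 3 := by ring
      rw [h1, h23, wrS_P_coeff_odd, wrS_rq_smul_basis, coeff_X_pow, if_pos rfl]

/-- **(A1), concrete form**: a nonzero `p`-torsion point on any Weierstrass curve over an
algebraically closed field of characteristic zero with only nonsingular affine points. -/
theorem wrF_exists_torsion [IsAlgClosed K] [CharZero K] [DecidableEq K]
    (hns : ∀ x y : K, W.Equation x y → W.Nonsingular x y) (p : ℕ) (hp : 2 ≤ p) :
    ∃ P : W.Point, P ≠ 0 ∧ p • P = 0 :=
  wrM_exists_torsion W hns (wrS_F W) (wrS_c W)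
    (fun _ _ _ _ hf hg => wrS_mul W hf hg) (wrS_one W) (fun _ _ hf => wrS_D W hf)
    (fun _ _ h => wrS_mono W h) (fun _ _ _ hf h => wrS_c_eq_zero_of_lt W hf h)
    (fun _ _ hf => wrF_natDegree_norm_le W hf) (fun _ _ hf hc => wrF_natDegree_norm_eq W hf hc)
    p hp (fun j => wrF_mono W (crdX_orders p j))
    (fun j => wrF_mono_mem W _ (crdX_orders_ne_one p j))
    (fun j => by rw [wrF_mono_top W _ (crdX_orders_ne_one p j)]; exact one_ne_zero)

/-- **ContractA1 holds.** -/
theorem wrF_contractA1 (P : FreyPackage) : Fermat.Agent.S13x.ContractA1 P := by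
  classical
  apply torsA_contractA1
  exact wrF_exists_torsion _ (fun x y h => torsA_nonsingular P h) P.p
    (by have := P.hp5; omega)

end Fermat.Agent.S13A
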