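import Mathlib
import Fermat.Agent.S13.WrFinal
import Fermat.Agent.S13.CoordTorsion
import Fermat.Agent.S13.CoordSpanSymbol
import Fermat.Agent.S13.CoordPrincipalDim

/-!
# S13 (A-i): `ContractA2 P` — at most `p²` points of `p`-torsion, and the Wronskian as an object

* `wrK_g W p`, `wrK_Wr W p` : the monomial family of pole orders `0,2,3,…,p` and its Wronskian
  w.r.t. the invariant derivation `crdD W`;
* `wrK_Wr_mem`, `wrK_Wr_top_ne_zero`, `wrK_Wr_natDegree` : `Wr` has pole order exactly `p² - 1`, with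
  top symbol `∏_{i<j} (o_j - o_i)`;
* `wrK_Wr_mem_of_torsion` : `Wr` vanishes at every affine `p`-torsion point;
* `wrK_torsionBy_card_le`, `wrK_contractA2 (P : FreyPackage) : ContractA2 P`.
-/

set_option autoImplicit false

namespace Fermat.Agent.S13A

open WeierstrassCurve WeierstrassCurve.Affine Polynomial
open scoped Polynomial.Bivariate

variable {K : Type*} [Field K] (W : Affine K)

/-- the monomial family of pole orders `0, 2, 3, …, p`. -/
noncomputable def wrK_g (p : ℕ) : Fin p → W.CoordinateRing :=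
  fun j => wrF_mono W (crdX_orders p j)

/-- **the Wronskian** of `L(p·O)` w.r.t. the invariant derivation. -/
noncomputable def wrK_Wr (p : ℕ) : W.CoordinateRing :=
  (crdT_wrMatrix (crdD W) (wrK_g W p)).det

theorem wrK_Wr_mem [CharZero K] (p : ℕ) (hp : 0 < p) :
    wrK_Wr W p ∈ wrS_F W (p ^ 2 - 1) ∧
      wrS_c W (p ^ 2 - 1) (wrK_Wr W p) =
        ∏ i : Fin p, ∏ j ∈ Finset.Ioi i,
          ((crdX_orders p j : K) - (crdX_orders p i : K)) := by
  have h := crdX_wronskian_top (wrS_F W) (wrS_c W)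
    (fun _ _ _ _ hf hg => wrS_mul W hf hg) (wrS_one W) (⇑(crdD W)) (fun _ _ hf => wrS_D W hf)
    (wrK_g W p) (crdX_orders p) (fun j => wrF_mono_mem W _ (crdX_orders_ne_one p j))
  rw [crdX_sum_orders' p hp] at h
  refine ⟨h.1, ?_⟩
  have h2 := h.2
  unfold wrK_Wr crdT_wrMatrix
  rw [h2]
  have : ∏ j : Fin p, wrS_c W (crdX_orders p j) (wrK_g W p j) = 1 := by
    refine Finset.prod_eq_one (fun j _ => ?_)
    exact wrF_mono_top W _ (crdX_orders_ne_one p j)
  rw [this, one_mul]

theorem wrK_Wr_top_ne_zero [CharZero K] (p : ℕ) (hp : 0 < p) :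
    wrS_c W (p ^ 2 - 1) (wrK_Wr W p) ≠ 0 := by
  rw [(wrK_Wr_mem W p hp).2, ← Matrix.det_vandermonde]
  exact Matrix.det_vandermonde_ne_zero_iff.mpr
    (fun a b hab => crdX_orders_injective p (Nat.cast_injective (R := K) hab))

theorem wrK_Wr_natDegree [CharZero K] (p : ℕ) (hp : 0 < p) :
    (Algebra.norm K[X] (wrK_Wr W p)).natDegree = p ^ 2 - 1 :=
  wrF_natDegree_norm_eq W (wrK_Wr_mem W p hp).1 (wrK_Wr_top_ne_zero W p hp)

/-- (S7') -/
theorem wrK_mem_of_natDegree_norm_le {n : ℕ} {f : W.CoordinateRing}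
    (hf : (Algebra.norm K[X] f).natDegree ≤ n) : f ∈ wrS_F W n := by
  by_cases hf0 : f = 0
  · rw [hf0]; exact Submodule.zero_mem _
  have : Module.Finite K[X] W.CoordinateRing := Module.Finite.of_basis (CoordinateRing.basis W)
  have hN0 : Algebra.norm K[X] f ≠ 0 := by
    rw [Ne, Algebra.norm_eq_zero_iff]; exact hf0
  have hdeg : (Algebra.norm K[X] f).degree ≤ (n : WithBot ℕ) := by
    rw [degree_eq_natDegree hN0]; exact_mod_cast hf
  rw [wrF_degree_norm] at hdeg
  rw [wrS_eq_smul_basis W f]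
  apply wrS_mem_of_coord
  · by_cases hp0 : wrS_rp W f = 0
    · rw [hp0, natDegree_zero]; omega
    · have h1 := (le_max_left _ _).trans hdeg
      rw [degree_eq_natDegree hp0] at h1
      have : (2 • ((wrS_rp W f).natDegree : WithBot ℕ)) =
          (((2 * (wrS_rp W f).natDegree : ℕ)) : WithBot ℕ) := by simp [two_mul]
      rw [this] at h1
      have h2 : 2 * (wrS_rp W f).natDegree ≤ n := by exact_mod_cast h1
      omega
  · by_cases hq0 : wrS_rq W f = 0
    · exact Or.inl hq0
    · right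
      have h1 := (le_max_right _ _).trans hdeg
      rw [degree_eq_natDegree hq0] at h1
      have : (2 • ((wrS_rq W f).natDegree : WithBot ℕ)) + 3 =
          (((2 * (wrS_rq W f).natDegree + 3 : ℕ)) : WithBot ℕ) := by simp [two_mul]
      rw [this] at h1
      have h2 : 2 * (wrS_rq W f).natDegree + 3 ≤ n := by exact_mod_cast h1
      omega

/-- (S8') every function of pole order `≤ p` is a combination of the monomials. -/
theorem wrK_exists_coeff (p : ℕ) (hp : 0 < p) (f : W.CoordinateRing)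
    (hf : (Algebra.norm K[X] f).natDegree ≤ p) :
    ∃ c : Fin p → K, f = ∑ j, c j • wrK_g W p j := by
  refine crdZ_exists_coeff (wrS_F W) (wrS_c W)
    (fun n f hf h => wrS_mem_of_c_eq_zero W hf h) ?_ (fun f _ => wrS_P_coeff_one W f)
    (wrF_mono W) (fun n hn => ⟨wrF_mono_mem W n hn, wrF_mono_top W n hn⟩) p hp f
    (wrK_mem_of_natDegree_norm_le W hf)
  intro f hf h0
  rw [wrS_mem_F] at hf
  rw [wrS_c_apply] at h0
  rw [← wrS_P_eq_zero_iff]
  rw [eq_C_of_natDegree_le_zero hf, h0, map_zero]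

/-- the Wronskian vanishes at every affine `p`-torsion point. -/
theorem wrK_Wr_mem_of_torsion [DecidableEq K] (p : ℕ) (hp : 0 < p) {x y : K}
    (h : W.Nonsingular x y) (hn : p • Point.some x y h = 0) :
    wrK_Wr W p ∈ CoordinateRing.XYIdeal W x (C y) :=
  crdT_wr_mem_of_torsion (crdD W) (wrK_g W p) (fun g hg => wrK_exists_coeff W p hp g hg)
    (fun _ _ h => (crdP_finrank_quot_pow h p).le) h hn

/-- **(A2), general form.** -/
theorem wrK_torsionBy_card_le [CharZero K] [DecidableEq K] {p : ℕ} (hp : p.Prime) :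
    Finite ↥(Submodule.torsionBy ℤ W.Point (p : ℤ)) ∧
      Nat.card ↥(Submodule.torsionBy ℤ W.Point (p : ℤ)) ≤ p ^ 2 := by
  have hdeg := wrK_Wr_natDegree W p hp.pos
  have hN : Algebra.norm K[X] (wrK_Wr W p) ≠ 0 := by
    intro h0
    rw [h0, natDegree_zero] at hdeg
    have : 4 ≤ p ^ 2 := by nlinarith [hp.two_le]
    omega
  exact crdT_torsionBy_card_le hp _ hN hdeg.le
    (fun x y h hn => crdT_isRoot_norm_of_mem h.1 (wrK_Wr_mem_of_torsion W p hp.pos h hn))

/-- **ContractA2 holds.** -/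
theorem wrK_contractA2 (P : FreyPackage) : Fermat.Agent.S13x.ContractA2 P := by
  classical
  exact wrK_torsionBy_card_le _ P.pp

end Fermat.Agent.S13A
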