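import Mathlib

/-!
# S13 (A-i): the invariant derivation on the coordinate ring of a Weierstrass curve

`wrD_D W : Derivation K W.CoordinateRing W.CoordinateRing` with
`D X = W_Y = 2Y + a₁X + a₃` and `D Y = -W_X = 3X² + 2a₂X + a₄ - a₁Y`
(`wrD_D_X`, `wrD_D_Y`), and the basis formula `wrD_D_smul_basis`:
`D (p + qY) = P + QY` with `P = wrD_P W p q`, `Q = wrD_Q W p q`.
Works over any commutative base ring.
-/
set_option autoImplicit false
open Polynomial
open scoped Polynomial.Bivariate
namespace Fermat.Agent.S13A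
variable {K : Type*} [CommRing K]
noncomputable def wrD_dY : Derivation K K[X][Y] K[X][Y] :=
  (Polynomial.derivative' : Derivation K[X] K[X][Y] K[X][Y]).restrictScalars K
theorem wrD_dY_apply (F : K[X][Y]) : wrD_dY F = Polynomial.derivative F := rfl
@[simp] theorem wrD_dY_C (p : K[X]) : wrD_dY (C p : K[X][Y]) = 0 := by
  rw [wrD_dY_apply, derivative_C]
@[simp] theorem wrD_dY_Y : wrD_dY (Y : K[X][Y]) = 1 := by
  rw [wrD_dY_apply, derivative_X]
noncomputable def wrD_dX : Derivation K K[X][Y] K[X][Y] :=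
  PolynomialModule.equivPolynomialSelf.compDer
    ((Polynomial.derivative' : Derivation K K[X] K[X]).mapCoeffs)
theorem wrD_dX_coeff (F : K[X][Y]) (i : ℕ) :
    (wrD_dX F).coeff i = Polynomial.derivative (F.coeff i) := rfl
@[simp] theorem wrD_dX_C (p : K[X]) : wrD_dX (C p : K[X][Y]) = C (derivative p) := by
  ext i : 1
  rw [wrD_dX_coeff, coeff_C, coeff_C]
  split_ifs <;> simp
@[simp] theorem wrD_dX_Y : wrD_dX (Y : K[X][Y]) = 0 := by
  ext i : 1
  rw [wrD_dX_coeff, coeff_X]
  split_ifs <;> simp
variable (W : WeierstrassCurve.Affine K)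
theorem wrD_dX_polynomial : wrD_dX W.polynomial = W.polynomialX := by
  simp only [WeierstrassCurve.Affine.polynomial, WeierstrassCurve.Affine.polynomialX, map_add,
    map_sub, Derivation.leibniz, Derivation.leibniz_pow, wrD_dX_C, wrD_dX_Y, smul_zero, 
    zero_add, smul_eq_mul, derivative_mul, derivative_C, derivative_X,
    zero_mul, mul_one, mul_zero, derivative_pow]
  simp only [map_zero, add_zero, Nat.cast_ofNat, map_mul, map_pow, map_ofNat]
  norm_num
  ring
theorem wrD_dY_polynomial : wrD_dY W.polynomial = W.polynomialY := by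
  simp only [WeierstrassCurve.Affine.polynomial, WeierstrassCurve.Affine.polynomialY, wrD_dY_apply,
    derivative_add, derivative_sub, derivative_mul, derivative_C, derivative_X, derivative_X_pow,
    zero_mul, zero_add, mul_one, sub_zero]
  norm_num
  simp only [map_ofNat]

/-- the derivation on `K[X][Y]` that induces the invariant derivation. -/
noncomputable def wrD_d : Derivation K K[X][Y] K[X][Y] :=
  W.polynomialY • wrD_dX - W.polynomialX • wrD_dY

theorem wrD_d_apply (F : K[X][Y]) :
    wrD_d W F = W.polynomialY * wrD_dX F - W.polynomialX * wrD_dY F := rfl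

theorem wrD_d_polynomial : wrD_d W W.polynomial = 0 := by
  rw [wrD_d_apply, wrD_dX_polynomial, wrD_dY_polynomial]; ring

/-- the quotient map as a `K`-algebra hom. -/
noncomputable def wrD_mkₐ : K[X][Y] →ₐ[K] W.CoordinateRing :=
  (AdjoinRoot.mkₐ W.polynomial).restrictScalars K

theorem wrD_mkₐ_apply (F : K[X][Y]) : wrD_mkₐ W F = WeierstrassCurve.Affine.CoordinateRing.mk W F := rfl

theorem wrD_mkₐ_surjective : Function.Surjective (wrD_mkₐ W) := AdjoinRoot.mk_surjective

theorem wrD_d_ker (F : K[X][Y]) (hF : wrD_mkₐ W F = 0) : wrD_mkₐ W (wrD_d W F) = 0 := by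
  rw [wrD_mkₐ_apply, AdjoinRoot.mk_eq_zero] at hF
  obtain ⟨G, rfl⟩ := hF
  rw [Derivation.leibniz, wrD_d_polynomial, smul_zero, add_zero, smul_eq_mul, wrD_mkₐ_apply,
    map_mul, AdjoinRoot.mk_self, zero_mul]

/-- **The invariant derivation** on the coordinate ring. -/
noncomputable def wrD_D : Derivation K W.CoordinateRing W.CoordinateRing :=
  Derivation.liftOfSurjective (wrD_mkₐ_surjective W) (d := wrD_d W) (wrD_d_ker W)

theorem wrD_D_mk (F : K[X][Y]) :
    wrD_D W (WeierstrassCurve.Affine.CoordinateRing.mk W F) =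
      WeierstrassCurve.Affine.CoordinateRing.mk W (wrD_d W F) :=
  Derivation.liftOfSurjective_apply (wrD_mkₐ_surjective W) (wrD_d_ker W) F


open WeierstrassCurve.Affine in
theorem wrD_D_C (p : K[X]) :
    wrD_D W (CoordinateRing.mk W (C p)) =
      CoordinateRing.mk W (C (derivative p)) * CoordinateRing.mk W W.polynomialY := by
  rw [wrD_D_mk, wrD_d_apply, wrD_dX_C, wrD_dY_C, mul_zero, sub_zero, map_mul, mul_comm]

open WeierstrassCurve.Affine in
theorem wrD_D_X : wrD_D W (CoordinateRing.mk W (C X)) = CoordinateRing.mk W W.polynomialY := by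
  rw [wrD_D_C, derivative_X, map_one, map_one, one_mul]

open WeierstrassCurve.Affine in
theorem wrD_D_Y : wrD_D W (CoordinateRing.mk W Y) = - CoordinateRing.mk W W.polynomialX := by
  rw [wrD_D_mk, wrD_d_apply, wrD_dX_Y, wrD_dY_Y, mul_zero, zero_sub, mul_one, map_neg]

/-- The `1`-coordinate of `D (p + qY)`. -/
noncomputable def wrD_P (p q : K[X]) : K[X] :=
  derivative p * (C W.a₁ * X + C W.a₃)
    + 2 * derivative q * (X ^ 3 + C W.a₂ * X ^ 2 + C W.a₄ * X + C W.a₆)
    + q * (C 3 * X ^ 2 + C (2 * W.a₂) * X + C W.a₄)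

/-- The `Y`-coordinate of `D (p + qY)`. -/
noncomputable def wrD_Q (p q : K[X]) : K[X] :=
  2 * derivative p - derivative q * (C W.a₁ * X + C W.a₃) - C W.a₁ * q

open WeierstrassCurve.Affine in
/-- **Basis formula** for the invariant derivation. -/
theorem wrD_D_smul_basis (p q : K[X]) :
    wrD_D W (p • (1 : W.CoordinateRing) + q • CoordinateRing.mk W Y) =
      wrD_P W p q • (1 : W.CoordinateRing) + wrD_Q W p q • CoordinateRing.mk W Y := by
  have h1 : ∀ a b : K[X], a • (1 : W.CoordinateRing) + b • CoordinateRing.mk W Y =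
      CoordinateRing.mk W (C a + C b * Y) := by
    intro a b
    rw [CoordinateRing.smul, CoordinateRing.smul, mul_one, map_add, map_mul]
  rw [h1, h1, wrD_D_mk, wrD_d_apply]
  refine AdjoinRoot.mk_eq_mk.mpr ⟨C (2 * derivative q), ?_⟩
  simp only [map_add, Derivation.leibniz, wrD_dX_C, wrD_dX_Y, wrD_dY_C, wrD_dY_Y,
    smul_eq_mul, add_zero, zero_add, mul_one, mul_zero, wrD_P, wrD_Q,
    WeierstrassCurve.Affine.polynomial, WeierstrassCurve.Affine.polynomialX,
    WeierstrassCurve.Affine.polynomialY]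
  simp only [map_add, map_sub, map_mul, map_pow, map_ofNat]
  ring

end Fermat.Agent.S13A
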