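import Fermat.Agent.S13.WrSymbol
import Fermat.Agent.S13.CoordSpanSymbol

set_option autoImplicit false

/-!
# S13 (A-i), chunk (S8): the monomials of the coordinate ring and the pole-order filtration

`wrG_mono W n` is the monomial of pole order `n` (`X^(n/2)` for `n` even, `X^((n-3)/2) * Y` for `n`
odd, `n ≠ 1`); its symbol polynomial is `X ^ n` (`wrG_P_mono`), so it lies in `wrS_F W n` with top
symbol `1`.  `wrG_g W p : Fin p → R` is the family of monomials of orders `(0,2,3,…,p)`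
(= `crdX_orders p`), the basis of `L(p·O)`: `wrG_g_mem`, `wrG_g_top`, and
(S8') `wrG_exists_coeff : f ∈ wrS_F W p → ∃ c, f = ∑ j, c j • wrG_g W p j`.
-/

open Polynomial
open scoped Polynomial.Bivariate
open WeierstrassCurve.Affine

namespace Fermat.Agent.S13A

variable {K : Type*} [Field K] (W : WeierstrassCurve.Affine K)

/-- the monomial of pole order `n` (meaningful for `n ≠ 1`). -/
noncomputable def wrG_mono (n : ℕ) : W.CoordinateRing :=
  if n % 2 = 0 then (X ^ (n / 2) : K[X]) • (1 : W.CoordinateRing) + (0 : K[X]) • CoordinateRing.mk W Y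
  else (0 : K[X]) • (1 : W.CoordinateRing) + (X ^ ((n - 3) / 2) : K[X]) • CoordinateRing.mk W Y

/-- the symbol polynomial of the monomial of order `n ≠ 1` is `X ^ n`. -/
theorem wrG_P_mono {n : ℕ} (hn : n ≠ 1) : wrS_P W (wrG_mono W n) = X ^ n := by
  unfold wrG_mono
  split_ifs with h
  · rw [wrS_P_smul_basis, map_zero, mul_zero, add_zero, map_pow, expand_X, ← pow_mul]
    congr 1
    omega
  · rw [wrS_P_smul_basis, map_zero, zero_add, map_pow, expand_X, ← pow_mul, ← pow_add]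
    congr 1
    omega

theorem wrG_mono_mem {n : ℕ} (hn : n ≠ 1) : wrG_mono W n ∈ wrS_F W n := by
  rw [wrS_mem_F, wrG_P_mono W hn]
  exact natDegree_X_pow_le n

theorem wrG_mono_top {n : ℕ} (hn : n ≠ 1) : wrS_c W n (wrG_mono W n) = 1 := by
  rw [wrS_c_apply, wrG_P_mono W hn, coeff_X_pow, if_pos rfl]

/-- the monomial basis of `L(p·O)`, of orders `crdX_orders p = (0,2,3,…,p)`. -/
noncomputable def wrG_g (p : ℕ) : Fin p → W.CoordinateRing :=
  fun j => wrG_mono W (crdX_orders p j)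

theorem wrG_g_mem (p : ℕ) (j : Fin p) : wrG_g W p j ∈ wrS_F W (crdX_orders p j) :=
  wrG_mono_mem W (crdX_orders_ne_one p j)

theorem wrG_g_top (p : ℕ) (j : Fin p) : wrS_c W (crdX_orders p j) (wrG_g W p j) = 1 :=
  wrG_mono_top W (crdX_orders_ne_one p j)

theorem wrG_g_top_ne_zero (p : ℕ) (j : Fin p) :
    wrS_c W (crdX_orders p j) (wrG_g W p j) ≠ 0 := by
  rw [wrG_g_top]; exact one_ne_zero

theorem wrG_g_mem_p (p : ℕ) (j : Fin p) : wrG_g W p j ∈ wrS_F W p :=
  wrS_mono W (crdX_orders_le p j) (wrG_g_mem W p j)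

/-- bottom of the filtration: order `≤ 0` and zero constant symbol forces `f = 0`. -/
theorem wrG_eq_zero_of_mem_zero {f : W.CoordinateRing} (hf : f ∈ wrS_F W 0)
    (h : wrS_c W 0 f = 0) : f = 0 := by
  rw [wrS_mem_F] at hf
  rw [wrS_c_apply] at h
  rw [← wrS_P_eq_zero_iff]
  rw [eq_C_of_natDegree_le_zero hf, h, map_zero]

/-- there is no function of pole order exactly `1`. -/
theorem wrG_c_one (f : W.CoordinateRing) : wrS_c W 1 f = 0 := by
  rw [wrS_c_apply, wrS_P_coeff_one]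

/-- (S8') `L(p·O)` is spanned by the monomials of orders `(0,2,3,…,p)`. -/
theorem wrG_exists_coeff (p : ℕ) (hp : 0 < p) (f : W.CoordinateRing) (hf : f ∈ wrS_F W p) :
    ∃ c : Fin p → K, f = ∑ j, c j • wrG_g W p j :=
  crdZ_exists_coeff (wrS_F W) (wrS_c W)
    (fun _ _ hf h => wrS_mem_of_c_eq_zero W hf h)
    (fun _ hf h => wrG_eq_zero_of_mem_zero W hf h)
    (fun f _ => wrG_c_one W f)
    (wrG_mono W) (fun _ hn => ⟨wrG_mono_mem W hn, wrG_mono_top W hn⟩) p hp f hf

/-- a nontrivial combination of the monomials is nonzero. -/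
theorem wrG_lincomb_ne_zero (p : ℕ) (c : Fin p → K) (hc : c ≠ 0) :
    (∑ j, c j • wrG_g W p j) ≠ 0 :=
  crdZ_lincomb_ne_zero (wrS_F W) (wrS_c W) (fun _ _ h => wrS_mono W h)
    (fun _ _ _ hf h => wrS_c_eq_zero_of_lt W hf h) (wrG_g W p) (crdX_orders p)
    (crdX_orders_injective p) (wrG_g_mem W p) (wrG_g_top_ne_zero W p) c hc

/-- every combination of the monomials has order `≤ p`. -/
theorem wrG_lincomb_mem (p : ℕ) (c : Fin p → K) : (∑ j, c j • wrG_g W p j) ∈ wrS_F W p :=
  Submodule.sum_mem _ fun j _ => Submodule.smul_mem _ _ (wrG_g_mem_p W p j)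

end Fermat.Agent.S13A
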