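/-
(A-i) coordinate-ring route for S13, chunk "WrSymbolB" (owner helper14, prefix `wrS_`).
Continuation of `WrSymbol.lean`:
  (S7) the pole-order filtration is the norm-degree filtration:
       `wrS_mem_F_iff_norm`, `wrS_natDegree_norm`, `wrS_natDegree_norm_le`, `wrS_natDegree_norm_eq`,
       `wrS_exists_top`, `wrS_not_isUnit`;
  (L4) constants: `wrS_algebraMap_mem`, `wrS_c_algebraMap`, `wrS_c_zero_algebraMap`,
       `wrS_mem_F_zero_iff`, `wrS_F_one`.
-/
import Fermat.Agent.S13.WrSymbol

set_option autoImplicit false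
set_option linter.unusedSimpArgs false

open Polynomial
open scoped Polynomial.Bivariate
open WeierstrassCurve.Affine

namespace Fermat.Agent.S13A

variable {K : Type*} [Field K] (W : WeierstrassCurve.Affine K)

lemma wrS_two_nsmul_degree_le (p : K[X]) (n : ℕ) :
    2 • p.degree ≤ (n : WithBot ℕ) ↔ p.natDegree * 2 ≤ n := by
  by_cases hp : p = 0
  · subst hp; simp
  · rw [degree_eq_natDegree hp, two_nsmul]
    constructor
    · intro h
      have : p.natDegree + p.natDegree ≤ n := by exact_mod_cast h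
      omega
    · intro h
      have : p.natDegree + p.natDegree ≤ n := by omega
      exact_mod_cast this

lemma wrS_two_nsmul_degree_add_le (q : K[X]) (n : ℕ) :
    2 • q.degree + 3 ≤ (n : WithBot ℕ) ↔ (q = 0 ∨ q.natDegree * 2 + 3 ≤ n) := by
  by_cases hq : q = 0
  · subst hq; simp
  · rw [degree_eq_natDegree hq, two_nsmul]
    constructor
    · intro h
      have : q.natDegree + q.natDegree + 3 ≤ n := by exact_mod_cast h
      right; omega
    · rintro (h | h)
      · exact absurd h hq
      · have : q.natDegree + q.natDegree + 3 ≤ n := by omega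
        exact_mod_cast this

/-- membership in the pole-order filtration is read off from the norm degree -/
theorem wrS_mem_F_iff_norm {n : ℕ} {f : W.CoordinateRing} :
    f ∈ wrS_F W n ↔ (Algebra.norm K[X] f).natDegree ≤ n := by
  rw [natDegree_le_iff_degree_le]
  conv_rhs => rw [wrS_eq_smul_basis W f, CoordinateRing.degree_norm_smul_basis, max_le_iff,
    wrS_two_nsmul_degree_le, wrS_two_nsmul_degree_add_le]
  constructor
  · intro h
    exact wrS_coord_of_mem W h
  · rintro ⟨h1, h2⟩
    rw [wrS_eq_smul_basis W f]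
    exact wrS_mem_of_coord W h1 h2

/-- (S7) -/
theorem wrS_natDegree_norm (f : W.CoordinateRing) :
    (Algebra.norm K[X] f).natDegree = (wrS_P W f).natDegree := by
  apply le_antisymm
  · exact (wrS_mem_F_iff_norm W).mp ((wrS_mem_F W).mpr le_rfl)
  · exact (wrS_mem_F W).mp ((wrS_mem_F_iff_norm W).mpr le_rfl)

theorem wrS_natDegree_norm_le {n : ℕ} {f : W.CoordinateRing} (hf : f ∈ wrS_F W n) :
    (Algebra.norm K[X] f).natDegree ≤ n :=
  (wrS_mem_F_iff_norm W).mp hf

theorem wrS_natDegree_norm_eq {n : ℕ} {f : W.CoordinateRing} (hf : f ∈ wrS_F W n)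
    (hc : wrS_c W n f ≠ 0) : (Algebra.norm K[X] f).natDegree = n := by
  rw [wrS_natDegree_norm]
  exact natDegree_eq_of_le_of_coeff_ne_zero ((wrS_mem_F W).mp hf) (by rwa [← wrS_c_apply])

theorem wrS_exists_top {f : W.CoordinateRing} (hf : f ≠ 0) :
    ∃ n, f ∈ wrS_F W n ∧ wrS_c W n f ≠ 0 := by
  refine ⟨(wrS_P W f).natDegree, (wrS_mem_F W).mpr le_rfl, ?_⟩
  rw [wrS_c_apply]
  have : wrS_P W f ≠ 0 := fun h => hf ((wrS_P_eq_zero_iff W f).mp h)
  exact leadingCoeff_ne_zero.mpr this

theorem wrS_not_isUnit {n : ℕ} {f : W.CoordinateRing} (hf : f ∈ wrS_F W n)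
    (hc : wrS_c W n f ≠ 0) (hn : 0 < n) : ¬ IsUnit f := by
  intro hu
  have h1 : IsUnit (Algebra.norm K[X] f) := hu.map (Algebra.norm K[X])
  have h2 := natDegree_eq_zero_of_isUnit h1
  rw [wrS_natDegree_norm_eq W hf hc] at h2
  omega

/-! ### constants -/

lemma wrS_algebraMap_eq (a : K) :
    algebraMap K W.CoordinateRing a =
      (C a : K[X]) • (1 : W.CoordinateRing) + (0 : K[X]) • CoordinateRing.mk W Y := by
  rw [zero_smul, add_zero, Algebra.algebraMap_eq_smul_one, ← algebraMap_smul K[X] a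
    (1 : W.CoordinateRing)]
  rfl

lemma wrS_P_algebraMap (a : K) : wrS_P W (algebraMap K W.CoordinateRing a) = C a := by
  rw [wrS_algebraMap_eq, wrS_P_smul_basis]
  simp

theorem wrS_algebraMap_mem (a : K) (n : ℕ) : algebraMap K W.CoordinateRing a ∈ wrS_F W n := by
  rw [wrS_mem_F, wrS_P_algebraMap, natDegree_C]
  exact Nat.zero_le _

theorem wrS_c_algebraMap (a : K) {n : ℕ} (hn : 0 < n) :
    wrS_c W n (algebraMap K W.CoordinateRing a) = 0 := by
  rw [wrS_c_apply, wrS_P_algebraMap, coeff_C, if_neg (by omega)]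

theorem wrS_c_zero_algebraMap (a : K) :
    wrS_c W 0 (algebraMap K W.CoordinateRing a) = a := by
  rw [wrS_c_apply, wrS_P_algebraMap, coeff_C_zero]

theorem wrS_mem_F_zero_iff {f : W.CoordinateRing} :
    f ∈ wrS_F W 0 ↔ ∃ a : K, f = algebraMap K W.CoordinateRing a := by
  constructor
  · intro h
    obtain ⟨h1, h2⟩ := wrS_coord_of_mem W h
    have hq : wrS_rq W f = 0 := by
      rcases h2 with h2 | h2
      · exact h2
      · omega
    have hp : (wrS_rp W f).natDegree = 0 := by omega
    refine ⟨(wrS_rp W f).coeff 0, ?_⟩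
    rw [wrS_algebraMap_eq, ← eq_C_of_natDegree_eq_zero hp, ← hq]
    exact wrS_eq_smul_basis W f
  · rintro ⟨a, rfl⟩
    exact wrS_algebraMap_mem W a 0

/-- `F 1 = F 0` : there is no function with a simple pole -/
theorem wrS_F_one : wrS_F W 1 = wrS_F W 0 := by
  apply le_antisymm
  · intro f hf
    have := wrS_mem_of_c_eq_zero W (n := 0) hf (by rw [wrS_c_apply]; exact wrS_P_coeff_one W f)
    exact this
  · exact wrS_mono W (Nat.zero_le 1)

end Fermat.Agent.S13A
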