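/-
(A-i) coordinate-ring route for S13, chunk "WrSymbolNorm" (helper10, prefix `wrN_`).

(S7): the pole order at `O` of `f ∈ W.CoordinateRing`, i.e. `natDegree (wrS_P W f)`, is the degree
of the norm of `f` over `K[X]`.  Consequences: `f ∈ wrS_F W n ↔ natDegree (norm f) ≤ n`, and
`natDegree (norm f) = n` when the top symbol `wrS_c W n f` does not vanish.
-/
import Fermat.Agent.S13.WrSymbol

set_option autoImplicit false

open Polynomial
open scoped Polynomial.Bivariate
open WeierstrassCurve.Affine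

namespace Fermat.Agent.S13A

variable {K : Type*} [Field K] (W : WeierstrassCurve.Affine K)

/-- the degree of the symbol polynomial `p(T²) + T³ q(T²)`. -/
lemma wrN_degree_symbol (p q : K[X]) :
    (expand K 2 p + X ^ 3 * expand K 2 q).degree = max (2 • p.degree) (2 • q.degree + 3) := by
  have hexp : ∀ r : K[X], (expand K 2 r).degree = 2 • r.degree := by
    intro r
    by_cases hr : r = 0
    · rw [hr, map_zero, degree_zero]; rfl
    · have hr' : expand K 2 r ≠ 0 := by
        rwa [Ne, expand_eq_zero (by norm_num : 0 < 2)]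
      rw [degree_eq_natDegree hr, degree_eq_natDegree hr', natDegree_expand]
      rw [nsmul_eq_mul]
      norm_cast
      rw [mul_comm]
  have hX : (X ^ 3 * expand K 2 q).degree = 2 • q.degree + 3 := by
    rw [degree_mul, degree_X_pow, hexp, add_comm]
    rfl
  by_cases hp : p = 0
  · rw [hp, map_zero, zero_add, hX, degree_zero]
    have : (2 • (⊥ : WithBot ℕ)) = ⊥ := rfl
    rw [this, max_eq_right bot_le]
  by_cases hq : q = 0
  · rw [hq, map_zero, mul_zero, add_zero, hexp, degree_zero]
    have : (2 • (⊥ : WithBot ℕ)) + 3 = ⊥ := rfl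
    rw [this, max_eq_left bot_le]
  have h1 : (expand K 2 p).degree = ((2 * p.natDegree : ℕ) : WithBot ℕ) := by
    rw [hexp, degree_eq_natDegree hp, nsmul_eq_mul]; norm_cast
  have h2 : (X ^ 3 * expand K 2 q).degree = ((2 * q.natDegree + 3 : ℕ) : WithBot ℕ) := by
    rw [hX, degree_eq_natDegree hq, nsmul_eq_mul]; norm_cast
  have h1' : 2 • p.degree = ((2 * p.natDegree : ℕ) : WithBot ℕ) := by rw [← hexp, h1]
  have h2' : 2 • q.degree + 3 = ((2 * q.natDegree + 3 : ℕ) : WithBot ℕ) := by rw [← hX, h2]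
  rw [h1', h2']
  rcases lt_or_gt_of_ne (show 2 * p.natDegree ≠ 2 * q.natDegree + 3 by omega) with h | h
  · rw [degree_add_eq_right_of_degree_lt (by rw [h1, h2]; exact_mod_cast h), h2,
      max_eq_right (by exact_mod_cast h.le)]
  · rw [degree_add_eq_left_of_degree_lt (by rw [h1, h2]; exact_mod_cast h), h1,
      max_eq_left (by exact_mod_cast h.le)]

/-- the degree of the norm is the degree of the symbol polynomial. -/
theorem wrN_degree_norm (f : W.CoordinateRing) :
    (Algebra.norm K[X] f).degree = (wrS_P W f).degree := by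
  obtain ⟨p, q, rfl⟩ := CoordinateRing.exists_smul_basis_eq f
  rw [CoordinateRing.degree_norm_smul_basis, wrS_P_smul_basis, wrN_degree_symbol]

/-- **(S7)** the degree of the norm is the pole order at `O`. -/
theorem wrN_natDegree_norm (f : W.CoordinateRing) :
    (Algebra.norm K[X] f).natDegree = (wrS_P W f).natDegree :=
  natDegree_eq_of_degree_eq (wrN_degree_norm W f)

/-- membership in the filtration is a bound on the degree of the norm. -/
theorem wrN_mem_F_iff {n : ℕ} {f : W.CoordinateRing} :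
    f ∈ wrS_F W n ↔ (Algebra.norm K[X] f).natDegree ≤ n := by
  rw [wrS_mem_F, wrN_natDegree_norm]

/-- **(S7a)** -/
theorem wrN_deg_le {n : ℕ} {f : W.CoordinateRing} (hf : f ∈ wrS_F W n) :
    (Algebra.norm K[X] f).natDegree ≤ n :=
  (wrN_mem_F_iff W).1 hf

/-- **(S7')** -/
theorem wrN_mem_of_deg_le {n : ℕ} {f : W.CoordinateRing}
    (hf : (Algebra.norm K[X] f).natDegree ≤ n) : f ∈ wrS_F W n :=
  (wrN_mem_F_iff W).2 hf

/-- **(S7b)** -/
theorem wrN_deg_eq {n : ℕ} {f : W.CoordinateRing} (hf : f ∈ wrS_F W n)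
    (hc : wrS_c W n f ≠ 0) : (Algebra.norm K[X] f).natDegree = n := by
  rw [wrN_natDegree_norm]
  rw [wrS_mem_F] at hf
  rw [wrS_c_apply] at hc
  exact le_antisymm hf (le_natDegree_of_ne_zero hc)

/-- every nonzero `f` has a nonvanishing top symbol at its pole order. -/
theorem wrN_exists_top {f : W.CoordinateRing} (hf : f ≠ 0) :
    ∃ n, f ∈ wrS_F W n ∧ wrS_c W n f ≠ 0 := by
  refine ⟨(wrS_P W f).natDegree, (wrS_mem_F W).2 le_rfl, ?_⟩
  rw [wrS_c_apply]
  exact leadingCoeff_ne_zero.mpr (fun h => hf ((wrS_P_eq_zero_iff W f).1 h))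

end Fermat.Agent.S13A
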